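import Mathlib
import Fermat.Agent.S48x.Model.Field
import Fermat.Agent.S48x.G1.Defs
import Fermat.Agent.Gateway.Dict.ConjAbs
import Fermat.Agent.S24.Embed
import Fermat.Agent.S24.EmbedGen
import Fermat.Agent.S24.EmbedAbs
import Fermat.Agent.S24.CuspOrdMer

/-!
# P-S48, layer (a), slice (A5) (helper8): the analytic uniformisation of `X₁(M)`

`EmbData` for the function field `gamma1FieldC M ζ ⊆ L((q))` of `X₁(M)` and the group
`±Γ₁(M)` (`G1.Gamma1pm M`), from the analytic inputs `WpData M ζ₀` on the Weierstrass division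
values `w b = (2πi)⁻² ℘(b/M; ℤ + ℤτ)`:

* `WpData M ζ₀`: the functions `w b : HolFun` (`b ≠ 0`), `1`-periodic of moderate growth, even in
  `b`, with `q`-expansions `w b - w c ↦ e1Series b - e1Series c`, and the slash laws
  (`g • w b = U_g · h`, `h` a cusp function of level `M`; for `γ ∈ Γ₀(M)`:
  `γ • w b = U_γ · w (lr γ⁻¹ · b)`).
* `emb W : gamma1FieldC M ζ →+* MerFun`, `emb_algebraMap`, `emb_jd`, `emb_ratio1`, `emb_frac`.
* `emb_fixed`, `emb_stab` (the latter from the formal rigidity statement `RigidHyp`), `isCuspMer_smul_emb`.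
* `embData W hrig : ConjAbs.EmbData L (gamma1FieldC M ζ) ι jF (Gamma1pm M)`; `EmbData.compEquiv`
  transports along `laurentBaseChange L (gamma1Field M) = gamma1FieldC M ζ`.
-/

set_option autoImplicit false
set_option linter.unusedSectionVars false
set_option linter.style.haveILetI false

noncomputable section

open ModularCurve
open UpperHalfPlane hiding I
open scoped MatrixGroups

namespace Fermat.Agent.S48x.Ana.Emb1

open Fermat.Agent.S24 Fermat.Agent.S24.QExp Fermat.Agent.S24.CuspOrd Fermat.Agent.S24.JLevel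
open Fermat.Agent.S24.JD Fermat.Agent.S24.Embed Fermat.Agent.S24.EmbedGen
open Fermat.Agent.S24.Conj
open Fermat.Agent.Gateway.Dict.ConjAbs
open Fermat.Agent.S48x.Model Fermat.Agent.S48x.G1
open CongruenceSubgroup

/-! ### Generalities: ring homs out of an adjoin -/

section Adjoin

variable {K E X : Type*} [Field K] [Field E] [Algebra K E] [Field X] (G : Set E)

/-- Two ring homs out of `K(G)` agreeing on constants and generators are equal. -/
theorem ringHom_ext_adjoin {E₀ : IntermediateField K E} (hE : E₀ = IntermediateField.adjoin K G)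
    (σ₁ σ₂ : ↥E₀ →+* X)
    (hK : ∀ c : K, σ₁ (algebraMap K ↥E₀ c) = σ₂ (algebraMap K ↥E₀ c))
    (hG : ∀ g (_ : g ∈ G) (hgE : g ∈ E₀), σ₁ ⟨g, hgE⟩ = σ₂ ⟨g, hgE⟩) : σ₁ = σ₂ := by
  subst hE
  ext ⟨x, hx⟩
  induction hx using IntermediateField.adjoin_induction with
  | mem x hx => exact hG x hx _
  | algebraMap c => exact hK c
  | add x y hx hy hx' hy' =>
    have : (⟨x + y, add_mem hx hy⟩ : ↥(IntermediateField.adjoin K G)) = ⟨x, hx⟩ + ⟨y, hy⟩ := rfl
    rw [this, map_add, map_add, hx', hy']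
  | inv x hx hx' =>
    have : (⟨x⁻¹, inv_mem hx⟩ : ↥(IntermediateField.adjoin K G)) = (⟨x, hx⟩)⁻¹ := rfl
    rw [this, map_inv₀, map_inv₀, hx']
  | mul x y hx hy hx' hy' =>
    have : (⟨x * y, mul_mem hx hy⟩ : ↥(IntermediateField.adjoin K G)) = ⟨x, hx⟩ * ⟨y, hy⟩ := rfl
    rw [this, map_mul, map_mul, hx', hy']

/-- A ring hom out of `K(G)` maps into a subfield as soon as constants and generators do. -/
theorem ringHom_mem_adjoin {E₀ : IntermediateField K E} (hE : E₀ = IntermediateField.adjoin K G)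
    (σ : ↥E₀ →+* X) (S : Subfield X)
    (hK : ∀ c : K, σ (algebraMap K ↥E₀ c) ∈ S)
    (hG : ∀ g (_ : g ∈ G) (hgE : g ∈ E₀), σ ⟨g, hgE⟩ ∈ S)
    (x : ↥E₀) : σ x ∈ S := by
  subst hE
  obtain ⟨x, hx⟩ := x
  induction hx using IntermediateField.adjoin_induction with
  | mem x hx => exact hG x hx _
  | algebraMap c => exact hK c
  | add x y hx hy hx' hy' =>
    have : (⟨x + y, add_mem hx hy⟩ : ↥(IntermediateField.adjoin K G)) = ⟨x, hx⟩ + ⟨y, hy⟩ := rfl
    rw [this, map_add]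
    exact add_mem hx' hy'
  | inv x hx hx' =>
    have : (⟨x⁻¹, inv_mem hx⟩ : ↥(IntermediateField.adjoin K G)) = (⟨x, hx⟩)⁻¹ := rfl
    rw [this, map_inv₀]
    exact inv_mem hx'
  | mul x y hx hy hx' hy' =>
    have : (⟨x * y, mul_mem hx hy⟩ : ↥(IntermediateField.adjoin K G)) = ⟨x, hx⟩ * ⟨y, hy⟩ := rfl
    rw [this, map_mul]
    exact mul_mem hx' hy'

end Adjoin

/-! ### Transport of `EmbData` along an isomorphism -/

section Transport

variable {K F F' : Type*} [Field K] [Field F] [Field F'] [Algebra K F] [Algebra K F']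
  {ι : K →+* ℂ} {x' : F'} {Γ : Subgroup SL(2, ℤ)}

/-- Transport of an analytic uniformisation along an isomorphism of function fields. -/
def _root_.Fermat.Agent.Gateway.Dict.ConjAbs.EmbData.compEquiv (D : EmbData K F' ι x' Γ)
    (e : F ≃ₐ[K] F') {x : F} (hx : e x = x') : EmbData K F ι x Γ where
  emb := D.emb.comp (e : F →+* F')
  emb_const c := by
    rw [RingHom.comp_apply]
    have : (e : F →+* F') (algebraMap K F c) = algebraMap K F' c := e.commutes c
    rw [this, D.emb_const]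
  emb_x := by
    rw [RingHom.comp_apply]
    have : (e : F →+* F') x = x' := hx
    rw [this, D.emb_x]
  fixed γ hγ f := D.fixed γ hγ _
  stab _ h := D.stab _ fun f' => by
    have := h (e.symm f')
    rw [RingHom.comp_apply] at this
    have h2 : (e : F →+* F') (e.symm f') = f' := e.apply_symm_apply f'
    rwa [h2] at this

@[simp] theorem compEquiv_emb (D : EmbData K F' ι x' Γ) (e : F ≃ₐ[K] F') {x : F}
    (hx : e x = x') (f : F) : (D.compEquiv e hx).emb f = D.emb (e f) := rfl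

end Transport

/-! ### The analytic inputs -/

/-- The analytic inputs on the Weierstrass division values `w b = (2πi)⁻² ℘(b/M; ℤ + ℤτ)`,
`b ∈ ℤ/M`, `b ≠ 0` (provider: P-pack). -/
structure WpData (M : ℕ) [NeZero M] (ζ₀ : ℂ) where
  /-- the division values -/
  w : ZMod M → HolFun
  perFun : ∀ b, b ≠ 0 → w b ∈ PerFun
  neg : ∀ b, w (-b) = w b
  /-- the normalisation factor (`(2πi)²` for the unnormalised `℘`) -/
  κ : ℂ
  hκ : κ ≠ 0
  qexp : ∀ b c, b ≠ 0 → c ≠ 0 → ∀ hW : w b - w c ∈ PerFun,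
    qLaurent ⟨w b - w c, hW⟩ = κ • (e1Series M ζ₀ b - e1Series M ζ₀ c)
  slash_cusp : ∀ g : SL(2, ℤ), ∃ U : MerFun, ∀ b, b ≠ 0 → ∃ h : HolFun, h ∈ cuspFnAlg M ∧
    g • algebraMap HolFun MerFun (w b) = U * algebraMap HolFun MerFun h
  slash_Gamma0 : ∀ γ : SL(2, ℤ), γ ∈ Gamma0 M → ∃ U : MerFun, U ≠ 0 ∧ ∀ b, b ≠ 0 →
    γ • algebraMap HolFun MerFun (w b) = U * algebraMap HolFun MerFun (w (lr M γ⁻¹ * b))

/-- The formal rigidity statement (provider: `Model/Stab`, helper68): a unit `d` of `ℤ/M` with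
`ratio1 (d b) (d c) (d b') (d c') = ratio1 b c b' c'` for all nonzero indices is `± 1`. -/
def RigidHyp (M : ℕ) [NeZero M] {R : Type*} [Field R] (ζ : R) : Prop :=
  ∀ d : (ZMod M)ˣ,
    (∀ b c b' c' : ZMod M, b ≠ 0 → c ≠ 0 → b' ≠ 0 → c' ≠ 0 →
      ratio1 M ζ (d * b) (d * c) (d * b') (d * c') = ratio1 M ζ b c b' c') → d = 1 ∨ d = -1

section Emb

variable {M : ℕ} [NeZero M] {ζ₀ : ℂ} (W : WpData M ζ₀)
  {L : Type*} [Field L] {ι : L →+* ℂ} {ζ : L}

/-- The ratio of differences of division values, as a meromorphic function. -/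
def Rfun (b c b' c' : ZMod M) : MerFun :=
  (algebraMap HolFun MerFun (W.w b) - algebraMap HolFun MerFun (W.w c)) /
    (algebraMap HolFun MerFun (W.w b') - algebraMap HolFun MerFun (W.w c'))

/-- `w b` as an element of `PerFun`. -/
def wPer (b : ZMod M) (hb : b ≠ 0) : PerFun := ⟨W.w b, W.perFun b hb⟩

theorem qLaurent_wPer_sub (b c : ZMod M) (hb : b ≠ 0) (hc : c ≠ 0) :
    qLaurent (wPer W b hb - wPer W c hc) = W.κ • (e1Series M ζ₀ b - e1Series M ζ₀ c) :=
  W.qexp b c hb hc (wPer W b hb - wPer W c hc).2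

theorem smul_div_smul_cancel {κ : ℂ} (hκ : κ ≠ 0) (x y : LaurentSeries ℂ) :
    (κ • x) / (κ • y) = x / y := by
  rw [← HahnSeries.C_mul_eq_smul, ← HahnSeries.C_mul_eq_smul]
  exact mul_div_mul_left _ _ ((map_ne_zero (HahnSeries.C : ℂ →+* LaurentSeries ℂ)).mpr hκ)

theorem coeffMap_jd (d : ℕ) [NeZero d] :
    coeffMap ι (qExpand L d (jqModC L)) = qLaurent (jdPer d) := by
  rw [qLaurent_jdPer, coeffMap_qExpand, coeffMap_jqModC]
  exact (coeffEmb_qExpand_jq ℂ d).symm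

include W in
variable (ι ζ) in
/-- The embedding into `Frac(PerFun)`, compatible with `q`-expansions. -/
theorem exists_emb₀ (hζ : ι ζ = ζ₀) :
    ∃ emb₀ : ↥(gamma1FieldC M ζ) →+* FracP PerFun,
      ∀ x, qFrac (qLaurent : PerFun →+* LaurentSeries ℂ) qLaurent_injective (emb₀ x) =
        coeffMap ι (x : LaurentSeries L) := by
  refine EmbedAbs.exists_ringHom_of_generators (K := L) (L := LaurentSeries L)
    (coeffMap ι) (qFrac (qLaurent : PerFun →+* LaurentSeries ℂ) qLaurent_injective)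
    (gamma1Gens M ζ) ?_ ?_
  · intro c
    rw [coeffMap_algebraMap_eq_C]
    refine ⟨algebraMap PerFun (FracP PerFun) (algebraMap ℂ PerFun (ι c)), ?_⟩
    rw [qFrac_algebraMap]
    have h1 : (qLaurent : PerFun →+* LaurentSeries ℂ) (algebraMap ℂ PerFun (ι c)) =
        algebraMap ℂ (LaurentSeries ℂ) (ι c) := qLaurent.commutes (ι c)
    rw [h1, algebraMap_laurentSeries_eq_single]
    rfl
  · rintro g (⟨d, hd0, hd, rfl⟩ | ⟨b, c, b', c', hb, hc, hb', hc', rfl⟩)
    · refine ⟨algebraMap PerFun (FracP PerFun) (jdPer d), ?_⟩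
      rw [qFrac_algebraMap]
      exact (coeffMap_jd d).symm
    · refine ⟨algebraMap PerFun (FracP PerFun) (wPer W b hb - wPer W c hc) /
        algebraMap PerFun (FracP PerFun) (wPer W b' hb' - wPer W c' hc'), ?_⟩
      rw [qFrac_div]
      have e1 : (qLaurent : PerFun →+* LaurentSeries ℂ) (wPer W b hb - wPer W c hc) =
          W.κ • (e1Series M ζ₀ b - e1Series M ζ₀ c) := qLaurent_wPer_sub W b c hb hc
      have e2 : (qLaurent : PerFun →+* LaurentSeries ℂ) (wPer W b' hb' - wPer W c' hc') =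
          W.κ • (e1Series M ζ₀ b' - e1Series M ζ₀ c') := qLaurent_wPer_sub W b' c' hb' hc'
      rw [e1, e2, smul_div_smul_cancel W.hκ, coeffMap_ratio1, hζ]
      rfl

/-! ### The embedding -/

variable (ι ζ) in
/-- The embedding into `Frac(PerFun)` (a choice). -/
def emb₀ (hζ : ι ζ = ζ₀) : ↥(gamma1FieldC M ζ) →+* FracP PerFun :=
  (exists_emb₀ W ι ζ hζ).choose

theorem qFrac_emb₀ (hζ : ι ζ = ζ₀) (x : ↥(gamma1FieldC M ζ)) :
    qFrac (qLaurent : PerFun →+* LaurentSeries ℂ) qLaurent_injective (emb₀ W ι ζ hζ x) =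
      coeffMap ι (x : LaurentSeries L) :=
  (exists_emb₀ W ι ζ hζ).choose_spec x

variable (ι ζ) in
/-- **The analytic embedding** of the function field of `X₁(M)`. -/
def emb (hζ : ι ζ = ζ₀) : ↥(gamma1FieldC M ζ) →+* MerFun :=
  (toMer PerFun).comp (emb₀ W ι ζ hζ)

theorem qFrac_injective :
    Function.Injective (qFrac (qLaurent : PerFun →+* LaurentSeries ℂ) qLaurent_injective) :=
  (qFrac (qLaurent : PerFun →+* LaurentSeries ℂ) qLaurent_injective).injective

/-- The value of the embedding at an element whose expansion is a quotient of `q`-expansions. -/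
theorem emb_eq_of_coeffMap_eq (hζ : ι ζ = ζ₀) (x : ↥(gamma1FieldC M ζ)) (a b : PerFun)
    (h : coeffMap ι (x : LaurentSeries L) = qLaurent a / qLaurent b) :
    emb W ι ζ hζ x =
      algebraMap HolFun MerFun (a : HolFun) / algebraMap HolFun MerFun (b : HolFun) := by
  have h1 : emb₀ W ι ζ hζ x =
      algebraMap PerFun (FracP PerFun) a / algebraMap PerFun (FracP PerFun) b := by
    apply qFrac_injective
    rw [qFrac_emb₀, qFrac_div, h]
    rfl
  rw [emb, RingHom.comp_apply, h1, toMer_div]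

theorem emb_algebraMap (hζ : ι ζ = ζ₀) (c : L) :
    emb W ι ζ hζ (algebraMap L ↥(gamma1FieldC M ζ) c) = const (ι c) := by
  have h := emb_eq_of_coeffMap_eq W hζ (algebraMap L ↥(gamma1FieldC M ζ) c)
    (algebraMap ℂ PerFun (ι c)) 1 (by
      rw [map_one, div_one]
      have h1 : ((algebraMap L ↥(gamma1FieldC M ζ) c : ↥(gamma1FieldC M ζ)) : LaurentSeries L) =
          algebraMap L (LaurentSeries L) c := rfl
      rw [h1, coeffMap_algebraMap_eq_C, AlgHom.commutes, algebraMap_laurentSeries_eq_single]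
      rfl)
  rw [h]
  have h2 : ((1 : PerFun) : HolFun) = 1 := rfl
  rw [h2, map_one, div_one]
  rfl

/-- the generator `j(q^d)` -/
def jdF (ζ : L) {d : ℕ} [NeZero d] (hd : d ∣ M) : ↥(gamma1FieldC M ζ) :=
  ⟨qExpand L d (jqModC L), jqd_mem_gamma1FieldC ζ hd⟩

/-- the generator `ratio1 b c b' c'` -/
def ratio1F (ζ : L) {b c b' c' : ZMod M} (hb : b ≠ 0) (hc : c ≠ 0) (hb' : b' ≠ 0) (hc' : c' ≠ 0) :
    ↥(gamma1FieldC M ζ) :=
  ⟨ratio1 M ζ b c b' c', ratio1_mem_gamma1FieldC ζ hb hc hb' hc'⟩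

/-- the function `j` -/
def jF1 (ζ : L) : ↥(gamma1FieldC M ζ) := ⟨jqModC L, jq_mem_gamma1FieldC ζ⟩

theorem jdF_one (ζ : L) : jdF (M := M) ζ (one_dvd M) = jF1 ζ := by
  apply Subtype.ext
  show qExpand L 1 (jqModC L) = jqModC L
  rw [qExpand_one_apply]

theorem emb_jdF (hζ : ι ζ = ζ₀) {d : ℕ} [NeZero d] (hd : d ∣ M) :
    emb W ι ζ hζ (jdF ζ hd) = algebraMap HolFun MerFun (jd d) := by
  have h := emb_eq_of_coeffMap_eq W hζ (jdF ζ hd) (jdPer d) 1 (by
    rw [map_one, div_one]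
    exact coeffMap_jd d)
  rw [h]
  have h2 : ((1 : PerFun) : HolFun) = 1 := rfl
  rw [h2, map_one, div_one, coe_jdPer]

theorem emb_jF1 (hζ : ι ζ = ζ₀) :
    emb W ι ζ hζ (jF1 ζ) = algebraMap HolFun MerFun jHol := by
  rw [← jdF_one, emb_jdF, jd_one_eq_jHol]

theorem emb_ratio1F (hζ : ι ζ = ζ₀) {b c b' c' : ZMod M} (hb : b ≠ 0) (hc : c ≠ 0)
    (hb' : b' ≠ 0) (hc' : c' ≠ 0) :
    emb W ι ζ hζ (ratio1F ζ hb hc hb' hc') = Rfun W b c b' c' := by
  have h := emb_eq_of_coeffMap_eq W hζ (ratio1F ζ hb hc hb' hc')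
    (wPer W b hb - wPer W c hc) (wPer W b' hb' - wPer W c' hc') (by
      rw [qLaurent_wPer_sub, qLaurent_wPer_sub, smul_div_smul_cancel W.hκ]
      show coeffMap ι (ratio1 M ζ b c b' c') = _
      rw [coeffMap_ratio1, hζ]
      rfl)
  rw [h, Rfun]
  have h1 : ((wPer W b hb - wPer W c hc : PerFun) : HolFun) = W.w b - W.w c := rfl
  have h2 : ((wPer W b' hb' - wPer W c' hc' : PerFun) : HolFun) = W.w b' - W.w c' := rfl
  rw [h1, h2, map_sub, map_sub]

/-- Every value of the embedding is a quotient of elements of `PerFun`, compatibly with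
`q`-expansions. -/
theorem emb_frac (hζ : ι ζ = ζ₀) (x : ↥(gamma1FieldC M ζ)) :
    ∃ a b : PerFun, b ≠ 0 ∧
      emb W ι ζ hζ x =
        algebraMap HolFun MerFun (a : HolFun) / algebraMap HolFun MerFun (b : HolFun) ∧
      coeffMap ι (x : LaurentSeries L) * qLaurent b = qLaurent a := by
  obtain ⟨a, b, hb, hab⟩ := IsFractionRing.div_surjective PerFun (emb₀ W ι ζ hζ x)
  have hb0 : b ≠ 0 := nonZeroDivisors.ne_zero hb
  refine ⟨a, b, hb0, ?_, ?_⟩
  · rw [emb, RingHom.comp_apply, ← hab, toMer_div]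
  · have h2 := qFrac_emb₀ W hζ x
    rw [← hab, qFrac_div] at h2
    have hψb : (qLaurent : PerFun →+* LaurentSeries ℂ) b ≠ 0 := fun h0 =>
      hb0 (qLaurent_injective (by rw [map_zero]; exact h0))
    rw [← h2]
    exact div_mul_cancel₀ _ hψb

theorem emb_injective (hζ : ι ζ = ζ₀) : Function.Injective (emb W ι ζ hζ) :=
  (emb W ι ζ hζ).injective

/-! ### Invariance under `±Γ₁(M)` -/

theorem Rfun_neg (b c b' c' : ZMod M) : Rfun W (-b) (-c) (-b') (-c') = Rfun W b c b' c' := by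
  rw [Rfun, Rfun, W.neg, W.neg, W.neg, W.neg]

theorem lr_inv_isUnit {γ : SL(2, ℤ)} (hγ : γ ∈ Gamma0 M) : IsUnit (lr M γ⁻¹) :=
  IsUnit.of_mul_eq_one _ (lr_inv_mul_lr hγ)

theorem lr_inv_mul_ne_zero {γ : SL(2, ℤ)} (hγ : γ ∈ Gamma0 M) {b : ZMod M} (hb : b ≠ 0) :
    lr M γ⁻¹ * b ≠ 0 := by
  intro h
  apply hb
  have h1 := congrArg (fun x => lr M γ * x) h
  simp only [mul_zero] at h1
  rwa [← mul_assoc, lr_mul_lr_inv hγ, one_mul] at h1

/-- The slash law of the ratios under `Γ₀(M)`. -/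
theorem smul_Rfun {γ : SL(2, ℤ)} (hγ : γ ∈ Gamma0 M) {b c b' c' : ZMod M} (hb : b ≠ 0)
    (hc : c ≠ 0) (hb' : b' ≠ 0) (hc' : c' ≠ 0) :
    γ • Rfun W b c b' c' =
      Rfun W (lr M γ⁻¹ * b) (lr M γ⁻¹ * c) (lr M γ⁻¹ * b') (lr M γ⁻¹ * c') := by
  obtain ⟨U, hU, h⟩ := W.slash_Gamma0 γ hγ
  rw [Rfun, smul_div₀', smul_sub, smul_sub, h b hb, h c hc, h b' hb', h c' hc', Rfun,
    ← mul_sub, ← mul_sub, mul_div_mul_left _ _ hU]

theorem emb_fixed (hζ : ι ζ = ζ₀) {γ : SL(2, ℤ)} (hγ : γ ∈ Gamma1pm M)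
    (x : ↥(gamma1FieldC M ζ)) : γ • emb W ι ζ hζ x = emb W ι ζ hζ x := by
  have hγ0 : γ ∈ Gamma0 M := Gamma1pm_le_Gamma0 M hγ
  have hinv : lr M γ⁻¹ = 1 ∨ lr M γ⁻¹ = -1 := ((Gamma1pm M).inv_mem hγ).2
  have key : (MulSemiringAction.toRingHom SL(2, ℤ) MerFun γ).comp (emb W ι ζ hζ) =
      emb W ι ζ hζ := by
    refine ringHom_ext_adjoin (gamma1Gens M ζ) (E₀ := gamma1FieldC M ζ) rfl _ _ ?_ ?_
    · intro c
      rw [RingHom.comp_apply, emb_algebraMap W hζ c]
      exact sl_smul_const γ _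
    · rintro g (⟨d, hd0, hd, rfl⟩ | ⟨b, c, b', c', hb, hc, hb', hc', rfl⟩) hgE
      · rw [RingHom.comp_apply]
        have : emb W ι ζ hζ ⟨qExpand L d (jqModC L), hgE⟩ = algebraMap HolFun MerFun (jd d) :=
          emb_jdF W hζ hd
        rw [this]
        show γ • algebraMap HolFun MerFun (jd d) = _
        rw [MerFun.sl_smul_algebraMap, smul_jd_of_mem_Gamma0 hd hγ0]
      · rw [RingHom.comp_apply]
        have : emb W ι ζ hζ ⟨ratio1 M ζ b c b' c', hgE⟩ =
            Rfun W b c b' c' := emb_ratio1F W hζ hb hc hb' hc'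
        rw [this]
        show γ • Rfun W b c b' c' = _
        rw [smul_Rfun W hγ0 hb hc hb' hc']
        rcases hinv with h | h
        · rw [h, one_mul, one_mul, one_mul, one_mul]
        · rw [h, neg_one_mul, neg_one_mul, neg_one_mul, neg_one_mul, Rfun_neg]
  exact DFunLike.congr_fun key x

/-! ### The exact stabiliser -/

theorem emb_stab (hζ : ι ζ = ζ₀) (hrig : RigidHyp M ζ) (γ : SL(2, ℤ))
    (h : ∀ x : ↥(gamma1FieldC M ζ), γ • emb W ι ζ hζ x = emb W ι ζ hζ x) : γ ∈ Gamma1pm M := by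
  -- `γ ∈ Γ₀(M)`
  have hγ0 : γ ∈ Gamma0 M := by
    have h1 := h (jdF ζ (dvd_refl M))
    rw [emb_jdF, MerFun.sl_smul_algebraMap] at h1
    exact mem_Gamma0_of_smul_jd_eq (IsFractionRing.injective HolFun MerFun h1)
  obtain ⟨u, hu⟩ := lr_inv_isUnit (M := M) hγ0
  have hkey : u = 1 ∨ u = -1 := by
    apply hrig u
    intro b c b' c' hb hc hb' hc'
    have hb1 := lr_inv_mul_ne_zero hγ0 hb
    have hc1 := lr_inv_mul_ne_zero hγ0 hc
    have hb'1 := lr_inv_mul_ne_zero hγ0 hb'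
    have hc'1 := lr_inv_mul_ne_zero hγ0 hc'
    have h1 : emb W ι ζ hζ (ratio1F ζ hb1 hc1 hb'1 hc'1) =
        emb W ι ζ hζ (ratio1F ζ hb hc hb' hc') := by
      rw [emb_ratio1F W hζ hb1 hc1 hb'1 hc'1, ← smul_Rfun W hγ0 hb hc hb' hc',
        ← emb_ratio1F W hζ hb hc hb' hc']
      exact h _
    have h2 := congrArg Subtype.val (emb_injective W hζ h1)
    rw [hu]
    exact h2
  have hlr : lr M γ⁻¹ = 1 ∨ lr M γ⁻¹ = -1 := by
    rcases hkey with h1 | h1
    · left; rw [← hu, h1]; rfl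
    · right; rw [← hu, h1]; simp
  have : γ⁻¹ ∈ Gamma1pm M := ⟨(Gamma0 M).inv_mem hγ0, hlr⟩
  have h2 := (Gamma1pm M).inv_mem this
  rwa [inv_inv] at h2

/-! ### Cusp-meromorphy of all translates -/

theorem isCuspMer_smul_Rfun (g : SL(2, ℤ)) {b c b' c' : ZMod M} (hb : b ≠ 0)
    (hc : c ≠ 0) (hb' : b' ≠ 0) (hc' : c' ≠ 0) : IsCuspMer M (g • Rfun W b c b' c') := by
  obtain ⟨U, h⟩ := W.slash_cusp g
  obtain ⟨h1, hh1, e1⟩ := h b hb
  obtain ⟨h2, hh2, e2⟩ := h c hc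
  obtain ⟨h3, hh3, e3⟩ := h b' hb'
  obtain ⟨h4, hh4, e4⟩ := h c' hc'
  rw [Rfun, smul_div₀', smul_sub, smul_sub, e1, e2, e3, e4, ← mul_sub, ← mul_sub]
  by_cases hU : U = 0
  · rw [hU, zero_mul, zero_mul, div_zero]
    exact isCuspMer_zero M
  rw [mul_div_mul_left _ _ hU, ← map_sub, ← map_sub]
  by_cases h0 : h3 - h4 = 0
  · rw [h0, map_zero, div_zero]
    exact isCuspMer_zero M
  exact ⟨h1 - h2, h3 - h4, sub_mem hh1 hh2, sub_mem hh3 hh4, h0, rfl⟩

/-- **Every translate of every value of the embedding is cusp-meromorphic of level `M`.** -/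
theorem isCuspMer_smul_emb (hζ : ι ζ = ζ₀) (x : ↥(gamma1FieldC M ζ)) (g : SL(2, ℤ)) :
    IsCuspMer M (g • emb W ι ζ hζ x) := by
  have key := ringHom_mem_adjoin (gamma1Gens M ζ) (E₀ := gamma1FieldC M ζ) rfl
    ((MulSemiringAction.toRingHom SL(2, ℤ) MerFun g).comp (emb W ι ζ hζ)) (cuspMerField M)
    ?_ ?_ x
  · exact key
  · intro c
    rw [RingHom.comp_apply, emb_algebraMap W hζ c]
    show g • const (ι c) ∈ cuspMerField M
    rw [sl_smul_const]
    exact isCuspMer_const M _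
  · rintro y (⟨d, hd0, hd, rfl⟩ | ⟨b, c, b', c', hb, hc, hb', hc', rfl⟩) hgE
    · rw [RingHom.comp_apply]
      have : emb W ι ζ hζ ⟨qExpand L d (jqModC L), hgE⟩ = algebraMap HolFun MerFun (jd d) :=
        emb_jdF W hζ hd
      rw [this]
      show g • algebraMap HolFun MerFun (jd d) ∈ cuspMerField M
      rw [MerFun.sl_smul_algebraMap]
      exact isCuspMer_algebraMap (jd_mem_cuspAlg hd g)
    · rw [RingHom.comp_apply]
      have : emb W ι ζ hζ ⟨ratio1 M ζ b c b' c', hgE⟩ =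
          Rfun W b c b' c' := emb_ratio1F W hζ hb hc hb' hc'
      rw [this]
      exact isCuspMer_smul_Rfun W g hb hc hb' hc'

/-! ### The embedding datum -/

variable (ι ζ) in
/-- **The analytic uniformisation of `X₁(M)`**: `EmbData` for `gamma1FieldC M ζ` and `±Γ₁(M)`. -/
def embData (hζ : ι ζ = ζ₀) (hrig : RigidHyp M ζ) :
    EmbData L ↥(gamma1FieldC M ζ) ι (jF1 ζ) (Gamma1pm M) where
  emb := emb W ι ζ hζ
  emb_const := emb_algebraMap W hζ
  emb_x := emb_jF1 W hζ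
  fixed _ hγ f := emb_fixed W hζ hγ f
  stab := emb_stab W hζ hrig

theorem embData_emb (hζ : ι ζ = ζ₀) (hrig : RigidHyp M ζ) :
    (embData W ι ζ hζ hrig).emb = emb W ι ζ hζ := rfl

theorem hcusp_embData (hζ : ι ζ = ζ₀) (hrig : RigidHyp M ζ) (f : ↥(gamma1FieldC M ζ))
    (g : SL(2, ℤ)) : IsCuspMer M (g • (embData W ι ζ hζ hrig).emb f) :=
  isCuspMer_smul_emb W hζ f g

end Emb

end Fermat.Agent.S48x.Ana.Emb1
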