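/-
P-S48, layer (a) of G1, slice (A1) (helper96, second hand of helper74/helper90): the
`℘`-division values packaged as elements of `S24.HolFun`, labelled by `v : Vec M = (ℤ/M)²`.

* `wpVec M v : ℍ → ℂ` : `τ ↦ ℘((aτ + b)/M; ℤ + ℤτ)` for the label `v = (a, b) mod M`;
  `wpVec_vecZ`, `wpVec_neg`, `mdiff_wpVec`, `isCuspFn_wpVec` (period `M`), `isPer_one_wpVec`
  (period `1` for `v = (0, b)`).
* `vecSL M v γ` : the right action `v ↦ vγ` of `SL(2, ℤ)` on labels; `wpVec_smul`.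
* `wpHol M v : S24.HolFun` (junk value `0` for `v = 0`), `dHol M v w := wpHol v - wpHol w`,
  `Rfun M v w v' w' : S24.MerFun := dHol v w / dHol v' w'` and their transformation laws under the
  `S24` action `(γ • f) τ = f (γ⁻¹ • τ)` of `SL(2, ℤ)`:
  `γ • Rfun v w v' w' = Rfun (vγ⁻¹) (wγ⁻¹) (v'γ⁻¹) (w'γ⁻¹)`.
* `dHol_ne_zero`, `hasSum_dHol` (expansion in `q_M` against `Model.eCoeff`), `isCuspMer_Rfun`.
-/
import Mathlib
import Fermat.Agent.S48x.Ana.WpExpansion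
import Fermat.Agent.S24.CuspOrdMer

set_option autoImplicit false
set_option linter.unusedSectionVars false

open UpperHalfPlane hiding I
open Complex Filter Topology
open scoped Real MatrixGroups Manifold

namespace Fermat.Agent.S48x.Ana

open Fermat.Agent.S48x.PPack Fermat.Agent.S48x.Model Fermat.Agent.S24 Fermat.Agent.S24.CuspOrd

variable (M : ℕ) [NeZero M]

/-! ### Labels -/

theorem vecZ_eq_zero_iff (a b : ℤ) : vecZ M a b = 0 ↔ ((M : ℤ) ∣ a ∧ (M : ℤ) ∣ b) := by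
  unfold vecZ
  rw [Prod.mk_eq_zero, ZMod.intCast_zmod_eq_zero_iff_dvd, ZMod.intCast_zmod_eq_zero_iff_dvd]

theorem vecZ_ne_zero_iff (a b : ℤ) : vecZ M a b ≠ 0 ↔ ¬ ((M : ℤ) ∣ a ∧ (M : ℤ) ∣ b) :=
  (vecZ_eq_zero_iff M a b).not

theorem vecZ_val (v : Vec M) : vecZ M (v.1.val : ℤ) (v.2.val : ℤ) = v := by
  unfold vecZ
  ext <;> simp

theorem not_dvd_val {v : Vec M} (hv : v ≠ 0) :
    ¬ ((M : ℤ) ∣ (v.1.val : ℤ) ∧ (M : ℤ) ∣ (v.2.val : ℤ)) := by
  rw [← vecZ_ne_zero_iff, vecZ_val]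
  exact hv

theorem vecZ_eq_iff (a b a' b' : ℤ) :
    vecZ M a b = vecZ M a' b' ↔ (a ≡ a' [ZMOD M] ∧ b ≡ b' [ZMOD M]) := by
  unfold vecZ
  rw [Prod.mk.injEq, ZMod.intCast_eq_intCast_iff, ZMod.intCast_eq_intCast_iff]

theorem vecZ_neg (a b : ℤ) : vecZ M (-a) (-b) = -vecZ M a b := by
  unfold vecZ
  ext <;> simp

/-- `v = ±w` in terms of integer representatives. -/
theorem pmEq_iff (a b a' b' : ℤ) :
    PMEq M a b a' b' ↔ (vecZ M a b = vecZ M a' b' ∨ vecZ M a b = -vecZ M a' b') := by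
  unfold PMEq
  rw [← vecZ_neg, vecZ_eq_iff, vecZ_eq_iff]

/-! ### The function attached to a label -/

/-- `τ ↦ ℘((aτ + b)/M; ℤ + ℤτ)` for the label `v = (a, b) mod M`. -/
noncomputable def wpVec (v : Vec M) : ℍ → ℂ := wpDiv M (v.1.val : ℤ) (v.2.val : ℤ)

theorem wpVec_vecZ (a b : ℤ) : wpVec M (vecZ M a b) = wpDiv M a b := by
  unfold wpVec
  apply wpDiv_congr
  · have : (vecZ M a b).1 = ((a : ℤ) : ZMod M) := rfl
    rw [this, ← ZMod.intCast_eq_intCast_iff]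
    simp
  · have : (vecZ M a b).2 = ((b : ℤ) : ZMod M) := rfl
    rw [this, ← ZMod.intCast_eq_intCast_iff]
    simp

theorem wpVec_neg (v : Vec M) : wpVec M (-v) = wpVec M v := by
  rw [← vecZ_val M v, ← vecZ_neg, wpVec_vecZ, wpVec_vecZ, wpDiv_neg]

theorem mdiff_wpVec {v : Vec M} (hv : v ≠ 0) : MDiff (wpVec M v) :=
  mdifferentiable_wpDiv M (not_dvd_val M hv)

theorem isBoundedAtImInfty_wpVec {v : Vec M} (hv : v ≠ 0) : IsBoundedAtImInfty (wpVec M v) :=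
  isBoundedAtImInfty_wpDiv M (not_dvd_val M hv)

theorem isPer_wpVec {v : Vec M} (hv : v ≠ 0) : IsPer (M : ℝ) (wpVec M v) :=
  isPer_of_periodic (periodic_wpDiv M (not_dvd_val M hv))

theorem isCuspFn_wpVec {v : Vec M} (hv : v ≠ 0) : IsCuspFn M (wpVec M v) :=
  ⟨mdiff_wpVec M hv, isPer_wpVec M hv,
    ModGrowth.of_isBoundedAtImInfty (isBoundedAtImInfty_wpVec M hv)⟩

/-- **Separation**: `f_v ≠ f_w` unless `v = ±w`. -/
theorem wpVec_eq_iff {v w : Vec M} (hv : v ≠ 0) (hw : w ≠ 0) :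
    wpVec M v = wpVec M w ↔ (v = w ∨ v = -w) := by
  unfold wpVec
  rw [wpDiv_eq_iff M (not_dvd_val M hv) (not_dvd_val M hw), pmEq_iff, vecZ_val, vecZ_val]

/-! ### The right action of `SL(2, ℤ)` on labels -/

/-- The right action `v ↦ vγ` of `SL(2, ℤ)` on row vectors mod `M`. -/
def vecSL (v : Vec M) (γ : SL(2, ℤ)) : Vec M :=
  (v.1 * ((γ 0 0 : ℤ) : ZMod M) + v.2 * ((γ 1 0 : ℤ) : ZMod M),
    v.1 * ((γ 0 1 : ℤ) : ZMod M) + v.2 * ((γ 1 1 : ℤ) : ZMod M))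

theorem vecSL_vecZ (a b : ℤ) (γ : SL(2, ℤ)) :
    vecSL M (vecZ M a b) γ = vecZ M (a * γ 0 0 + b * γ 1 0) (a * γ 0 1 + b * γ 1 1) := by
  unfold vecSL vecZ
  ext <;> simp

theorem vecSL_one (v : Vec M) : vecSL M v 1 = v := by
  unfold vecSL
  ext <;> simp

theorem vecSL_mul (v : Vec M) (γ γ' : SL(2, ℤ)) :
    vecSL M v (γ * γ') = vecSL M (vecSL M v γ) γ' := by
  unfold vecSL
  ext
  · simp only [Matrix.SpecialLinearGroup.coe_mul, Matrix.mul_apply, Fin.sum_univ_two]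
    push_cast
    ring
  · simp only [Matrix.SpecialLinearGroup.coe_mul, Matrix.mul_apply, Fin.sum_univ_two]
    push_cast
    ring

theorem vecSL_zero (γ : SL(2, ℤ)) : vecSL M 0 γ = 0 := by
  unfold vecSL
  ext <;> simp

theorem vecSL_neg (v : Vec M) (γ : SL(2, ℤ)) : vecSL M (-v) γ = -vecSL M v γ := by
  unfold vecSL
  ext
  · simp only [Prod.fst_neg, Prod.snd_neg]; ring
  · simp only [Prod.fst_neg, Prod.snd_neg]; ring

theorem vecSL_inv_cancel (v : Vec M) (γ : SL(2, ℤ)) : vecSL M (vecSL M v γ) γ⁻¹ = v := by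
  rw [← vecSL_mul, mul_inv_cancel, vecSL_one]

theorem vecSL_inv_cancel' (v : Vec M) (γ : SL(2, ℤ)) : vecSL M (vecSL M v γ⁻¹) γ = v := by
  rw [← vecSL_mul, inv_mul_cancel, vecSL_one]

theorem vecSL_injective (γ : SL(2, ℤ)) : Function.Injective fun v : Vec M => vecSL M v γ :=
  Function.LeftInverse.injective (g := fun v : Vec M => vecSL M v γ⁻¹)
    fun v => vecSL_inv_cancel M v γ

theorem vecSL_ne_zero {v : Vec M} (hv : v ≠ 0) (γ : SL(2, ℤ)) : vecSL M v γ ≠ 0 := by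
  intro h
  apply hv
  apply vecSL_injective M γ
  simp only
  rw [h, vecSL_zero]

theorem vecSL_eq_iff (v w : Vec M) (γ : SL(2, ℤ)) : vecSL M v γ = vecSL M w γ ↔ v = w :=
  (vecSL_injective M γ).eq_iff

/-- Matrices congruent to `1` mod `M` act trivially on labels. -/
theorem vecSL_of_gamma (v : Vec M) {γ : SL(2, ℤ)} (h00 : ((γ 0 0 : ℤ) : ZMod M) = 1)
    (h01 : ((γ 0 1 : ℤ) : ZMod M) = 0) (h10 : ((γ 1 0 : ℤ) : ZMod M) = 0)
    (h11 : ((γ 1 1 : ℤ) : ZMod M) = 1) : vecSL M v γ = v := by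
  unfold vecSL
  rw [h00, h01, h10, h11]
  ext <;> simp

/-- Lower triangular-mod-`M` matrices act on the labels `(0, b)` through the lower right entry. -/
theorem vecSL_zero_fst (b : ZMod M) {γ : SL(2, ℤ)} (h10 : ((γ 1 0 : ℤ) : ZMod M) = 0) :
    vecSL M (0, b) γ = (0, b * ((γ 1 1 : ℤ) : ZMod M)) := by
  unfold vecSL
  rw [h10]
  ext <;> simp

theorem vecSL_T (v : Vec M) : vecSL M v ModularGroup.T = (v.1, v.1 + v.2) := by
  unfold vecSL
  ext <;> simp [ModularGroup.T]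

/-- **Transformation law**: `f_v (γ τ) = (cτ + d)² f_{vγ} (τ)`. -/
theorem wpVec_smul (v : Vec M) (γ : SL(2, ℤ)) (τ : ℍ) :
    wpVec M v (γ • τ) = denom γ τ ^ 2 * wpVec M (vecSL M v γ) τ := by
  conv_lhs => rw [← vecZ_val M v, wpVec_vecZ, wpDiv_smul]
  conv_rhs => rw [← vecZ_val M v, vecSL_vecZ, wpVec_vecZ]

/-- The functions `f_(0,b)` have period `1`. -/
theorem isPer_one_wpVec (b : ZMod M) : IsPer 1 (wpVec M (0, b)) := by
  intro τ
  rw [← UpperHalfPlane.modular_T_smul, wpVec_smul, vecSL_T]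
  have hd : denom (ModularGroup.T : SL(2, ℤ)) τ = 1 := by
    rw [ModularGroup.denom_apply]
    simp [ModularGroup.T]
  rw [hd]
  simp

theorem isCuspFn_one_wpVec {b : ZMod M} (hb : b ≠ 0) : IsCuspFn 1 (wpVec M (0, b)) := by
  have hv : ((0, b) : Vec M) ≠ 0 := fun h => hb (by simpa using congrArg Prod.snd h)
  exact ⟨mdiff_wpVec M hv, by simpa using isPer_one_wpVec M b,
    ModGrowth.of_isBoundedAtImInfty (isBoundedAtImInfty_wpVec M hv)⟩

/-! ### Packaging in `S24.HolFun` -/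

open Classical in
/-- The division value `f_v` as an element of `S24.HolFun` (junk value `0` at `v = 0`). -/
noncomputable def wpHol (v : Vec M) : HolFun :=
  if h : v ≠ 0 then ⟨wpVec M v, mdiff_wpVec M h⟩ else 0

theorem wpHol_of_ne_zero {v : Vec M} (hv : v ≠ 0) : wpHol M v = ⟨wpVec M v, mdiff_wpVec M hv⟩ := by
  unfold wpHol
  rw [dif_pos hv]

theorem wpHol_zero : wpHol M 0 = 0 := by
  unfold wpHol
  rw [dif_neg (not_not.2 rfl)]

theorem coe_wpHol {v : Vec M} (hv : v ≠ 0) : (wpHol M v : ℍ → ℂ) = wpVec M v := by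
  rw [wpHol_of_ne_zero M hv]

theorem wpHol_apply {v : Vec M} (hv : v ≠ 0) (τ : ℍ) : (wpHol M v : ℍ → ℂ) τ = wpVec M v τ := by
  rw [coe_wpHol M hv]

theorem wpHol_neg (v : Vec M) : wpHol M (-v) = wpHol M v := by
  by_cases hv : v = 0
  · subst hv; rw [neg_zero]
  · have hv' : -v ≠ 0 := neg_ne_zero.2 hv
    apply HolFun.ext
    intro τ
    rw [wpHol_apply M hv', wpHol_apply M hv, wpVec_neg]

theorem wpHol_mem_cuspFnAlg (v : Vec M) : wpHol M v ∈ cuspFnAlg M := by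
  by_cases hv : v = 0
  · subst hv; rw [wpHol_zero]; exact (cuspFnAlg M).zero_mem
  · rw [mem_cuspFnAlg, coe_wpHol M hv]
    exact isCuspFn_wpVec M hv

theorem wpHol_zero_fst_mem_cuspFnAlg_one (b : ZMod M) : wpHol M (0, b) ∈ cuspFnAlg 1 := by
  by_cases hb : b = 0
  · subst hb
    have : ((0, 0) : Vec M) = 0 := rfl
    rw [this, wpHol_zero]; exact (cuspFnAlg 1).zero_mem
  · have hv : ((0, b) : Vec M) ≠ 0 := fun h => hb (by simpa using congrArg Prod.snd h)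
    rw [mem_cuspFnAlg, coe_wpHol M hv]
    exact isCuspFn_one_wpVec M hb

theorem wpHol_eq_iff {v w : Vec M} (hv : v ≠ 0) (hw : w ≠ 0) :
    wpHol M v = wpHol M w ↔ (v = w ∨ v = -w) := by
  rw [← wpVec_eq_iff M hv hw, ← coe_wpHol M hv, ← coe_wpHol M hw]
  exact Subtype.ext_iff

/-- `τ ↦ (cτ + d)²` as an element of `HolFun`. -/
noncomputable def denomSqHol (γ : SL(2, ℤ)) : HolFun :=
  ⟨fun τ : ℍ => denom γ τ ^ 2, by
    have h := (mdifferentiable_denom (γ : GL (Fin 2) ℝ)).pow 2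
    exact h⟩

theorem denomSqHol_apply (γ : SL(2, ℤ)) (τ : ℍ) :
    (denomSqHol γ : ℍ → ℂ) τ = denom γ τ ^ 2 := rfl

theorem denomSqHol_ne_zero (γ : SL(2, ℤ)) : denomSqHol γ ≠ 0 := by
  intro h
  have := congrFun (congrArg Subtype.val h) UpperHalfPlane.I
  exact pow_ne_zero 2 (denom_ne_zero _ _) this

/-- **Transformation law in the `S24` action** `(γ • f) τ = f (γ⁻¹ • τ)`. -/
theorem smul_wpHol (v : Vec M) (γ : SL(2, ℤ)) :
    γ • wpHol M v = denomSqHol γ⁻¹ * wpHol M (vecSL M v γ⁻¹) := by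
  by_cases hv : v = 0
  · subst hv
    rw [vecSL_zero, wpHol_zero, smul_zero, mul_zero]
  · apply HolFun.ext
    intro τ
    rw [HolFun.sl_smul_apply, HolFun.coe_mul_apply, wpHol_apply M hv,
      wpHol_apply M (vecSL_ne_zero M hv _), wpVec_smul, denomSqHol_apply]

/-! ### Differences -/

/-- The weight two form `f_v - f_w`. -/
noncomputable def dHol (v w : Vec M) : HolFun := wpHol M v - wpHol M w

theorem dHol_apply {v w : Vec M} (hv : v ≠ 0) (hw : w ≠ 0) (τ : ℍ) :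
    (dHol M v w : ℍ → ℂ) τ = wpVec M v τ - wpVec M w τ := by
  unfold dHol
  rw [HolFun.coe_sub_apply, wpHol_apply M hv, wpHol_apply M hw]

theorem dHol_mem_cuspFnAlg (v w : Vec M) : dHol M v w ∈ cuspFnAlg M :=
  (cuspFnAlg M).sub_mem (wpHol_mem_cuspFnAlg M v) (wpHol_mem_cuspFnAlg M w)

theorem dHol_zero_fst_mem_cuspFnAlg_one (b c : ZMod M) : dHol M (0, b) (0, c) ∈ cuspFnAlg 1 :=
  (cuspFnAlg 1).sub_mem (wpHol_zero_fst_mem_cuspFnAlg_one M b)
    (wpHol_zero_fst_mem_cuspFnAlg_one M c)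

theorem dHol_eq_zero_iff {v w : Vec M} (hv : v ≠ 0) (hw : w ≠ 0) :
    dHol M v w = 0 ↔ (v = w ∨ v = -w) := by
  unfold dHol
  rw [sub_eq_zero, wpHol_eq_iff M hv hw]

theorem dHol_ne_zero {v w : Vec M} (hv : v ≠ 0) (hw : w ≠ 0) (h1 : v ≠ w) (h2 : v ≠ -w) :
    dHol M v w ≠ 0 := by
  rw [Ne, dHol_eq_zero_iff M hv hw]
  rintro (h | h)
  · exact h1 h
  · exact h2 h

theorem dHol_neg_left (v w : Vec M) : dHol M (-v) w = dHol M v w := by
  unfold dHol; rw [wpHol_neg]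

theorem dHol_neg_right (v w : Vec M) : dHol M v (-w) = dHol M v w := by
  unfold dHol; rw [wpHol_neg]

theorem dHol_swap (v w : Vec M) : dHol M w v = -dHol M v w := by
  unfold dHol; ring

theorem smul_dHol (v w : Vec M) (γ : SL(2, ℤ)) :
    γ • dHol M v w = denomSqHol γ⁻¹ * dHol M (vecSL M v γ⁻¹) (vecSL M w γ⁻¹) := by
  unfold dHol
  rw [smul_sub, smul_wpHol, smul_wpHol, mul_sub]

/-- **Expansion** of `f_v - f_w` in `q_M = exp(2πiτ/M)` against the formal series of the MODEL,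
`ζ₀ = zetaM M = exp(2πi/M)`. -/
theorem hasSum_dHol {v w : Vec M} (hv : v ≠ 0) (hw : w ≠ 0) (τ : ℍ) :
    HasSum (fun N : ℕ => (eCoeff M (zetaM M) v N - eCoeff M (zetaM M) w N) * qM M τ ^ N)
      (((2 * π * I) ^ 2)⁻¹ * (dHol M v w : ℍ → ℂ) τ) := by
  have h := hasSum_sub_eCoeff M (not_dvd_val M hv) (not_dvd_val M hw) τ
  rw [vecZ_val, vecZ_val] at h
  rw [dHol_apply M hv hw]
  exact h

/-! ### Ratios -/

/-- The modular function `(f_v - f_w) / (f_v' - f_w')` of level `M`. -/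
noncomputable def Rfun (v w v' w' : Vec M) : MerFun :=
  algebraMap HolFun MerFun (dHol M v w) / algebraMap HolFun MerFun (dHol M v' w')

/-- **Transformation law**: `γ • R(v, w, v', w') = R(vγ⁻¹, wγ⁻¹, v'γ⁻¹, w'γ⁻¹)` for the `S24`
action `(γ • f) τ = f (γ⁻¹ • τ)`. -/
theorem smul_Rfun (v w v' w' : Vec M) (γ : SL(2, ℤ)) :
    γ • Rfun M v w v' w' =
      Rfun M (vecSL M v γ⁻¹) (vecSL M w γ⁻¹) (vecSL M v' γ⁻¹) (vecSL M w' γ⁻¹) := by
  unfold Rfun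
  rw [smul_div₀', MerFun.sl_smul_algebraMap, MerFun.sl_smul_algebraMap, smul_dHol, smul_dHol,
    map_mul, map_mul]
  exact mul_div_mul_left _ _ (algebraMap_ne_zero (denomSqHol_ne_zero γ⁻¹))

/-- The same law with `γ⁻¹`: `γ⁻¹ • R(v, w, v', w') = R(vγ, wγ, v'γ, w'γ)`. -/
theorem inv_smul_Rfun (v w v' w' : Vec M) (γ : SL(2, ℤ)) :
    γ⁻¹ • Rfun M v w v' w' =
      Rfun M (vecSL M v γ) (vecSL M w γ) (vecSL M v' γ) (vecSL M w' γ) := by
  rw [smul_Rfun, inv_inv]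

theorem isCuspMer_Rfun {v w v' w' : Vec M} (hv' : v' ≠ 0) (hw' : w' ≠ 0) (h1 : v' ≠ w')
    (h2 : v' ≠ -w') : IsCuspMer M (Rfun M v w v' w') :=
  ⟨dHol M v w, dHol M v' w', dHol_mem_cuspFnAlg M v w, dHol_mem_cuspFnAlg M v' w',
    dHol_ne_zero M hv' hw' h1 h2, rfl⟩

theorem isCuspMer_one_Rfun {b c b' c' : ZMod M} (hb' : b' ≠ 0) (hc' : c' ≠ 0) (h1 : b' ≠ c')
    (h2 : b' ≠ -c') : IsCuspMer 1 (Rfun M (0, b) (0, c) (0, b') (0, c')) := by
  have hv' : ((0, b') : Vec M) ≠ 0 := fun h => hb' (by simpa using congrArg Prod.snd h)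
  have hw' : ((0, c') : Vec M) ≠ 0 := fun h => hc' (by simpa using congrArg Prod.snd h)
  refine ⟨dHol M (0, b) (0, c), dHol M (0, b') (0, c'), dHol_zero_fst_mem_cuspFnAlg_one M b c,
    dHol_zero_fst_mem_cuspFnAlg_one M b' c', dHol_ne_zero M hv' hw' ?_ ?_, rfl⟩
  · intro h; exact h1 (by simpa using congrArg Prod.snd h)
  · intro h; exact h2 (by simpa using congrArg Prod.snd h)

theorem Rfun_ne_zero {v w v' w' : Vec M} (hv : v ≠ 0) (hw : w ≠ 0) (h1 : v ≠ w) (h2 : v ≠ -w)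
    (hv' : v' ≠ 0) (hw' : w' ≠ 0) (h1' : v' ≠ w') (h2' : v' ≠ -w') : Rfun M v w v' w' ≠ 0 :=
  div_ne_zero (algebraMap_ne_zero (dHol_ne_zero M hv hw h1 h2))
    (algebraMap_ne_zero (dHol_ne_zero M hv' hw' h1' h2'))

end Fermat.Agent.S48x.Ana
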