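import Mathlib
import Fermat.Agent.S48x.PPack.Holo
import Fermat.Agent.S48x.Model.Series

/-!
helper74 (P-S48, layer (a), slice (A1)).  Bridge between the analytic `q`-expansions of the
`℘`-division values (`PPack`) and the formal series `Model.eCoeff`, `Model.e1Coeff` of the MODEL:

* `wpCoeff_eq_eCoeff_add` : `wpCoeff M a b N = eCoeff M ζ₀ (a, b) N + constCoeff M N`,
  `ζ₀ = exp(2πi/M)`, with `constCoeff` independent of `(a, b)`;
* `hasSum_sub_eCoeff` : `(2πi)⁻² (f_v - f_w)(τ) = ∑_N (eCoeff v N - eCoeff w N) q_M^N`;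
* `hasSum_sub_e1Coeff` : for `v = (0, b)`, `w = (0, c)`:
  `(2πi)⁻² (f_v - f_w)(τ) = ∑_n (e1Coeff b n - e1Coeff c n) q^n`, `q = exp(2πiτ)`.
-/

set_option autoImplicit false

open UpperHalfPlane hiding I
open Complex
open scoped Real

namespace Fermat.Agent.S48x.Ana

open Fermat.Agent.S48x.PPack Fermat.Agent.S48x.Model

/-- The label `(a, b) mod M`. -/
def vecZ (M : ℕ) (a b : ℤ) : Vec M := ((a : ZMod M), (b : ZMod M))

/-- The part of `wpCoeff` which does not depend on the label. -/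
noncomputable def constCoeff (M N : ℕ) : ℂ :=
  if N = 0 then 1 / 12
  else -∑ x ∈ N.divisorsAntidiagonal, (if M ∣ x.2 then 2 * (x.1 : ℂ) else 0)

section

variable (M : ℕ) [NeZero M]

theorem zetaM_zpow_mul_eq (b : ℤ) (k : ℕ) :
    zetaM M ^ (b * (k : ℤ)) = zetaM M ^ ((b : ZMod M).val * k) := by
  rw [← zpow_natCast, Leading.zetaM_zpow_eq_zpow_iff]
  push_cast
  refine Int.ModEq.mul_right _ ?_
  rw [ZMod.val_intCast]
  exact (Int.mod_modEq b M).symm

theorem zetaM_zpow_neg_mul_eq (b : ℤ) (k : ℕ) :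
    zetaM M ^ (-(b * (k : ℤ))) = zetaM M ^ ((-(b : ZMod M)).val * k) := by
  have := zetaM_zpow_mul_eq M (-b) k
  rw [neg_mul] at this
  rw [this]
  push_cast
  rfl

omit [NeZero M] in
theorem natCast_eq_intCast_iff (d : ℕ) (a : ℤ) :
    ((d : ℕ) : ZMod M) = (a : ZMod M) ↔ (d : ℤ) ≡ a [ZMOD M] := by
  rw [← ZMod.intCast_eq_intCast_iff, Int.cast_natCast]

omit [NeZero M] in
theorem natCast_eq_neg_intCast_iff (d : ℕ) (a : ℤ) :
    ((d : ℕ) : ZMod M) = -(a : ZMod M) ↔ (d : ℤ) ≡ -a [ZMOD M] := by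
  rw [← ZMod.intCast_eq_intCast_iff, Int.cast_natCast, Int.cast_neg]

/-- The terms of `wpCoeff` and of `eCoeff` agree up to the label-independent part. -/
theorem wpTerm_eq (a b : ℤ) (d k : ℕ) :
    wpTerm M a b d k = (k : ℂ) * ((if ((d : ℕ) : ZMod M) = (vecZ M a b).1 then
        zetaM M ^ ((vecZ M a b).2.val * k) else 0) +
      (if ((d : ℕ) : ZMod M) = -(vecZ M a b).1 then zetaM M ^ ((-(vecZ M a b).2).val * k) else 0))
      - (if M ∣ d then 2 * (k : ℂ) else 0) := by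
  unfold wpTerm vecZ
  simp only [natCast_eq_intCast_iff, natCast_eq_neg_intCast_iff, zetaM_zpow_mul_eq,
    zetaM_zpow_neg_mul_eq]
  split_ifs <;> ring

/-- **Bridge to the MODEL.** -/
theorem wpCoeff_eq_eCoeff_add (a b : ℤ) (N : ℕ) :
    wpCoeff M a b N = eCoeff M (zetaM M) (vecZ M a b) N + constCoeff M N := by
  by_cases hN : N = 0
  · subst hN
    rw [wpCoeff_zero]
    unfold eCoeff constCoeff phiL
    simp only [if_true]
    have h1 : ((M : ℤ) ∣ a) ↔ (vecZ M a b).1 = 0 := by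
      unfold vecZ
      simp only
      rw [ZMod.intCast_zmod_eq_zero_iff_dvd]
    have h2 : zetaM M ^ b = zetaM M ^ (vecZ M a b).2.val := by
      have := zetaM_zpow_mul_eq M b 1
      simpa [vecZ] using this
    simp only [h1, h2]
    ring
  · rw [wpCoeff_of_ne_zero M a b hN]
    unfold eCoeff constCoeff
    simp only [if_neg hN]
    rw [← Nat.sum_divisorsAntidiagonal' (fun k d => wpTerm M a b d k)]
    rw [← sub_eq_add_neg, ← Finset.sum_sub_distrib]
    exact Finset.sum_congr rfl fun x _ => wpTerm_eq M a b x.2 x.1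

theorem wpCoeff_sub_eq (a b a' b' : ℤ) (N : ℕ) :
    wpCoeff M a b N - wpCoeff M a' b' N =
      eCoeff M (zetaM M) (vecZ M a b) N - eCoeff M (zetaM M) (vecZ M a' b') N := by
  rw [wpCoeff_eq_eCoeff_add, wpCoeff_eq_eCoeff_add]
  ring

/-- **(A1), period `M`.** The expansion of `f_v - f_w` in `q_M = exp(2πiτ/M)` against the formal
series of the MODEL. -/
theorem hasSum_sub_eCoeff {a b a' b' : ℤ} (hv : ¬ ((M : ℤ) ∣ a ∧ (M : ℤ) ∣ b))
    (hw : ¬ ((M : ℤ) ∣ a' ∧ (M : ℤ) ∣ b')) (τ : ℍ) :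
    HasSum (fun N : ℕ => (eCoeff M (zetaM M) (vecZ M a b) N -
        eCoeff M (zetaM M) (vecZ M a' b') N) * qM M τ ^ N)
      (((2 * π * I) ^ 2)⁻¹ * (wpDiv M a b τ - wpDiv M a' b' τ)) := by
  have h := (hasSum_wpDiv M hv τ).sub (hasSum_wpDiv M hw τ)
  rw [← mul_sub] at h
  refine h.congr_fun fun N => ?_
  rw [← wpCoeff_sub_eq, sub_mul]

/-! ### The period-one case `a = 0` -/

/-- The divisor pairs `(k, d)` of `M n` with `M ∣ d` are the pairs `(k, M d')`, `(k, d')` a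
divisor pair of `n`. -/
theorem sum_divisorsAntidiagonal_mul {α : Type*} [AddCommMonoid α] (n : ℕ) (g : ℕ → α) :
    ∑ x ∈ (M * n).divisorsAntidiagonal, (if M ∣ x.2 then g x.1 else 0) =
      ∑ y ∈ n.divisorsAntidiagonal, g y.1 := by
  have hM : 0 < M := NeZero.pos M
  rw [← Finset.sum_filter]
  refine (Finset.sum_nbij' (fun y : ℕ × ℕ => (y.1, M * y.2)) (fun x : ℕ × ℕ => (x.1, x.2 / M))
    ?_ ?_ ?_ ?_ ?_).symm
  · intro y hy
    rw [Nat.mem_divisorsAntidiagonal] at hy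
    simp only [Finset.mem_filter, Nat.mem_divisorsAntidiagonal]
    refine ⟨⟨?_, ?_⟩, Dvd.intro _ rfl⟩
    · rw [← hy.1]; ring
    · exact Nat.mul_ne_zero hM.ne' hy.2
  · intro x hx
    simp only [Finset.mem_filter, Nat.mem_divisorsAntidiagonal] at hx
    obtain ⟨⟨h1, h2⟩, c, hc⟩ := hx
    rw [Nat.mem_divisorsAntidiagonal]
    have hn : n ≠ 0 := fun h0 => h2 (by rw [h0, mul_zero])
    refine ⟨?_, hn⟩
    simp only
    rw [hc, Nat.mul_div_cancel_left _ hM]
    rw [hc] at h1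
    have : M * (x.1 * c) = M * n := by rw [← h1]; ring
    exact Nat.eq_of_mul_eq_mul_left hM this
  · intro y _
    simp only [Nat.mul_div_cancel_left _ hM]
  · intro x hx
    simp only [Finset.mem_filter] at hx
    obtain ⟨-, c, hc⟩ := hx
    simp only [hc, Nat.mul_div_cancel_left _ hM]
    exact Prod.ext rfl hc.symm
  · intro y _
    rfl

/-- For `a = 0` the series `e_v` only involves powers of `q = z^M`. -/
theorem eCoeff_zero_fst {R : Type*} [Field R] (ζ : R) (β : ZMod M) (N : ℕ) :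
    eCoeff M ζ ((0, β) : Vec M) N = if M ∣ N then e1Coeff M ζ β (N / M) else 0 := by
  have hM : 0 < M := NeZero.pos M
  by_cases hN : N = 0
  · subst hN
    simp [eCoeff, e1Coeff]
  · unfold eCoeff
    simp only [if_neg hN, neg_zero, ZMod.natCast_eq_zero_iff]
    have hterm : ∀ x : ℕ × ℕ, (x.1 : R) * ((if M ∣ x.2 then ζ ^ (β.val * x.1) else 0) +
        (if M ∣ x.2 then ζ ^ ((-β).val * x.1) else 0)) =
        if M ∣ x.2 then (x.1 : R) * (ζ ^ (β.val * x.1) + ζ ^ ((-β).val * x.1)) else 0 := by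
      intro x
      split_ifs <;> simp
    simp only [hterm]
    by_cases hMN : M ∣ N
    · obtain ⟨n, rfl⟩ := hMN
      have hn : n ≠ 0 := fun h0 => hN (by rw [h0, mul_zero])
      rw [if_pos (Dvd.intro _ rfl), Nat.mul_div_cancel_left _ hM]
      rw [sum_divisorsAntidiagonal_mul M n
        (fun k => (k : R) * (ζ ^ (β.val * k) + ζ ^ ((-β).val * k)))]
      unfold e1Coeff
      rw [if_neg hn]
    · rw [if_neg hMN]
      refine Finset.sum_eq_zero fun x hx => ?_
      rw [Nat.mem_divisorsAntidiagonal] at hx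
      rw [if_neg]
      intro hdvd
      exact hMN (hx.1 ▸ Dvd.dvd.mul_left hdvd x.1)

omit [NeZero M] in
theorem vecZ_zero_fst (b : ℤ) : vecZ M 0 b = ((0, (b : ZMod M)) : Vec M) := by
  simp [vecZ]

/-- **(A1), period one.** For `v = (0, b)`, `w = (0, c)` the expansion of `f_v - f_w` in
`q = exp(2πiτ)` against the series `e1` of the MODEL. -/
theorem hasSum_sub_e1Coeff {b c : ℤ} (hb : ¬ (M : ℤ) ∣ b) (hc : ¬ (M : ℤ) ∣ c) (τ : ℍ) :
    HasSum (fun n : ℕ => (e1Coeff M (zetaM M) (b : ZMod M) n -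
        e1Coeff M (zetaM M) (c : ZMod M) n) * nome τ ^ n)
      (((2 * π * I) ^ 2)⁻¹ * (wpDiv M 0 b τ - wpDiv M 0 c τ)) := by
  have hM : 0 < M := NeZero.pos M
  have h := hasSum_sub_eCoeff M (a := 0) (b := b) (a' := 0) (b' := c)
    (fun h => hb h.2) (fun h => hc h.2) τ
  simp only [vecZ_zero_fst, eCoeff_zero_fst] at h
  have hg : Function.Injective (fun n : ℕ => M * n) := fun n n' hnn =>
    Nat.eq_of_mul_eq_mul_left hM hnn
  rw [← hg.hasSum_iff] at h
  · refine h.congr_fun fun n => ?_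
    simp only [Function.comp_apply, if_pos (Dvd.intro n rfl), Nat.mul_div_cancel_left _ hM]
    rw [pow_mul, qM_pow]
  · intro N hN
    have : ¬ M ∣ N := fun ⟨n, hn⟩ => hN ⟨n, hn.symm⟩
    simp only [if_neg this, sub_self, zero_mul]

end

end Fermat.Agent.S48x.Ana
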