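import Mathlib
import Fermat.Agent.S48x.PPack.Holo
import Fermat.Agent.S48x.Ana.WpExpansion
import Fermat.Agent.S24.QExp

/-!
helper74 (P-S48, layer (a), slice (A1')).  The period-one generators: for `b ≢ 0 mod M` the
function `wp0 M b : τ ↦ ℘(b/M; ℤ + ℤτ)` as an element of `S24.QExp.PerFun`, with
`qLaurent (wp0 M b) = (2πi)² • (e1Series M ζ₀ b + c1Series M)`, where `c1Series M` does not
depend on `b`; hence `qLaurent (wp0 b - wp0 c) = (2πi)² • (e1Series b - e1Series c)`.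
Transformation under `Γ₀(M)`: `wp0 b (γ τ) = (cτ+d)² wp0 (b d) τ`.
-/

set_option autoImplicit false

open UpperHalfPlane hiding I
open Complex Filter
open scoped Real MatrixGroups

namespace Fermat.Agent.S48x.Ana

open Fermat.Agent.S48x.PPack Fermat.Agent.S48x.Model
open Fermat.Agent.S24 Fermat.Agent.S24.QExp

theorem nome_eq_qH (τ : ℍ) : nome τ = qH τ := by
  simp [nome, qH, Function.Periodic.qParam]

section

variable (M : ℕ) [NeZero M]

/-- The label-independent part of the `q`-expansion of the `f_(0,b)`. -/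
noncomputable def c1Coeff (n : ℕ) : ℂ := constCoeff M (M * n)

omit [NeZero M] in
theorem constCoeff_of_not_dvd {N : ℕ} (h : ¬ M ∣ N) : constCoeff M N = 0 := by
  have hN : N ≠ 0 := fun h0 => h (h0 ▸ dvd_zero M)
  unfold constCoeff
  rw [if_neg hN, neg_eq_zero]
  refine Finset.sum_eq_zero fun x hx => ?_
  rw [Nat.mem_divisorsAntidiagonal] at hx
  rw [if_neg]
  intro hdvd
  exact h (hx.1 ▸ Dvd.dvd.mul_left hdvd x.1)

/-- The coefficients of the `q`-expansion of `(2πi)⁻² f_(0,b)`. -/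
noncomputable def wp0Coeff (b : ℤ) (n : ℕ) : ℂ :=
  e1Coeff M (zetaM M) (b : ZMod M) n + c1Coeff M n

theorem wpCoeff_zero_fst (b : ℤ) (N : ℕ) :
    wpCoeff M 0 b N = if M ∣ N then wp0Coeff M b (N / M) else 0 := by
  have hM : 0 < M := NeZero.pos M
  rw [wpCoeff_eq_eCoeff_add, vecZ_zero_fst, eCoeff_zero_fst]
  by_cases h : M ∣ N
  · obtain ⟨n, rfl⟩ := h
    rw [if_pos (Dvd.intro n rfl), if_pos (Dvd.intro n rfl), Nat.mul_div_cancel_left _ hM]
    rfl
  · rw [if_neg h, if_neg h, constCoeff_of_not_dvd M h, add_zero]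

/-- The `q`-expansion of `f_(0,b)`. -/
theorem hasSum_wp0 {b : ℤ} (hb : ¬ (M : ℤ) ∣ b) (τ : ℍ) :
    HasSum (fun n : ℕ => wp0Coeff M b n * nome τ ^ n) (((2 * π * I) ^ 2)⁻¹ * wpDiv M 0 b τ) := by
  have hM : 0 < M := NeZero.pos M
  have h := hasSum_wpDiv M (a := 0) (b := b) (fun h => hb h.2) τ
  simp only [wpCoeff_zero_fst] at h
  have hg : Function.Injective (fun n : ℕ => M * n) := fun n n' hnn =>
    Nat.eq_of_mul_eq_mul_left hM hnn
  rw [← hg.hasSum_iff] at h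
  · refine h.congr_fun fun n => ?_
    simp only [Function.comp_apply, if_pos (Dvd.intro n rfl), Nat.mul_div_cancel_left _ hM]
    rw [pow_mul, qM_pow]
  · intro N hN
    have : ¬ M ∣ N := fun ⟨n, hn⟩ => hN ⟨n, hn.symm⟩
    simp only [if_neg this, zero_mul]

theorem hasSum_wp0_qH {b : ℤ} (hb : ¬ (M : ℤ) ∣ b) (τ : ℍ) :
    HasSum (fun n : ℕ => ((2 * π * I) ^ 2 * wp0Coeff M b n) • qH τ ^ n) (wpDiv M 0 b τ) := by
  have h2pi : ((2 * π * I : ℂ)) ^ 2 ≠ 0 := pow_ne_zero _ Complex.two_pi_I_ne_zero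
  have := (hasSum_wp0 M hb τ).mul_left ((2 * π * I) ^ 2)
  rw [mul_inv_cancel_left₀ h2pi, nome_eq_qH] at this
  refine this.congr_fun fun n => ?_
  rw [smul_eq_mul, mul_assoc]

theorem isPer_wpDiv_zero {b : ℤ} (hb : ¬ (M : ℤ) ∣ b) : IsPer 1 (wpDiv M 0 b) := by
  intro τ
  have h1 := hasSum_wp0_qH M hb ((1 : ℝ) +ᵥ τ)
  have h2 := hasSum_wp0_qH M hb τ
  rw [qH_isPer τ] at h1
  exact h1.unique h2

theorem nice_wpDiv_zero {b : ℤ} (hb : ¬ (M : ℤ) ∣ b) : Nice (wpDiv M 0 b) where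
  mdiff := mdifferentiable_wpDiv M (fun h => hb h.2)
  per := isPer_wpDiv_zero M hb
  bdd := isBoundedAtImInfty_wpDiv M (fun h => hb h.2)

theorem modGrowth_wpDiv_zero {b : ℤ} (hb : ¬ (M : ℤ) ∣ b) : ModGrowth (wpDiv M 0 b) :=
  modGrowth_iff.mpr ⟨0, qBdd_zero_iff.mpr (nice_wpDiv_zero M hb).bdd⟩

/-- The period-one generator `τ ↦ ℘(b/M; ℤ + ℤτ)` as an element of `PerFun`. -/
noncomputable def wp0 (b : ℤ) (hb : ¬ (M : ℤ) ∣ b) : PerFun :=
  PerFun.mk (wpDiv M 0 b) (nice_wpDiv_zero M hb).mdiff (nice_wpDiv_zero M hb).per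
    (modGrowth_wpDiv_zero M hb)

@[simp] theorem fn_wp0 (b : ℤ) (hb : ¬ (M : ℤ) ∣ b) : fn (wp0 M b hb) = wpDiv M 0 b := rfl

theorem qExpansion_wpDiv_zero {b : ℤ} (hb : ¬ (M : ℤ) ∣ b) :
    qExpansion 1 (wpDiv M 0 b) = PowerSeries.mk (fun n => (2 * π * I) ^ 2 * wp0Coeff M b n) :=
  (nice_wpDiv_zero M hb).qExpansion_unique (hasSum_wp0_qH M hb)

/-- The label-independent series. -/
noncomputable def c1Series : LaurentSeries ℂ :=
  HahnSeries.ofPowerSeries ℤ ℂ (PowerSeries.mk (c1Coeff M))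

/-- **(A1')** The `q`-expansion of the period-one generator. -/
theorem qLaurent_wp0 (b : ℤ) (hb : ¬ (M : ℤ) ∣ b) :
    qLaurent (wp0 M b hb) =
      ((2 * π * I) ^ 2 : ℂ) • (e1Series M (zetaM M) (b : ZMod M) + c1Series M) := by
  rw [qLaurent_of_bdd _ (by rw [fn_wp0]; exact (nice_wpDiv_zero M hb).bdd), fn_wp0,
    qExpansion_wpDiv_zero M hb, e1Series, c1Series, ← map_add]
  have : PowerSeries.mk (fun n => (2 * π * I) ^ 2 * wp0Coeff M b n) =
      PowerSeries.C ((2 * π * I) ^ 2 : ℂ) *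
        (e1Pow M (zetaM M) (b : ZMod M) + PowerSeries.mk (c1Coeff M)) := by
    ext n
    rw [PowerSeries.coeff_mk, PowerSeries.coeff_C_mul, map_add, e1Pow, PowerSeries.coeff_mk,
      PowerSeries.coeff_mk]
    rfl
  rw [this, map_mul, HahnSeries.ofPowerSeries_C, HahnSeries.C_mul_eq_smul]

/-- **(A1')** for differences: no label-independent part. -/
theorem qLaurent_wp0_sub (b c : ℤ) (hb : ¬ (M : ℤ) ∣ b) (hc : ¬ (M : ℤ) ∣ c) :
    qLaurent (wp0 M b hb - wp0 M c hc) =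
      ((2 * π * I) ^ 2 : ℂ) • (e1Series M (zetaM M) (b : ZMod M) -
        e1Series M (zetaM M) (c : ZMod M)) := by
  rw [map_sub qLaurent, qLaurent_wp0, qLaurent_wp0]
  have : e1Series M (zetaM M) (b : ZMod M) - e1Series M (zetaM M) (c : ZMod M) =
      (e1Series M (zetaM M) (b : ZMod M) + c1Series M) -
        (e1Series M (zetaM M) (c : ZMod M) + c1Series M) := by ring
  rw [this, smul_sub]

/-- `wp0 b = wp0 c ↔ b ≡ ± c mod M`. -/
theorem wp0_eq_iff (b c : ℤ) (hb : ¬ (M : ℤ) ∣ b) (hc : ¬ (M : ℤ) ∣ c) :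
    wp0 M b hb = wp0 M c hc ↔ (b ≡ c [ZMOD M] ∨ b ≡ -c [ZMOD M]) := by
  have h1 : wp0 M b hb = wp0 M c hc ↔ wpDiv M 0 b = wpDiv M 0 c := by
    constructor
    · intro h
      have := congrArg fn h
      simpa using this
    · intro h
      apply fn_injective
      simpa using h
  rw [h1, wpDiv_eq_iff M (fun h => hb h.2) (fun h => hc h.2)]
  unfold PMEq
  simp [Int.ModEq.refl]

/-- Transformation under `Γ₀(M)`: the diamond law `b ↦ b d`. -/
theorem wpDiv_zero_smul_of_mem_Gamma0 (b : ℤ) {γ : SL(2, ℤ)}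
    (hγ : γ ∈ CongruenceSubgroup.Gamma0 M) (τ : ℍ) :
    wpDiv M 0 b (γ • τ) = denom γ τ ^ 2 * wpDiv M 0 (b * γ 1 1) τ := by
  rw [wpDiv_smul]
  congr 1
  have h10 : ((γ 1 0 : ℤ) : ZMod M) = 0 := by
    simpa [CongruenceSubgroup.Gamma0_mem] using hγ
  have hdvd : (M : ℤ) ∣ γ 1 0 := (ZMod.intCast_zmod_eq_zero_iff_dvd _ _).mp h10
  refine congrFun (wpDiv_congr M ?_ ?_) τ
  · rw [zero_mul, zero_add]
    exact (Int.modEq_zero_iff_dvd.mpr (Dvd.dvd.mul_left hdvd b))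
  · rw [zero_mul, zero_add]

end

end Fermat.Agent.S48x.Ana
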