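import Mathlib
import Fermat.Agent.S48x.Ana.Emb1
import Fermat.Agent.S48x.Ana.WpHolo
import Fermat.Agent.S48x.Ana.WpPer
import Fermat.Agent.S48x.Model.Stab
import Fermat.Agent.S48x.Model.DescentHyp
import Fermat.Agent.S48x.PPack.CycloUnit
import Fermat.Agent.Gateway.Dict.QExpMer

/-!
# P-S48, layer (a), slice (A5) (helper8): the analytic uniformisation of `X₁(M)`, instantiated

* `wpData M : WpData M (zetaM M)`: the analytic inputs from the landed P-pack files
  (`Ana/WpHolo`, `Ana/WpPer`): `w b = wpHol M (0, b)`, `κ = (2πi)²`.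
* `rigidHyp` from `Model/Stab` (`8 ≤ M`).
* `embData1 ι ζ hM hζ hι : EmbData L (laurentBaseChange L (gamma1Field M)) ι (jF1R L M) (Gamma1pm M)`
  for any field `L ⊇ ℚ`, `ι : L →+* ℂ`, `ζ : L` a primitive `M`-th root of unity with
  `ι ζ = zetaM M`; its values on generators, cusp-meromorphy, `q`-expansion link (`HasQ`), and the
  slash law of `Γ₀(M)` on generators.
* `exists_zeta`: such a `ζ` exists when `L` is algebraically closed of characteristic zero.
* `embDataC hM`: the case `L = ℂ`, `ι = id`.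
-/

set_option autoImplicit false
set_option linter.unusedSectionVars false
set_option linter.style.haveILetI false

noncomputable section

open ModularCurve
open UpperHalfPlane hiding I
open Complex
open scoped MatrixGroups Real

namespace Fermat.Agent.S48x.Ana.Emb1

open Fermat.Agent.S24 Fermat.Agent.S24.QExp Fermat.Agent.S24.CuspOrd Fermat.Agent.S24.JLevel
open Fermat.Agent.S24.JD Fermat.Agent.S24.Embed Fermat.Agent.S24.EmbedGen
open Fermat.Agent.S24.Conj
open Fermat.Agent.Gateway.Dict.ConjAbs Fermat.Agent.Gateway.Dict.QExpMer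
open Fermat.Agent.S48x.Model Fermat.Agent.S48x.G1 Fermat.Agent.S48x.PPack
open Fermat.Agent.S48x.PPack.CycloUnit
open CongruenceSubgroup

/-! ### The analytic inputs from the P-pack -/

section WpInst

variable (M : ℕ) [NeZero M]

theorem zeroVec_ne_zero {b : ZMod M} (hb : b ≠ 0) : ((0, b) : Vec M) ≠ 0 :=
  fun h => hb (by simpa using congrArg Prod.snd h)

theorem not_dvd_val_of_ne_zero {b : ZMod M} (hb : b ≠ 0) : ¬ (M : ℤ) ∣ ((b.val : ℕ) : ℤ) := by
  intro h
  apply hb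
  have h1 := (ZMod.intCast_zmod_eq_zero_iff_dvd ((b.val : ℕ) : ℤ) M).mpr h
  rwa [Int.cast_natCast, ZMod.natCast_zmod_val] at h1

theorem wpHol_zero_fst_mem_PerFun (b : ZMod M) : wpHol M (0, b) ∈ PerFun := by
  have h := wpHol_zero_fst_mem_cuspFnAlg_one M b
  rw [mem_cuspFnAlg] at h
  refine ⟨?_, h.growth⟩
  intro z
  have h3 := h.isPer z
  simpa using h3

theorem wpHol_zero_fst_eq_wp0 {b : ZMod M} (hb : b ≠ 0) :
    wpHol M (0, b) =
      ((wp0 M ((b.val : ℕ) : ℤ) (not_dvd_val_of_ne_zero M hb) : PerFun) : HolFun) := by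
  apply HolFun.ext
  intro τ
  rw [wpHol_apply M (zeroVec_ne_zero M hb)]
  show wpVec M (0, b) τ = wpDiv M 0 ((b.val : ℕ) : ℤ) τ
  unfold wpVec
  simp only [ZMod.val_zero, Nat.cast_zero]

theorem qLaurent_wpHol_sub {b c : ZMod M} (hb : b ≠ 0) (hc : c ≠ 0)
    (hW : wpHol M (0, b) - wpHol M (0, c) ∈ PerFun) :
    qLaurent ⟨wpHol M (0, b) - wpHol M (0, c), hW⟩ =
      ((2 * π * I) ^ 2 : ℂ) • (e1Series M (zetaM M) b - e1Series M (zetaM M) c) := by
  have h := qLaurent_wp0_sub M ((b.val : ℕ) : ℤ) ((c.val : ℕ) : ℤ)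
    (not_dvd_val_of_ne_zero M hb) (not_dvd_val_of_ne_zero M hc)
  have hb' : ((((b.val : ℕ) : ℤ)) : ZMod M) = b := by
    rw [Int.cast_natCast, ZMod.natCast_zmod_val]
  have hc' : ((((c.val : ℕ) : ℤ)) : ZMod M) = c := by
    rw [Int.cast_natCast, ZMod.natCast_zmod_val]
  rw [hb', hc'] at h
  rw [← h]
  congr 1
  apply Subtype.ext
  show wpHol M (0, b) - wpHol M (0, c) = _
  rw [wpHol_zero_fst_eq_wp0 M hb, wpHol_zero_fst_eq_wp0 M hc]
  rfl

theorem inv_lowerLeft_eq_zero {γ : SL(2, ℤ)} (hγ : γ ∈ Gamma0 M) :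
    (((γ⁻¹ : SL(2, ℤ)) 1 0 : ℤ) : ZMod M) = 0 := by
  have h := (Gamma0 M).inv_mem hγ
  rwa [Gamma0_mem] at h

/-- **The analytic inputs**, from the P-pack. -/
def wpData : WpData M (zetaM M) where
  w b := wpHol M (0, b)
  perFun b _ := wpHol_zero_fst_mem_PerFun M b
  neg b := by
    have h : ((0, -b) : Vec M) = -((0, b) : Vec M) := by ext <;> simp
    rw [h, wpHol_neg]
  κ := (2 * π * I) ^ 2
  hκ := pow_ne_zero _ Complex.two_pi_I_ne_zero
  qexp b c hb hc hW := qLaurent_wpHol_sub M hb hc hW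
  slash_cusp g := ⟨algebraMap HolFun MerFun (denomSqHol g⁻¹), fun b _ =>
    ⟨wpHol M (vecSL M (0, b) g⁻¹), wpHol_mem_cuspFnAlg M _, by
      rw [MerFun.sl_smul_algebraMap, smul_wpHol, map_mul]⟩⟩
  slash_Gamma0 γ hγ := ⟨algebraMap HolFun MerFun (denomSqHol γ⁻¹),
    algebraMap_ne_zero (denomSqHol_ne_zero γ⁻¹), fun b _ => by
      rw [MerFun.sl_smul_algebraMap, smul_wpHol, map_mul,
        vecSL_zero_fst M b (inv_lowerLeft_eq_zero M hγ), mul_comm b]
      rfl⟩

@[simp] theorem wpData_w (b : ZMod M) : (wpData M).w b = wpHol M (0, b) := rfl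

/-- The ratios of `Emb1` for the P-pack inputs are the ratios of `Ana/WpHolo`. -/
theorem Rfun_wpData (b c b' c' : ZMod M) :
    Rfun (wpData M) b c b' c' = Ana.Rfun M (0, b) (0, c) (0, b') (0, c') := by
  rw [Rfun, Ana.Rfun, dHol, dHol, map_sub, map_sub]
  rfl

/-- The formal rigidity statement, from `Model/Stab`. -/
theorem rigidHyp {R : Type*} [Field R] {ζ : R} (hM : 8 ≤ M) (hζ : IsPrimitiveRoot ζ M) :
    RigidHyp M ζ :=
  fun d h => unit_eq_one_or_neg_one_of_ratio1_eq hM hζ d h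

end WpInst

/-! ### Roots of unity -/

/-- In an algebraically closed field of characteristic zero embedded in `ℂ` there is a primitive
`M`-th root of unity mapping to `zetaM M = exp(2πi/M)`. -/
theorem exists_zeta {L : Type*} [Field L] [IsAlgClosed L] [CharZero L] (ι : L →+* ℂ) (M : ℕ)
    [NeZero M] : ∃ ζ : L, IsPrimitiveRoot ζ M ∧ ι ζ = zetaM M := by
  haveI : NeZero ((M : ℕ) : L) := ⟨Nat.cast_ne_zero.mpr (NeZero.ne M)⟩
  obtain ⟨ζ', hζ'⟩ := HasEnoughRootsOfUnity.exists_primitiveRoot L M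
  have h1 : IsPrimitiveRoot (ι ζ') M := hζ'.map_of_injective ι.injective
  obtain ⟨i, -, hi⟩ := h1.eq_pow_of_pow_eq_one (isPrimitiveRoot_zetaM M).pow_eq_one
  refine ⟨ζ' ^ i, ?_, ?_⟩
  · apply IsPrimitiveRoot.of_map_of_injective (f := ι) _ ι.injective
    rw [map_pow, hi]
    exact isPrimitiveRoot_zetaM M
  · rw [map_pow, hi]

/-! ### Generalities on `equivOfEq` (kept generic: `rfl` through `equivOfEq` is expensive for the
kernel at concrete intermediate fields) -/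

section Gen

variable {K E : Type*} [Field K] [Field E] [Algebra K E] {S T : IntermediateField K E}

theorem coe_equivOfEq_apply (h : S = T) (x : ↥S) :
    ((IntermediateField.equivOfEq h x : ↥T) : E) = x := rfl

theorem coe_equivOfEq_symm_apply (h : S = T) (y : ↥T) :
    (((IntermediateField.equivOfEq h).symm y : ↥S) : E) = y := rfl

end Gen

/-! ### The rational form `laurentBaseChange L (gamma1Field M)` -/

section F1

variable {M : ℕ} [NeZero M] {L : Type*} [Field L] [Algebra ℚ L]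

theorem jqModC_mem_laurentBaseChange :
    jqModC L ∈ laurentBaseChange L (gamma1Field M) := by
  have h := coeffEmb_mem_laurentBaseChange L (jqd_mem_gamma1Field (M := M) (d := 1) (one_dvd M))
  rwa [coeffEmb_qExpand_jq, qExpand_one_apply] at h

/-- The function `j` in the rational form of the function field of `X₁(M)`. -/
def jF1R (L : Type*) [Field L] [Algebra ℚ L] (M : ℕ) [NeZero M] :
    ↥(laurentBaseChange L (gamma1Field M)) := ⟨jqModC L, jqModC_mem_laurentBaseChange⟩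

@[simp] theorem coe_jF1R : ((jF1R L M : ↥(laurentBaseChange L (gamma1Field M))) :
    LaurentSeries L) = jqModC L := rfl

variable (ι : L →+* ℂ) (ζ : L)

/-- The identification `laurentBaseChange L (gamma1Field M) ≃ gamma1FieldC M ζ` from (GEN). -/
def f1Equiv (hζ : IsPrimitiveRoot ζ M) :
    ↥(laurentBaseChange L (gamma1Field M)) ≃ₐ[L] ↥(gamma1FieldC M ζ) :=
  IntermediateField.equivOfEq (laurentBaseChange_gamma1Field_eq hζ)

theorem coe_f1Equiv (hζ : IsPrimitiveRoot ζ M) (x : ↥(laurentBaseChange L (gamma1Field M))) :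
    ((f1Equiv ζ hζ x : ↥(gamma1FieldC M ζ)) : LaurentSeries L) = x :=
  coe_equivOfEq_apply (laurentBaseChange_gamma1Field_eq hζ) x

theorem f1Equiv_jF1R (hζ : IsPrimitiveRoot ζ M) : f1Equiv ζ hζ (jF1R L M) = jF1 ζ := by
  apply Subtype.ext
  rw [coe_f1Equiv]
  rfl

/-- **The analytic uniformisation of `X₁(M)`, rational form.** -/
def embData1 (hM : 8 ≤ M) (hζ : IsPrimitiveRoot ζ M) (hι : ι ζ = zetaM M) :
    EmbData L ↥(laurentBaseChange L (gamma1Field M)) ι (jF1R L M) (Gamma1pm M) :=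
  (embData (wpData M) ι ζ hι (rigidHyp M hM hζ)).compEquiv (f1Equiv ζ hζ) (f1Equiv_jF1R ζ hζ)

variable {ι ζ}

theorem embData1_emb (hM : 8 ≤ M) (hζ : IsPrimitiveRoot ζ M) (hι : ι ζ = zetaM M)
    (x : ↥(laurentBaseChange L (gamma1Field M))) :
    (embData1 ι ζ hM hζ hι).emb x = emb (wpData M) ι ζ hι (f1Equiv ζ hζ x) :=
  compEquiv_emb _ _ _ x

/-- (ii) every translate of every value is cusp-meromorphic of level `M`. -/
theorem hcusp_embData1 (hM : 8 ≤ M) (hζ : IsPrimitiveRoot ζ M) (hι : ι ζ = zetaM M)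
    (f : ↥(laurentBaseChange L (gamma1Field M))) (g : SL(2, ℤ)) :
    IsCuspMer M (g • (embData1 ι ζ hM hζ hι).emb f) := by
  rw [embData1_emb]
  exact isCuspMer_smul_emb (wpData M) hι _ g

/-- (v) the `q`-expansion link. -/
theorem hasQ_embData1 (hM : 8 ≤ M) (hζ : IsPrimitiveRoot ζ M) (hι : ι ζ = zetaM M)
    (f : ↥(laurentBaseChange L (gamma1Field M))) :
    HasQ ((embData1 ι ζ hM hζ hι).emb f) (coeffMap ι (f : LaurentSeries L)) := by
  rw [embData1_emb]
  have h := emb_frac (wpData M) hι (f1Equiv ζ hζ f)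
  rwa [coe_f1Equiv] at h

/-- (iii) the value at `ratio1 b c b' c'`. -/
theorem embData1_ratio1 (hM : 8 ≤ M) (hζ : IsPrimitiveRoot ζ M) (hι : ι ζ = zetaM M)
    {b c b' c' : ZMod M} (hb : b ≠ 0) (hc : c ≠ 0) (hb' : b' ≠ 0) (hc' : c' ≠ 0)
    (x : ↥(laurentBaseChange L (gamma1Field M)))
    (hx : (x : LaurentSeries L) = ratio1 M ζ b c b' c') :
    (embData1 ι ζ hM hζ hι).emb x = Ana.Rfun M (0, b) (0, c) (0, b') (0, c') := by
  rw [embData1_emb, ← Rfun_wpData, ← emb_ratio1F (wpData M) hι hb hc hb' hc']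
  congr 1
  apply Subtype.ext
  rw [coe_f1Equiv, hx]
  rfl

/-- (iii) the value at `j(q^d)`, `d ∣ M`. -/
theorem embData1_jd (hM : 8 ≤ M) (hζ : IsPrimitiveRoot ζ M) (hι : ι ζ = zetaM M)
    {d : ℕ} [NeZero d] (hd : d ∣ M) (x : ↥(laurentBaseChange L (gamma1Field M)))
    (hx : (x : LaurentSeries L) = qExpand L d (jqModC L)) :
    (embData1 ι ζ hM hζ hι).emb x = algebraMap HolFun MerFun (jd d) := by
  rw [embData1_emb, ← emb_jdF (wpData M) hι hd]
  congr 1
  apply Subtype.ext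
  rw [coe_f1Equiv, hx]
  rfl

/-- The slash law of `Γ₀(M)` on the generators `j(q^e)`. -/
theorem embData1_slash_j (hM : 8 ≤ M) (hζ : IsPrimitiveRoot ζ M) (hι : ι ζ = zetaM M)
    {g : SL(2, ℤ)} (hg : g ∈ Gamma0 M) {e : ℕ} [NeZero e] (he : e ∣ M)
    (x : ↥(laurentBaseChange L (gamma1Field M)))
    (hx : (x : LaurentSeries L) = qExpand L e (jqModC L)) :
    g • (embData1 ι ζ hM hζ hι).emb x = (embData1 ι ζ hM hζ hι).emb x := by
  rw [embData1_jd hM hζ hι he x hx, MerFun.sl_smul_algebraMap, smul_jd_of_mem_Gamma0 he hg]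

/-- The slash law of `Γ₀(M)` on the generators `ratio1 b c b' c'`:
`g • emb ⟨ratio1 b c b' c'⟩ = emb ⟨ratio1 (d b) (d c) (d b') (d c')⟩`, `d = lr M g⁻¹`. -/
theorem embData1_slash_ratio1 (hM : 8 ≤ M) (hζ : IsPrimitiveRoot ζ M) (hι : ι ζ = zetaM M)
    {g : SL(2, ℤ)} (hg : g ∈ Gamma0 M) {b c b' c' : ZMod M} (hb : b ≠ 0) (hc : c ≠ 0)
    (hb' : b' ≠ 0) (hc' : c' ≠ 0) (x y : ↥(laurentBaseChange L (gamma1Field M)))
    (hx : (x : LaurentSeries L) = ratio1 M ζ b c b' c')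
    (hy : (y : LaurentSeries L) =
      ratio1 M ζ (lr M g⁻¹ * b) (lr M g⁻¹ * c) (lr M g⁻¹ * b') (lr M g⁻¹ * c')) :
    g • (embData1 ι ζ hM hζ hι).emb x = (embData1 ι ζ hM hζ hι).emb y := by
  rw [embData1_ratio1 hM hζ hι hb hc hb' hc' x hx,
    embData1_ratio1 hM hζ hι (lr_inv_mul_ne_zero hg hb) (lr_inv_mul_ne_zero hg hc)
      (lr_inv_mul_ne_zero hg hb') (lr_inv_mul_ne_zero hg hc') y hy,
    ← Rfun_wpData, ← Rfun_wpData, smul_Rfun (wpData M) hg hb hc hb' hc']

end F1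

/-! ### The case `L = ℂ` -/

section Complex

variable {M : ℕ} [NeZero M]

/-- **(i) for `L = ℂ`, `ι = id`.** -/
def embDataC (hM : 8 ≤ M) :
    EmbData ℂ ↥(laurentBaseChange ℂ (gamma1Field M)) (RingHom.id ℂ) (jF1R ℂ M) (Gamma1pm M) :=
  embData1 (RingHom.id ℂ) (zetaM M) hM (isPrimitiveRoot_zetaM M) rfl

theorem hcusp_embDataC (hM : 8 ≤ M) (f : ↥(laurentBaseChange ℂ (gamma1Field M)))
    (g : SL(2, ℤ)) : IsCuspMer M (g • (embDataC hM).emb f) :=
  hcusp_embData1 hM _ _ f g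

theorem hasQ_embDataC (hM : 8 ≤ M) (f : ↥(laurentBaseChange ℂ (gamma1Field M))) :
    HasQ ((embDataC hM).emb f) (f : LaurentSeries ℂ) := by
  have h := hasQ_embData1 (ι := RingHom.id ℂ) hM (isPrimitiveRoot_zetaM M) rfl f
  have h2 : coeffMap (RingHom.id ℂ) (f : LaurentSeries ℂ) = f := by
    ext n
    rfl
  rwa [h2] at h

end Complex

end Fermat.Agent.S48x.Ana.Emb1
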