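import Fermat.Agent.S48x.Ana.DegreeBCLevel
import Fermat.Agent.S48x.Ana.Emb1Inst
import Fermat.Agent.S27x.G1.DegreeGamma

/-!
# P-S48, G1: `F1_L = laurentBaseChange L (gamma1Field M)` is finite over `L(j)` (helper80)

INSTANTIATION of `Ana/DegreeBC` + `S27x/G1/DegreeGamma` at helper8's analytic uniformisation
`Ana/Emb1Inst.embDataC` of `X₁(M)`, `8 ≤ M`:

* `finiteDimensional_complex`, `finrank_complex` : over `ℂ`, `[F1_ℂ : ℂ(j)] = [SL(2,ℤ) : ±Γ₁(M)]`;
* `finiteDimensional_and_finrank` : the same over ANY field `L ⊇ ℚ` with an embedding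
  `ι : L →+* ℂ` (no root of unity, no algebraic closedness needed) by descent of the degree;
* `transcendental_jF1R`;
* `jq_mem_gamma1Field`, `jG_eq_jF1R`, `finiteDimensional_jG` : the instance argument of
  `HeckeFF/Level` (`ffInputs_levelField`, `heckeL`, ...) for `F₀ = gamma1Field M`;
* `ffInputs_levelField_gamma1` : ALL Prelude inputs of the Hecke correspondence `T_p` on
  `Pic⁰ (F1_L)`, hypothesis-free (`L` algebraically closed of characteristic zero, `L ↪ ℂ`).
-/

set_option autoImplicit false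
set_option linter.unusedSectionVars false
set_option linter.style.haveILetI false

noncomputable section

open ModularCurve AlgebraicCurve IntermediateField
open scoped MatrixGroups

namespace Fermat.Agent.S48x.Ana.DegreeF1

open Fermat.Agent.S48x.Model Fermat.Agent.S48x.G1 Fermat.Agent.S48x.Ana.Emb1
open Fermat.Agent.S48x.Ana.DegreeBC Fermat.Agent.S48x.HeckeFF

variable {M : ℕ} [NeZero M]

/-! ### over `ℂ` -/

theorem finiteDimensional_complex (hM : 8 ≤ M) :
    FiniteDimensional ℂ⟮jF1R ℂ M⟯ (laurentBaseChange ℂ (gamma1Field M)) := by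
  letI : Fintype (SL(2, ℤ) ⧸ Gamma1pm M) := Fintype.ofFinite _
  exact Fermat.Agent.S27x.G1.finiteDimensional (embDataC hM)
    (Nat.pos_of_ne_zero (NeZero.ne M)) (hcusp_embDataC hM)

theorem finrank_complex (hM : 8 ≤ M) :
    Module.finrank ℂ⟮jF1R ℂ M⟯ (laurentBaseChange ℂ (gamma1Field M)) = (Gamma1pm M).index := by
  letI : Fintype (SL(2, ℤ) ⧸ Gamma1pm M) := Fintype.ofFinite _
  rw [Fermat.Agent.S27x.G1.finrank_eq_card (embDataC hM)
    (Nat.pos_of_ne_zero (NeZero.ne M)) (hcusp_embDataC hM), Subgroup.index_eq_card,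
    Nat.card_eq_fintype_card]

/-! ### over any `L ↪ ℂ` -/

section General

variable (L : Type*) [Field L] [Algebra ℚ L]

theorem transcendental_jF1R : Transcendental L (jF1R L M) :=
  (transcendental_algebraMap_iff
    (algebraMap (laurentBaseChange L (gamma1Field M)) (LaurentSeries L)).injective).mp
    (Fermat.Agent.S28.transcendental_jqModC (k := L))

variable {L}

theorem coe_jF1R_eq_coeffMap (ι : L →+* ℂ) :
    ((jF1R ℂ M : laurentBaseChange ℂ (gamma1Field M)) : LaurentSeries ℂ)
      = coeffMap ι ((jF1R L M : laurentBaseChange L (gamma1Field M)) : LaurentSeries L) := by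
  rw [coe_jF1R, coe_jF1R, coeffMap_jqModC]

/-- **`F1_L` is finite over `L(j)` of degree `[SL(2,ℤ) : ±Γ₁(M)]`**, for every field `L ⊇ ℚ`
which embeds into `ℂ`. -/
theorem finiteDimensional_and_finrank (ι : L →+* ℂ) (hM : 8 ≤ M) :
    FiniteDimensional L⟮jF1R L M⟯ (laurentBaseChange L (gamma1Field M)) ∧
      Module.finrank L⟮jF1R L M⟯ (laurentBaseChange L (gamma1Field M)) = (Gamma1pm M).index := by
  haveI := finiteDimensional_complex (M := M) hM
  obtain ⟨h1, h2⟩ := finiteDimensional_and_finrank_laurentBaseChange ι (gamma1Field M)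
    (jF1R L M) (jF1R ℂ M) (coe_jF1R_eq_coeffMap ι)
  exact ⟨h1, h2.trans (finrank_complex hM)⟩

theorem finiteDimensional (ι : L →+* ℂ) (hM : 8 ≤ M) :
    FiniteDimensional L⟮jF1R L M⟯ (laurentBaseChange L (gamma1Field M)) :=
  (finiteDimensional_and_finrank ι hM).1

theorem finrank_eq_index (ι : L →+* ℂ) (hM : 8 ≤ M) :
    Module.finrank L⟮jF1R L M⟯ (laurentBaseChange L (gamma1Field M)) = (Gamma1pm M).index :=
  (finiteDimensional_and_finrank ι hM).2

end General

/-! ### the `HeckeFF/Level` form -/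

section Level

variable (M)

theorem jq_mem_gamma1Field : jq ∈ gamma1Field M := by
  have h := jqd_mem_gamma1Field (M := M) (d := 1) (one_dvd M)
  rwa [qExpand_one_apply] at h

variable {M} (L : Type) [Field L] [Algebra ℚ L]

theorem jG_eq_jF1R (hj : jq ∈ gamma1Field M) : jG L hj = jF1R L M := rfl

variable {L}

theorem finiteDimensional_jG (ι : L →+* ℂ) (hM : 8 ≤ M) (hj : jq ∈ gamma1Field M) :
    FiniteDimensional L⟮jG L hj⟯ (laurentBaseChange L (gamma1Field M)) :=
  finiteDimensional ι hM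

theorem finrank_jG (ι : L →+* ℂ) (hM : 8 ≤ M) (hj : jq ∈ gamma1Field M) :
    Module.finrank L⟮jG L hj⟯ (laurentBaseChange L (gamma1Field M)) = (Gamma1pm M).index :=
  finrank_eq_index ι hM

/-- **All Prelude inputs of `T_p = α_* β^*` on `Pic⁰ (F1_L)`**, hypothesis-free. -/
theorem ffInputs_levelField_gamma1 [IsAlgClosed L] [CharZero L] (ι : L →+* ℂ) (hM : 8 ≤ M)
    (p : ℕ) [NeZero p] (hp : p.Prime) :
    FFInputs (betaL (gamma1Field M) p L) (alphaL (gamma1Field M) p L) :=
  haveI := finiteDimensional_jG ι hM (jq_mem_gamma1Field M)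
  ffInputs_levelField L p hp (jq_mem_gamma1Field M)

end Level

end Fermat.Agent.S48x.Ana.DegreeF1
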