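/-
P-S48, block G1 layer (a), slice (A6) (helper77): the diamond automorphisms `δ_d` of the function
field `F1 L M = laurentBaseChange L (gamma1Field M)` of `X₁(M)`.

Part 1 (`Twist`), generic: for an embedding `emb : F →+* MerFun` of a field `F / L` and
`g : SL(2,ℤ)` such that `g • emb f` stays in the image of `emb` (enough: on generators), the
`L`-algebra endomorphism `twistHom` of `F` with `emb (twistHom f) = g • emb f`; it is an
automorphism if `g⁻¹` also preserves the image; composition; uniqueness by generators.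

Part 2 (`Diamond`): `F = F1 L M`, generators `j(q^e)`, `e ∣ M`, and `ratio1 M ζ b c b' c'`
(by (GEN), `Model/DescentHyp.laurentBaseChange_gamma1Field_eq`).  Hypothesis-style on the analytic
dictionary (A5)/(A1): the slash law ON GENERATORS for `g ∈ Γ₀(M)`:
`g • emb (ratio1 b c b' c') = emb (ratio1 (d b) (d c) (d b') (d c'))`, `d = lr M g⁻¹` (the action on
`MerFun` is `(g • f) τ = f (g⁻¹ τ)`), and `g • emb (j(q^e)) = emb (j(q^e))`.
Output: `diamond d : F1 L M ≃ₐ[L] F1 L M`, its values on generators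
(`δ_d (ratio1 b ..) = ratio1 (d b) ..`), `emb (diamond d f) = τ⁻¹ • emb f` for `lr M τ = d`,
multiplicativity, it fixes the `Γ₀(M)`-field, and it commutes with the coefficientwise Galois
action `arithmeticRingAut`.
-/
import Fermat.Agent.Gateway.Dict.ConjAbs
import Fermat.Agent.S48x.Model.DescentHyp
import Fermat.Agent.S48x.G1.Defs

set_option autoImplicit false
set_option linter.unusedSectionVars false
set_option linter.style.haveILetI false

noncomputable section

open ModularCurve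
open scoped MatrixGroups

namespace Fermat.Agent.S48x.Ana

open Fermat.Agent.S24 Fermat.Agent.S24.Conj

/-! ## Part 1: twisting an embedding into `MerFun` by an element of `SL(2,ℤ)` -/

namespace Twist

variable {L F : Type*} [Field L] [Field F] [Algebra L F] (emb : F →+* MerFun)

/-- `g` maps the image of `emb` into itself. -/
def Stable (g : SL(2, ℤ)) : Prop := ∀ f : F, ∃ y : F, g • emb f = emb y

theorem stable_one : Stable emb 1 := fun f => ⟨f, one_smul _ _⟩

variable {emb}

theorem Stable.mul {g h : SL(2, ℤ)} (hg : Stable emb g) (hh : Stable emb h) :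
    Stable emb (g * h) := fun f => by
  obtain ⟨y, hy⟩ := hh f
  obtain ⟨z, hz⟩ := hg y
  exact ⟨z, by rw [mul_smul, hy, hz]⟩

/-- A generating set of `F / L` in the form used below: every subfield containing the constants
and `G` is everything. -/
def Generates (L : Type*) {F : Type*} [Field L] [Field F] [Algebra L F] (G : Set F) : Prop :=
  ∀ S : Subfield F, (∀ c : L, algebraMap L F c ∈ S) → (∀ x ∈ G, x ∈ S) → ∀ f : F, f ∈ S

/-- Two ring homomorphisms which agree on the constants and on a generating set are equal. -/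
theorem ringHom_ext_of_generates {Ω : Type*} [Field Ω] {G : Set F} (hG : Generates L G)
    (φ ψ : F →+* Ω) (hc : ∀ c : L, φ (algebraMap L F c) = ψ (algebraMap L F c))
    (hx : ∀ x ∈ G, φ x = ψ x) : φ = ψ := by
  ext f
  exact hG (φ.eqLocusField ψ) hc hx f

variable {ι : L →+* ℂ} (hconst : ∀ c : L, emb (algebraMap L F c) = const (ι c))
include hconst

/-- Stability can be checked on generators. -/
theorem stable_of_generates {G : Set F} (hG : Generates L G) {g : SL(2, ℤ)}
    (h : ∀ x ∈ G, ∃ y : F, g • emb x = emb y) : Stable emb g := by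
  intro f
  have hf := hG (emb.fieldRange.comap
    ((MulSemiringAction.toRingHom SL(2, ℤ) MerFun g).comp emb)) ?_ ?_ f
  · obtain ⟨y, hy⟩ := hf
    exact ⟨y, hy.symm⟩
  · intro c
    refine ⟨algebraMap L F c, ?_⟩
    show emb (algebraMap L F c) = g • emb (algebraMap L F c)
    rw [hconst, sl_smul_const]
  · intro x hx
    obtain ⟨y, hy⟩ := h x hx
    exact ⟨y, hy.symm⟩

omit hconst in
/-- The element `y` with `emb y = g • emb f`. -/
def twistFun {g : SL(2, ℤ)} (hg : Stable emb g) (f : F) : F := Classical.choose (hg f)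

omit hconst in
theorem emb_twistFun {g : SL(2, ℤ)} (hg : Stable emb g) (f : F) :
    emb (twistFun hg f) = g • emb f := (Classical.choose_spec (hg f)).symm

/-- The `L`-algebra endomorphism `f ↦ emb⁻¹ (g • emb f)`. -/
def twistHom {g : SL(2, ℤ)} (hg : Stable emb g) : F →ₐ[L] F where
  toFun := twistFun hg
  map_one' := emb.injective (by rw [emb_twistFun, map_one, smul_one])
  map_mul' a b := emb.injective (by
    rw [emb_twistFun, map_mul, map_mul, smul_mul', emb_twistFun, emb_twistFun])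
  map_zero' := emb.injective (by rw [emb_twistFun, map_zero, smul_zero])
  map_add' a b := emb.injective (by
    rw [emb_twistFun, map_add, map_add, smul_add, emb_twistFun, emb_twistFun])
  commutes' c := emb.injective (by rw [emb_twistFun, hconst, sl_smul_const])

@[simp]
theorem emb_twistHom {g : SL(2, ℤ)} (hg : Stable emb g) (f : F) :
    emb (twistHom hconst hg f) = g • emb f := emb_twistFun hg f

theorem twistHom_eq_iff {g : SL(2, ℤ)} (hg : Stable emb g) (f y : F) :
    twistHom hconst hg f = y ↔ g • emb f = emb y := by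
  rw [← emb_twistHom hconst hg f]
  exact ⟨fun h => by rw [h], fun h => emb.injective h⟩

theorem twistHom_mul {g h : SL(2, ℤ)} (hg : Stable emb g) (hh : Stable emb h) (f : F) :
    twistHom hconst (hg.mul hh) f = twistHom hconst hg (twistHom hconst hh f) :=
  emb.injective (by rw [emb_twistHom, emb_twistHom, emb_twistHom, mul_smul])

theorem twistHom_congr {g h : SL(2, ℤ)} (hg : Stable emb g) (hh : Stable emb h) (hgh : g = h) :
    twistHom hconst hg = twistHom hconst hh := by
  subst hgh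
  rfl

theorem twistHom_one (f : F) : twistHom hconst (stable_one emb) f = f :=
  emb.injective (by rw [emb_twistHom, one_smul])

/-- The `L`-algebra automorphism `f ↦ emb⁻¹ (g • emb f)`. -/
def twistEquiv {g : SL(2, ℤ)} (hg : Stable emb g) (hg' : Stable emb g⁻¹) : F ≃ₐ[L] F :=
  AlgEquiv.ofAlgHom (twistHom hconst hg) (twistHom hconst hg')
    (AlgHom.ext fun f => emb.injective (by
      rw [AlgHom.comp_apply, emb_twistHom, emb_twistHom, ← mul_smul, mul_inv_cancel, one_smul]
      rfl))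
    (AlgHom.ext fun f => emb.injective (by
      rw [AlgHom.comp_apply, emb_twistHom, emb_twistHom, ← mul_smul, inv_mul_cancel, one_smul]
      rfl))

@[simp]
theorem emb_twistEquiv {g : SL(2, ℤ)} (hg : Stable emb g) (hg' : Stable emb g⁻¹) (f : F) :
    emb (twistEquiv hconst hg hg' f) = g • emb f := emb_twistHom hconst hg f

end Twist

/-! ## Part 2: the diamond automorphisms of `F1 L M` -/

namespace Diamond

open CongruenceSubgroup Fermat.Agent.S48x.Model Fermat.Agent.S48x.G1

variable {M : ℕ} [NeZero M] {L : Type*} [Field L] [Algebra ℚ L]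

/-- Generators of `F1 L M = laurentBaseChange L (gamma1Field M)`: the elements whose underlying
series is a `j(q^e)`, `e ∣ M`, or a `ratio1 M ζ b c b' c'` at nonzero indices. -/
def gens (ζ : L) : Set ↥(laurentBaseChange L (gamma1Field M)) :=
  {x | (x : LaurentSeries L) ∈ gamma1Gens M ζ}

/-- (GEN), in the form used by `Twist`. -/
theorem generates_gens {ζ : L} (hζ : IsPrimitiveRoot ζ M) :
    Twist.Generates L (gens (M := M) ζ) := by
  intro S hc hG f
  have hf : (f : LaurentSeries L) ∈ IntermediateField.adjoin L (gamma1Gens M ζ) :=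
    (laurentBaseChange_gamma1Field_eq hζ).le f.2
  have hle : IntermediateField.adjoin L (gamma1Gens M ζ) ≤
      laurentBaseChange L (gamma1Field M) := (laurentBaseChange_gamma1Field_eq hζ).ge
  have key := Fermat.Agent.S24.EmbedAbs.mem_subfield_of_mem_adjoin (K := L)
    (S.map (laurentBaseChange L (gamma1Field M)).val.toRingHom) (gamma1Gens M ζ)
    (fun c => ⟨algebraMap L _ c, hc c, rfl⟩)
    (fun y hy => ⟨⟨y, hle (IntermediateField.subset_adjoin L _ hy)⟩, hG _ hy, rfl⟩) hf
  obtain ⟨f', hf', hff'⟩ := key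
  have : f' = f := Subtype.ext hff'
  rwa [this] at hf'

/-- The lower right entry of an element of `Γ₀(M)` is a unit modulo `M`. -/
theorem isUnit_lr {g : SL(2, ℤ)} (hg : g ∈ Gamma0 M) : IsUnit (lr M g) :=
  IsUnit.of_mul_eq_one _ (lr_mul_lr_inv hg)

theorem lr_mul_ne_zero {g : SL(2, ℤ)} (hg : g ∈ Gamma0 M) {b : ZMod M} (hb : b ≠ 0) :
    lr M g * b ≠ 0 := fun h => hb ((isUnit_lr hg).mul_right_eq_zero.mp h)

/-- Every unit modulo `M` is the lower right entry of an element of `Γ₀(M)`. -/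
theorem exists_mem_Gamma0_lr_eq (d : (ZMod M)ˣ) :
    ∃ g : SL(2, ℤ), g ∈ Gamma0 M ∧ lr M g = (d : ZMod M) := by
  have hcop : IsCoprime (((d : ZMod M).val : ℕ) : ℤ) (M : ℤ) :=
    Nat.isCoprime_iff_coprime.mpr (ZMod.val_coe_unit_coprime d)
  obtain ⟨g, hg, hg11⟩ := exists_lowerRight_eq M hcop
  refine ⟨g, hg, ?_⟩
  rw [lr, hg11]
  push_cast
  exact ZMod.natCast_zmod_val _

/-- **The analytic input** (from the dictionary (A5) and the slash law (A1)/(P1)): an embedding of
`F1 L M` into `MerFun`, compatible with constants, and the action of `Γ₀(M)` on the generators.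
CONVENTION: the action on `MerFun` is `(g • f) τ = f (g⁻¹ τ)` (`S24/HolFun.sl_smul_apply`), and
the slash law is `WpHolo.smul_Rfun : γ • Rfun v w v' w' = Rfun (vecSL v γ⁻¹) ..`; for `v = (0, b)`
and `γ ∈ Γ₀(M)`, `vecSL (0, b) γ⁻¹ = (0, lr M γ⁻¹ * b)`.  Hence `lr M g⁻¹` below. -/
structure SlashData (M : ℕ) [NeZero M] (L : Type*) [Field L] [Algebra ℚ L] (ζ : L)
    (ι : L →+* ℂ) where
  /-- the embedding -/
  emb : ↥(laurentBaseChange L (gamma1Field M)) →+* MerFun
  emb_const : ∀ c : L, emb (algebraMap L _ c) = const (ι c)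
  slash_j : ∀ g ∈ Gamma0 M, ∀ (e : ℕ) [NeZero e], e ∣ M →
    ∀ x : ↥(laurentBaseChange L (gamma1Field M)),
      (x : LaurentSeries L) = qExpand L e (jqModC L) → g • emb x = emb x
  slash_ratio1 : ∀ g ∈ Gamma0 M, ∀ (b c b' c' : ZMod M), b ≠ 0 → c ≠ 0 → b' ≠ 0 → c' ≠ 0 →
    ∀ x y : ↥(laurentBaseChange L (gamma1Field M)),
      (x : LaurentSeries L) = ratio1 M ζ b c b' c' →
      (y : LaurentSeries L) =
        ratio1 M ζ (lr M g⁻¹ * b) (lr M g⁻¹ * c) (lr M g⁻¹ * b') (lr M g⁻¹ * c') →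
      g • emb x = emb y

variable {ζ : L} (hζ : IsPrimitiveRoot ζ M) {ι : L →+* ℂ} (D : SlashData M L ζ ι)
include hζ

/-- `Γ₀(M)` preserves the image of `F1 L M` in `MerFun`. -/
theorem stable {g : SL(2, ℤ)} (hg : g ∈ Gamma0 M) : Twist.Stable D.emb g := by
  refine Twist.stable_of_generates D.emb_const (generates_gens hζ) ?_
  rintro x (⟨e, he0, he, hx⟩ | ⟨b, c, b', c', hb, hc, hb', hc', hx⟩)
  · exact ⟨x, D.slash_j g hg e he x hx⟩
  · have hg' : g⁻¹ ∈ Gamma0 M := (Gamma0 M).inv_mem hg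
    exact ⟨⟨_, ratio1_mem_laurentBaseChange hζ (lr_mul_ne_zero hg' hb) (lr_mul_ne_zero hg' hc)
      (lr_mul_ne_zero hg' hb') (lr_mul_ne_zero hg' hc')⟩,
      D.slash_ratio1 g hg b c b' c' hb hc hb' hc' x _ hx rfl⟩

/-- The automorphism of `F1 L M` induced by `g ∈ Γ₀(M)`. -/
def diamondMat (g : SL(2, ℤ)) (hg : g ∈ Gamma0 M) :
    ↥(laurentBaseChange L (gamma1Field M)) ≃ₐ[L] ↥(laurentBaseChange L (gamma1Field M)) :=
  Twist.twistEquiv D.emb_const (stable hζ D hg) (stable hζ D ((Gamma0 M).inv_mem hg))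

@[simp]
theorem emb_diamondMat (g : SL(2, ℤ)) (hg : g ∈ Gamma0 M)
    (f : ↥(laurentBaseChange L (gamma1Field M))) :
    D.emb (diamondMat hζ D g hg f) = g • D.emb f :=
  Twist.emb_twistEquiv D.emb_const _ _ f

theorem diamondMat_eq_iff (g : SL(2, ℤ)) (hg : g ∈ Gamma0 M)
    (f y : ↥(laurentBaseChange L (gamma1Field M))) :
    diamondMat hζ D g hg f = y ↔ g • D.emb f = D.emb y :=
  Twist.twistHom_eq_iff D.emb_const (stable hζ D hg) f y

theorem coe_diamondMat_ratio1 (g : SL(2, ℤ)) (hg : g ∈ Gamma0 M) {b c b' c' : ZMod M}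
    (hb : b ≠ 0) (hc : c ≠ 0) (hb' : b' ≠ 0) (hc' : c' ≠ 0)
    {x : ↥(laurentBaseChange L (gamma1Field M))}
    (hx : (x : LaurentSeries L) = ratio1 M ζ b c b' c') :
    ((diamondMat hζ D g hg x : ↥(laurentBaseChange L (gamma1Field M))) : LaurentSeries L) =
      ratio1 M ζ (lr M g⁻¹ * b) (lr M g⁻¹ * c) (lr M g⁻¹ * b') (lr M g⁻¹ * c') := by
  have hg' : g⁻¹ ∈ Gamma0 M := (Gamma0 M).inv_mem hg
  have h := (diamondMat_eq_iff hζ D g hg x
    ⟨_, ratio1_mem_laurentBaseChange hζ (lr_mul_ne_zero hg' hb) (lr_mul_ne_zero hg' hc)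
      (lr_mul_ne_zero hg' hb') (lr_mul_ne_zero hg' hc')⟩).mpr
    (D.slash_ratio1 g hg b c b' c' hb hc hb' hc' x _ hx rfl)
  rw [h]

theorem diamondMat_j (g : SL(2, ℤ)) (hg : g ∈ Gamma0 M) {e : ℕ} [NeZero e] (he : e ∣ M)
    {x : ↥(laurentBaseChange L (gamma1Field M))}
    (hx : (x : LaurentSeries L) = qExpand L e (jqModC L)) : diamondMat hζ D g hg x = x :=
  (diamondMat_eq_iff hζ D g hg x x).mpr (D.slash_j g hg e he x hx)

omit hζ in
/-- On `Γ₀(M)`, the lower right entry of the inverse only depends on the lower right entry. -/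
theorem lr_inv_eq_of_lr_eq {g g' : SL(2, ℤ)} (hg : g ∈ Gamma0 M) (hg' : g' ∈ Gamma0 M)
    (h : lr M g = lr M g') : lr M g⁻¹ = lr M g'⁻¹ := by
  calc lr M g⁻¹ = lr M g'⁻¹ * lr M g' * lr M g⁻¹ := by rw [lr_inv_mul_lr hg', one_mul]
    _ = lr M g'⁻¹ * (lr M g * lr M g⁻¹) := by rw [← h, mul_assoc]
    _ = lr M g'⁻¹ := by rw [lr_mul_lr_inv hg, mul_one]

/-- The automorphism only depends on the lower right entry modulo `M`. -/
theorem diamondMat_eq_of_lr {g g' : SL(2, ℤ)} (hg : g ∈ Gamma0 M) (hg' : g' ∈ Gamma0 M)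
    (h : lr M g = lr M g') : diamondMat hζ D g hg = diamondMat hζ D g' hg' := by
  have key := Twist.ringHom_ext_of_generates (generates_gens hζ)
    (diamondMat hζ D g hg).toRingEquiv.toRingHom (diamondMat hζ D g' hg').toRingEquiv.toRingHom
    (fun c => by
      show diamondMat hζ D g hg (algebraMap L _ c) = diamondMat hζ D g' hg' (algebraMap L _ c)
      rw [AlgEquiv.commutes, AlgEquiv.commutes]) ?_
  · exact AlgEquiv.ext fun f => DFunLike.congr_fun key f
  · rintro x (⟨e, he0, he, hx⟩ | ⟨b, c, b', c', hb, hc, hb', hc', hx⟩)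
    · show diamondMat hζ D g hg x = diamondMat hζ D g' hg' x
      rw [diamondMat_j hζ D g hg he hx, diamondMat_j hζ D g' hg' he hx]
    · show diamondMat hζ D g hg x = diamondMat hζ D g' hg' x
      apply Subtype.ext
      rw [coe_diamondMat_ratio1 hζ D g hg hb hc hb' hc' hx,
        coe_diamondMat_ratio1 hζ D g' hg' hb hc hb' hc' hx, lr_inv_eq_of_lr_eq hg hg' h]

/-- **The diamond automorphism** `δ_d` of `F1 L M`, `d ∈ (ℤ/M)ˣ`: the automorphism induced by
`τ⁻¹` for any `τ ∈ Γ₀(M)` with lower right entry `d`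
(so that `δ_d (ratio1 b c b' c') = ratio1 (d b) (d c) (d b') (d c')`). -/
def diamond (d : (ZMod M)ˣ) :
    ↥(laurentBaseChange L (gamma1Field M)) ≃ₐ[L] ↥(laurentBaseChange L (gamma1Field M)) :=
  diamondMat hζ D (Classical.choose (exists_mem_Gamma0_lr_eq d))⁻¹
    ((Gamma0 M).inv_mem (Classical.choose_spec (exists_mem_Gamma0_lr_eq d)).1)

theorem diamond_eq_diamondMat (d : (ZMod M)ˣ) {g : SL(2, ℤ)} (hg : g ∈ Gamma0 M)
    (hd : lr M g⁻¹ = (d : ZMod M)) : diamond hζ D d = diamondMat hζ D g hg := by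
  have h0 := Classical.choose_spec (exists_mem_Gamma0_lr_eq d)
  refine diamondMat_eq_of_lr hζ D ((Gamma0 M).inv_mem h0.1) hg ?_
  have h1 := lr_inv_eq_of_lr_eq h0.1 ((Gamma0 M).inv_mem hg) (h0.2.trans hd.symm)
  rwa [inv_inv] at h1

/-- `δ_d` is induced by any `g ∈ Γ₀(M)` whose INVERSE has lower right entry `d`. -/
theorem emb_diamond (d : (ZMod M)ˣ) {g : SL(2, ℤ)} (hg : g ∈ Gamma0 M)
    (hd : lr M g⁻¹ = (d : ZMod M)) (f : ↥(laurentBaseChange L (gamma1Field M))) :
    D.emb (diamond hζ D d f) = g • D.emb f := by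
  rw [diamond_eq_diamondMat hζ D d hg hd, emb_diamondMat]

/-- **`emb (δ_d f) = τ⁻¹ • emb f`** for any `τ ∈ Γ₀(M)` with lower right entry `d`
(the hypothesis `hg` of `HeckeFF/Theta.theta_smul`). -/
theorem emb_diamond_inv (d : (ZMod M)ˣ) {τ : SL(2, ℤ)} (hτ : τ ∈ Gamma0 M)
    (hd : lr M τ = (d : ZMod M)) (f : ↥(laurentBaseChange L (gamma1Field M))) :
    D.emb (diamond hζ D d f) = τ⁻¹ • D.emb f :=
  emb_diamond hζ D d ((Gamma0 M).inv_mem hτ) (by rwa [inv_inv]) f

/-- `δ_d (ratio1 b c b' c') = ratio1 (d b) (d c) (d b') (d c')`. -/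
theorem coe_diamond_ratio1 (d : (ZMod M)ˣ) {b c b' c' : ZMod M}
    (hb : b ≠ 0) (hc : c ≠ 0) (hb' : b' ≠ 0) (hc' : c' ≠ 0)
    {x : ↥(laurentBaseChange L (gamma1Field M))}
    (hx : (x : LaurentSeries L) = ratio1 M ζ b c b' c') :
    ((diamond hζ D d x : ↥(laurentBaseChange L (gamma1Field M))) : LaurentSeries L) =
      ratio1 M ζ ((d : ZMod M) * b) ((d : ZMod M) * c) ((d : ZMod M) * b') ((d : ZMod M) * c') := by
  obtain ⟨τ, hτ, hd⟩ := exists_mem_Gamma0_lr_eq d
  have hd' : lr M (τ⁻¹)⁻¹ = (d : ZMod M) := by rwa [inv_inv]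
  rw [diamond_eq_diamondMat hζ D d ((Gamma0 M).inv_mem hτ) hd',
    coe_diamondMat_ratio1 hζ D τ⁻¹ ((Gamma0 M).inv_mem hτ) hb hc hb' hc' hx, hd']

/-- `δ_d` fixes the `j(q^e)`, `e ∣ M`. -/
theorem diamond_j (d : (ZMod M)ˣ) {e : ℕ} [NeZero e] (he : e ∣ M)
    {x : ↥(laurentBaseChange L (gamma1Field M))}
    (hx : (x : LaurentSeries L) = qExpand L e (jqModC L)) : diamond hζ D d x = x := by
  obtain ⟨τ, hτ, hd⟩ := exists_mem_Gamma0_lr_eq d
  have hd' : lr M (τ⁻¹)⁻¹ = (d : ZMod M) := by rwa [inv_inv]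
  rw [diamond_eq_diamondMat hζ D d ((Gamma0 M).inv_mem hτ) hd',
    diamondMat_j hζ D τ⁻¹ ((Gamma0 M).inv_mem hτ) he hx]

theorem diamond_one (f : ↥(laurentBaseChange L (gamma1Field M))) : diamond hζ D 1 f = f := by
  have h1 : lr M (1 : SL(2, ℤ)) = ((1 : (ZMod M)ˣ) : ZMod M) := by rw [lr_one, Units.val_one]
  apply D.emb.injective
  rw [emb_diamond_inv hζ D 1 (Gamma0 M).one_mem h1, inv_one, one_smul]

theorem diamond_mul (d d' : (ZMod M)ˣ) (f : ↥(laurentBaseChange L (gamma1Field M))) :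
    diamond hζ D (d * d') f = diamond hζ D d (diamond hζ D d' f) := by
  obtain ⟨g, hg, hd⟩ := exists_mem_Gamma0_lr_eq d
  obtain ⟨g', hg', hd'⟩ := exists_mem_Gamma0_lr_eq d'
  have h : lr M (g' * g) = ((d * d' : (ZMod M)ˣ) : ZMod M) := by
    rw [lr_mul hg', hd, hd', Units.val_mul, mul_comm]
  apply D.emb.injective
  rw [emb_diamond_inv hζ D (d * d') ((Gamma0 M).mul_mem hg' hg) h, emb_diamond_inv hζ D d hg hd,
    emb_diamond_inv hζ D d' hg' hd', mul_inv_rev, mul_smul]

/-- The diamond operators as a group homomorphism `(ℤ/M)ˣ → Aut_L (F1 L M)`. -/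
def diamondHom : (ZMod M)ˣ →*
    (↥(laurentBaseChange L (gamma1Field M)) ≃ₐ[L] ↥(laurentBaseChange L (gamma1Field M))) where
  toFun := diamond hζ D
  map_one' := AlgEquiv.ext fun f => diamond_one hζ D f
  map_mul' d d' := AlgEquiv.ext fun f => diamond_mul hζ D d d' f

/-! ### `δ_d` fixes the function field of `X₀(M)` -/

/-- `δ_d` is the identity on `laurentBaseChange L (modularFunctionFieldFull M) ⊆ F1 L M`. -/
theorem diamond_eq_self_of_mem_gamma0Field (d : (ZMod M)ˣ)
    {f : ↥(laurentBaseChange L (gamma1Field M))}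
    (hf : (f : LaurentSeries L) ∈ laurentBaseChange L (modularFunctionFieldFull M)) :
    diamond hζ D d f = f := by
  let φ : ↥(laurentBaseChange L (gamma1Field M)) →+* ↥(laurentBaseChange L (gamma1Field M)) :=
    (diamond hζ D d).toRingEquiv.toRingHom
  let T : Subfield (LaurentSeries L) :=
    (φ.eqLocusField (RingHom.id _)).map (laurentBaseChange L (gamma1Field M)).val.toRingHom
  have hj : ∀ (e : ℕ) [NeZero e], e ∣ M → qExpand L e (jqModC L) ∈ T := by
    intro e _ he
    have hmem : qExpand L e (jqModC L) ∈ laurentBaseChange L (gamma1Field M) := by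
      rw [← coeffEmb_qExpand_jq]
      exact coeffEmb_mem_laurentBaseChange L (jqd_mem_gamma1Field he)
    exact ⟨⟨_, hmem⟩, diamond_j hζ D d he rfl, rfl⟩
  have hK : ∀ c : L, algebraMap L (LaurentSeries L) c ∈ T := fun c =>
    ⟨algebraMap L _ c, (diamond hζ D d).commutes c, rfl⟩
  have hF0 : ∀ z ∈ modularFunctionFieldFull M, coeffEmb L z ∈ T := by
    intro z hz
    refine Fermat.Agent.S24.EmbedAbs.mem_subfield_of_mem_adjoin (K := ℚ)
      (T.comap (coeffEmb L)) (divisorExpansions M) ?_ ?_ hz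
    · intro c
      show coeffEmb L (algebraMap ℚ (LaurentSeries ℚ) c) ∈ T
      rw [coeffEmb_algebraMap]
      exact hK _
    · rintro y ⟨e, he0, he, rfl⟩
      show coeffEmb L (qExpand ℚ e jq) ∈ T
      rw [coeffEmb_qExpand_jq]
      exact hj e he
  have key : (f : LaurentSeries L) ∈ T :=
    Fermat.Agent.S24.EmbedAbs.mem_subfield_of_mem_adjoin (K := L) T
      (⇑(coeffEmb L) '' (modularFunctionFieldFull M : Set (LaurentSeries ℚ))) hK
      (by rintro _ ⟨z, hz, rfl⟩; exact hF0 z hz) hf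
  obtain ⟨f', hf', hff'⟩ := key
  have h1 : f' = f := Subtype.ext hff'
  rw [h1] at hf'
  exact hf'

/-! ### `δ_d` commutes with the coefficientwise Galois action -/

omit hζ in
/-- An injective ring endomorphism raises a primitive `M`-th root of unity to a power prime to
`M`. -/
theorem exists_pow_eq_of_ringHom {ζ : L} (hζ : IsPrimitiveRoot ζ M) (σ : L →+* L) :
    ∃ t : ℕ, IsUnit (t : ZMod M) ∧ σ ζ = ζ ^ t := by
  have hσ : IsPrimitiveRoot (σ ζ) M := hζ.map_of_injective σ.injective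
  obtain ⟨t, -, ht⟩ := hζ.eq_pow_of_pow_eq_one hσ.pow_eq_one
  refine ⟨t, ?_, ht.symm⟩
  rw [← ht] at hσ
  exact (ZMod.isUnit_iff_coprime t M).mpr ((hζ.pow_iff_coprime (NeZero.pos M) t).mp hσ)

/-- **`δ_d` commutes with the arithmetic Galois action** on `F1 L M`. -/
theorem arithmeticRingAut_diamond (σ : L ≃ₐ[ℚ] L) (d : (ZMod M)ˣ)
    (f : ↥(laurentBaseChange L (gamma1Field M))) :
    arithmeticRingAut (gamma1Field M) σ (diamond hζ D d f) =
      diamond hζ D d (arithmeticRingAut (gamma1Field M) σ f) := by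
  obtain ⟨t, htu, ht⟩ := exists_pow_eq_of_ringHom hζ (σ : L →+* L)
  have key := Twist.ringHom_ext_of_generates (generates_gens hζ)
    ((arithmeticRingAut (gamma1Field M) σ).toRingHom.comp (diamond hζ D d).toRingEquiv.toRingHom)
    ((diamond hζ D d).toRingEquiv.toRingHom.comp (arithmeticRingAut (gamma1Field M) σ).toRingHom)
    ?_ ?_
  · exact DFunLike.congr_fun key f
  · intro c
    show arithmeticRingAut (gamma1Field M) σ (diamond hζ D d (algebraMap L _ c)) =
      diamond hζ D d (arithmeticRingAut (gamma1Field M) σ (algebraMap L _ c))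
    rw [AlgEquiv.commutes, arithmeticRingAut_algebraMap, AlgEquiv.commutes]
  · rintro x (⟨e, he0, he, hx⟩ | ⟨b, c, b', c', hb, hc, hb', hc', hx⟩)
    · show arithmeticRingAut (gamma1Field M) σ (diamond hζ D d x) =
        diamond hζ D d (arithmeticRingAut (gamma1Field M) σ x)
      have h1 : arithmeticRingAut (gamma1Field M) σ x = x := by
        apply Subtype.ext
        rw [coe_arithmeticRingAut_apply, hx, coeffMap_qExpand, coeffMap_jqModC]
      rw [diamond_j hζ D d he hx, h1, diamond_j hζ D d he hx]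
    · show arithmeticRingAut (gamma1Field M) σ (diamond hζ D d x) =
        diamond hζ D d (arithmeticRingAut (gamma1Field M) σ x)
      have hσζ : (σ : L →+* L) ζ = ζ ^ t := ht
      have h1 : ((arithmeticRingAut (gamma1Field M) σ x :
          ↥(laurentBaseChange L (gamma1Field M))) : LaurentSeries L) =
          ratio1 M ζ ((t : ZMod M) * b) ((t : ZMod M) * c) ((t : ZMod M) * b')
            ((t : ZMod M) * c') := by
        rw [coe_arithmeticRingAut_apply, hx, coeffMap_ratio1, hσζ, ratio1_pow hζ.pow_eq_one]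
      have hne : ∀ {a : ZMod M}, a ≠ 0 → (t : ZMod M) * a ≠ 0 := fun ha h =>
        ha (htu.mul_right_eq_zero.mp h)
      apply Subtype.ext
      rw [coe_arithmeticRingAut_apply, coe_diamond_ratio1 hζ D d hb hc hb' hc' hx,
        coe_diamond_ratio1 hζ D d (hne hb) (hne hc) (hne hb') (hne hc') h1, coeffMap_ratio1,
        hσζ, ratio1_pow hζ.pow_eq_one]
      simp only [mul_left_comm]

end Diamond

end Fermat.Agent.S48x.Ana
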