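import Mathlib
import Fermat.Agent.S48x.Ana.Emb1Inst
import Fermat.Agent.S48x.Ana.Diamond

/-!
# P-S48, layer (a), slice (A5) (helper8): the `SlashData` of `Ana/Diamond` from `Emb1Inst`

`slashData1 ι ζ hM hζ hι : Diamond.SlashData M L ζ ι` with `emb = (embData1 ι ζ hM hζ hι).emb`, for
any field `L ⊇ ℚ`, `ι : L →+* ℂ`, `ζ : L` a primitive `M`-th root of unity with `ι ζ = zetaM M`,
`8 ≤ M`.  Consequently the diamond automorphisms `Diamond.diamond hζ (slashData1 ..) d` of
`laurentBaseChange L (gamma1Field M)` satisfy `emb (diamond d f) = τ⁻¹ • emb f` for `τ ∈ Γ₀(M)` with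
lower right entry `d`.
-/

set_option autoImplicit false
set_option linter.unusedSectionVars false

noncomputable section

open ModularCurve
open scoped MatrixGroups

namespace Fermat.Agent.S48x.Ana.Emb1

open Fermat.Agent.S24 Fermat.Agent.S24.Conj
open Fermat.Agent.S48x.Model Fermat.Agent.S48x.G1 Fermat.Agent.S48x.PPack
open CongruenceSubgroup

variable {M : ℕ} [NeZero M] {L : Type*} [Field L] [Algebra ℚ L] (ι : L →+* ℂ) (ζ : L)

/-- **The analytic input of the diamond automorphisms** (`Ana/Diamond.SlashData`), from the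
analytic uniformisation `embData1`. -/
def slashData1 (hM : 8 ≤ M) (hζ : IsPrimitiveRoot ζ M) (hι : ι ζ = zetaM M) :
    Diamond.SlashData M L ζ ι where
  emb := (embData1 ι ζ hM hζ hι).emb
  emb_const := (embData1 ι ζ hM hζ hι).emb_const
  slash_j g hg e _ he x hx := embData1_slash_j hM hζ hι hg he x hx
  slash_ratio1 g hg b c b' c' hb hc hb' hc' x y hx hy :=
    embData1_slash_ratio1 hM hζ hι hg hb hc hb' hc' x y hx hy

@[simp] theorem slashData1_emb (hM : 8 ≤ M) (hζ : IsPrimitiveRoot ζ M) (hι : ι ζ = zetaM M) :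
    (slashData1 ι ζ hM hζ hι).emb = (embData1 ι ζ hM hζ hι).emb := rfl

/-- The case `L = ℂ`, `ι = id`, `ζ = zetaM M`. -/
def slashDataC (hM : 8 ≤ M) : Diamond.SlashData M ℂ (zetaM M) (RingHom.id ℂ) :=
  slashData1 (RingHom.id ℂ) (zetaM M) hM (CycloUnit.isPrimitiveRoot_zetaM M) rfl

@[simp] theorem slashDataC_emb (hM : 8 ≤ M) : (slashDataC hM).emb = (embDataC hM).emb := rfl

end Fermat.Agent.S48x.Ana.Emb1
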