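import Mathlib
import Fermat.Agent.S48x.Ana.Emb1Slash
import Fermat.Agent.S48x.Ana.LevelP.QField
import Fermat.Agent.S48x.HeckeFF.C1Qbar

/-!
# P-S48, G1 layer (a): base change `K → ℂ` of the analytic uniformisation of `X₁(M)` and of the
diamond automorphisms (helper62, adapter found by AUDIT-A)

`K` a field with `Algebra K ℂ` (for `K = ℚ̄`: the local instance
`Gateway.BaseChange.Modular.algKbarC`, i.e. `algebraMap K ℂ = S24.Setup.iota`), `ζ : K` a primitive
`M`-th root of unity with `algebraMap K ℂ ζ = zetaM M`, `8 ≤ M`.  With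
`iotaG K ℂ F : F_K →+* F_ℂ` the coefficientwise embedding (`= (setupG K ℂ F).ι`, by `rfl`):

* `embDataC_emb_iotaG` : the analytic embedding over `ℂ` restricts to the one over `K`:
  `(embDataC hM).emb (iotaG f) = (embData1 (algebraMap K ℂ) ζ hM hζ hι).emb f`
  (the `q`-expansion determines the function);
* `iotaG_diamond` : the diamond automorphisms over `K` and over `ℂ` are intertwined by `iotaG`
  (the hypothesis `hδ` of `HeckeFF.bcG_ofAlgAut`, `hg` of `HeckeFF.torsionEquivG_smul`);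
* `embDataC_emb_diamond` : `emb (δ_d f) = τ⁻¹ • emb f` over `ℂ` (hypothesis `hg` of
  `HeckeFF/Theta.theta_smul`), restated for `embDataC`.
-/

set_option autoImplicit false
set_option linter.unusedSectionVars false

noncomputable section

open ModularCurve
open scoped MatrixGroups

namespace Fermat.Agent.S48x.Ana.Emb1BC

open CongruenceSubgroup
open Fermat.Agent.S24 Fermat.Agent.Gateway.Dict.QExpMer
open Fermat.Agent.S48x.Model Fermat.Agent.S48x.G1 Fermat.Agent.S48x.PPack
open Fermat.Agent.S48x.HeckeFF Fermat.Agent.S48x.Ana.Emb1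

variable {M : ℕ} [NeZero M] {K : Type} [Field K] [Algebra ℚ K] [Algebra K ℂ]
  [IsScalarTower ℚ K ℂ] {ζ : K}

/-- **The analytic embedding over `ℂ` restricts to the one over `K`.** -/
theorem embDataC_emb_iotaG (hM : 8 ≤ M) (hζ : IsPrimitiveRoot ζ M)
    (hι : algebraMap K ℂ ζ = zetaM M) (f : ↥(laurentBaseChange K (gamma1Field M))) :
    (embDataC hM).emb (iotaG K ℂ (gamma1Field M) f)
      = (embData1 (algebraMap K ℂ) ζ hM hζ hι).emb f := by
  have h1 := hasQ_embDataC hM (iotaG K ℂ (gamma1Field M) f)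
  have h2 := hasQ_embData1 hM hζ hι f
  rw [coe_iotaG] at h1
  exact Fermat.Agent.S48x.Ana.LevelP.hasQ_eq_of_eq h1 h2

/-- **The diamond automorphisms commute with the base change `K → ℂ`.** -/
theorem iotaG_diamond (hM : 8 ≤ M) (hζ : IsPrimitiveRoot ζ M)
    (hι : algebraMap K ℂ ζ = zetaM M) (d : (ZMod M)ˣ)
    (f : ↥(laurentBaseChange K (gamma1Field M))) :
    Diamond.diamond (CycloUnit.isPrimitiveRoot_zetaM M) (slashDataC hM) d
        (iotaG K ℂ (gamma1Field M) f)
      = iotaG K ℂ (gamma1Field M)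
          (Diamond.diamond hζ (slashData1 (algebraMap K ℂ) ζ hM hζ hι) d f) := by
  obtain ⟨τ, hτ, hd⟩ := Diamond.exists_mem_Gamma0_lr_eq d
  apply (embDataC hM).emb.injective
  have h1 := Diamond.emb_diamond_inv hζ (slashData1 (algebraMap K ℂ) ζ hM hζ hι) d hτ hd f
  have h2 := Diamond.emb_diamond_inv (CycloUnit.isPrimitiveRoot_zetaM M) (slashDataC hM) d hτ hd
    (iotaG K ℂ (gamma1Field M) f)
  rw [slashData1_emb] at h1
  rw [slashDataC_emb] at h2
  rw [h2, embDataC_emb_iotaG hM hζ hι, embDataC_emb_iotaG hM hζ hι, h1]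

/-- `emb (δ_d f) = τ⁻¹ • emb f` over `ℂ`, for `τ ∈ Γ₀(M)` with lower right entry `d`. -/
theorem embDataC_emb_diamond (hM : 8 ≤ M) (d : (ZMod M)ˣ) {τ : SL(2, ℤ)} (hτ : τ ∈ Gamma0 M)
    (hd : lr M τ = (d : ZMod M)) (f : ↥(laurentBaseChange ℂ (gamma1Field M))) :
    (embDataC hM).emb
        (Diamond.diamond (CycloUnit.isPrimitiveRoot_zetaM M) (slashDataC hM) d f)
      = τ⁻¹ • (embDataC hM).emb f := by
  have h := Diamond.emb_diamond_inv (CycloUnit.isPrimitiveRoot_zetaM M) (slashDataC hM) d hτ hd f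
  rwa [slashDataC_emb] at h

end Fermat.Agent.S48x.Ana.Emb1BC
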