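import Fermat.Agent.S48x.Ana.DegreeBC
import Fermat.Agent.S48x.HeckeFF.Level

/-!
# P-S48, G1: finiteness of `F₀_L / L(j)` from the complex case (helper80)

Corollary of `Ana/DegreeBC` in the language of `HeckeFF/Level`: for a rational model `F₀ ∋ j`,
fields `L`, `C` with `ι : L →+* C` (`C = ℂ`), finiteness of `F₀_C` over `C(j)` implies finiteness
of `F₀_L` over `L(j)` with the same degree.  This discharges the instance argument
`[FiniteDimensional L⟮jG L hj⟯ (laurentBaseChange L F₀)]` of `HeckeFF.ffInputs_levelField`,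
`HeckeFF.heckeL`, ... from the analytic degree formula over `ℂ`.
-/

set_option autoImplicit false
set_option linter.unusedSectionVars false
set_option linter.style.haveILetI false

noncomputable section

open ModularCurve AlgebraicCurve IntermediateField

namespace Fermat.Agent.S48x.Ana.DegreeBC

open Fermat.Agent.S48x.HeckeFF

variable {L C : Type} [Field L] [Field C] [Algebra ℚ L] [Algebra ℚ C]
  {F₀ : IntermediateField ℚ (LaurentSeries ℚ)}

theorem coe_jG_eq_coeffMap (ι : L →+* C) (hj : jq ∈ F₀) :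
    ((jG C hj : laurentBaseChange C F₀) : LaurentSeries C)
      = coeffMap ι ((jG L hj : laurentBaseChange L F₀) : LaurentSeries L) := by
  rw [coe_jG, coe_jG, coeffMap_jqModC]

theorem lbcHom_jG (ι : L →+* C) (hj : jq ∈ F₀) : lbcHom ι F₀ (jG L hj) = jG C hj :=
  Subtype.ext (coe_jG_eq_coeffMap ι hj).symm

/-- `[F₀_C : C(j)] < ∞ ⇒ [F₀_L : L(j)] < ∞`, with the same degree. -/
theorem finiteDimensional_and_finrank_jG (ι : L →+* C) (hj : jq ∈ F₀)
    [FiniteDimensional C⟮jG C hj⟯ (laurentBaseChange C F₀)] :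
    FiniteDimensional L⟮jG L hj⟯ (laurentBaseChange L F₀) ∧
      Module.finrank L⟮jG L hj⟯ (laurentBaseChange L F₀)
        = Module.finrank C⟮jG C hj⟯ (laurentBaseChange C F₀) :=
  finiteDimensional_and_finrank_laurentBaseChange ι F₀ (jG L hj) (jG C hj)
    (coe_jG_eq_coeffMap ι hj)

theorem finiteDimensional_jG (ι : L →+* C) (hj : jq ∈ F₀)
    [FiniteDimensional C⟮jG C hj⟯ (laurentBaseChange C F₀)] :
    FiniteDimensional L⟮jG L hj⟯ (laurentBaseChange L F₀) :=
  (finiteDimensional_and_finrank_jG ι hj).1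

theorem finrank_jG (ι : L →+* C) (hj : jq ∈ F₀)
    [FiniteDimensional C⟮jG C hj⟯ (laurentBaseChange C F₀)] :
    Module.finrank L⟮jG L hj⟯ (laurentBaseChange L F₀)
      = Module.finrank C⟮jG C hj⟯ (laurentBaseChange C F₀) :=
  (finiteDimensional_and_finrank_jG ι hj).2

/-- All inputs of the Hecke correspondence on `Pic⁰ (F₀_L)` from finiteness over `C`. -/
theorem ffInputs_levelField_of_finiteDimensional [IsAlgClosed L] [CharZero L] (ι : L →+* C)
    (p : ℕ) [NeZero p] (hp : p.Prime) (hj : jq ∈ F₀)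
    [FiniteDimensional C⟮jG C hj⟯ (laurentBaseChange C F₀)] :
    FFInputs (betaL F₀ p L) (alphaL F₀ p L) :=
  haveI := finiteDimensional_jG ι hj
  ffInputs_levelField L p hp hj

end Fermat.Agent.S48x.Ana.DegreeBC
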