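/-
P-S48, block G1 layer (a), slice (A7) (helper48): the analytic dictionary at level
`±Γ₁(M) ∩ Γ₀(p)`, `p` prime to `M`.  Instantiation of the generic files `LevelP/{QField,Emb,Iota0}`
to `G = Gamma1pm M` (the rational model field `F₀` stays generic; plug `F₀ = gamma1Field M`).

INPUT (from (A5) `Ana/Emb1`): `D0 : ConjAbs.EmbData L F₀_L ι x0 (Gamma1pm M)` with
`hQ : ∀ f, HasQ (D0.emb f) (coeffMap ι f)`.

* `conjP_mem_Gamma1pm`, `conj_T_pow_mem` : the two group-theoretic inputs;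
* `embDataP1` : `ConjAbs.EmbData` for `F₁_L` with exact stabiliser `Gamma1pm M ⊓ Gamma0 p`,
  `embDataP1_alphaL`, `embDataP1_betaL`, `hasQ_embDataP1`, `embDataP1_mem_cuspAllField`
  (= `D1`, `emb_alpha`, `emb_beta`, `cusp` of helper38's `AnaPair`, note 1151 (S5));
* `exists_gamma_pair` : `γ0 = (p u, -w; M, 1) ∈ Γ₁(M)`, `γ1 = (u, -w; M, p) ∈ Γ₀(M)`, `lr γ1 = p`,
  `diag(1,p) γ0 = γ1 diag(p,1)`;
* `exists_iota0_Gamma1pm` : the second embedding `ι₀` with `ι₀ (α x) = x(s^p)`,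
  `ι₀ (β v) = (δ₀ v)(s)`, where `δ₀` is the diamond automorphism of LOWER RIGHT ENTRY `p`
  (`D0.emb (δ₀ v) = g • D0.emb v` for `g ∈ Γ₀(M)`, `lr M g = p`; helper77's
  `Ana.Diamond.emb_diamond`) = inputs `ι₀, hι₀, δ, hδ` of helper38's `NormQ1.normQExp_hecke`.
-/
import Fermat.Agent.S48x.Ana.LevelP.Iota0
import Fermat.Agent.S48x.G1.Defs

set_option autoImplicit false
set_option linter.unusedSectionVars false

noncomputable section

open ModularCurve IntermediateField CongruenceSubgroup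
open UpperHalfPlane hiding I
open scoped MatrixGroups

namespace Fermat.Agent.S48x.Ana.LevelP

open Fermat.Agent.S24 Fermat.Agent.S24.JLevel Fermat.Agent.S24.QExp
open Fermat.Agent.Gateway.Dict Fermat.Agent.Gateway.Dict.QExpMer
open Fermat.Agent.Gateway.Dict.ConjAbs Fermat.Agent.Gateway.Dict.NormQExpAux
open Fermat.Agent.S48x.HeckeFF Fermat.Agent.S48x.G1

/-! ### Group theory -/

section Group

variable {M : ℕ} (p : ℕ) [NeZero p]

/-- `±Γ₁(M)` is stable under conjugation by `diag(p,1)` on `Γ₀(p)`, for `p` prime to `M`. -/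
theorem conjP_mem_Gamma1pm (hpM : Nat.Coprime p M) {γ : SL(2, ℤ)} (hγ : γ ∈ Gamma0 p)
    (h : γ ∈ Gamma1pm M) : conjP p γ hγ ∈ Gamma1pm M := by
  rw [mem_Gamma1pm_iff] at h ⊢
  refine ⟨?_, h.2⟩
  rw [Gamma0_mem, ZMod.intCast_zmod_eq_zero_iff_dvd]
  have h1 : (M : ℤ) ∣ γ 1 0 := by
    have h0 := h.1
    rwa [Gamma0_mem, ZMod.intCast_zmod_eq_zero_iff_dvd] at h0
  have h2 : (M : ℤ) ∣ conjP p γ hγ 1 0 * (p : ℤ) := by
    rw [conjP_one_zero_mul]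
    exact h1
  have hcop : IsCoprime (M : ℤ) (p : ℤ) := (Nat.isCoprime_iff_coprime.mpr hpM).symm
  exact hcop.dvd_of_dvd_mul_right h2

/-- All conjugates of `T ^ (M p)` lie in `±Γ₁(M) ∩ Γ₀(p)`. -/
theorem conj_T_pow_mem (M p : ℕ) (g : SL(2, ℤ)) :
    g⁻¹ * ModularGroup.T ^ (M * p) * g ∈ Gamma1pm M ⊓ Gamma0 p := by
  have h1 : ModularGroup.T ^ ((M * p : ℕ) : ℤ) ∈ Gamma (M * p) := by
    have := ModularGroup_T_pow_mem_Gamma ((M * p : ℕ) : ℤ) ((M * p : ℕ) : ℤ) dvd_rfl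
    simpa using this
  have h2 : g⁻¹ * ModularGroup.T ^ ((M * p : ℕ) : ℤ) * g ∈ Gamma (M * p) := by
    have := (Gamma_normal (N := M * p)).conj_mem _ h1 g⁻¹
    simpa using this
  rw [zpow_natCast] at h2
  set γ := g⁻¹ * ModularGroup.T ^ (M * p) * g with hγ
  rw [Gamma_mem] at h2
  obtain ⟨-, -, h10, h11⟩ := h2
  have h10M : ((γ 1 0 : ℤ) : ZMod M) = 0 := by
    have := congrArg (ZMod.castHom (dvd_mul_right M p) (ZMod M)) h10
    simpa using this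
  have h10p : ((γ 1 0 : ℤ) : ZMod p) = 0 := by
    have := congrArg (ZMod.castHom (dvd_mul_left p M) (ZMod p)) h10
    simpa using this
  have h11M : ((γ 1 1 : ℤ) : ZMod M) = 1 := by
    have := congrArg (ZMod.castHom (dvd_mul_right M p) (ZMod M)) h11
    simpa using this
  exact Subgroup.mem_inf.mpr
    ⟨mem_Gamma1pm_iff.mpr ⟨Gamma0_mem.mpr h10M, Or.inl h11M⟩, Gamma0_mem.mpr h10p⟩

/-- The pair `γ0 ∈ Γ₁(M)`, `γ1 ∈ Γ₀(M)` with `diag(1,p) γ0 = γ1 diag(p,1)`, `lr γ1 = p`. -/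
theorem exists_gamma_pair (M : ℕ) (hpM : Nat.Coprime p M) :
    ∃ γ0 γ1 : SL(2, ℤ), γ0 ∈ Gamma1pm M ∧ γ1 ∈ Gamma0 M ∧ lr M γ1 = (p : ZMod M) ∧
      !![1, 0; 0, (p : ℤ)] * (γ0 : Matrix (Fin 2) (Fin 2) ℤ) =
        (γ1 : Matrix (Fin 2) (Fin 2) ℤ) * !![(p : ℤ), 0; 0, 1] := by
  have hcop : IsCoprime (p : ℤ) (M : ℤ) := Nat.isCoprime_iff_coprime.mpr hpM
  obtain ⟨u, w, huw⟩ := hcop
  have hd0 : (!![(p : ℤ) * u, -w; (M : ℤ), 1] : Matrix (Fin 2) (Fin 2) ℤ).det = 1 := by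
    rw [Matrix.det_fin_two_of]
    linarith
  have hd1 : (!![u, -w; (M : ℤ), (p : ℤ)] : Matrix (Fin 2) (Fin 2) ℤ).det = 1 := by
    rw [Matrix.det_fin_two_of]
    linarith
  set γ0 : SL(2, ℤ) := ⟨!![(p : ℤ) * u, -w; (M : ℤ), 1], hd0⟩ with hγ0
  set γ1 : SL(2, ℤ) := ⟨!![u, -w; (M : ℤ), (p : ℤ)], hd1⟩ with hγ1
  have e0 : (γ0 : Matrix (Fin 2) (Fin 2) ℤ) = !![(p : ℤ) * u, -w; (M : ℤ), 1] := rfl
  have e1 : (γ1 : Matrix (Fin 2) (Fin 2) ℤ) = !![u, -w; (M : ℤ), (p : ℤ)] := rfl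
  have a0 : γ0 1 0 = (M : ℤ) := rfl
  have b0 : γ0 1 1 = 1 := rfl
  have a1 : γ1 1 0 = (M : ℤ) := rfl
  have b1 : γ1 1 1 = (p : ℤ) := rfl
  refine ⟨γ0, γ1, ?_, ?_, ?_, ?_⟩
  · refine mem_Gamma1pm_iff.mpr ⟨Gamma0_mem.mpr ?_, Or.inl ?_⟩
    · rw [a0]
      simp
    · rw [lr, b0]
      simp
  · refine Gamma0_mem.mpr ?_
    rw [a1]
    simp
  · rw [lr, b1]
    simp
  · rw [e0, e1]
    ext i j
    fin_cases i <;> fin_cases j <;> simp [Matrix.mul_apply, Fin.sum_univ_two, mul_comm]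

end Group

/-! ### The dictionary at level `±Γ₁(M) ∩ Γ₀(p)` -/

section Main

variable {F₀ : IntermediateField ℚ (LaurentSeries ℚ)} {M : ℕ} (p : ℕ) [NeZero p]
  {L : Type} [Field L] [Algebra ℚ L] {ι : L →+* ℂ} {x0 : ↥(laurentBaseChange L F₀)}
  (D0 : EmbData L ↥(laurentBaseChange L F₀) ι x0 (Gamma1pm M))
  (hQ : ∀ f : ↥(laurentBaseChange L F₀), HasQ (D0.emb f) (coeffMap ι (f : LaurentSeries L)))

/-- **`D1`**: the embedding data of the level field, exact stabiliser `±Γ₁(M) ∩ Γ₀(p)`. -/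
def embDataP1 (hpM : Nat.Coprime p M) :
    EmbData L ↥(laurentBaseChange L (levelField F₀ p)) ι (alphaL F₀ p L x0)
      (Gamma1pm M ⊓ Gamma0 p) :=
  embDataP p D0 hQ fun _ hγ h => conjP_mem_Gamma1pm p hpM hγ h

variable (hpM : Nat.Coprime p M)

theorem embDataP1_alphaL (x : ↥(laurentBaseChange L F₀)) :
    (embDataP1 p D0 hQ hpM).emb (alphaL F₀ p L x) = D0.emb x :=
  embP_alphaL p D0 hQ x

theorem embDataP1_betaL (x : ↥(laurentBaseChange L F₀)) :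
    (embDataP1 p D0 hQ hpM).emb (betaL F₀ p L x) = (diagGL p)⁻¹ • D0.emb x :=
  embP_betaL p D0 hQ x

theorem hasQ_embDataP1 (f : ↥(laurentBaseChange L (levelField F₀ p))) :
    HasQ ((embDataP1 p D0 hQ hpM).emb f) (coeffMap ι (f : LaurentSeries L)) :=
  hasQ_embP p D0 hQ f

/-- Cusp-meromorphy at level `M p` of all translates of all values. -/
theorem embDataP1_mem_cuspAllField
    [Algebra.IsAlgebraic (IntermediateField.adjoin L {alphaL F₀ p L x0})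
      ↥(laurentBaseChange L (levelField F₀ p))]
    (f : ↥(laurentBaseChange L (levelField F₀ p))) :
    (embDataP1 p D0 hQ hpM).emb f ∈ NormAlpha.cuspAllField (M * p) :=
  embP_mem_cuspAllField p D0 hQ (fun _ hγ h => conjP_mem_Gamma1pm p hpM hγ h) (M * p)
    (conj_T_pow_mem M p) f

include hQ hpM in
/-- **The second embedding** of the level field of `±Γ₁(M) ∩ Γ₀(p)`: `ι₀ (α x) = x(s^p)`,
`ι₀ (β v) = (δ₀ v)(s)` with `δ₀` the diamond automorphism of lower right entry `p`. -/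
theorem exists_iota0_Gamma1pm
    (δ₀ : ↥(laurentBaseChange L F₀) → ↥(laurentBaseChange L F₀))
    (hδ₀ : ∀ g : SL(2, ℤ), g ∈ Gamma0 M → lr M g = (p : ZMod M) →
      ∀ v, D0.emb (δ₀ v) = g • D0.emb v) :
    ∃ ι₀ : ↥(laurentBaseChange L (levelField F₀ p)) →+* LaurentSeries L,
      (∀ x : ↥(laurentBaseChange L F₀),
        ι₀ (alphaL F₀ p L x) = qExpand L p (x : LaurentSeries L)) ∧
      (∀ v : ↥(laurentBaseChange L F₀), ι₀ (betaL F₀ p L v) = (δ₀ v : LaurentSeries L)) := by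
  obtain ⟨γ0, γ1, hγ0, hγ1, hlr, hrel⟩ := exists_gamma_pair p M hpM
  obtain ⟨ι₀, h1, h2, -⟩ := exists_iota0 p D0 hQ hγ0 hrel δ₀ (hδ₀ γ1 hγ1 hlr)
  exact ⟨ι₀, h1, h2⟩

end Main

end Fermat.Agent.S48x.Ana.LevelP
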