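/-
P-S48, block G1 layer (a)/(b2) glue (helper48): FROM THE LEVEL-`M` DICTIONARY TO (C1').

Everything generic in the rational model field `F₀ ⊆ ℚ((q))` (plug `F₀ = gamma1Field M`);
`G = Gamma1pm M`, `p` a prime not dividing `M`.

INPUTS (owed by (A5) `Ana/Emb1*`):
* over `ℂ`: `D0 : ConjAbs.EmbData ℂ F₀_ℂ id x0 (Gamma1pm M)`, `hQ` (`q`-expansions), `hrange`
  (every `±Γ₁(M)`-invariant element of `cuspAllField M` is in the range of `D0.emb`),
  algebraicity of `F₁_ℂ` over `ℂ(j)`;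
* over `K` (e.g. `ℚ̄`, with `ι : K →+* ℂ`): `D0`, `hQ`, and the diamond automorphism `δ` of lower
  right entry `p`.

OUTPUTS:
* `anaPair_levelP` : helper65's `AnaPair` for `(D0, embDataP1)` at level `M p`;
* `finrank_alphaL_C` : `FiniteAlong ℂ α ∧ finrankAlong ℂ α = p + 1`;
* `finrank_alphaL_of_C` : the same over any `K ⊆ ℂ` (base change, helper86's `C1Qbar`);
* `normQExpFormulaD_levelP` : helper54's `Kummer1.NormQExpFormulaD F₀ α β p δ ζ` over any
  algebraically closed `(L, ι : L →+* ℂ)` from `hdeg` + the dictionary + the diamond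
  (formal route: `NormQ1.normQExp_hecke` + second embedding `exists_iota0_Gamma1pm`).
-/
import Fermat.Agent.S48x.Ana.LevelP
import Fermat.Agent.S48x.HeckeFF.AnaNorm
import Fermat.Agent.S48x.HeckeFF.Cosets1
import Fermat.Agent.S48x.HeckeFF.C1Qbar
import Fermat.Agent.S48x.HeckeFF.NormQ1
import Fermat.Agent.S48x.Kummer1.ES

set_option autoImplicit false
set_option linter.unusedSectionVars false
set_option linter.style.haveILetI false

noncomputable section

open ModularCurve AlgebraicCurve IntermediateField CongruenceSubgroup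
open UpperHalfPlane hiding I
open scoped MatrixGroups

namespace Fermat.Agent.S48x.Ana.LevelP

open Fermat.Agent.S24 Fermat.Agent.S24.JLevel Fermat.Agent.S24.QExp
open Fermat.Agent.Gateway.Dict Fermat.Agent.Gateway.Dict.QExpMer
open Fermat.Agent.Gateway.Dict.ConjAbs Fermat.Agent.Gateway.Dict.NormAlpha
open Fermat.Agent.S48x.HeckeFF Fermat.Agent.S48x.G1
open Fermat.Agent.S28 Fermat.Agent.S28.Tower

/-! ### The range condition at level `M p` from the one at level `M` -/

section Range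

variable {M : ℕ}

/-- A `±Γ₁(M)`-invariant element of `cuspAllField n`, `M ∣ n`, lies in `cuspAllField M`. -/
theorem mem_cuspAllField_of_invariant {n : ℕ} (hn : 0 < n) (hMn : M ∣ n) {x : MerFun}
    (hx : x ∈ cuspAllField n) (hinv : ∀ γ ∈ Gamma1pm M, γ • x = x) : x ∈ cuspAllField M := by
  intro g
  refine CuspLevel.isCuspMer_of_dvd hn hMn (hx g) ?_
  have h1 : g⁻¹ * ModularGroup.T ^ M * g ∈ Gamma1pm M := by
    have h2 := (conj_T_pow_mem M 1 g).1
    rwa [mul_one] at h2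
  have h := hinv _ h1
  calc ModularGroup.T ^ M • g • x = g • ((g⁻¹ * ModularGroup.T ^ M * g) • x) := by
        rw [← mul_smul, ← mul_smul, mul_assoc, mul_inv_cancel_left]
    _ = g • x := by rw [h]

end Range

/-! ### Degree `p + 1` over `ℂ` -/

section OverC

variable {F₀ : IntermediateField ℚ (LaurentSeries ℚ)} {M : ℕ} (p : ℕ) [NeZero p]
  {x0 : ↥(laurentBaseChange ℂ F₀)}
  (D0 : EmbData ℂ ↥(laurentBaseChange ℂ F₀) (RingHom.id ℂ) x0 (Gamma1pm M))
  (hQ : ∀ f : ↥(laurentBaseChange ℂ F₀),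
    HasQ (D0.emb f) (coeffMap (RingHom.id ℂ) (f : LaurentSeries ℂ)))
  (hpM : Nat.Coprime p M)

/-- helper65's `AnaPair` for the pair (`D0`, `embDataP1`). -/
theorem anaPair_levelP (hM : 0 < M)
    [Algebra.IsAlgebraic (IntermediateField.adjoin ℂ {alphaL F₀ p ℂ x0})
      ↥(laurentBaseChange ℂ (levelField F₀ p))]
    (hrange : ∀ x ∈ cuspAllField M, (∀ γ ∈ Gamma1pm M, γ • x = x) → x ∈ D0.emb.range) :
    AnaPair (le_levelField F₀ p) (qExpand_mem_levelField F₀ p) D0 (embDataP1 p D0 hQ hpM)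
      (M * p) where
  emb_alpha := embDataP1_alphaL p D0 hQ hpM
  emb_beta := embDataP1_betaL p D0 hQ hpM
  cusp := embDataP1_mem_cuspAllField p D0 hQ hpM
  range := fun x hx hinv =>
    hrange x (mem_cuspAllField_of_invariant (Nat.mul_pos hM (Nat.pos_of_ne_zero (NeZero.ne p)))
      (dvd_mul_right M p) hx hinv) hinv

include hQ in
/-- **Degree of `α` over `ℂ`**: `[F₁_ℂ : F₀_ℂ] = p + 1`. -/
theorem finrank_alphaL_C (hp : p.Prime) (hM : 0 < M) (hpM' : ¬ p ∣ M)
    [Algebra.IsAlgebraic (IntermediateField.adjoin ℂ {alphaL F₀ p ℂ x0})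
      ↥(laurentBaseChange ℂ (levelField F₀ p))]
    (hrange : ∀ x ∈ cuspAllField M, (∀ γ ∈ Gamma1pm M, γ • x = x) → x ∈ D0.emb.range) :
    FiniteAlong ℂ (alphaL F₀ p ℂ) ∧ finrankAlong ℂ (alphaL F₀ p ℂ) = p + 1 := by
  have hpM : Nat.Coprime p M := (Nat.Prime.coprime_iff_not_dvd hp).mpr hpM'
  have h := anaPair_levelP p D0 hQ hpM hM hrange
  refine ⟨finiteAlong_alphaG' h, ?_⟩
  have h1 := finrankAlong_alphaG_eq_relIndex h
  have h2 := card_quot1 (M := M) hp hpM'
  rw [Subgroup.relIndex, Subgroup.index] at h1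
  exact h1.trans h2

end OverC

/-! ### Degree `p + 1` over a subfield of constants -/

section OverK

variable (K : Type) [Field K] [Algebra ℚ K] [Algebra K ℂ] [IsScalarTower ℚ K ℂ]
  {F₀ : IntermediateField ℚ (LaurentSeries ℚ)} (p : ℕ) [NeZero p]

/-- The degree of `α` over `K ⊆ ℂ` equals the degree over `ℂ`. -/
theorem finrank_alphaL_of_C (hfin : FiniteAlong K (alphaL F₀ p K)) {n : ℕ}
    (hC : finrankAlong ℂ (alphaL F₀ p ℂ) = n) : finrankAlong K (alphaL F₀ p K) = n := by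
  have h := finrankAlong_alphaG_baseChange K ℂ (le_levelField F₀ p) hfin
  exact h.symm.trans hC

end OverK

/-! ### (C1') from the second embedding -/

section C1

variable {F₀ : IntermediateField ℚ (LaurentSeries ℚ)} {M : ℕ} (p : ℕ) [NeZero p]
  {L : Type} [Field L] [Algebra ℚ L] [IsAlgClosed L] {ι : L →+* ℂ}
  {x0 : ↥(laurentBaseChange L F₀)}
  (D0 : EmbData L ↥(laurentBaseChange L F₀) ι x0 (Gamma1pm M))
  (hQ : ∀ f : ↥(laurentBaseChange L F₀), HasQ (D0.emb f) (coeffMap ι (f : LaurentSeries L)))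
  (hpM : Nat.Coprime p M)

include hQ hpM in
/-- **(C1') with diamond twist**, helper54's shape `Kummer1.NormQExpFormulaD`, over any
algebraically closed field of constants `L` with `ι : L →+* ℂ`: from the level-`M` dictionary
`(D0, hQ)` with `x0 = j`, the degree `p + 1` and the diamond automorphism `δ` of lower right
entry `p` (`D0.emb (δ v) = g • D0.emb v` for `g ∈ Γ₀(M)`, `lr M g = p`). -/
theorem normQExpFormulaD_levelP (hp : 2 ≤ p) (hx0 : (x0 : LaurentSeries L) = jqModC L)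
    (hfin : FiniteAlong L (alphaL F₀ p L))
    (hdeg : finrankAlong L (alphaL F₀ p L) = p + 1)
    (δ : ↥(laurentBaseChange L F₀) ≃ₐ[L] ↥(laurentBaseChange L F₀))
    (hδ : ∀ g : SL(2, ℤ), g ∈ Gamma0 M → lr M g = (p : ZMod M) →
      ∀ v, D0.emb (δ v) = g • D0.emb v)
    {ζ : Lˣ} (hζ : IsPrimitiveRoot ζ p) :
    Fermat.Agent.S48x.Kummer1.NormQExpFormulaD F₀ (alphaL F₀ p L) (betaL F₀ p L) p δ ζ := by
  intro u
  obtain ⟨ι₀, hι₀, hβ⟩ := exists_iota0_Gamma1pm p D0 hQ hpM (fun v => δ v) hδ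
  -- `δ` fixes `j`
  have hδj : δ x0 = x0 := by
    obtain ⟨γ0, γ1, -, hγ1, hlr, -⟩ := exists_gamma_pair p M hpM
    apply D0.emb.injective
    rw [hδ γ1 hγ1 hlr, D0.emb_x, MerFun.sl_smul_algebraMap, sl_smul_jHol]
  have hjv : (x0 : LaurentSeries L) = jS L 1 1 := by rw [hx0, jS_one_one]
  exact normQExp_hecke (hle := le_levelField F₀ p) (hq := qExpand_mem_levelField F₀ p) hp hfin hdeg
    ι₀ hι₀ (fun v => ((δ v : ↥(laurentBaseChange L F₀)) : LaurentSeries L)) hβ hζ x0 hjv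
    (by show ((δ x0 : ↥(laurentBaseChange L F₀)) : LaurentSeries L) = jS L 1 1
        rw [hδj, hjv]) u

end C1

end Fermat.Agent.S48x.Ana.LevelP
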