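/-
P-S48, block G1 layer (a)/(b2) glue (helper48): THE INSTANCE `F₀ = gamma1Field M`.

Unconditional (for `8 ≤ M`, `p` prime, `p ∤ M`) consequences of helper8's analytic uniformisation
`Ana/Emb1Inst.embData1` of `X₁(M)` and of the generic level-`p` dictionary `Ana/LevelP*`:

* `embDataP1_gamma1` : `ConjAbs.EmbData` of `(levelField (gamma1Field M) p)_L` with exact
  stabiliser `±Γ₁(M) ∩ Γ₀(p)`, over any `(L, ι, ζ)`;
* `anaPair_gamma1` : helper65's `AnaPair` over `ℂ` at level `M p`;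
* `finrank_alphaL_gamma1_C`, `finrank_alphaL_gamma1` : `α` is finite of degree `p + 1`, over `ℂ`
  and over any algebraically closed `L` with `ι : L →+* ℂ`;
* `normQExpFormulaD_gamma1` : **(C1')** `Kummer1.NormQExpFormulaD (gamma1Field M) α β p δ ζ_p` with
  `δ = diamond (p⁻¹)` (helper77's `Ana.Diamond.diamond` for helper8's `slashData1`), over any
  algebraically closed `L` with `ι : L →+* ℂ` — in particular over `ℚ̄`.
-/
import Fermat.Agent.S48x.Ana.LevelPFinal
import Fermat.Agent.S48x.Ana.Emb1Deg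
import Fermat.Agent.S48x.Ana.Emb1Slash
import Fermat.Agent.S48x.Ana.DegreeBCLevel

set_option autoImplicit false
set_option linter.unusedSectionVars false
set_option linter.style.haveILetI false

noncomputable section

open ModularCurve AlgebraicCurve IntermediateField CongruenceSubgroup
open UpperHalfPlane hiding I
open scoped MatrixGroups

namespace Fermat.Agent.S48x.Ana.LevelP

open Fermat.Agent.S24 Fermat.Agent.S24.JLevel Fermat.Agent.S24.QExp
open Fermat.Agent.Gateway.Dict Fermat.Agent.Gateway.Dict.QExpMer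
open Fermat.Agent.Gateway.Dict.ConjAbs Fermat.Agent.Gateway.Dict.NormAlpha
open Fermat.Agent.S48x.HeckeFF Fermat.Agent.S48x.G1 Fermat.Agent.S48x.Model
open Fermat.Agent.S48x.Ana.Emb1 Fermat.Agent.S48x.PPack

variable {M : ℕ} [NeZero M] (p : ℕ) [NeZero p]

theorem jq_mem_gamma1Field : jq ∈ gamma1Field M := by
  have h := jqd_mem_gamma1Field (M := M) (d := 1) (one_dvd M)
  rwa [qExpand_one_apply] at h

theorem jF1R_eq_jG (L : Type) [Field L] [Algebra ℚ L] :
    jF1R L M = jG L (jq_mem_gamma1Field (M := M)) := Subtype.ext rfl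

theorem alphaL_jF1R (L : Type) [Field L] [Algebra ℚ L] :
    alphaL (gamma1Field M) p L (jF1R L M) =
      jG L (le_levelField (gamma1Field M) p (jq_mem_gamma1Field (M := M))) := Subtype.ext rfl

/-! ### The dictionary at level `±Γ₁(M) ∩ Γ₀(p)` -/

section Dict

variable {L : Type} [Field L] [Algebra ℚ L] (ι : L →+* ℂ) (ζ : L)

/-- The analytic uniformisation of the level field of `±Γ₁(M) ∩ Γ₀(p)`. -/
def embDataP1_gamma1 (hM : 8 ≤ M) (hζ : IsPrimitiveRoot ζ M) (hι : ι ζ = zetaM M)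
    (hpM : Nat.Coprime p M) :
    EmbData L ↥(laurentBaseChange L (levelField (gamma1Field M) p)) ι
      (alphaL (gamma1Field M) p L (jF1R L M)) (Gamma1pm M ⊓ Gamma0 p) :=
  embDataP1 p (embData1 ι ζ hM hζ hι) (hasQ_embData1 hM hζ hι) hpM

end Dict

/-! ### Over `ℂ` -/

section OverC

theorem hasQ_embDataC' (hM : 8 ≤ M) (f : ↥(laurentBaseChange ℂ (gamma1Field M))) :
    HasQ ((embDataC hM).emb f) (coeffMap (RingHom.id ℂ) (f : LaurentSeries ℂ)) :=
  hasQ_embData1 (ι := RingHom.id ℂ) hM (CycloUnit.isPrimitiveRoot_zetaM M) rfl f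

theorem range_embDataC (hM : 8 ≤ M) :
    ∀ x ∈ cuspAllField M, (∀ γ ∈ Gamma1pm M, γ • x = x) → x ∈ (embDataC hM).emb.range :=
  fun x hx hinv =>
    (Fermat.Agent.S27x.G1.mem_range_iff (embDataC hM) (NeZero.pos M) (hcusp_embDataC hM) x).mpr
      ⟨hinv, hx⟩

theorem isAlgebraic_levelField_C (hM : 8 ≤ M) (hp : p.Prime) :
    Algebra.IsAlgebraic
      (IntermediateField.adjoin ℂ {alphaL (gamma1Field M) p ℂ (jF1R ℂ M)})
      ↥(laurentBaseChange ℂ (levelField (gamma1Field M) p)) := by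
  haveI : FiniteDimensional ℂ⟮jG ℂ (jq_mem_gamma1Field (M := M))⟯
      ↥(laurentBaseChange ℂ (gamma1Field M)) := by
    rw [← jF1R_eq_jG]
    exact finiteDimensional_C hM
  haveI := finiteDimensional_levelField ℂ p hp (jq_mem_gamma1Field (M := M))
  rw [alphaL_jF1R]
  exact Algebra.IsAlgebraic.of_finite _ _

/-- helper65's `AnaPair` for `X₁(M)` and the level field of `±Γ₁(M) ∩ Γ₀(p)`. -/
theorem anaPair_gamma1 (hM : 8 ≤ M) (hp : p.Prime) (hpM : Nat.Coprime p M) :
    AnaPair (le_levelField (gamma1Field M) p) (qExpand_mem_levelField (gamma1Field M) p)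
      (embDataC hM) (embDataP1 p (embDataC hM) (hasQ_embDataC' hM) hpM) (M * p) :=
  haveI := isAlgebraic_levelField_C p hM hp
  anaPair_levelP p (embDataC hM) (hasQ_embDataC' hM) hpM (NeZero.pos M) (range_embDataC hM)

/-- **Degree of `α` over `ℂ`.** -/
theorem finrank_alphaL_gamma1_C (hM : 8 ≤ M) (hp : p.Prime) (hpM : ¬ p ∣ M) :
    FiniteAlong ℂ (alphaL (gamma1Field M) p ℂ) ∧
      finrankAlong ℂ (alphaL (gamma1Field M) p ℂ) = p + 1 :=
  haveI := isAlgebraic_levelField_C p hM hp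
  finrank_alphaL_C p (embDataC hM) (hasQ_embDataC' hM) hp (NeZero.pos M) hpM (range_embDataC hM)

end OverC

/-! ### Over an algebraically closed field of constants embedded in `ℂ` -/

section OverL

variable {L : Type} [Field L] [Algebra ℚ L] [IsAlgClosed L] (ι : L →+* ℂ)

include ι in
/-- `F₀_L` is finite over `L(j)`. -/
theorem finiteDimensional_gamma1 (hM : 8 ≤ M) :
    FiniteDimensional L⟮jG L (jq_mem_gamma1Field (M := M))⟯
      ↥(laurentBaseChange L (gamma1Field M)) := by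
  haveI : FiniteDimensional ℂ⟮jG ℂ (jq_mem_gamma1Field (M := M))⟯
      ↥(laurentBaseChange ℂ (gamma1Field M)) := by
    rw [← jF1R_eq_jG]
    exact finiteDimensional_C hM
  exact DegreeBC.finiteDimensional_jG ι (jq_mem_gamma1Field (M := M))

include ι in
/-- All inputs of the Hecke correspondence `T_p` on `Pic⁰ (F1 L M)`. -/
theorem ffInputs_gamma1 (hM : 8 ≤ M) (hp : p.Prime) :
    FFInputs (betaL (gamma1Field M) p L) (alphaL (gamma1Field M) p L) :=
  haveI := Fermat.Agent.Gateway.Hecke.charZero_of_ratAlgebra L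
  haveI := finiteDimensional_gamma1 (M := M) ι hM
  ffInputs_levelField L p hp (jq_mem_gamma1Field (M := M))

include ι in
/-- **Degree of `α` over `L`.** -/
theorem finrank_alphaL_gamma1 (hM : 8 ≤ M) (hp : p.Prime) (hpM : ¬ p ∣ M) :
    FiniteAlong L (alphaL (gamma1Field M) p L) ∧
      finrankAlong L (alphaL (gamma1Field M) p L) = p + 1 := by
  have hfin : FiniteAlong L (alphaL (gamma1Field M) p L) := (ffInputs_gamma1 p ι hM hp).finψ
  letI := ι.toAlgebra
  haveI := DegreeBC.isScalarTower_toAlgebra ι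
  exact ⟨hfin, finrank_alphaL_of_C L p hfin (finrank_alphaL_gamma1_C p hM hp hpM).2⟩

/-- **(C1') for `X₁(M)`**: the `q`-expansion norm formula with diamond twist `δ = ⟨p⟩⁻¹`
(`ratio1 b c b' c' ↦ ratio1 (p⁻¹ b) ..`), over any algebraically closed `L` with `ι : L →+* ℂ`
(e.g. `L = ℚ̄`), in the shape consumed by `Kummer1/ES`. -/
theorem normQExpFormulaD_gamma1 (hM : 8 ≤ M) (hp : p.Prime) (hpM : ¬ p ∣ M) {ζ : L}
    (hζ : IsPrimitiveRoot ζ M) (hι : ι ζ = zetaM M) {ζp : Lˣ} (hζp : IsPrimitiveRoot ζp p) :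
    Fermat.Agent.S48x.Kummer1.NormQExpFormulaD (gamma1Field M) (alphaL (gamma1Field M) p L)
      (betaL (gamma1Field M) p L) p
      (Diamond.diamond hζ (slashData1 ι ζ hM hζ hι)
        (ZMod.unitOfCoprime p ((Nat.Prime.coprime_iff_not_dvd hp).mpr hpM))⁻¹) ζp := by
  have hcop : Nat.Coprime p M := (Nat.Prime.coprime_iff_not_dvd hp).mpr hpM
  obtain ⟨hfin, hdeg⟩ := finrank_alphaL_gamma1 p ι hM hp hpM
  refine normQExpFormulaD_levelP p (embData1 ι ζ hM hζ hι) (hasQ_embData1 hM hζ hι) hcop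
    hp.two_le rfl hfin hdeg _ (fun g hg hlr v => ?_) hζp
  have hlr' : lr M g⁻¹ = (((ZMod.unitOfCoprime p hcop)⁻¹ : (ZMod M)ˣ) : ZMod M) := by
    have h1 := lr_mul_lr_inv hg
    rw [hlr] at h1
    have h2 : ((ZMod.unitOfCoprime p hcop : (ZMod M)ˣ) : ZMod M) = (p : ZMod M) :=
      ZMod.coe_unitOfCoprime p hcop
    rw [← h2] at h1
    exact (Units.eq_inv_of_mul_eq_one_right (by rwa [mul_comm] at h1))
  exact Diamond.emb_diamond hζ (slashData1 ι ζ hM hζ hι) _ hg hlr' v

end OverL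

end Fermat.Agent.S48x.Ana.LevelP
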