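/-
P-S48, layer (a), abstract half of (A4) (helper33): the Galois structure of an analytic
realisation whose image is stable under `SL(2,ℤ)`.

Setting (`Gateway/Dict/ConjAbs.EmbData`): `E / K` a field, `x : E`, `Γ ≤ SL(2,ℤ)` of finite index,
`D.emb : E →+* MerFun` with `emb x = j`, constants to constants, image fixed by `Γ` and exact
stabiliser `Γ`.  Hypotheses:

* `Stable D` : the image of `emb` is stable under all of `SL(2,ℤ)` (`stable_of_generators`: enough
  on a generating set);
* `hinv` : the elements of `E` all of whose translates agree lie in `K(x)`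
  (over `ℂ`: `MerInvJ`; over `L ⊆ ℂ`: descent).

Conclusions: the action `act : SL(2,ℤ) →* (E ≃ₐ[K] E)`, `emb (act g f) = g • emb f`, with kernel `Γ`
(so `Γ` is normal); `E / K(x)` is finite Galois of degree `[SL(2,ℤ) : Γ]` and `actX` is onto its
Galois group; the Galois correspondence in analytic form (`mem_of_forall_smul_eq`): an intermediate
field `E' ∋ x` consists exactly of the elements fixed by the stabiliser of `E'`; and for `Γ ≤ H` the
fixed field `fixedOf D H` carries an `EmbData` with exact stabiliser `H`.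
-/
import Fermat.Agent.Gateway.Dict.ConjAbs

set_option autoImplicit false

noncomputable section

open UpperHalfPlane IntermediateField
open scoped MatrixGroups

namespace Fermat.Agent.S48x.Ana.GaloisAbs

open Fermat.Agent.S24 Fermat.Agent.S24.Conj Fermat.Agent.Gateway.Dict.ConjAbs

variable {K E : Type*} [Field K] [Field E] [Algebra K E] {ι : K →+* ℂ} {x : E}
  {Γ : Subgroup SL(2, ℤ)} (D : EmbData K E ι x Γ)

/-! ### Stability -/

/-- The image of the embedding is stable under `SL(2,ℤ)`. -/
def Stable : Prop := ∀ (g : SL(2, ℤ)) (f : E), g • D.emb f ∈ D.emb.range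

/-- The elements all of whose translates stay in the image. -/
def stableField : IntermediateField K E where
  carrier := {f | ∀ g : SL(2, ℤ), g • D.emb f ∈ D.emb.range}
  mul_mem' {a b} ha hb g := by
    rw [map_mul, smul_mul']
    exact mul_mem (ha g) (hb g)
  one_mem' g := by
    rw [map_one, smul_one]
    exact one_mem _
  add_mem' {a b} ha hb g := by
    rw [map_add, smul_add]
    exact add_mem (ha g) (hb g)
  zero_mem' g := by
    rw [map_zero, smul_zero]
    exact zero_mem _
  algebraMap_mem' c g := by
    rw [D.emb_const, sl_smul_const, ← D.emb_const]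
    exact ⟨_, rfl⟩
  inv_mem' a ha g := by
    rw [map_inv₀, smul_inv'']
    obtain ⟨b, hb⟩ := ha g
    exact ⟨b⁻¹, by rw [map_inv₀, hb]⟩

theorem mem_stableField {f : E} :
    f ∈ stableField D ↔ ∀ g : SL(2, ℤ), g • D.emb f ∈ D.emb.range := Iff.rfl

/-- Stability can be checked on a generating set. -/
theorem stable_of_generators (S : Set E) (hS : IntermediateField.adjoin K S = ⊤)
    (h : ∀ s ∈ S, ∀ g : SL(2, ℤ), g • D.emb s ∈ D.emb.range) : Stable D := by
  have hle : IntermediateField.adjoin K S ≤ stableField D :=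
    IntermediateField.adjoin_le_iff.mpr fun s hs => h s hs
  intro g f
  have hf : f ∈ IntermediateField.adjoin K S := by rw [hS]; exact IntermediateField.mem_top
  exact hle hf g

/-! ### The action -/

section Act

variable (hS : Stable D)

/-- The translate of `f` by `g`, as an element of `E`. -/
def actFun (g : SL(2, ℤ)) (f : E) : E := Classical.choose (hS g f)

theorem emb_actFun (g : SL(2, ℤ)) (f : E) : D.emb (actFun D hS g f) = g • D.emb f :=
  Classical.choose_spec (hS g f)

theorem actFun_eq_iff (g : SL(2, ℤ)) (f f' : E) :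
    actFun D hS g f = f' ↔ g • D.emb f = D.emb f' := by
  rw [← emb_actFun D hS]
  exact ⟨fun h => by rw [h], fun h => D.emb.injective h⟩

theorem actFun_one (f : E) : actFun D hS 1 f = f := by
  rw [actFun_eq_iff, one_smul]

theorem actFun_mul (g h : SL(2, ℤ)) (f : E) :
    actFun D hS (g * h) f = actFun D hS g (actFun D hS h f) := by
  rw [actFun_eq_iff, emb_actFun, emb_actFun, mul_smul]

/-- The translation by `g` as a `K`-algebra automorphism of `E`. -/
def actEquiv (g : SL(2, ℤ)) : E ≃ₐ[K] E where
  toFun := actFun D hS g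
  invFun := actFun D hS g⁻¹
  left_inv f := by rw [← actFun_mul, inv_mul_cancel, actFun_one]
  right_inv f := by rw [← actFun_mul, mul_inv_cancel, actFun_one]
  map_mul' a b := by
    rw [actFun_eq_iff, map_mul, smul_mul', map_mul, emb_actFun, emb_actFun]
  map_add' a b := by
    rw [actFun_eq_iff, map_add, smul_add, map_add, emb_actFun, emb_actFun]
  commutes' c := by
    rw [actFun_eq_iff, D.emb_const, sl_smul_const]

/-- **The action of `SL(2,ℤ)` on `E`.** -/
def act : SL(2, ℤ) →* (E ≃ₐ[K] E) where
  toFun := actEquiv D hS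
  map_one' := AlgEquiv.ext fun f => actFun_one D hS f
  map_mul' g h := AlgEquiv.ext fun f => actFun_mul D hS g h f

theorem emb_act (g : SL(2, ℤ)) (f : E) : D.emb (act D hS g f) = g • D.emb f :=
  emb_actFun D hS g f

theorem act_eq_iff (g : SL(2, ℤ)) (f f' : E) :
    act D hS g f = f' ↔ g • D.emb f = D.emb f' :=
  actFun_eq_iff D hS g f f'

theorem act_x (g : SL(2, ℤ)) : act D hS g x = x := by
  rw [act_eq_iff, D.emb_x, MerFun.sl_smul_algebraMap, sl_smul_jHol]

theorem act_eq_one_iff (g : SL(2, ℤ)) : act D hS g = 1 ↔ g ∈ Γ := by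
  constructor
  · intro h
    refine D.stab g fun f => ?_
    rw [← emb_act D hS, h]
    rfl
  · intro h
    refine AlgEquiv.ext fun f => ?_
    rw [act_eq_iff, D.fixed g h]
    rfl

theorem act_ker : (act D hS).ker = Γ := by
  ext g
  rw [MonoidHom.mem_ker, act_eq_one_iff]

include hS in
/-- A subgroup which is the exact stabiliser of a stable image is normal. -/
theorem normal : Γ.Normal := by
  rw [← act_ker D hS]
  exact MonoidHom.normal_ker _

theorem act_eq_act_iff (g h : SL(2, ℤ)) : act D hS g = act D hS h ↔ g⁻¹ * h ∈ Γ := by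
  rw [← act_eq_one_iff D hS, map_mul, map_inv, inv_mul_eq_one]

/-- The elements fixed by one automorphism. -/
def fixedBy (σ : E ≃ₐ[K] E) : IntermediateField K E where
  carrier := {e | σ e = e}
  mul_mem' {a b} ha hb := by
    show σ (a * b) = a * b
    rw [map_mul, show σ a = a from ha, show σ b = b from hb]
  one_mem' := map_one σ
  add_mem' {a b} ha hb := by
    show σ (a + b) = a + b
    rw [map_add, show σ a = a from ha, show σ b = b from hb]
  zero_mem' := map_zero σ
  algebraMap_mem' c := σ.commutes c
  inv_mem' a ha := by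
    show σ a⁻¹ = a⁻¹
    rw [map_inv₀, show σ a = a from ha]

theorem act_algebraMap_adjoin (g : SL(2, ℤ)) (e : K⟮x⟯) :
    act D hS g (algebraMap K⟮x⟯ E e) = algebraMap K⟮x⟯ E e := by
  have hle : K⟮x⟯ ≤ fixedBy (act D hS g) :=
    IntermediateField.adjoin_simple_le_iff.mpr (act_x D hS g)
  exact hle e.2

/-- The action as automorphisms over `K(x)`. -/
def actX : SL(2, ℤ) →* (E ≃ₐ[K⟮x⟯] E) where
  toFun g := AlgEquiv.ofRingEquiv (f := (act D hS g).toRingEquiv)
    (fun e => act_algebraMap_adjoin D hS g e)
  map_one' := AlgEquiv.ext fun f => by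
    show act D hS 1 f = f
    rw [map_one]
    rfl
  map_mul' g h := AlgEquiv.ext fun f => by
    show act D hS (g * h) f = act D hS g (act D hS h f)
    rw [map_mul]
    rfl

@[simp] theorem actX_apply (g : SL(2, ℤ)) (f : E) : actX D hS g f = act D hS g f := rfl

theorem emb_actX (g : SL(2, ℤ)) (f : E) : D.emb (actX D hS g f) = g • D.emb f :=
  emb_act D hS g f

theorem actX_eq_one_iff (g : SL(2, ℤ)) : actX D hS g = 1 ↔ g ∈ Γ := by
  rw [← act_eq_one_iff D hS]
  constructor
  · intro h
    refine AlgEquiv.ext fun f => ?_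
    have := DFunLike.congr_fun h f
    exact this
  · intro h
    refine AlgEquiv.ext fun f => ?_
    have := DFunLike.congr_fun h f
    exact this

theorem actX_ker : (actX D hS).ker = Γ := by
  ext g
  rw [MonoidHom.mem_ker, actX_eq_one_iff]

end Act

/-! ### The Galois theorem -/

section Galois

variable (hS : Stable D) [Γ.FiniteIndex]
  (hinv : ∀ f : E, (∀ g : SL(2, ℤ), g • D.emb f = D.emb f) → f ∈ K⟮x⟯)

/-- The image of the action in `Gal(E / K(x))`. -/
abbrev rangeX : Subgroup (E ≃ₐ[K⟮x⟯] E) := (actX D hS).range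

instance finite_rangeX : Finite (rangeX D hS) := by
  have e := QuotientGroup.quotientKerEquivRange (actX D hS)
  have hfin : Finite (SL(2, ℤ) ⧸ (actX D hS).ker) := by
    rw [actX_ker]
    exact Subgroup.finite_quotient_of_finiteIndex
  exact Finite.of_equiv _ e.toEquiv

omit [Γ.FiniteIndex] in
theorem card_rangeX : Nat.card (rangeX D hS) = Γ.index := by
  rw [← Nat.card_congr (QuotientGroup.quotientKerEquivRange (actX D hS)).toEquiv, Subgroup.index,
    actX_ker]

omit [Γ.FiniteIndex] in
include hS hinv in
theorem fixedField_rangeX : IntermediateField.fixedField (rangeX D hS) = ⊥ := by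
  rw [eq_bot_iff]
  intro f hf
  rw [IntermediateField.mem_fixedField_iff] at hf
  have hf' : f ∈ K⟮x⟯ := hinv f fun g => by
    have h1 := hf (actX D hS g) ⟨g, rfl⟩
    rw [← emb_actX D hS, h1]
  exact IntermediateField.mem_bot.mpr ⟨⟨f, hf'⟩, rfl⟩

include hS hinv in
theorem finiteDimensional_bot :
    FiniteDimensional (⊥ : IntermediateField K⟮x⟯ E) E :=
  fixedField_rangeX D hS hinv ▸
    (show FiniteDimensional (IntermediateField.fixedField (rangeX D hS)) E from
      (inferInstance : FiniteDimensional (FixedPoints.subfield (rangeX D hS) E) E))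

include hS hinv in
/-- `E / K(x)` is finite. -/
theorem finiteDimensional : FiniteDimensional K⟮x⟯ E := by
  have := finiteDimensional_bot D hS hinv
  exact Module.Finite.trans (⊥ : IntermediateField K⟮x⟯ E) E

include hS hinv in
/-- `[E : K(x)] = [SL(2,ℤ) : Γ]`. -/
theorem finrank_eq_index : Module.finrank K⟮x⟯ E = Γ.index := by
  have := finiteDimensional D hS hinv
  rw [← IntermediateField.finrank_bot', ← fixedField_rangeX D hS hinv,
    IntermediateField.finrank_fixedField_eq_card, card_rangeX]

include hS hinv in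
/-- `E / K(x)` is Galois. -/
theorem isGalois : IsGalois K⟮x⟯ E := by
  rw [← isGalois_iff_isGalois_bot, ← fixedField_rangeX D hS hinv]
  exact IsGalois.of_fixed_field E (rangeX D hS)

include hS hinv in
theorem rangeX_eq_top : rangeX D hS = ⊤ := by
  have := finiteDimensional D hS hinv
  have h := IntermediateField.fixingSubgroup_fixedField (rangeX D hS)
  rw [fixedField_rangeX D hS hinv, IntermediateField.fixingSubgroup_bot] at h
  exact h.symm

include hS hinv in
/-- Every automorphism of `E` over `K(x)` is a translation. -/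
theorem actX_surjective : Function.Surjective (actX D hS) := by
  intro σ
  have h : σ ∈ rangeX D hS := by rw [rangeX_eq_top D hS hinv]; exact Subgroup.mem_top σ
  exact h

include hS hinv in
/-- **Galois correspondence, analytic form.** An intermediate field containing `x` consists exactly
of the elements fixed by its stabiliser. -/
theorem mem_of_forall_smul_eq (E' : IntermediateField K E) (hx : x ∈ E') (f : E)
    (h : ∀ g : SL(2, ℤ), (∀ e ∈ E', g • D.emb e = D.emb e) → g • D.emb f = D.emb f) :
    f ∈ E' := by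
  have := finiteDimensional D hS hinv
  have := isGalois D hS hinv
  have hle : K⟮x⟯ ≤ E' := IntermediateField.adjoin_simple_le_iff.mpr hx
  set E'' : IntermediateField K⟮x⟯ E := IntermediateField.extendScalars hle with hE''
  have hfix := IsGalois.fixedField_fixingSubgroup E''
  have hf : f ∈ IntermediateField.fixedField (IntermediateField.fixingSubgroup E'') := by
    rw [IntermediateField.mem_fixedField_iff]
    intro σ hσ
    obtain ⟨g, rfl⟩ := actX_surjective D hS hinv σ
    rw [actX_apply, act_eq_iff]
    refine h g fun e he => ?_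
    have h1 : actX D hS g e = e := by
      have := (IntermediateField.mem_fixingSubgroup_iff E'' (actX D hS g)).mp hσ e he
      exact this
    rw [← emb_actX D hS, h1]
  rw [hfix] at hf
  exact hf

end Galois

/-! ### Fixed fields of intermediate subgroups -/

/-- The elements of `E` fixed by a subgroup `H` of `SL(2,ℤ)`. -/
def fixedOf (H : Subgroup SL(2, ℤ)) : IntermediateField K E where
  carrier := {f | ∀ g ∈ H, g • D.emb f = D.emb f}
  mul_mem' {a b} ha hb g hg := by
    rw [map_mul, smul_mul', ha g hg, hb g hg]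
  one_mem' g _ := by
    rw [map_one, smul_one]
  add_mem' {a b} ha hb g hg := by
    rw [map_add, smul_add, ha g hg, hb g hg]
  zero_mem' g _ := by
    rw [map_zero, smul_zero]
  algebraMap_mem' c g _ := by
    rw [D.emb_const, sl_smul_const]
  inv_mem' a ha g hg := by
    rw [map_inv₀, smul_inv'', ha g hg]

theorem mem_fixedOf {H : Subgroup SL(2, ℤ)} {f : E} :
    f ∈ fixedOf D H ↔ ∀ g ∈ H, g • D.emb f = D.emb f := Iff.rfl

theorem x_mem_fixedOf (H : Subgroup SL(2, ℤ)) : x ∈ fixedOf D H := fun g _ => by
  rw [D.emb_x, MerFun.sl_smul_algebraMap, sl_smul_jHol]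

theorem fixedOf_anti {H H' : Subgroup SL(2, ℤ)} (h : H ≤ H') : fixedOf D H' ≤ fixedOf D H :=
  fun _ hf g hg => hf g (h hg)

theorem fixedOf_eq_top {H : Subgroup SL(2, ℤ)} (h : H ≤ Γ) : fixedOf D H = ⊤ :=
  top_unique fun f _ g hg => D.fixed g (h hg) f

section FixedOf

variable (hS : Stable D) [Γ.FiniteIndex]
  (hinv : ∀ f : E, (∀ g : SL(2, ℤ), g • D.emb f = D.emb f) → f ∈ K⟮x⟯)

include hS hinv in
/-- An intermediate field containing `x` with stabiliser `H` is the fixed field of `H`. -/
theorem eq_fixedOf (E' : IntermediateField K E) (hx : x ∈ E') (H : Subgroup SL(2, ℤ))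
    (hfix : ∀ g ∈ H, ∀ e ∈ E', g • D.emb e = D.emb e)
    (hstab : ∀ g : SL(2, ℤ), (∀ e ∈ E', g • D.emb e = D.emb e) → g ∈ H) :
    E' = fixedOf D H := by
  refine le_antisymm (fun e he g hg => hfix g hg e he) fun f hf => ?_
  exact mem_of_forall_smul_eq D hS hinv E' hx f fun g hg => hf g (hstab g hg)

include hS hinv in
/-- The stabiliser of the fixed field of `H ≥ Γ` is `H`. -/
theorem mem_of_forall_fixedOf {H : Subgroup SL(2, ℤ)} (hΓH : Γ ≤ H) (γ : SL(2, ℤ))
    (hγ : ∀ f ∈ fixedOf D H, γ • D.emb f = D.emb f) : γ ∈ H := by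
  have := finiteDimensional D hS hinv
  set HX : Subgroup (E ≃ₐ[K⟮x⟯] E) := H.map (actX D hS) with hHX
  have h1 := IntermediateField.fixingSubgroup_fixedField HX
  have hmem : actX D hS γ ∈ IntermediateField.fixingSubgroup (IntermediateField.fixedField HX) := by
    rw [IntermediateField.mem_fixingSubgroup_iff]
    intro f hf
    rw [IntermediateField.mem_fixedField_iff] at hf
    rw [actX_apply, act_eq_iff]
    refine hγ f fun g hg => ?_
    have h2 := hf (actX D hS g) (Subgroup.mem_map_of_mem _ hg)
    rw [← emb_actX D hS, h2]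
  rw [h1] at hmem
  obtain ⟨h, hh, hhγ⟩ := Subgroup.mem_map.mp hmem
  have h3 : h⁻¹ * γ ∈ Γ := by
    rw [← actX_eq_one_iff D hS, map_mul, map_inv, hhγ, inv_mul_cancel]
  have h4 : γ = h * (h⁻¹ * γ) := by rw [mul_inv_cancel_left]
  rw [h4]
  exact H.mul_mem hh (hΓH h3)

/-- **The analytic realisation of the fixed field of `H ≥ Γ`**, with exact stabiliser `H`. -/
def embDataFixedOf {H : Subgroup SL(2, ℤ)} (hΓH : Γ ≤ H) :
    EmbData K (fixedOf D H) ι ⟨x, x_mem_fixedOf D H⟩ H where
  emb := D.emb.comp (algebraMap (fixedOf D H) E)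
  emb_const c := D.emb_const c
  emb_x := D.emb_x
  fixed γ hγ f := f.2 γ hγ
  stab γ hγ := mem_of_forall_fixedOf D hS hinv hΓH γ fun f hf => hγ ⟨f, hf⟩

@[simp] theorem embDataFixedOf_emb {H : Subgroup SL(2, ℤ)} (hΓH : Γ ≤ H) (f : fixedOf D H) :
    (embDataFixedOf D hS hinv hΓH).emb f = D.emb (f : E) := rfl

end FixedOf

end Fermat.Agent.S48x.Ana.GaloisAbs
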