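import Mathlib
import Fermat.Agent.S48x.Ana.WpHolo
import Fermat.Agent.S48x.Model.Rigidity
import Fermat.Agent.S48x.Model.Leading
import Fermat.Agent.S48x.Model.Stab
import Fermat.Agent.S48x.G1.Defs
import Fermat.Agent.S24.JLevel

/-!
P-S48, layer (a) of G1, slice (A3) (helper67): the EXACT STABILISERS of the analytic models of the
function fields of `X(M)` and `X₁(M)` (formal → analytic glue).

Everything is hypothesis-style on an embedding `emb` of the formal field into `S24.MerFun` sending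
the generators to the analytic functions of `Ana/WpHolo.lean` (`Rfun`) and `S24/JLevel.lean`
(`jd d`); the embedding itself is slice (A2) (`Ana/EmbFull.lean`) resp. (A5).

* `redSL M`, `GammaPM M = {γ | γ ≡ ±1 mod M}`; `vecSL_eq_vecAct`;
* `smul_Rfun_of_mem_GammaPM` : `±Γ(M)` fixes every `Rfun v w v' w'`;
* `FullEmb.fixes_iff` : `(∀ f, γ • emb f = emb f) ↔ γ ∈ GammaPM M`  (`5 ≤ M`;
  `⇒` is (RIG) of `Model/Rigidity.lean`, whose `OrderFacts` come from `Model/Leading.lean`);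
* `Gamma1Emb.fixes_iff` : `(∀ f, γ • emb1 f = emb1 f) ↔ γ ∈ G1.Gamma1pm M`  (`8 ≤ M`;
  `⇒` uses `j(Mτ)` for `γ ∈ Γ₀(M)` and `Model/Stab.lean` for the diamond part).
-/

set_option autoImplicit false
set_option linter.unusedSectionVars false

open UpperHalfPlane hiding I
open scoped MatrixGroups

noncomputable section

namespace Fermat.Agent.S48x.Ana.StabFull

open Fermat.Agent.S48x.Model Fermat.Agent.S48x.Ana Fermat.Agent.S24 ModularCurve
open Fermat.Agent.S24.JLevel (jd)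

variable (M : ℕ) [NeZero M]

/-! ### Reduction mod `M` and the group `±Γ(M)` -/

/-- reduction mod `M`. -/
def redSL : SL(2, ℤ) →* Matrix.SpecialLinearGroup (Fin 2) (ZMod M) :=
  Matrix.SpecialLinearGroup.map (Int.castRingHom (ZMod M))

theorem redSL_apply (γ : SL(2, ℤ)) (i j : Fin 2) :
    (redSL M γ : Matrix (Fin 2) (Fin 2) (ZMod M)) i j = ((γ i j : ℤ) : ZMod M) := rfl

/-- the label action of `Ana/WpHolo.lean` is the matrix action of `Model/Rigidity.lean`. -/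
theorem vecSL_eq_vecAct (v : Vec M) (γ : SL(2, ℤ)) :
    vecSL M v γ = Rigidity.vecAct (redSL M γ : Matrix (Fin 2) (Fin 2) (ZMod M)) v := rfl

/-- `±Γ(M)`: the matrices congruent to `±1` mod `M`. -/
def GammaPM : Subgroup SL(2, ℤ) where
  carrier := {γ | redSL M γ = 1 ∨ redSL M γ = -1}
  one_mem' := Or.inl (map_one _)
  mul_mem' := by
    rintro a b (ha | ha) (hb | hb)
    · left; rw [map_mul, ha, hb, one_mul]
    · right; rw [map_mul, ha, hb, one_mul]
    · right; rw [map_mul, ha, hb, mul_one]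
    · left; rw [map_mul, ha, hb, neg_mul_neg, one_mul]
  inv_mem' := by
    rintro a (ha | ha)
    · left; rw [map_inv, ha, inv_one]
    · right
      rw [map_inv, ha]
      apply inv_eq_of_mul_eq_one_left
      rw [neg_mul_neg, one_mul]

theorem mem_GammaPM_iff {γ : SL(2, ℤ)} : γ ∈ GammaPM M ↔ redSL M γ = 1 ∨ redSL M γ = -1 :=
  Iff.rfl

theorem Gamma_le_GammaPM : CongruenceSubgroup.Gamma M ≤ GammaPM M :=
  fun _ h => Or.inl (CongruenceSubgroup.Gamma_mem'.mp h)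

theorem neg_one_mem_GammaPM : (-1 : SL(2, ℤ)) ∈ GammaPM M := by
  right
  apply Subtype.ext
  ext i j
  rw [redSL_apply]
  fin_cases i <;> fin_cases j <;> simp

theorem GammaPM_le_Gamma0 : GammaPM M ≤ CongruenceSubgroup.Gamma0 M := by
  intro γ hγ
  rw [CongruenceSubgroup.Gamma0_mem, ← redSL_apply]
  rcases hγ with h | h
  · rw [h]; simp
  · rw [h]; simp

/-- membership in `±Γ(M)` in terms of the entries. -/
theorem mem_GammaPM_iff_entries {γ : SL(2, ℤ)} :
    γ ∈ GammaPM M ↔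
      (((γ 0 0 : ℤ) : ZMod M) = 1 ∧ ((γ 0 1 : ℤ) : ZMod M) = 0 ∧ ((γ 1 0 : ℤ) : ZMod M) = 0 ∧
        ((γ 1 1 : ℤ) : ZMod M) = 1) ∨
      (((γ 0 0 : ℤ) : ZMod M) = -1 ∧ ((γ 0 1 : ℤ) : ZMod M) = 0 ∧ ((γ 1 0 : ℤ) : ZMod M) = 0 ∧
        ((γ 1 1 : ℤ) : ZMod M) = -1) := by
  rw [mem_GammaPM_iff]
  constructor
  · rintro (h | h)
    · left
      refine ⟨?_, ?_, ?_, ?_⟩ <;> rw [← redSL_apply, h] <;> simp
    · right
      refine ⟨?_, ?_, ?_, ?_⟩ <;> rw [← redSL_apply, h] <;> simp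
  · rintro (⟨h00, h01, h10, h11⟩ | ⟨h00, h01, h10, h11⟩)
    · left
      apply Subtype.ext
      ext i j
      fin_cases i <;> fin_cases j <;> simp [redSL_apply, h00, h01, h10, h11]
    · right
      apply Subtype.ext
      ext i j
      fin_cases i <;> fin_cases j <;> simp [redSL_apply, h00, h01, h10, h11]

/-! ### `±Γ(M)` fixes the functions `Rfun` -/

theorem vecSL_of_redSL_eq_one (v : Vec M) {γ : SL(2, ℤ)} (h : redSL M γ = 1) :
    vecSL M v γ = v := by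
  rw [vecSL_eq_vecAct, h, Matrix.SpecialLinearGroup.coe_one, Rigidity.vecAct_one]

theorem vecSL_of_redSL_eq_neg_one (v : Vec M) {γ : SL(2, ℤ)} (h : redSL M γ = -1) :
    vecSL M v γ = -v := by
  rw [vecSL_eq_vecAct, h, Matrix.SpecialLinearGroup.coe_neg, Matrix.SpecialLinearGroup.coe_one,
    Rigidity.vecAct_neg_left, Rigidity.vecAct_one]

theorem Rfun_neg_all (v w v' w' : Vec M) : Rfun M (-v) (-w) (-v') (-w') = Rfun M v w v' w' := by
  unfold Rfun
  rw [dHol_neg_left, dHol_neg_right, dHol_neg_left, dHol_neg_right]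

/-- `±Γ(M)` fixes every `Rfun v w v' w'` (no hypothesis on the labels). -/
theorem smul_Rfun_of_mem_GammaPM {γ : SL(2, ℤ)} (hγ : γ ∈ GammaPM M) (v w v' w' : Vec M) :
    γ • Rfun M v w v' w' = Rfun M v w v' w' := by
  rw [smul_Rfun]
  rcases (GammaPM M).inv_mem hγ with h | h
  · rw [vecSL_of_redSL_eq_one M v h, vecSL_of_redSL_eq_one M w h, vecSL_of_redSL_eq_one M v' h,
      vecSL_of_redSL_eq_one M w' h]
  · rw [vecSL_of_redSL_eq_neg_one M v h, vecSL_of_redSL_eq_neg_one M w h,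
      vecSL_of_redSL_eq_neg_one M v' h, vecSL_of_redSL_eq_neg_one M w' h, Rfun_neg_all]

/-- `Γ₀(M)` acts on the labels `(0, b)` through the lower right entry: the diamond action on the
functions `Rfun (0,b) (0,c) (0,b') (0,c')`. -/
theorem smul_Rfun_zero_fst {γ : SL(2, ℤ)} (hγ : γ ∈ CongruenceSubgroup.Gamma0 M)
    (b c b' c' : ZMod M) :
    γ • Rfun M (0, b) (0, c) (0, b') (0, c') =
      Rfun M (0, G1.lr M γ⁻¹ * b) (0, G1.lr M γ⁻¹ * c) (0, G1.lr M γ⁻¹ * b')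
        (0, G1.lr M γ⁻¹ * c') := by
  have h10 : (((γ⁻¹ : SL(2, ℤ)) 1 0 : ℤ) : ZMod M) = 0 :=
    CongruenceSubgroup.Gamma0_mem.mp ((CongruenceSubgroup.Gamma0 M).inv_mem hγ)
  rw [smul_Rfun, vecSL_zero_fst M b h10, vecSL_zero_fst M c h10, vecSL_zero_fst M b' h10,
    vecSL_zero_fst M c' h10]
  simp only [G1.lr, mul_comm]

/-! ### Ring homomorphisms out of `IntermediateField.adjoin` -/

/-- two ring homomorphisms on `K(s)` which agree on `K` and on `s` are equal. -/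
theorem ringHom_ext_adjoin {K E T : Type*} [Field K] [Field E] [Algebra K E] [DivisionRing T]
    {s : Set E} (φ ψ : ↥(IntermediateField.adjoin K s) →+* T)
    (hc : ∀ c : K, φ (algebraMap K ↥(IntermediateField.adjoin K s) c) =
      ψ (algebraMap K ↥(IntermediateField.adjoin K s) c))
    (hs : ∀ x (hx : x ∈ s), φ ⟨x, IntermediateField.subset_adjoin K s hx⟩ =
      ψ ⟨x, IntermediateField.subset_adjoin K s hx⟩) : φ = ψ := by
  ext ⟨x, hx⟩
  induction hx using IntermediateField.adjoin_induction with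
  | mem x hx => exact hs x hx
  | algebraMap c => exact hc c
  | add x y hx hy ihx ihy =>
    have e : (⟨x + y, add_mem hx hy⟩ : ↥(IntermediateField.adjoin K s)) = ⟨x, hx⟩ + ⟨y, hy⟩ := rfl
    rw [e, map_add, map_add, ihx, ihy]
  | inv x hx ih =>
    have e : (⟨x⁻¹, inv_mem hx⟩ : ↥(IntermediateField.adjoin K s)) = (⟨x, hx⟩)⁻¹ := rfl
    rw [e, map_inv₀, map_inv₀, ih]
  | mul x y hx hy ihx ihy =>
    have e : (⟨x * y, mul_mem hx hy⟩ : ↥(IntermediateField.adjoin K s)) = ⟨x, hx⟩ * ⟨y, hy⟩ := rfl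
    rw [e, map_mul, map_mul, ihx, ihy]

/-- the order facts of `Model/Rigidity.lean`, from `Model/Leading.lean`. -/
theorem orderFacts {R : Type*} [Field R] {M : ℕ} [NeZero M] {ζ : R} (hζ : IsPrimitiveRoot ζ M) :
    Rigidity.OrderFacts M ζ :=
  ⟨fun _ _ h => Leading.eSeries_sub_ne_zero hζ h.1 h.2.1 h.2.2.1 h.2.2.2,
    fun _ _ h => Leading.order_eSeries_sub hζ h.1 h.2.1 h.2.2.1 h.2.2.2⟩

/-! ### The full field -/

section Full

variable {M}
variable {L : Type*} [Field L] {ζ : L}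

/-- The hypotheses on the analytic model `emb` of `fullField M ζ` (slice (A2)): constants go to
`SL(2, ℤ)`-invariant functions, `j(z^(dM)) ↦ jd d`, `ratio v w v' w' ↦ Rfun v w v' w'`. -/
structure IsFullEmb (emb : ↥(fullField M ζ) →+* MerFun) : Prop where
  const_fixed : ∀ (c : L) (γ : SL(2, ℤ)),
    γ • emb (algebraMap L ↥(fullField M ζ) c) = emb (algebraMap L ↥(fullField M ζ) c)
  jd : ∀ (d : ℕ) [NeZero d] (hd : d ∣ M),
    emb ⟨qExpand L (d * M) (jqModC L), jqd_mem_fullField ζ hd⟩ = algebraMap HolFun MerFun (jd d)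
  ratio : ∀ (v w v' w' : Vec M) (hv : v ≠ 0) (hw : w ≠ 0) (hv' : v' ≠ 0) (hw' : w' ≠ 0),
    emb ⟨ratio M ζ v w v' w', ratio_mem_fullField ζ hv hw hv' hw'⟩ = Rfun M v w v' w'

/-- `γ • jd d = jd d` in `MerFun` for `γ ∈ Γ₀(M)`, `d ∣ M`. -/
theorem smul_algebraMap_jd {d : ℕ} [NeZero d] (hd : d ∣ M) {γ : SL(2, ℤ)}
    (hγ : γ ∈ CongruenceSubgroup.Gamma0 M) :
    γ • algebraMap HolFun MerFun (jd d) = algebraMap HolFun MerFun (jd d) := by
  rw [MerFun.sl_smul_algebraMap, JLevel.smul_jd_of_mem_Gamma0 hd hγ]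

/-- **(A3), `⇐`**: `±Γ(M)` fixes the analytic model of the full field pointwise. -/
theorem fixes_of_mem_GammaPM {emb : ↥(fullField M ζ) →+* MerFun} (h : IsFullEmb emb)
    {γ : SL(2, ℤ)} (hγ : γ ∈ GammaPM M) (f : ↥(fullField M ζ)) : γ • emb f = emb f := by
  have key : (MulSemiringAction.toRingHom SL(2, ℤ) MerFun γ).comp emb = emb := by
    apply ringHom_ext_adjoin
    · intro c
      exact h.const_fixed c γ
    · rintro x (⟨d, hd0, hd, rfl⟩ | ⟨v, w, v', w', hv, hw, hv', hw', rfl⟩)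
      · have e := h.jd d hd
        exact (congrArg (γ • ·) e).trans
          ((smul_algebraMap_jd hd (GammaPM_le_Gamma0 M hγ)).trans e.symm)
      · have e := h.ratio v w v' w' hv hw hv' hw'
        exact (congrArg (γ • ·) e).trans
          ((smul_Rfun_of_mem_GammaPM M hγ v w v' w').trans e.symm)
  exact RingHom.congr_fun key f

/-- **(A3), `⇒`** (rigidity): an element of `SL(2, ℤ)` fixing all the functions `Rfun v w v' w'`
is `≡ ±1 mod M`.  Only the `ratio` field of the hypotheses is used. -/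
theorem mem_GammaPM_of_smul_Rfun (hM : 5 ≤ M) (hζ : IsPrimitiveRoot ζ M)
    {emb : ↥(fullField M ζ) →+* MerFun}
    (hratio : ∀ (v w v' w' : Vec M) (hv : v ≠ 0) (hw : w ≠ 0) (hv' : v' ≠ 0) (hw' : w' ≠ 0),
      emb ⟨ratio M ζ v w v' w', ratio_mem_fullField ζ hv hw hv' hw'⟩ = Rfun M v w v' w')
    {γ : SL(2, ℤ)}
    (hfix : ∀ v w v' w' : Vec M, v ≠ 0 → w ≠ 0 → v' ≠ 0 → w' ≠ 0 →
      γ • Rfun M v w v' w' = Rfun M v w v' w') : γ ∈ GammaPM M := by
  have H : Rigidity.FixesRatios ζ (redSL M γ⁻¹ : Matrix (Fin 2) (Fin 2) (ZMod M)) := by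
    intro v w v' w' hv hw hv' hw'
    rw [← vecSL_eq_vecAct, ← vecSL_eq_vecAct, ← vecSL_eq_vecAct, ← vecSL_eq_vecAct]
    have h1 := hfix v w v' w' hv hw hv' hw'
    rw [smul_Rfun] at h1
    have h2 := hratio _ _ _ _ (vecSL_ne_zero M hv γ⁻¹) (vecSL_ne_zero M hw γ⁻¹)
      (vecSL_ne_zero M hv' γ⁻¹) (vecSL_ne_zero M hw' γ⁻¹)
    have h3 := hratio v w v' w' hv hw hv' hw'
    exact congrArg Subtype.val (emb.injective (h2.trans (h1.trans h3.symm)))
  apply (GammaPM M).inv_mem_iff.mp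
  exact Rigidity.SL_eq_one_or_neg_one_of_fixesRatios (orderFacts hζ) hζ hM _ H

/-- **(A3)**: the exact stabiliser of the analytic model of the full field is `±Γ(M)`. -/
theorem fixes_iff (hM : 5 ≤ M) (hζ : IsPrimitiveRoot ζ M) {emb : ↥(fullField M ζ) →+* MerFun}
    (h : IsFullEmb emb) (γ : SL(2, ℤ)) :
    (∀ f : ↥(fullField M ζ), γ • emb f = emb f) ↔ γ ∈ GammaPM M := by
  refine ⟨fun hfix => mem_GammaPM_of_smul_Rfun hM hζ h.ratio ?_,
    fun hγ f => fixes_of_mem_GammaPM h hγ f⟩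
  intro v w v' w' hv hw hv' hw'
  rw [← h.ratio v w v' w' hv hw hv' hw']
  exact hfix _

end Full

/-! ### The field of `X₁(M)` -/

section Gamma1

variable {M}
variable {L : Type*} [Field L] {ζ : L}

/-- The hypotheses on the analytic model `emb1` of `gamma1FieldC M ζ` (slice (A5)). -/
structure IsGamma1Emb (emb1 : ↥(gamma1FieldC M ζ) →+* MerFun) : Prop where
  const_fixed : ∀ (c : L) (γ : SL(2, ℤ)),
    γ • emb1 (algebraMap L ↥(gamma1FieldC M ζ) c) = emb1 (algebraMap L ↥(gamma1FieldC M ζ) c)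
  jd : ∀ (d : ℕ) [NeZero d] (hd : d ∣ M),
    emb1 ⟨qExpand L d (jqModC L), jqd_mem_gamma1FieldC ζ hd⟩ = algebraMap HolFun MerFun (jd d)
  ratio1 : ∀ (b c b' c' : ZMod M) (hb : b ≠ 0) (hc : c ≠ 0) (hb' : b' ≠ 0) (hc' : c' ≠ 0),
    emb1 ⟨ratio1 M ζ b c b' c', ratio1_mem_gamma1FieldC ζ hb hc hb' hc'⟩ =
      Rfun M (0, b) (0, c) (0, b') (0, c')

theorem zero_pair_neg (b : ZMod M) : ((0, -b) : Vec M) = -((0, b) : Vec M) := by
  ext <;> simp

/-- **`⇐`**: `±Γ₁(M)` fixes the analytic model of the field of `X₁(M)` pointwise. -/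
theorem fixes_of_mem_Gamma1pm {emb1 : ↥(gamma1FieldC M ζ) →+* MerFun} (h : IsGamma1Emb emb1)
    {γ : SL(2, ℤ)} (hγ : γ ∈ G1.Gamma1pm M) (f : ↥(gamma1FieldC M ζ)) :
    γ • emb1 f = emb1 f := by
  have hγ0 : γ ∈ CongruenceSubgroup.Gamma0 M := G1.Gamma1pm_le_Gamma0 M hγ
  have key : (MulSemiringAction.toRingHom SL(2, ℤ) MerFun γ).comp emb1 = emb1 := by
    apply ringHom_ext_adjoin
    · intro c
      exact h.const_fixed c γ
    · rintro x (⟨d, hd0, hd, rfl⟩ | ⟨b, c, b', c', hb, hc, hb', hc', rfl⟩)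
      · have e := h.jd d hd
        exact (congrArg (γ • ·) e).trans ((smul_algebraMap_jd hd hγ0).trans e.symm)
      · have e := h.ratio1 b c b' c' hb hc hb' hc'
        have e2 : γ • Rfun M (0, b) (0, c) (0, b') (0, c') =
            Rfun M (0, b) (0, c) (0, b') (0, c') := by
          rw [smul_Rfun_zero_fst M hγ0]
          rcases ((G1.Gamma1pm M).inv_mem hγ).2 with h1 | h1
          · rw [h1, one_mul, one_mul, one_mul, one_mul]
          · rw [h1, neg_one_mul, neg_one_mul, neg_one_mul, neg_one_mul, zero_pair_neg,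
              zero_pair_neg, zero_pair_neg, zero_pair_neg, Rfun_neg_all]
        exact (congrArg (γ • ·) e).trans (e2.trans e.symm)
  exact RingHom.congr_fun key f

/-- **`⇒`, diamond part**: an element of `Γ₀(M)` fixing all the functions
`Rfun (0,b) (0,c) (0,b') (0,c')` lies in `±Γ₁(M)` (`8 ≤ M`). -/
theorem mem_Gamma1pm_of_smul_Rfun (hM : 8 ≤ M) (hζ : IsPrimitiveRoot ζ M)
    {emb1 : ↥(gamma1FieldC M ζ) →+* MerFun}
    (hratio1 : ∀ (b c b' c' : ZMod M) (hb : b ≠ 0) (hc : c ≠ 0) (hb' : b' ≠ 0) (hc' : c' ≠ 0),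
      emb1 ⟨ratio1 M ζ b c b' c', ratio1_mem_gamma1FieldC ζ hb hc hb' hc'⟩ =
        Rfun M (0, b) (0, c) (0, b') (0, c'))
    {γ : SL(2, ℤ)} (hγ : γ ∈ CongruenceSubgroup.Gamma0 M)
    (hfix : ∀ b c b' c' : ZMod M, b ≠ 0 → c ≠ 0 → b' ≠ 0 → c' ≠ 0 →
      γ • Rfun M (0, b) (0, c) (0, b') (0, c') = Rfun M (0, b) (0, c) (0, b') (0, c')) :
    γ ∈ G1.Gamma1pm M := by
  set d : (ZMod M)ˣ := ⟨G1.lr M γ⁻¹, G1.lr M γ, G1.lr_inv_mul_lr hγ, G1.lr_mul_lr_inv hγ⟩ with hd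
  have hdval : (d : ZMod M) = G1.lr M γ⁻¹ := rfl
  have hd0 : ∀ b : ZMod M, b ≠ 0 → (d : ZMod M) * b ≠ 0 := fun b hb h0 =>
    hb ((Units.mul_right_eq_zero d).mp h0)
  have key : d = 1 ∨ d = -1 := by
    apply unit_eq_one_or_neg_one_of_ratio1_eq hM hζ d
    intro b c b' c' hb hc hb' hc'
    have h1 := hfix b c b' c' hb hc hb' hc'
    rw [smul_Rfun_zero_fst M hγ, ← hdval] at h1
    have h2 := hratio1 _ _ _ _ (hd0 b hb) (hd0 c hc) (hd0 b' hb') (hd0 c' hc')
    have h3 := hratio1 b c b' c' hb hc hb' hc'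
    exact congrArg Subtype.val (emb1.injective (h2.trans (h1.trans h3.symm)))
  apply (G1.Gamma1pm M).inv_mem_iff.mp
  refine ⟨(CongruenceSubgroup.Gamma0 M).inv_mem hγ, ?_⟩
  rcases key with h | h
  · left
    rw [← hdval, h, Units.val_one]
  · right
    rw [← hdval, h, Units.val_neg, Units.val_one]

/-- the exact stabiliser of the analytic model of the field of `X₁(M)` is `±Γ₁(M)` (`8 ≤ M`). -/
theorem fixes1_iff (hM : 8 ≤ M) (hζ : IsPrimitiveRoot ζ M)
    {emb1 : ↥(gamma1FieldC M ζ) →+* MerFun} (h : IsGamma1Emb emb1) (γ : SL(2, ℤ)) :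
    (∀ f : ↥(gamma1FieldC M ζ), γ • emb1 f = emb1 f) ↔ γ ∈ G1.Gamma1pm M := by
  refine ⟨fun hfix => ?_, fun hγ f => fixes_of_mem_Gamma1pm h hγ f⟩
  have hγ0 : γ ∈ CongruenceSubgroup.Gamma0 M := by
    apply JLevel.mem_Gamma0_of_smul_jd_eq
    apply IsFractionRing.injective HolFun MerFun
    rw [← MerFun.sl_smul_algebraMap, ← h.jd M dvd_rfl]
    exact hfix _
  refine mem_Gamma1pm_of_smul_Rfun hM hζ h.ratio1 hγ0 ?_
  intro b c b' c' hb hc hb' hc'
  rw [← h.ratio1 b c b' c' hb hc hb' hc']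
  exact hfix _

end Gamma1

end Fermat.Agent.S48x.Ana.StabFull
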