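import Mathlib
import Fermat.Agent.S48x.Ana.GaloisAbs
import Fermat.Agent.S48x.Ana.StabFull
import Fermat.Agent.S48x.Model.Identities

/-!
P-S48, layer (a), (A4) items (M-c) and (M-e) (helper19, integrator): the fixed fields of `Γ₀(M)`
and of `±Γ₁(M)` inside the full-level field, in ANALYTIC form.

Setting: `D : EmbData L ↥(fullField M ζ) ι x Γ` (any `Γ`, in practice `StabFull.GammaPM M`) with
`hFull : StabFull.IsFullEmb D.emb`, `hS : GaloisAbs.Stable D` and
`hinv : ∀ f, (∀ g, g • D.emb f = D.emb f) → f ∈ L⟮x⟯`.  No degree count is needed: by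
`GaloisAbs.eq_fixedOf` an intermediate field containing `x` is the fixed field of its exact
stabiliser.

* `borelSeries L M = L(j(z^(dM)), d ∣ M)` (`=` the image of the `Γ₀(M)`-field under `q ↦ z^M`);
  `mem_borelSeries_iff` : `(f : L((z))) ∈ borelSeries L M ↔ ∀ g ∈ Γ₀(M), g • D.emb f = D.emb f`;
* `h1Series M ζ = (gamma1FieldC M ζ).map (qExpandAlgHomC L M)` (the image of the `Γ₁(M)`-field);
  `mem_h1Series_iff` : `(f : L((z))) ∈ h1Series M ζ ↔ ∀ g ∈ ±Γ₁(M), g • D.emb f = D.emb f`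
  (`8 ≤ M`).
-/

set_option autoImplicit false
set_option linter.unusedSectionVars false

open ModularCurve IntermediateField
open scoped MatrixGroups

noncomputable section

namespace Fermat.Agent.S48x.Ana.FixedFields

open Fermat.Agent.S24 Fermat.Agent.S48x.Model Fermat.Agent.S48x.Model.Identities
open Fermat.Agent.Gateway.Dict.ConjAbs Fermat.Agent.S48x.Ana.GaloisAbs
open Fermat.Agent.S48x.Ana.StabFull
open Fermat.Agent.S24.JLevel (jd)

variable (L : Type*) [Field L] (M : ℕ) [NeZero M]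

/-! ### The two subfields, as fields of Laurent series -/

/-- the generators `j(z^(dM))`, `d ∣ M`. -/
def borelGens : Set (LaurentSeries L) :=
  {y | ∃ (d : ℕ) (_ : NeZero d), d ∣ M ∧ y = qExpand L (d * M) (jqModC L)}

/-- the image of the `Γ₀(M)`-field under `q ↦ z^M`. -/
def borelSeries : IntermediateField L (LaurentSeries L) :=
  IntermediateField.adjoin L (borelGens L M)

variable {L M}

theorem jqd_mem_borelSeries {d : ℕ} [NeZero d] (hd : d ∣ M) :
    qExpand L (d * M) (jqModC L) ∈ borelSeries L M :=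
  IntermediateField.subset_adjoin L _ ⟨d, ‹_›, hd, rfl⟩

theorem borelSeries_le (ζ : L) : borelSeries L M ≤ fullField M ζ := by
  rw [borelSeries, IntermediateField.adjoin_le_iff]
  rintro y ⟨d, hd0, hd, rfl⟩
  exact jqd_mem_fullField ζ hd

variable (M)

/-- the image of the `Γ₁(M)`-field under `q ↦ z^M`. -/
def h1Series (ζ : L) : IntermediateField L (LaurentSeries L) :=
  (gamma1FieldC M ζ).map (qExpandAlgHomC L M)

variable {M}

theorem h1Series_le (ζ : L) : h1Series M ζ ≤ fullField M ζ := by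
  rintro y ⟨f, hf, rfl⟩
  exact qExpand_mem_fullField ζ hf

theorem qExpand_mem_h1Series {ζ : L} {f : LaurentSeries L} (hf : f ∈ gamma1FieldC M ζ) :
    qExpand L M f ∈ h1Series M ζ := ⟨f, hf, rfl⟩

theorem borelSeries_le_h1Series (ζ : L) : borelSeries L M ≤ h1Series M ζ := by
  rw [borelSeries, IntermediateField.adjoin_le_iff]
  rintro y ⟨d, hd0, hd, rfl⟩
  have h := qExpand_mem_h1Series (jqd_mem_gamma1FieldC ζ hd)
  rwa [qExpand_qExpand, qExpand_congr (mul_comm M d)] at h

theorem ratio_zero_mem_h1Series {ζ : L} {b c b' c' : ZMod M} (hb : b ≠ 0) (hc : c ≠ 0)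
    (hb' : b' ≠ 0) (hc' : c' ≠ 0) :
    ratio M ζ ((0 : ZMod M), b) ((0 : ZMod M), c) ((0 : ZMod M), b') ((0 : ZMod M), c') ∈
      h1Series M ζ := by
  rw [← qExpand_ratio1]
  exact qExpand_mem_h1Series (ratio1_mem_gamma1FieldC ζ hb hc hb' hc')

/-- `h1Series` is generated by the `j(z^(dM))` and the `ratio (0,b) (0,c) (0,b') (0,c')`. -/
theorem h1Series_le_of_gens {ζ : L} (T : IntermediateField L (LaurentSeries L))
    (hj : ∀ (d : ℕ) [NeZero d], d ∣ M → qExpand L (d * M) (jqModC L) ∈ T)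
    (hr : ∀ b c b' c' : ZMod M, b ≠ 0 → c ≠ 0 → b' ≠ 0 → c' ≠ 0 →
      ratio M ζ ((0 : ZMod M), b) ((0 : ZMod M), c) ((0 : ZMod M), b') ((0 : ZMod M), c') ∈ T) :
    h1Series M ζ ≤ T := by
  rw [h1Series, gamma1FieldC, IntermediateField.adjoin_map, IntermediateField.adjoin_le_iff]
  rintro _ ⟨y, hy, rfl⟩
  rw [qExpandAlgHomC_apply]
  rcases hy with ⟨d, hd0, hd, rfl⟩ | ⟨b, c, b', c', hb, hc, hb', hc', rfl⟩
  · rw [SetLike.mem_coe, qExpand_qExpand, qExpand_congr (mul_comm M d)]
    exact hj d hd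
  · rw [SetLike.mem_coe, qExpand_ratio1]
    exact hr b c b' c' hb hc hb' hc'

/-! ### Subfields of `↥(fullField M ζ)` -/

section Restrict

variable {ζ : L}

/-- an intermediate field of `L((z))` inside `fullField`, as an intermediate field of
`↥(fullField M ζ)`. -/
def restr (T : IntermediateField L (LaurentSeries L)) : IntermediateField L ↥(fullField M ζ) :=
  T.comap (fullField M ζ).val

theorem mem_restr {T : IntermediateField L (LaurentSeries L)} {f : ↥(fullField M ζ)} :
    f ∈ restr (ζ := ζ) T ↔ (f : LaurentSeries L) ∈ T := Iff.rfl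

end Restrict

/-! ### The analytic side -/

section Ana

variable {ζ : L} {ι : L →+* ℂ} {x : ↥(fullField M ζ)} {Γ : Subgroup SL(2, ℤ)}
  (D : EmbData L ↥(fullField M ζ) ι x Γ) (hFull : IsFullEmb D.emb)

/-- the elements fixed by a given `g`, as a field of Laurent series. -/
def fixSeries (g : SL(2, ℤ)) : IntermediateField L (LaurentSeries L) :=
  (fixedOf D (Subgroup.zpowers g)).map (fullField M ζ).val

theorem mem_fixSeries_of_smul_eq {g : SL(2, ℤ)} {f : ↥(fullField M ζ)}
    (h : g • D.emb f = D.emb f) : (f : LaurentSeries L) ∈ fixSeries D g := by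
  refine ⟨f, ?_, rfl⟩
  intro γ hγ
  obtain ⟨n, rfl⟩ := Subgroup.mem_zpowers_iff.mp hγ
  clear hγ
  induction n using Int.induction_on with
  | zero => rw [zpow_zero, one_smul]
  | succ n ih => rw [zpow_add_one, mul_smul, h, ih]
  | pred n ih =>
    have h' : g⁻¹ • D.emb f = D.emb f := by
      conv_lhs => rw [← h]
      rw [← mul_smul, inv_mul_cancel, one_smul]
    rw [zpow_sub_one, mul_smul, h', ih]

theorem smul_eq_of_mem_fixSeries {g : SL(2, ℤ)} {f : ↥(fullField M ζ)}
    (h : (f : LaurentSeries L) ∈ fixSeries D g) : g • D.emb f = D.emb f := by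
  obtain ⟨y, hy, hyf⟩ := h
  have : y = f := Subtype.ext hyf
  rw [← this]
  exact hy g (Subgroup.mem_zpowers g)

include hFull in
/-- `Γ₀(M)` fixes the Borel field. -/
theorem smul_eq_of_mem_borelSeries {g : SL(2, ℤ)} (hg : g ∈ CongruenceSubgroup.Gamma0 M)
    {f : ↥(fullField M ζ)} (hf : (f : LaurentSeries L) ∈ borelSeries L M) :
    g • D.emb f = D.emb f := by
  apply smul_eq_of_mem_fixSeries
  have hle : borelSeries L M ≤ fixSeries D g := by
    rw [borelSeries, IntermediateField.adjoin_le_iff]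
    rintro y ⟨d, hd0, hd, rfl⟩
    have e := hFull.jd d hd
    exact mem_fixSeries_of_smul_eq D (f := ⟨_, jqd_mem_fullField ζ hd⟩)
      ((congrArg (g • ·) e).trans ((smul_algebraMap_jd hd hg).trans e.symm))
  exact hle hf

include hFull in
/-- an element fixing the Borel field lies in `Γ₀(M)`. -/
theorem mem_Gamma0_of_forall_borelSeries {g : SL(2, ℤ)}
    (h : ∀ f : ↥(fullField M ζ), (f : LaurentSeries L) ∈ borelSeries L M →
      g • D.emb f = D.emb f) : g ∈ CongruenceSubgroup.Gamma0 M := by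
  apply JLevel.mem_Gamma0_of_smul_jd_eq
  apply IsFractionRing.injective HolFun MerFun
  rw [← MerFun.sl_smul_algebraMap, ← hFull.jd M dvd_rfl]
  exact h _ (jqd_mem_borelSeries dvd_rfl)

theorem Rfun_zero_smul_of_mem_Gamma1pm {g : SL(2, ℤ)} (hg : g ∈ G1.Gamma1pm M)
    (b c b' c' : ZMod M) :
    g • Rfun M (0, b) (0, c) (0, b') (0, c') = Rfun M (0, b) (0, c) (0, b') (0, c') := by
  have hg0 : g ∈ CongruenceSubgroup.Gamma0 M := G1.Gamma1pm_le_Gamma0 M hg
  rw [smul_Rfun_zero_fst M hg0]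
  rcases ((G1.Gamma1pm M).inv_mem hg).2 with h1 | h1
  · rw [h1, one_mul, one_mul, one_mul, one_mul]
  · rw [h1, neg_one_mul, neg_one_mul, neg_one_mul, neg_one_mul, zero_pair_neg,
      zero_pair_neg, zero_pair_neg, zero_pair_neg, Rfun_neg_all]

include hFull in
/-- `±Γ₁(M)` fixes the image of the `Γ₁(M)`-field. -/
theorem smul_eq_of_mem_h1Series {g : SL(2, ℤ)} (hg : g ∈ G1.Gamma1pm M)
    {f : ↥(fullField M ζ)} (hf : (f : LaurentSeries L) ∈ h1Series M ζ) :
    g • D.emb f = D.emb f := by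
  have hg0 : g ∈ CongruenceSubgroup.Gamma0 M := G1.Gamma1pm_le_Gamma0 M hg
  apply smul_eq_of_mem_fixSeries
  have hle : h1Series M ζ ≤ fixSeries D g := by
    apply h1Series_le_of_gens
    · intro d hd0 hd
      have e := hFull.jd d hd
      exact mem_fixSeries_of_smul_eq D (f := ⟨_, jqd_mem_fullField ζ hd⟩)
        ((congrArg (g • ·) e).trans ((smul_algebraMap_jd hd hg0).trans e.symm))
    · intro b c b' c' hb hc hb' hc'
      have e := hFull.ratio (0, b) (0, c) (0, b') (0, c') (zero_pair_ne_zero hb)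
        (zero_pair_ne_zero hc) (zero_pair_ne_zero hb') (zero_pair_ne_zero hc')
      exact mem_fixSeries_of_smul_eq D
        (f := ⟨_, ratio_mem_fullField ζ (zero_pair_ne_zero hb) (zero_pair_ne_zero hc)
          (zero_pair_ne_zero hb') (zero_pair_ne_zero hc')⟩)
        ((congrArg (g • ·) e).trans ((Rfun_zero_smul_of_mem_Gamma1pm hg b c b' c').trans e.symm))
  exact hle hf

/-- `q ↦ z^M` as a ring hom from the `Γ₁(M)`-field to the full field. -/
def qM (ζ : L) : ↥(gamma1FieldC M ζ) →+* ↥(fullField M ζ) :=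
  ((qExpand L M).comp (gamma1FieldC M ζ).val.toRingHom).codRestrict (fullField M ζ)
    fun f => qExpand_mem_fullField ζ f.2

@[simp] theorem coe_qM (f : ↥(gamma1FieldC M ζ)) :
    ((qM ζ f : ↥(fullField M ζ)) : LaurentSeries L) = qExpand L M (f : LaurentSeries L) := rfl

include hFull in
/-- an element fixing the image of the `Γ₁(M)`-field lies in `±Γ₁(M)` (`8 ≤ M`). -/
theorem mem_Gamma1pm_of_forall_h1Series (hM : 8 ≤ M) (hζ : IsPrimitiveRoot ζ M) {g : SL(2, ℤ)}
    (h : ∀ f : ↥(fullField M ζ), (f : LaurentSeries L) ∈ h1Series M ζ →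
      g • D.emb f = D.emb f) : g ∈ G1.Gamma1pm M := by
  have hg0 : g ∈ CongruenceSubgroup.Gamma0 M :=
    mem_Gamma0_of_forall_borelSeries D hFull fun f hf => h f (borelSeries_le_h1Series ζ hf)
  have hratio1 : ∀ (b c b' c' : ZMod M) (hb : b ≠ 0) (hc : c ≠ 0) (hb' : b' ≠ 0) (hc' : c' ≠ 0),
      (D.emb.comp (qM ζ)) ⟨ratio1 M ζ b c b' c', ratio1_mem_gamma1FieldC ζ hb hc hb' hc'⟩ =
        Rfun M (0, b) (0, c) (0, b') (0, c') := by
    intro b c b' c' hb hc hb' hc'
    have e := hFull.ratio (0, b) (0, c) (0, b') (0, c') (zero_pair_ne_zero hb)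
      (zero_pair_ne_zero hc) (zero_pair_ne_zero hb') (zero_pair_ne_zero hc')
    rw [← e, RingHom.comp_apply]
    congr 1
    exact Subtype.ext (qExpand_ratio1 ζ b c b' c')
  refine mem_Gamma1pm_of_smul_Rfun hM hζ hratio1 hg0 ?_
  intro b c b' c' hb hc hb' hc'
  have e := hFull.ratio (0, b) (0, c) (0, b') (0, c') (zero_pair_ne_zero hb)
    (zero_pair_ne_zero hc) (zero_pair_ne_zero hb') (zero_pair_ne_zero hc')
  rw [← e]
  exact h _ (ratio_zero_mem_h1Series hb hc hb' hc')

/-! ### The fixed fields -/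

variable (hS : Stable D) [Γ.FiniteIndex]
  (hinv : ∀ f : ↥(fullField M ζ), (∀ g : SL(2, ℤ), g • D.emb f = D.emb f) → f ∈ L⟮x⟯)

include hFull hS hinv in
/-- **(M-c)**: the image of the `Γ₀(M)`-field is the fixed field of `Γ₀(M)`. -/
theorem restr_borelSeries_eq_fixedOf (hx : (x : LaurentSeries L) ∈ borelSeries L M) :
    restr (ζ := ζ) (borelSeries L M) = fixedOf D (CongruenceSubgroup.Gamma0 M) :=
  eq_fixedOf D hS hinv (restr (borelSeries L M)) hx (CongruenceSubgroup.Gamma0 M)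
    (fun _ hg _ he => smul_eq_of_mem_borelSeries D hFull hg he)
    (fun _ hg => mem_Gamma0_of_forall_borelSeries D hFull hg)

include hFull hS hinv in
/-- **(M-c)**, elementwise. -/
theorem mem_borelSeries_iff (hx : (x : LaurentSeries L) ∈ borelSeries L M)
    (f : ↥(fullField M ζ)) :
    (f : LaurentSeries L) ∈ borelSeries L M ↔
      ∀ g ∈ CongruenceSubgroup.Gamma0 M, g • D.emb f = D.emb f := by
  rw [← mem_restr (ζ := ζ), restr_borelSeries_eq_fixedOf D hFull hS hinv hx]
  exact Iff.rfl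

include hFull hS hinv in
/-- **(M-e)**: the image of the `Γ₁(M)`-field is the fixed field of `±Γ₁(M)`. -/
theorem restr_h1Series_eq_fixedOf (hM : 8 ≤ M) (hζ : IsPrimitiveRoot ζ M)
    (hx : (x : LaurentSeries L) ∈ borelSeries L M) :
    restr (ζ := ζ) (h1Series M ζ) = fixedOf D (G1.Gamma1pm M) :=
  eq_fixedOf D hS hinv (restr (h1Series M ζ)) (borelSeries_le_h1Series ζ hx) (G1.Gamma1pm M)
    (fun _ hg _ he => smul_eq_of_mem_h1Series D hFull hg he)
    (fun _ hg => mem_Gamma1pm_of_forall_h1Series D hFull hM hζ hg)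

include hFull hS hinv in
/-- **(M-e)**, elementwise. -/
theorem mem_h1Series_iff (hM : 8 ≤ M) (hζ : IsPrimitiveRoot ζ M)
    (hx : (x : LaurentSeries L) ∈ borelSeries L M) (f : ↥(fullField M ζ)) :
    (f : LaurentSeries L) ∈ h1Series M ζ ↔
      ∀ g ∈ G1.Gamma1pm M, g • D.emb f = D.emb f := by
  rw [← mem_restr (ζ := ζ), restr_h1Series_eq_fixedOf D hFull hS hinv hM hζ hx]
  exact Iff.rfl

end Ana

end Fermat.Agent.S48x.Ana.FixedFields
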