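import Mathlib
import Fermat.Agent.S48x.Ana.FixedFields

/-!
P-S48, layer (a), (M-c) adapter (helper19): the Borel field `borelSeries L M` of
`Ana/FixedFields.lean` is the image of the Prelude `Γ₀(M)`-field `modularFunctionFieldFullC L M`
(`= Gateway ConjFamily.Fk L M`) under `q ↦ z^M`.  Hence (M-c) in the shape `hMc` of
`Red1/BorelHB.hB_of_borel`:
an element of the full field fixed by `Γ₀(M)` is `qExpand L M y` with `y` in the `Γ₀(M)`-field.
-/

set_option autoImplicit false
set_option linter.unusedSectionVars false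

open ModularCurve IntermediateField
open scoped MatrixGroups

noncomputable section

namespace Fermat.Agent.S48x.Ana.FixedFields

open Fermat.Agent.S24 Fermat.Agent.S48x.Model
open Fermat.Agent.Gateway.Dict.ConjAbs Fermat.Agent.S48x.Ana.GaloisAbs
open Fermat.Agent.S48x.Ana.StabFull

variable {L : Type*} [Field L] {M : ℕ} [NeZero M]

/-- `borelSeries L M` is the image of the `Γ₀(M)`-field under `q ↦ z^M`. -/
theorem borelSeries_eq_map :
    borelSeries L M = (modularFunctionFieldFullC L M).map (qExpandAlgHomC L M) := by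
  rw [borelSeries, modularFunctionFieldFullC, IntermediateField.adjoin_map]
  congr 1
  ext y
  constructor
  · rintro ⟨d, hd0, hd, rfl⟩
    refine ⟨qExpand L d (jqModC L), ⟨d, hd0, hd, rfl⟩, ?_⟩
    rw [qExpandAlgHomC_apply, qExpand_qExpand, qExpand_congr (mul_comm M d)]
  · rintro ⟨_, ⟨d, hd0, hd, rfl⟩, rfl⟩
    refine ⟨d, hd0, hd, ?_⟩
    rw [qExpandAlgHomC_apply, qExpand_qExpand, qExpand_congr (mul_comm M d)]

theorem mem_borelSeries_iff_exists {y : LaurentSeries L} :
    y ∈ borelSeries L M ↔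
      ∃ y₀ : ↥(modularFunctionFieldFullC L M), y = qExpand L M (y₀ : LaurentSeries L) := by
  rw [borelSeries_eq_map]
  constructor
  · rintro ⟨y₀, hy₀, rfl⟩
    exact ⟨⟨y₀, hy₀⟩, rfl⟩
  · rintro ⟨y₀, rfl⟩
    exact ⟨y₀, y₀.2, rfl⟩

variable {ζ : L} {ι : L →+* ℂ} {x : ↥(fullField M ζ)} {Γ : Subgroup SL(2, ℤ)}
  (D : EmbData L ↥(fullField M ζ) ι x Γ) (hFull : IsFullEmb D.emb)
  (hS : Stable D) [Γ.FiniteIndex]
  (hinv : ∀ f : ↥(fullField M ζ), (∀ g : SL(2, ℤ), g • D.emb f = D.emb f) → f ∈ L⟮x⟯)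

include hFull hS hinv in
/-- **(M-c)** in the shape of `Red1/BorelHB.hB_of_borel`: an element fixed by `Γ₀(M)` comes from
the `Γ₀(M)`-field by `q ↦ z^M`. -/
theorem exists_eq_qExpand_of_fixed (hx : (x : LaurentSeries L) ∈ borelSeries L M)
    (f : ↥(fullField M ζ))
    (hf : ∀ g ∈ CongruenceSubgroup.Gamma0 M, g • D.emb f = D.emb f) :
    ∃ y₀ : ↥(modularFunctionFieldFullC L M),
      (f : LaurentSeries L) = qExpand L M (y₀ : LaurentSeries L) :=
  mem_borelSeries_iff_exists.mp ((mem_borelSeries_iff D hFull hS hinv hx f).mpr hf)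

include hFull in
/-- conversely the elements `qExpand L M y₀` are fixed by `Γ₀(M)`. -/
theorem smul_eq_of_eq_qExpand {g : SL(2, ℤ)} (hg : g ∈ CongruenceSubgroup.Gamma0 M)
    (f : ↥(fullField M ζ)) (y₀ : ↥(modularFunctionFieldFullC L M))
    (hf : (f : LaurentSeries L) = qExpand L M (y₀ : LaurentSeries L)) :
    g • D.emb f = D.emb f :=
  smul_eq_of_mem_borelSeries D hFull hg (mem_borelSeries_iff_exists.mpr ⟨y₀, hf⟩)

/-- the base coordinate `j(z^M)` lies in the Borel field. -/
theorem qExpand_jq_mem_borelSeries : qExpand L M (jqModC L) ∈ borelSeries L M := by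
  have h := jqd_mem_borelSeries (L := L) (M := M) (d := 1) (one_dvd M)
  rwa [qExpand_congr (one_mul M)] at h

end Fermat.Agent.S48x.Ana.FixedFields
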