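/-
P-S48, block G1, layer (a), (A4) ABSTRACT half (helper43): Galois theory of a finite group acting
on a field through `act : G →* (F ≃ₐ[L] F)`.

Part I (Mathlib only): fixed fields `fixedFieldOf act H`, Artin's theorem in the form
`finrank (F^H) F * #ker = #H`, relative degrees `[F^H : F^G] = (G : H)`, and the degree criterion
for an intermediate field to be a fixed field.
-/
import Mathlib

set_option autoImplicit false
set_option linter.unusedSectionVars false

noncomputable section

namespace Fermat.Agent.S48x.Ana.GaloisAct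

open Module IntermediateField

section Abstract

variable {L F : Type*} [Field L] [Field F] [Algebra L F] {G : Type*} [Group G]
  (act : G →* (F ≃ₐ[L] F))

/-- The fixed field of a subgroup `H` of `G` acting on `F` through `act`. -/
def fixedFieldOf (H : Subgroup G) : IntermediateField L F :=
  IntermediateField.fixedField (H.map act)

theorem mem_fixedFieldOf {H : Subgroup G} {f : F} :
    f ∈ fixedFieldOf act H ↔ ∀ h ∈ H, act h f = f := by
  unfold fixedFieldOf
  rw [IntermediateField.mem_fixedField_iff]
  constructor
  · intro hf h hh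
    exact hf (act h) (Subgroup.mem_map_of_mem act hh)
  · rintro hf _ ⟨h, hh, rfl⟩
    exact hf h hh

theorem fixedFieldOf_anti {H₁ H₂ : Subgroup G} (h : H₁ ≤ H₂) :
    fixedFieldOf act H₂ ≤ fixedFieldOf act H₁ := by
  intro f hf
  rw [mem_fixedFieldOf] at hf ⊢
  exact fun g hg => hf g (h hg)

variable [Finite G]

instance finite_map (H : Subgroup G) : Finite (H.map act) := by
  have : (H.map act : Set (F ≃ₐ[L] F)) = act '' (H : Set G) := Subgroup.coe_map act H
  exact Set.Finite.subset (Set.toFinite (act '' (H : Set G))) (le_of_eq this) |>.to_subtype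

theorem finrank_fixedFieldOf (H : Subgroup G) :
    finrank (fixedFieldOf act H) F = Nat.card (H.map act) := by
  have := Fintype.ofFinite (H.map act)
  rw [Nat.card_eq_fintype_card]
  exact FixedPoints.finrank_eq_card (H.map act) F

instance finiteDimensional_fixedFieldOf (H : Subgroup G) :
    FiniteDimensional (fixedFieldOf act H) F :=
  inferInstanceAs (FiniteDimensional (FixedPoints.subfield (H.map act) F) F)

instance isGalois_fixedFieldOf (H : Subgroup G) : IsGalois (fixedFieldOf act H) F :=
  IsGalois.of_fixed_field F (H.map act)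


/-- First isomorphism theorem + Lagrange for the restriction of `act` to `H ⊇ ker act`. -/
theorem card_map_mul_card_ker {H : Subgroup G} (hker : act.ker ≤ H) :
    Nat.card (H.map act) * Nat.card act.ker = Nat.card H := by
  set φ : H →* (F ≃ₐ[L] F) := act.comp H.subtype with hφ
  have hrange : φ.range = H.map act := by
    rw [hφ, MonoidHom.range_comp, Subgroup.range_subtype]
  have hkerφ : φ.ker = act.ker.subgroupOf H := by
    ext x
    simp [hφ, MonoidHom.mem_ker, Subgroup.mem_subgroupOf]
  have h1 : Nat.card (H ⧸ φ.ker) = Nat.card φ.range :=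
    Nat.card_congr (QuotientGroup.quotientKerEquivRange φ).toEquiv
  have h2 : Nat.card φ.ker = Nat.card act.ker := by
    rw [hkerφ]
    exact Nat.card_congr (Subgroup.subgroupOfEquivOfLe hker).toEquiv
  have h3 := Subgroup.card_eq_card_quotient_mul_card_subgroup φ.ker
  rw [h1, h2, hrange] at h3
  exact h3.symm

theorem finrank_fixedFieldOf_mul_card_ker {H : Subgroup G} (hker : act.ker ≤ H) :
    finrank (fixedFieldOf act H) F * Nat.card act.ker = Nat.card H := by
  rw [finrank_fixedFieldOf, card_map_mul_card_ker act hker]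

theorem finrank_fixedFieldOf_top_mul_card_ker :
    finrank (fixedFieldOf act ⊤) F * Nat.card act.ker = Nat.card G := by
  rw [finrank_fixedFieldOf_mul_card_ker act le_top]
  exact Nat.card_congr Subgroup.topEquiv.toEquiv

/-- `[F : F^G] = (G : H) [F : F^H]` for `H ⊇ ker act`. -/
theorem finrank_fixedFieldOf_top_eq {H : Subgroup G} (hker : act.ker ≤ H) :
    finrank (fixedFieldOf act ⊤) F = H.index * finrank (fixedFieldOf act H) F := by
  have h1 := finrank_fixedFieldOf_top_mul_card_ker act
  have h2 := finrank_fixedFieldOf_mul_card_ker act hker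
  have h3 := Subgroup.index_mul_card H
  have hk : 0 < Nat.card act.ker := Nat.card_pos
  apply Nat.eq_of_mul_eq_mul_right hk
  rw [h1, mul_assoc, h2, h3]

/-- The fixed field of everything lies in every fixed field. -/
theorem fixedFieldOf_top_le (H : Subgroup G) : fixedFieldOf act ⊤ ≤ fixedFieldOf act H :=
  fixedFieldOf_anti act le_top

/-- Relative degree: `[F^H : F^G] = (G : H)` for `H ⊇ ker act`. -/
theorem finrank_extendScalars_fixedFieldOf {H : Subgroup G} (hker : act.ker ≤ H) :
    finrank (fixedFieldOf act ⊤)
      (IntermediateField.extendScalars (fixedFieldOf_top_le act H)) = H.index := by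
  set K0 := fixedFieldOf act ⊤ with hK0
  set E := IntermediateField.extendScalars (fixedFieldOf_top_le act H) with hE
  have htower : finrank K0 E * finrank E F = finrank K0 F := finrank_mul_finrank K0 E F
  have hEF : finrank E F = finrank (fixedFieldOf act H) F := rfl
  have hpos : 0 < finrank (fixedFieldOf act H) F := finrank_pos
  rw [hEF, finrank_fixedFieldOf_top_eq act hker] at htower
  exact Nat.eq_of_mul_eq_mul_right hpos htower

/-- Degree criterion: an intermediate field `E ≤ F^H` with `[F : E] ≤ [F : F^H]` is `F^H`. -/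
theorem eq_fixedFieldOf_of_finrank_le {H : Subgroup G} {E : IntermediateField L F}
    [FiniteDimensional E F] (hE : E ≤ fixedFieldOf act H)
    (hdeg : finrank E F ≤ finrank (fixedFieldOf act H) F) : E = fixedFieldOf act H :=
  IntermediateField.eq_of_le_of_finrank_le' hE hdeg

/-- An intermediate field containing `F^G` is of finite codimension. -/
theorem finiteDimensional_of_fixedFieldOf_top_le {E : IntermediateField L F}
    (hE : fixedFieldOf act ⊤ ≤ E) : FiniteDimensional E F := by
  have : FiniteDimensional (fixedFieldOf act ⊤) F := inferInstance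
  let E' := IntermediateField.extendScalars hE
  have : FiniteDimensional E' F := FiniteDimensional.right (fixedFieldOf act ⊤) E' F
  exact this


/-- Transport of a degree along an embedding `ι : E →ₐ[L] F`: if `K0 = L⟮ι xE⟯` then
`[ι E : K0] = [E : L⟮xE⟯]`. -/
theorem finrank_extendScalars_fieldRange {E : Type*} [Field E] [Algebra L E] (ι : E →ₐ[L] F)
    (xE : E) {K0 : IntermediateField L F} (hK0 : K0 = L⟮ι xE⟯) (hK0E : K0 ≤ ι.fieldRange) :
    finrank K0 (IntermediateField.extendScalars hK0E) = finrank L⟮xE⟯ E := by
  have hmapeq : (L⟮xE⟯).map ι = L⟮ι xE⟯ := by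
    rw [IntermediateField.adjoin_map, Set.image_singleton]
  have hmap : ∀ a : L⟮xE⟯, ((ι : E →+* F).comp (algebraMap L⟮xE⟯ E)) a ∈ K0 := by
    intro a
    rw [hK0, ← hmapeq]
    exact ⟨a, a.2, rfl⟩
  let i0 : L⟮xE⟯ →+* K0 := ((ι : E →+* F).comp (algebraMap L⟮xE⟯ E)).codRestrict K0 hmap
  have hi0 : Function.Bijective i0 := by
    refine ⟨RingHom.injective i0, ?_⟩
    rintro ⟨y, hy⟩
    rw [hK0, ← hmapeq] at hy
    obtain ⟨a, ha, rfl⟩ := hy
    exact ⟨⟨a, ha⟩, Subtype.ext rfl⟩
  have hmem : ∀ e : E, (ι : E →+* F) e ∈ IntermediateField.extendScalars hK0E := by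
    intro e
    rw [IntermediateField.mem_extendScalars]
    exact ⟨e, rfl⟩
  let j0 : E →+* IntermediateField.extendScalars hK0E :=
    (ι : E →+* F).codRestrict (IntermediateField.extendScalars hK0E) hmem
  have hj0 : Function.Bijective j0 := by
    refine ⟨RingHom.injective j0, ?_⟩
    rintro ⟨y, hy⟩
    rw [IntermediateField.mem_extendScalars] at hy
    obtain ⟨e, rfl⟩ := hy
    exact ⟨e, Subtype.ext rfl⟩
  symm
  refine Algebra.finrank_eq_of_equiv_equiv (RingEquiv.ofBijective i0 hi0)
    (RingEquiv.ofBijective j0 hj0) ?_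
  ext a
  rfl

/-- **Consumer form** of the degree criterion: `E` a field with an element `xE` and an embedding
`ι : E →ₐ[L] F` with `F^G = L⟮ι xE⟯`, image in `F^H` (`H ⊇ ker act`) and
`[E : L⟮xE⟯] = (G : H)`.  Then `ι E = F^H`. -/
theorem fieldRange_eq_fixedFieldOf {E : Type*} [Field E] [Algebra L E] (ι : E →ₐ[L] F)
    (xE : E) (hK0 : fixedFieldOf act ⊤ = L⟮ι xE⟯) {H : Subgroup G} (hker : act.ker ≤ H)
    (hle : ∀ e, ι e ∈ fixedFieldOf act H) (hdeg : finrank L⟮xE⟯ E = H.index) :
    ι.fieldRange = fixedFieldOf act H := by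
  have hK0E : fixedFieldOf act ⊤ ≤ ι.fieldRange := by
    rw [hK0, IntermediateField.adjoin_simple_le_iff]
    exact ⟨xE, rfl⟩
  have hE'H : ι.fieldRange ≤ fixedFieldOf act H := by
    rintro _ ⟨e, rfl⟩
    exact hle e
  haveI := finiteDimensional_of_fixedFieldOf_top_le act hK0E
  apply eq_fixedFieldOf_of_finrank_le act hE'H
  have h1 := finrank_extendScalars_fieldRange ι xE hK0 hK0E
  have htower : finrank (fixedFieldOf act ⊤) (IntermediateField.extendScalars hK0E) *
      finrank (IntermediateField.extendScalars hK0E) F = finrank (fixedFieldOf act ⊤) F :=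
    finrank_mul_finrank _ _ F
  have hEF : finrank (IntermediateField.extendScalars hK0E) F = finrank ι.fieldRange F := rfl
  rw [h1, hdeg, hEF, finrank_fixedFieldOf_top_eq act hker] at htower
  have hpos : 0 < H.index := by
    have := Subgroup.index_mul_card H
    have hG : 0 < Nat.card G := Nat.card_pos
    rcases Nat.eq_zero_or_pos H.index with h0 | h0
    · rw [h0, zero_mul] at this; omega
    · exact h0
  exact le_of_eq (Nat.eq_of_mul_eq_mul_left hpos htower)

end Abstract

end Fermat.Agent.S48x.Ana.GaloisAct
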