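/-
P-S48, block G1, layer (a), (A4) ABSTRACT half, Part II (helper43): the action of `SL₂(ℤ/M)` on the
MODEL field `fullField M ζ`.

Hypotheses (to be produced by the analytic transport, helper53/helper33):
* (h1) `ActsOnRatios act`: `act g (ratio v w v' w') = ratio (v g⁻¹) (w g⁻¹) (v' g⁻¹) (w' g⁻¹)`;
* (h5) `act (-1) = 1`;
* (h3) `fixedFieldOf act ⊤ = L⟮x⟯`.
Outputs: `act g = 1 ↔ g = ±1` (by (RIG)), `#ker act = 2`, `[F : F^G] · 2 = #SL₂(ℤ/M)`, and the
specialisations of Part I (`Ana/GaloisAct.lean`) to subgroups `H ∋ -1`.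
-/
import Mathlib
import Fermat.Agent.S48x.Ana.GaloisAct
import Fermat.Agent.S48x.Model.RigidityFinal

set_option autoImplicit false
set_option linter.unusedSectionVars false

noncomputable section

namespace Fermat.Agent.S48x.Ana.GaloisAct

open Module IntermediateField
open Fermat.Agent.S48x.Model Fermat.Agent.S48x.Model.Rigidity

variable {L : Type*} [Field L] {M : ℕ} [NeZero M] {ζ : L}

/-- (h1): the action on the ratio generators, `g⁻¹`-convention (row vectors, right action). -/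
def ActsOnRatios (act : Matrix.SpecialLinearGroup (Fin 2) (ZMod M) →*
    (fullField M ζ ≃ₐ[L] fullField M ζ)) : Prop :=
  ∀ (g : Matrix.SpecialLinearGroup (Fin 2) (ZMod M)) (v w v' w' : Vec M) (hv : v ≠ 0)
    (hw : w ≠ 0) (hv' : v' ≠ 0) (hw' : w' ≠ 0),
    ((act g ⟨ratio M ζ v w v' w', ratio_mem_fullField ζ hv hw hv' hw'⟩ : fullField M ζ) :
        LaurentSeries L) =
      ratio M ζ (vecAct (g⁻¹ : Matrix.SpecialLinearGroup (Fin 2) (ZMod M)).1 v)
        (vecAct (g⁻¹ : Matrix.SpecialLinearGroup (Fin 2) (ZMod M)).1 w)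
        (vecAct (g⁻¹ : Matrix.SpecialLinearGroup (Fin 2) (ZMod M)).1 v')
        (vecAct (g⁻¹ : Matrix.SpecialLinearGroup (Fin 2) (ZMod M)).1 w')

variable {act : Matrix.SpecialLinearGroup (Fin 2) (ZMod M) →*
    (fullField M ζ ≃ₐ[L] fullField M ζ)}

theorem eq_one_or_neg_one_of_act_eq_one (hζ : IsPrimitiveRoot ζ M) (hM : 5 ≤ M)
    (h1 : ActsOnRatios act) {g : Matrix.SpecialLinearGroup (Fin 2) (ZMod M)}
    (hg : act g = 1) : g = 1 ∨ g = -1 := by
  have H : FixesRatios ζ (g⁻¹ : Matrix.SpecialLinearGroup (Fin 2) (ZMod M)).1 := by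
    intro v w v' w' hv hw hv' hw'
    have := h1 g v w v' w' hv hw hv' hw'
    rw [hg] at this
    exact this.symm
  rcases SL_eq_one_or_neg_one_of_fixesRatios' hζ hM g⁻¹ H with h | h
  · left
    exact inv_eq_one.mp h
  · right
    have : g = (-1 : Matrix.SpecialLinearGroup (Fin 2) (ZMod M))⁻¹ := by
      rw [← h, inv_inv]
    rw [this]
    ext i j
    fin_cases i <;> fin_cases j <;> simp

theorem act_eq_one_iff (hζ : IsPrimitiveRoot ζ M) (hM : 5 ≤ M) (h1 : ActsOnRatios act)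
    (hneg : act (-1) = 1) (g : Matrix.SpecialLinearGroup (Fin 2) (ZMod M)) :
    act g = 1 ↔ g = 1 ∨ g = -1 := by
  constructor
  · exact eq_one_or_neg_one_of_act_eq_one hζ hM h1
  · rintro (rfl | rfl)
    · exact map_one act
    · exact hneg

theorem mem_ker_iff (hζ : IsPrimitiveRoot ζ M) (hM : 5 ≤ M) (h1 : ActsOnRatios act)
    (hneg : act (-1) = 1) (g : Matrix.SpecialLinearGroup (Fin 2) (ZMod M)) :
    g ∈ act.ker ↔ g = 1 ∨ g = -1 := by
  rw [MonoidHom.mem_ker]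
  exact act_eq_one_iff hζ hM h1 hneg g

theorem ker_le_of_neg_one_mem (hζ : IsPrimitiveRoot ζ M) (hM : 5 ≤ M) (h1 : ActsOnRatios act)
    {H : Subgroup (Matrix.SpecialLinearGroup (Fin 2) (ZMod M))} (hH : -1 ∈ H) :
    act.ker ≤ H := by
  intro g hg
  rcases eq_one_or_neg_one_of_act_eq_one hζ hM h1 (MonoidHom.mem_ker.mp hg) with rfl | rfl
  · exact H.one_mem
  · exact hH

theorem neg_one_ne_one (hM : 5 ≤ M) :
    (-1 : Matrix.SpecialLinearGroup (Fin 2) (ZMod M)) ≠ 1 := by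
  intro h
  have h00 := congrArg (fun g : Matrix.SpecialLinearGroup (Fin 2) (ZMod M) => g.1 0 0) h
  simp only [Matrix.SpecialLinearGroup.coe_neg, Matrix.SpecialLinearGroup.coe_one,
    Matrix.neg_apply, Matrix.one_apply_eq] at h00
  have h2 : (2 : ZMod M) = 0 := by
    have : (1 : ZMod M) + 1 = 0 := by nth_rewrite 1 [← h00]; ring
    rw [← this]; norm_num
  exact Rigidity.two_ne_zero' hM h2

theorem card_ker (hζ : IsPrimitiveRoot ζ M) (hM : 5 ≤ M) (h1 : ActsOnRatios act)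
    (hneg : act (-1) = 1) : Nat.card act.ker = 2 := by
  rw [Nat.card_eq_two_iff]
  refine ⟨⟨1, act.ker.one_mem⟩, ⟨-1, MonoidHom.mem_ker.mpr hneg⟩, ?_, ?_⟩
  · intro h
    exact neg_one_ne_one hM (congrArg Subtype.val h).symm
  · ext ⟨g, hg⟩
    simp only [Set.mem_insert_iff, Set.mem_singleton_iff, Set.mem_univ, iff_true,
      Subtype.mk.injEq]
    exact (mem_ker_iff hζ hM h1 hneg g).mp hg

/-- `[F : F^G] · 2 = #SL₂(ℤ/M)`. -/
theorem finrank_top_mul_two (hζ : IsPrimitiveRoot ζ M) (hM : 5 ≤ M) (h1 : ActsOnRatios act)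
    (hneg : act (-1) = 1) :
    finrank (fixedFieldOf act ⊤) (fullField M ζ) * 2 =
      Nat.card (Matrix.SpecialLinearGroup (Fin 2) (ZMod M)) := by
  have h := finrank_fixedFieldOf_top_mul_card_ker act
  rw [card_ker hζ hM h1 hneg] at h
  exact h

/-- `[F : F^H] · 2 = #H` for `H ∋ -1`. -/
theorem finrank_fixedFieldOf_mul_two (hζ : IsPrimitiveRoot ζ M) (hM : 5 ≤ M)
    (h1 : ActsOnRatios act) (hneg : act (-1) = 1)
    {H : Subgroup (Matrix.SpecialLinearGroup (Fin 2) (ZMod M))} (hH : -1 ∈ H) :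
    finrank (fixedFieldOf act H) (fullField M ζ) * 2 = Nat.card H := by
  have h := finrank_fixedFieldOf_mul_card_ker act (ker_le_of_neg_one_mem hζ hM h1 hH)
  rw [card_ker hζ hM h1 hneg] at h
  exact h


/-! ### With (h3): the fixed field of the whole action is `L⟮x⟯` -/

section Fix

variable {x : fullField M ζ}

theorem finiteDimensional_adjoin (hfix : fixedFieldOf act ⊤ = L⟮x⟯) :
    FiniteDimensional L⟮x⟯ (fullField M ζ) :=
  hfix ▸ finiteDimensional_fixedFieldOf act ⊤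

theorem isGalois_adjoin (hfix : fixedFieldOf act ⊤ = L⟮x⟯) : IsGalois L⟮x⟯ (fullField M ζ) :=
  hfix ▸ isGalois_fixedFieldOf act ⊤

/-- `[F : L⟮x⟯] · 2 = #SL₂(ℤ/M)`. -/
theorem finrank_adjoin_mul_two (hζ : IsPrimitiveRoot ζ M) (hM : 5 ≤ M) (h1 : ActsOnRatios act)
    (hneg : act (-1) = 1) (hfix : fixedFieldOf act ⊤ = L⟮x⟯) :
    finrank L⟮x⟯ (fullField M ζ) * 2 =
      Nat.card (Matrix.SpecialLinearGroup (Fin 2) (ZMod M)) := by
  have h := finrank_top_mul_two hζ hM h1 hneg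
  rw [hfix] at h
  exact h

/-- `[F^H : L⟮x⟯] = (G : H)` for `H ∋ -1`. -/
theorem finrank_adjoin_fixedFieldOf (hζ : IsPrimitiveRoot ζ M) (hM : 5 ≤ M)
    (h1 : ActsOnRatios act) {K0 : IntermediateField L (fullField M ζ)}
    (hfix : fixedFieldOf act ⊤ = K0)
    {H : Subgroup (Matrix.SpecialLinearGroup (Fin 2) (ZMod M))} (hH : -1 ∈ H)
    (hle : K0 ≤ fixedFieldOf act H) :
    finrank K0 (IntermediateField.extendScalars hle) = H.index := by
  subst hfix
  exact finrank_extendScalars_fixedFieldOf act (ker_le_of_neg_one_mem hζ hM h1 hH)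

/-- **Consumer form** ((M-c), (M-e)): a field `E` with `xE : E`, an embedding `ι : E →ₐ[L] F` with
`ι xE = x`, image fixed by `H ∋ -1`, and `[E : L⟮xE⟯] = (SL₂(ℤ/M) : H)`: then `ι E = F^H`. -/
theorem fieldRange_eq_fixedFieldOf_model (hζ : IsPrimitiveRoot ζ M) (hM : 5 ≤ M)
    (h1 : ActsOnRatios act) (hfix : fixedFieldOf act ⊤ = L⟮x⟯)
    {E : Type*} [Field E] [Algebra L E] (ι : E →ₐ[L] fullField M ζ) (xE : E) (hx : ι xE = x)
    {H : Subgroup (Matrix.SpecialLinearGroup (Fin 2) (ZMod M))} (hH : -1 ∈ H)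
    (hle : ∀ e, ∀ h ∈ H, act h (ι e) = ι e) (hdeg : finrank L⟮xE⟯ E = H.index) :
    ι.fieldRange = fixedFieldOf act H := by
  subst hx
  exact fieldRange_eq_fixedFieldOf act ι xE hfix (ker_le_of_neg_one_mem hζ hM h1 hH)
    (fun e => (mem_fixedFieldOf act).mpr (hle e)) hdeg

end Fix

end Fermat.Agent.S48x.Ana.GaloisAct
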