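/-
P-S48, block G1, layer (a), (A4) bridge (helper43): reduction mod `M` is a SURJECTION
`SL₂(ℤ) → SL₂(ℤ/M)`, hence every homomorphism out of `SL₂(ℤ)` which is trivial on `Γ(M)` descends
to `SL₂(ℤ/M)`.

Uses the generation of `SL₂(ℤ/M)` by unipotent matrices of `Red1/SL2Gen.lean` (helper22).
-/
import Mathlib
import Fermat.Agent.S48x.Red1.SL2Gen

set_option autoImplicit false
set_option linter.unusedSectionVars false

open Matrix MatrixGroups

noncomputable section

namespace Fermat.Agent.S48x.Ana.RedSurj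

open Fermat.Agent.S48x.Red1

variable (M : ℕ) [NeZero M]

/-- reduction mod `M` (the same term as `StabFull.redSL M`). -/
def red : SL(2, ℤ) →* SL(2, ZMod M) :=
  Matrix.SpecialLinearGroup.map (Int.castRingHom (ZMod M))

theorem red_apply (γ : SL(2, ℤ)) (i j : Fin 2) : red M γ i j = ((γ i j : ℤ) : ZMod M) := rfl

variable {M}

/-- A subgroup of `SL₂(ℤ/M)` containing all unipotent matrices is everything. -/
theorem eq_top_of_upperU_lowerL {R : Subgroup SL(2, ZMod M)} (hU : ∀ x, upperU M x ∈ R)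
    (hL : ∀ x, lowerL M x ∈ R) : R = ⊤ := by
  rw [eq_top_iff]
  intro g _
  obtain ⟨t, c', htc⟩ := exists_unit_add_mul (g 0 0) (g 0 1) (g 1 0) (g 1 1) (sl2_det g)
  have h10 : (lowerL M t * g) 1 0 = g 1 0 + t * g 0 0 := by
    simp [sl2_mul_apply]; ring
  have h1 : lowerL M t * g ∈ R := by
    rw [eq_upper_lower_upper (lowerL M t * g) c' (by rw [h10]; exact htc)]
    exact R.mul_mem (R.mul_mem (hU _) (hL _)) (hU _)
  have h2 : g = (lowerL M t)⁻¹ * (lowerL M t * g) := by group
  rw [h2]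
  exact R.mul_mem (R.inv_mem (hL t)) h1

/-- the integral upper unipotent matrix. -/
def upperZ (n : ℤ) : SL(2, ℤ) := ⟨!![1, n; 0, 1], by simp [Matrix.det_fin_two_of]⟩

/-- the integral lower unipotent matrix. -/
def lowerZ (n : ℤ) : SL(2, ℤ) := ⟨!![1, 0; n, 1], by simp [Matrix.det_fin_two_of]⟩

theorem red_upperZ (n : ℤ) : red M (upperZ n) = upperU M (n : ZMod M) := by
  apply sl2_ext <;> rw [red_apply] <;> simp [upperZ]

theorem red_lowerZ (n : ℤ) : red M (lowerZ n) = lowerL M (n : ZMod M) := by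
  apply sl2_ext <;> rw [red_apply] <;> simp [lowerZ]

theorem upperU_mem_range (x : ZMod M) : upperU M x ∈ (red M).range :=
  ⟨upperZ (x.val : ℤ), by rw [red_upperZ]; simp⟩

theorem lowerL_mem_range (x : ZMod M) : lowerL M x ∈ (red M).range :=
  ⟨lowerZ (x.val : ℤ), by rw [red_lowerZ]; simp⟩

variable (M)

/-- **Reduction mod `M` is surjective** `SL₂(ℤ) → SL₂(ℤ/M)`. -/
theorem red_surjective : Function.Surjective (red M) := by
  rw [← MonoidHom.range_eq_top]
  exact eq_top_of_upperU_lowerL upperU_mem_range lowerL_mem_range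

/-- the kernel of reduction is `Γ(M)`. -/
theorem ker_red : (red M).ker = CongruenceSubgroup.Gamma M := rfl

/-- `SL₂(ℤ)/Γ(M) ≃ SL₂(ℤ/M)`. -/
def quotEquiv : SL(2, ℤ) ⧸ (red M).ker ≃* SL(2, ZMod M) :=
  QuotientGroup.quotientKerEquivOfSurjective (red M) (red_surjective M)

/-- `#SL₂(ℤ/M) = (SL₂(ℤ) : Γ(M))`. -/
theorem card_eq_index : Nat.card SL(2, ZMod M) = (CongruenceSubgroup.Gamma M).index := by
  rw [← ker_red, Subgroup.index, Nat.card_congr (quotEquiv M).toEquiv]

variable {M}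

/-- Descent: a homomorphism out of `SL₂(ℤ)` trivial on `Γ(M)` factors through `SL₂(ℤ/M)`. -/
def descend {A : Type*} [Group A] (f : SL(2, ℤ) →* A)
    (hf : CongruenceSubgroup.Gamma M ≤ f.ker) : SL(2, ZMod M) →* A :=
  (red M).liftOfSurjective (red_surjective M) ⟨f, hf⟩

@[simp] theorem descend_red {A : Type*} [Group A] (f : SL(2, ℤ) →* A)
    (hf : CongruenceSubgroup.Gamma M ≤ f.ker) (γ : SL(2, ℤ)) :
    descend f hf (red M γ) = f γ :=
  (red M).liftOfRightInverse_comp_apply _ (Function.surjInv_eq (red_surjective M)) ⟨f, hf⟩ γ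

theorem descend_eq_one_iff {A : Type*} [Group A] (f : SL(2, ℤ) →* A)
    (hf : CongruenceSubgroup.Gamma M ≤ f.ker) (γ : SL(2, ℤ)) :
    descend f hf (red M γ) = 1 ↔ γ ∈ f.ker := by
  rw [descend_red, MonoidHom.mem_ker]

/-- the image of a subgroup `H ≥ Γ(M)` of `SL₂(ℤ)` has the same index. -/
theorem index_map_red {H : Subgroup SL(2, ℤ)} (hH : CongruenceSubgroup.Gamma M ≤ H) :
    (H.map (red M)).index = H.index := by
  rw [Subgroup.index_map, MonoidHom.range_eq_top.mpr (red_surjective M), Subgroup.index_top,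
    mul_one, ker_red, sup_eq_left.mpr hH]

end Fermat.Agent.S48x.Ana.RedSurj
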