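/-
P-S48, block G1, layer (a), (A4) GLUE (helper43): the `SL₂(ℤ/M)`-action on the model field
`fullField M ζ` from an analytic realisation.

Input (hypothesis-style; producers: helper62/helper29 `EmbFull*`, helper53 `GaloisFull`):
* `D : EmbData L ↥(fullField M ζ) ι x (±Γ(M))` with `IsFullEmb D.emb`;
* `hS : GaloisAbs.Stable D` (the image is `SL(2,ℤ)`-stable);
* `hinv` : invariant elements lie in `L⟮x⟯`.
Output: `sAct D hS : SL(2, ZMod M) →* (fullField M ζ ≃ₐ[L] fullField M ζ)` with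
`sAct (red γ) = GaloisAbs.act γ`, `ActsOnRatios`, `sAct (-1) = 1`, fixed field `L⟮x⟯`, and hence
(`Ana/GaloisActModel.lean`) kernel `{±1}`, degree `#SL₂(ℤ/M)/2`, Galois, fixed fields of subgroups.
-/
import Mathlib
import Fermat.Agent.S48x.Ana.GaloisAbs
import Fermat.Agent.S48x.Ana.StabFull
import Fermat.Agent.S48x.Ana.RedSurj
import Fermat.Agent.S48x.Ana.GaloisActModel

set_option autoImplicit false
set_option linter.unusedSectionVars false

open UpperHalfPlane IntermediateField Module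
open scoped MatrixGroups

noncomputable section

namespace Fermat.Agent.S48x.Ana.GaloisFullGlue

open Fermat.Agent.S48x.Model Fermat.Agent.S48x.Model.Rigidity Fermat.Agent.S48x.Ana
open Fermat.Agent.S24 Fermat.Agent.Gateway.Dict.ConjAbs
open Fermat.Agent.S48x.Ana.GaloisAct

variable {L : Type*} [Field L] {M : ℕ} [NeZero M] {ζ : L} {ι : L →+* ℂ} {x : fullField M ζ}
  (D : EmbData L ↥(fullField M ζ) ι x (StabFull.GammaPM M)) (hS : GaloisAbs.Stable D)

theorem gamma_le_ker : CongruenceSubgroup.Gamma M ≤ (GaloisAbs.act D hS).ker := by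
  rw [GaloisAbs.act_ker]
  exact StabFull.Gamma_le_GammaPM M

/-- **The action of `SL₂(ℤ/M)` on the full-level model field.** -/
def sAct : SL(2, ZMod M) →* (fullField M ζ ≃ₐ[L] fullField M ζ) :=
  RedSurj.descend (GaloisAbs.act D hS) (gamma_le_ker D hS)

@[simp] theorem sAct_red (γ : SL(2, ℤ)) :
    sAct D hS (RedSurj.red M γ) = GaloisAbs.act D hS γ :=
  RedSurj.descend_red _ _ γ

theorem emb_sAct_red (γ : SL(2, ℤ)) (f : fullField M ζ) :
    D.emb (sAct D hS (RedSurj.red M γ) f) = γ • D.emb f := by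
  rw [sAct_red, GaloisAbs.emb_act]

theorem sAct_x (g : SL(2, ZMod M)) : sAct D hS g x = x := by
  obtain ⟨γ, rfl⟩ := RedSurj.red_surjective M g
  rw [sAct_red, GaloisAbs.act_x]


/-! ### The action on the ratio generators -/

variable {D}

/-- `act γ (ratio v w v' w') = ratio (v γ⁻¹) (w γ⁻¹) (v' γ⁻¹) (w' γ⁻¹)` for `γ ∈ SL(2,ℤ)`. -/
theorem act_ratio (hfull : StabFull.IsFullEmb D.emb) (γ : SL(2, ℤ)) (v w v' w' : Vec M)
    (hv : v ≠ 0) (hw : w ≠ 0) (hv' : v' ≠ 0) (hw' : w' ≠ 0) :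
    GaloisAbs.act D hS γ ⟨ratio M ζ v w v' w', ratio_mem_fullField ζ hv hw hv' hw'⟩ =
      ⟨ratio M ζ (vecSL M v γ⁻¹) (vecSL M w γ⁻¹) (vecSL M v' γ⁻¹) (vecSL M w' γ⁻¹),
        ratio_mem_fullField ζ (vecSL_ne_zero M hv γ⁻¹) (vecSL_ne_zero M hw γ⁻¹)
          (vecSL_ne_zero M hv' γ⁻¹) (vecSL_ne_zero M hw' γ⁻¹)⟩ := by
  rw [GaloisAbs.act_eq_iff, hfull.ratio v w v' w' hv hw hv' hw', smul_Rfun,
    hfull.ratio _ _ _ _ (vecSL_ne_zero M hv γ⁻¹) (vecSL_ne_zero M hw γ⁻¹)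
      (vecSL_ne_zero M hv' γ⁻¹) (vecSL_ne_zero M hw' γ⁻¹)]

/-- (h1) of `Ana/GaloisActModel.lean`. -/
theorem actsOnRatios (hfull : StabFull.IsFullEmb D.emb) : ActsOnRatios (sAct D hS) := by
  intro g v w v' w' hv hw hv' hw'
  obtain ⟨γ, rfl⟩ := RedSurj.red_surjective M g
  rw [sAct_red, act_ratio hS hfull γ v w v' w' hv hw hv' hw']
  have key : ∀ u : Vec M, vecSL M u γ⁻¹ =
      vecAct ((RedSurj.red M γ)⁻¹ : SL(2, ZMod M)).1 u := by
    intro u
    rw [← map_inv]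
    rfl
  simp only [key]

/-- (h5): `-1` acts trivially. -/
theorem sAct_neg_one : sAct D hS (-1) = 1 := by
  have h1 : RedSurj.red M (-1 : SL(2, ℤ)) = -1 := by
    apply Subtype.ext
    ext i j
    rw [RedSurj.red_apply]
    fin_cases i <;> fin_cases j <;> simp
  rw [← h1, sAct_red, GaloisAbs.act_eq_one_iff]
  exact StabFull.neg_one_mem_GammaPM M

/-- (h3): the fixed field of the action is `L⟮x⟯`. -/
theorem fixedFieldOf_top
    (hinv : ∀ f : fullField M ζ, (∀ g : SL(2, ℤ), g • D.emb f = D.emb f) → f ∈ L⟮x⟯) :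
    fixedFieldOf (sAct D hS) ⊤ = L⟮x⟯ := by
  apply le_antisymm
  · intro f hf
    rw [mem_fixedFieldOf] at hf
    apply hinv f
    intro γ
    have := hf (RedSurj.red M γ) (Subgroup.mem_top _)
    rw [← emb_sAct_red D hS, this]
  · rw [IntermediateField.adjoin_simple_le_iff, mem_fixedFieldOf]
    intro g _
    exact sAct_x D hS g


/-- fixed fields: `H ≤ SL(2,ℤ)` versus its image in `SL₂(ℤ/M)`. -/
theorem fixedFieldOf_map_red (H : Subgroup SL(2, ℤ)) :
    fixedFieldOf (sAct D hS) (H.map (RedSurj.red M)) = GaloisAbs.fixedOf D H := by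
  ext f
  rw [mem_fixedFieldOf, GaloisAbs.mem_fixedOf]
  constructor
  · intro h γ hγ
    have := h (RedSurj.red M γ) (Subgroup.mem_map_of_mem _ hγ)
    rw [← emb_sAct_red D hS, this]
  · rintro h _ ⟨γ, hγ, rfl⟩
    rw [sAct_red, GaloisAbs.act_eq_iff]
    exact h γ hγ

/-! ### Consolidated output -/

section Output

variable (hζ : IsPrimitiveRoot ζ M) (hM : 5 ≤ M) (hfull : StabFull.IsFullEmb D.emb)
  (hinv : ∀ f : fullField M ζ, (∀ g : SL(2, ℤ), g • D.emb f = D.emb f) → f ∈ L⟮x⟯)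

include hζ hM hfull

/-- the kernel of the action is `{±1}`. -/
theorem sAct_eq_one_iff (g : SL(2, ZMod M)) : sAct D hS g = 1 ↔ g = 1 ∨ g = -1 :=
  act_eq_one_iff hζ hM (actsOnRatios hS hfull) (sAct_neg_one hS) g

theorem card_ker_sAct : Nat.card (sAct D hS).ker = 2 :=
  card_ker hζ hM (actsOnRatios hS hfull) (sAct_neg_one hS)

theorem ker_sAct_le {H : Subgroup SL(2, ZMod M)} (hH : -1 ∈ H) : (sAct D hS).ker ≤ H :=
  ker_le_of_neg_one_mem hζ hM (actsOnRatios hS hfull) hH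

include hinv hS

/-- `[fullField M ζ : L(x)] · 2 = #SL₂(ℤ/M)`. -/
theorem finrank_mul_two :
    finrank L⟮x⟯ (fullField M ζ) * 2 = Nat.card SL(2, ZMod M) :=
  finrank_adjoin_mul_two hζ hM (actsOnRatios hS hfull) (sAct_neg_one hS)
    (fixedFieldOf_top hS hinv)

omit hζ hM hfull in
theorem finiteDimensional : FiniteDimensional L⟮x⟯ (fullField M ζ) :=
  finiteDimensional_adjoin (act := sAct D hS) (fixedFieldOf_top hS hinv)

omit hζ hM hfull in
theorem isGalois : IsGalois L⟮x⟯ (fullField M ζ) :=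
  isGalois_adjoin (act := sAct D hS) (fixedFieldOf_top hS hinv)

/-- `[F^H : L(x)] = (SL₂(ℤ/M) : H)` for `H ∋ -1`. -/
theorem finrank_fixedFieldOf {H : Subgroup SL(2, ZMod M)} (hH : -1 ∈ H)
    (hle : L⟮x⟯ ≤ fixedFieldOf (sAct D hS) H) :
    finrank L⟮x⟯ (IntermediateField.extendScalars hle) = H.index :=
  finrank_adjoin_fixedFieldOf hζ hM (actsOnRatios hS hfull) (fixedFieldOf_top hS hinv) hH hle

/-- Degree criterion ((M-c), (M-e)): an embedded field `ι' : E →ₐ[L] fullField M ζ` with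
`ι' xE = x`, image fixed by `H ∋ -1`, and `[E : L⟮xE⟯] = (SL₂(ℤ/M) : H)` has image `F^H`. -/
theorem fieldRange_eq_fixedFieldOf' {E : Type*} [Field E] [Algebra L E]
    (ι' : E →ₐ[L] fullField M ζ) (xE : E) (hx : ι' xE = x) {H : Subgroup SL(2, ZMod M)}
    (hH : -1 ∈ H) (hle : ∀ e, ∀ h ∈ H, sAct D hS h (ι' e) = ι' e)
    (hdeg : finrank L⟮xE⟯ E = H.index) : ι'.fieldRange = fixedFieldOf (sAct D hS) H :=
  fieldRange_eq_fixedFieldOf_model hζ hM (actsOnRatios hS hfull) (fixedFieldOf_top hS hinv)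
    ι' xE hx hH hle hdeg

end Output

end Fermat.Agent.S48x.Ana.GaloisFullGlue
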