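/-
P-S48, block G1, layer (a), (A4) (M-b) (helper43): in the `SL₂(ℤ/M)`-action on `fullField M ζ`
(`Ana/GaloisFullGlue.lean`) the inverse of the transvection `U = (1 1; 0 1)` acts as the twist
`z ↦ ζ z`:

  `↑(sAct D hS (upperU M 1)⁻¹ f) = S28.twist ζu ↑f`   (`ζu : Lˣ`, `↑ζu = ζ`).

Proof: both `T⁻¹ • D.emb ·` and `D.emb (twist ·)` are ring homomorphisms on
`fullField M ζ = L(generators)` which agree on the constants and on the generators
(`Identities.twist_ratio` + `WpHolo.inv_smul_Rfun` + `vecSL_T`; `twist_qExpand_of_pow_eq_one` +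
`T⁻¹ • jd d = jd d`).
-/
import Mathlib
import Fermat.Agent.S48x.Ana.GaloisFullGlue

set_option autoImplicit false
set_option linter.unusedSectionVars false

open UpperHalfPlane IntermediateField Module
open scoped MatrixGroups

noncomputable section

namespace Fermat.Agent.S48x.Ana.GaloisFullTwist

open Fermat.Agent.S48x.Model Fermat.Agent.S48x.Model.Rigidity Fermat.Agent.S48x.Ana
open Fermat.Agent.S24 Fermat.Agent.Gateway.Dict.ConjAbs ModularCurve
open Fermat.Agent.S48x.Ana.GaloisAct Fermat.Agent.S48x.Ana.GaloisFullGlue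
open Fermat.Agent.S48x.Red1 (upperU)

variable {L : Type*} [Field L] {M : ℕ} [NeZero M] (ζu : Lˣ)

/-- the shift `(a, b) ↦ (a, a + b)` of labels (`= v U`). -/
def shiftV (v : Vec M) : Vec M := (v.1, v.1 + v.2)

theorem shiftV_ne_zero {v : Vec M} (hv : v ≠ 0) : shiftV v ≠ 0 := by
  intro h
  apply hv
  have h1 : v.1 = 0 := congrArg Prod.fst h
  have h2 : v.1 + v.2 = 0 := congrArg Prod.snd h
  rw [h1, zero_add] at h2
  exact Prod.ext h1 h2

/-- the twist preserves the full-level model field. -/
theorem twist_mem_fullField (hζM : ζu ^ M = 1) {f : LaurentSeries L}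
    (hf : f ∈ fullField M (ζu : L)) : Fermat.Agent.S28.twist ζu f ∈ fullField M (ζu : L) := by
  unfold fullField at hf
  induction hf using IntermediateField.adjoin_induction with
  | mem y hy =>
    rcases hy with ⟨d, hd0, hd, rfl⟩ | ⟨v, w, v', w', hv, hw, hv', hw', rfl⟩
    · have h1 : ζu ^ (d * M) = 1 := by rw [pow_mul', hζM, one_pow]
      rw [Fermat.Agent.S28.twist_qExpand_of_pow_eq_one ζu (d * M) h1]
      exact jqd_mem_fullField _ hd
    · rw [Identities.twist_ratio ζu hζM]
      exact ratio_mem_fullField _ (shiftV_ne_zero hv) (shiftV_ne_zero hw) (shiftV_ne_zero hv')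
        (shiftV_ne_zero hw')
  | algebraMap c =>
    rw [algebraMap_laurentSeries_eq_single, ← HahnSeries.C_apply, Fermat.Agent.S28.twist_C,
      HahnSeries.C_apply, ← algebraMap_laurentSeries_eq_single]
    exact (fullField M (ζu : L)).algebraMap_mem c
  | add y z _ _ ihy ihz =>
    rw [map_add]
    exact add_mem ihy ihz
  | inv y _ ih =>
    rw [map_inv₀]
    exact inv_mem ih
  | mul y z _ _ ihy ihz =>
    rw [map_mul]
    exact mul_mem ihy ihz

/-- the twist as an endomorphism of the model field. -/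
def twistF (hζM : ζu ^ M = 1) : fullField M (ζu : L) →+* fullField M (ζu : L) :=
  ((Fermat.Agent.S28.twist ζu).comp (algebraMap (fullField M (ζu : L)) (LaurentSeries L))).codRestrict
    (fullField M (ζu : L)) fun f => twist_mem_fullField ζu hζM f.2

@[simp] theorem coe_twistF (hζM : ζu ^ M = 1) (f : fullField M (ζu : L)) :
    ((twistF ζu hζM f : fullField M (ζu : L)) : LaurentSeries L) =
      Fermat.Agent.S28.twist ζu (f : LaurentSeries L) := rfl


theorem twistF_algebraMap (hζM : ζu ^ M = 1) (c : L) :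
    twistF ζu hζM (algebraMap L (fullField M (ζu : L)) c) =
      algebraMap L (fullField M (ζu : L)) c := by
  apply Subtype.ext
  rw [coe_twistF]
  change Fermat.Agent.S28.twist ζu (algebraMap L (LaurentSeries L) c) =
    algebraMap L (LaurentSeries L) c
  rw [algebraMap_laurentSeries_eq_single, ← HahnSeries.C_apply, Fermat.Agent.S28.twist_C]

theorem T_inv_mem_Gamma0 : (ModularGroup.T⁻¹ : SL(2, ℤ)) ∈ CongruenceSubgroup.Gamma0 M := by
  rw [CongruenceSubgroup.Gamma0_mem, ModularGroup.coe_T_inv]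
  simp

variable {ι : L →+* ℂ} {x : fullField M (ζu : L)}
  {D : EmbData L ↥(fullField M (ζu : L)) ι x (StabFull.GammaPM M)}

/-- `T⁻¹ • D.emb f = D.emb (twist f)`. -/
theorem T_inv_smul_emb (hζM : ζu ^ M = 1) (hfull : StabFull.IsFullEmb D.emb)
    (f : fullField M (ζu : L)) :
    (ModularGroup.T⁻¹ : SL(2, ℤ)) • D.emb f = D.emb (twistF ζu hζM f) := by
  have key : (MulSemiringAction.toRingHom SL(2, ℤ) MerFun ModularGroup.T⁻¹).comp D.emb =
      D.emb.comp (twistF ζu hζM) := by
    apply StabFull.ringHom_ext_adjoin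
    · intro c
      change (ModularGroup.T⁻¹ : SL(2, ℤ)) • D.emb (algebraMap L (fullField M (ζu : L)) c) =
        D.emb (twistF ζu hζM (algebraMap L (fullField M (ζu : L)) c))
      rw [twistF_algebraMap, hfull.const_fixed]
    · rintro y (⟨d, hd0, hd, rfl⟩ | ⟨v, w, v', w', hv, hw, hv', hw', rfl⟩)
      · have e := hfull.jd d hd
        have h1 : ζu ^ (d * M) = 1 := by rw [pow_mul', hζM, one_pow]
        have e2 : twistF ζu hζM ⟨qExpand L (d * M) (jqModC L), jqd_mem_fullField _ hd⟩ =
            ⟨qExpand L (d * M) (jqModC L), jqd_mem_fullField _ hd⟩ := by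
          apply Subtype.ext
          rw [coe_twistF]
          exact Fermat.Agent.S28.twist_qExpand_of_pow_eq_one ζu (d * M) h1 _
        change (ModularGroup.T⁻¹ : SL(2, ℤ)) •
            D.emb ⟨qExpand L (d * M) (jqModC L), jqd_mem_fullField _ hd⟩ =
          D.emb (twistF ζu hζM ⟨qExpand L (d * M) (jqModC L), jqd_mem_fullField _ hd⟩)
        rw [e2, e, StabFull.smul_algebraMap_jd hd T_inv_mem_Gamma0]
      · have e := hfull.ratio v w v' w' hv hw hv' hw'
        have e2 : twistF ζu hζM ⟨ratio M (ζu : L) v w v' w',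
              ratio_mem_fullField _ hv hw hv' hw'⟩ =
            ⟨ratio M (ζu : L) (shiftV v) (shiftV w) (shiftV v') (shiftV w'),
              ratio_mem_fullField _ (shiftV_ne_zero hv) (shiftV_ne_zero hw)
                (shiftV_ne_zero hv') (shiftV_ne_zero hw')⟩ := by
          apply Subtype.ext
          rw [coe_twistF]
          exact Identities.twist_ratio ζu hζM v w v' w'
        change (ModularGroup.T⁻¹ : SL(2, ℤ)) •
            D.emb ⟨ratio M (ζu : L) v w v' w', ratio_mem_fullField _ hv hw hv' hw'⟩ =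
          D.emb (twistF ζu hζM ⟨ratio M (ζu : L) v w v' w',
            ratio_mem_fullField _ hv hw hv' hw'⟩)
        rw [e2, e, inv_smul_Rfun, hfull.ratio _ _ _ _ (shiftV_ne_zero hv) (shiftV_ne_zero hw)
          (shiftV_ne_zero hv') (shiftV_ne_zero hw')]
        simp only [vecSL_T, shiftV]
  exact RingHom.congr_fun key f

theorem red_T : RedSurj.red M ModularGroup.T = upperU M 1 := by
  apply Fermat.Agent.S48x.Red1.sl2_ext <;> rw [RedSurj.red_apply] <;> simp [ModularGroup.T]

variable (hS : GaloisAbs.Stable D)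

/-- **(M-b)**: `(1 1; 0 1)⁻¹` acts as the twist `z ↦ ζ z`. -/
theorem sAct_upperU_inv (hζM : ζu ^ M = 1) (hfull : StabFull.IsFullEmb D.emb)
    (f : fullField M (ζu : L)) :
    ((sAct D hS (upperU M 1)⁻¹ f : fullField M (ζu : L)) : LaurentSeries L) =
      Fermat.Agent.S28.twist ζu (f : LaurentSeries L) := by
  rw [← red_T, ← map_inv, sAct_red, ← coe_twistF ζu hζM]
  congr 1
  rw [GaloisAbs.act_eq_iff]
  exact T_inv_smul_emb ζu hζM hfull f

/-- `(1 1; 0 1)` acts as the inverse twist `z ↦ ζ⁻¹ z`. -/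
theorem sAct_upperU (hζM : ζu ^ M = 1) (hfull : StabFull.IsFullEmb D.emb)
    (f : fullField M (ζu : L)) :
    ((sAct D hS (upperU M 1) f : fullField M (ζu : L)) : LaurentSeries L) =
      Fermat.Agent.S28.twist ζu⁻¹ (f : LaurentSeries L) := by
  have h := sAct_upperU_inv ζu hS hζM hfull (sAct D hS (upperU M 1) f)
  rw [← AlgEquiv.mul_apply, ← map_mul, inv_mul_cancel, map_one, AlgEquiv.one_apply] at h
  rw [h, Fermat.Agent.S28.twist_twist, inv_mul_cancel, Fermat.Agent.S28.twist_one]

end Fermat.Agent.S48x.Ana.GaloisFullTwist
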