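import Mathlib
import Fermat.Agent.S48x.Red1.IgusaLevel
import Fermat.Agent.S48x.Red1.ModelRatioGen
import Fermat.Agent.S48x.Red1.FullLevelInputs
import Fermat.Agent.S48x.Red1.DistRatioIdx
import Fermat.Agent.S48x.Red1.SL2GenNeg
import Fermat.Agent.S48x.Ana.GaloisFullGlue
import Fermat.Agent.S48x.Ana.GaloisFullTwist
import Fermat.Agent.S48x.Ana.FixedFieldsBorel

/-!
# P-S48, bridge (A4) → (R9): the full level data of the ratio datum (helper75)

`D₀ := ModelInt.ratioIntGen A M ζ` (`Red1/ModelRatioGen.lean`), `F' := fullField M ζ ⊆ L((z))`.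

Input = the outputs of layer (a), slice (A4): an analytic realisation
`D : EmbData L ↥(fullField M ζ) ι x (±Γ(M))` with `IsFullEmb D.emb`, `GaloisAbs.Stable D`, `hinv`
(invariants lie in `L⟮x⟯`), `x = j(z^M)`, and `htop : L(j(z^M), ratios) = fullField M ζ`.

Output = `fullLevelData : (ratioIntGen A M ζ).FullLevelData π SL(2, ZMod M)`
(`Red1/IgusaLevel.lean`), hence `full_ratioIntGen : (ratioIntGen A M ζ).Full π`.
The action is `GaloisFullGlue.sAct D hS`, `perm g = ModelInt.perm g⁻¹`, `B = borel M`,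
`u = upperU M (-1)` (acting as the twist by `ζ`).
-/

set_option autoImplicit false
set_option linter.unusedSectionVars false

noncomputable section

namespace Fermat.Agent.S48x.Ana.FullLevelInst

open IntermediateField ModularCurve
open Fermat.Agent.Gateway.Red Fermat.Agent.Gateway.GoodRed
open Fermat.Agent.Gateway.Dict.ConjAbs
open Fermat.Agent.S48x.Model Fermat.Agent.S48x.Model.Rigidity
open Fermat.Agent.S48x.Red1 Fermat.Agent.S48x.Red1.ModelInt
open Fermat.Agent.S48x.Ana.GaloisAct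
open scoped MatrixGroups
open scoped Fermat.Agent.S48x.Red1.Shortcuts

/-! ### the field of the ratio datum is the full-level field -/

section Field

variable {L : Type*} [Field L] {M : ℕ} [NeZero M]

/-- helper53's `adjoin_eq_top` (inside `↥(fullField M ζ)`) as an equality of intermediate fields of
`L((z))`. -/
theorem adjoin_ratioGens_eq_of_top {ζ : L} (x : fullField M ζ)
    (hx : (x : LaurentSeries L) = qExpand L M (jqModC L)) (S : Set (fullField M ζ))
    (hS : ∀ f ∈ S, ∃ v w v' w' : Vec M, v ≠ 0 ∧ w ≠ 0 ∧ v' ≠ 0 ∧ w' ≠ 0 ∧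
      (f : LaurentSeries L) = ratio M ζ v w v' w')
    (htop : IntermediateField.adjoin L (insert x S) = ⊤) :
    IntermediateField.adjoin L (ratioGens M ζ) = fullField M ζ := by
  apply le_antisymm
  · rw [IntermediateField.adjoin_le_iff]
    intro y hy
    exact IntermediateField.subset_adjoin L _ (ratioGens_subset_fullGens ζ hy)
  · intro f hf
    have h1 : (⟨f, hf⟩ : fullField M ζ) ∈ IntermediateField.adjoin L (insert x S) := by
      rw [htop]; exact IntermediateField.mem_top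
    have h2 : f ∈ (IntermediateField.adjoin L (insert x S)).map (fullField M ζ).val :=
      ⟨⟨f, hf⟩, h1, rfl⟩
    rw [IntermediateField.adjoin_map] at h2
    refine IntermediateField.adjoin.mono L _ _ ?_ h2
    rintro _ ⟨y, hy, rfl⟩
    rcases hy with rfl | hy
    · exact Or.inl hx
    · obtain ⟨v, w, v', w', hv, hw, hv', hw', h⟩ := hS y hy
      exact Or.inr ⟨v, w, v', w', hv, hw, hv', hw', h⟩

variable {A : ValuationSubring L} {k : Type*} [Field k] {π : A →+* k}

/-- **`F' = D₀.F`**: the field of the ratio datum is the full-level field. -/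
theorem fullField_eq_F (hπ : Function.Surjective π) {ζ : A} (hζ : IsPrimitiveRoot ζ M)
    (hMk : ((M : ℕ) : k) ≠ 0)
    (htop : IntermediateField.adjoin L (ratioGens M ((ζ : A) : L)) = fullField M ((ζ : A) : L)) :
    fullField M ((ζ : A) : L) = (ratioIntGen A M ζ).F := by
  rw [ratioIntGen_F hπ hζ hMk, htop]

end Field

/-! ### the action on the generators, the fixed field -/

section Act

variable {L : Type*} [Field L] {A : ValuationSubring L} {k : Type*} [Field k] {π : A →+* k}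
  {M : ℕ} [NeZero M] {ζ : A}
  {act : SL(2, ZMod M) →* (fullField M ((ζ : A) : L) ≃ₐ[L] fullField M ((ζ : A) : L))}

/-- the generators of the ratio datum lie in the full-level field. -/
theorem eL_mem_fullField (hπ : Function.Surjective π) (hζ : IsPrimitiveRoot ζ M)
    (hMk : ((M : ℕ) : k) ≠ 0) (q : QuadIdx M) :
    (ratioIntGen A M ζ).eL q ∈ fullField M ((ζ : A) : L) := by
  rw [ratioIntGen_eL hπ hζ hMk]
  exact ratio_mem_fullField _ q.2.1 q.2.2.1 q.2.2.2.1 q.2.2.2.2.1

/-- **`act_e`** (coercion form): `act g (e q) = e (perm g⁻¹ q)`. -/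
theorem act_eL (hπ : Function.Surjective π) (hζ : IsPrimitiveRoot ζ M)
    (hMk : ((M : ℕ) : k) ≠ 0) (h1 : ActsOnRatios act) (g : SL(2, ZMod M)) (q : QuadIdx M)
    (hmem : (ratioIntGen A M ζ).eL q ∈ fullField M ((ζ : A) : L)) :
    ((act g ⟨(ratioIntGen A M ζ).eL q, hmem⟩ : fullField M ((ζ : A) : L)) : LaurentSeries L) =
      (ratioIntGen A M ζ).eL (perm g⁻¹ q) := by
  have e : (⟨(ratioIntGen A M ζ).eL q, hmem⟩ : fullField M ((ζ : A) : L)) =
      ⟨ratio M ((ζ : A) : L) q.1.1 q.1.2.1 q.1.2.2.1 q.1.2.2.2,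
        ratio_mem_fullField _ q.2.1 q.2.2.1 q.2.2.2.1 q.2.2.2.2.1⟩ :=
    Subtype.ext (ratioIntGen_eL hπ hζ hMk q)
  rw [e, h1 g _ _ _ _ q.2.1 q.2.2.1 q.2.2.2.1 q.2.2.2.2.1, ratioIntGen_eL_perm hπ hζ hMk]

/-- **`fixed`** (coercion form). -/
theorem coe_mem_adjoin_of_mem {ζ' : L} {x f : fullField M ζ'} (hf : f ∈ L⟮x⟯) :
    (f : LaurentSeries L) ∈ L⟮(x : LaurentSeries L)⟯ := by
  have h : (f : LaurentSeries L) ∈ (L⟮x⟯).map (fullField M ζ').val := ⟨f, hf, rfl⟩
  rwa [IntermediateField.adjoin_map, Set.image_singleton] at h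

end Act

/-! ### (M-c) for the Borel subgroup of `SL(2, ZMod M)` -/

section Borel

variable {L : Type} [Field L] {M : ℕ} [NeZero M]

theorem Fk_le_gamma1FieldC (ζ : L) : ConjFamily.Fk L M ≤ gamma1FieldC M ζ := by
  show IntermediateField.adjoin L (divisorExpansionsC L M) ≤
    IntermediateField.adjoin L (gamma1Gens M ζ)
  apply IntermediateField.adjoin.mono
  rintro y ⟨d, hd0, hd, rfl⟩
  exact Or.inl ⟨d, hd0, hd, rfl⟩

/-- the `z ↦ z^M` image of the `Γ₀(M)`-field lies in the full-level field. -/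
theorem qExpand_Fk_mem_fullField (ζ : L) (y : ConjFamily.Fk L M) :
    qExpand L M (y : LaurentSeries L) ∈ fullField M ζ :=
  Identities.qExpand_mem_fullField ζ (Fk_le_gamma1FieldC ζ y.2)

theorem red_mem_borel {g : SL(2, ℤ)} (hg : g ∈ CongruenceSubgroup.Gamma0 M) :
    RedSurj.red M g ∈ borel M := by
  rw [mem_borel_iff, RedSurj.red_apply]
  exact CongruenceSubgroup.Gamma0_mem.mp hg

variable {ζ : L} {ι : L →+* ℂ} {x : fullField M ζ}
  (D : EmbData L ↥(fullField M ζ) ι x (StabFull.GammaPM M)) (hS : GaloisAbs.Stable D)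

/-- **(M-c)** in the shape `hMc` of `Red1/FullLevelInputs.hB_fullLevel`, for `B = borel M`. -/
theorem hMc_borel (hfull : StabFull.IsFullEmb D.emb)
    (hinv : ∀ f : fullField M ζ, (∀ g : SL(2, ℤ), g • D.emb f = D.emb f) → f ∈ L⟮x⟯)
    (hx : (x : LaurentSeries L) = qExpand L M (jqModC L)) (f : fullField M ζ)
    (hf : ∀ b ∈ borel M, GaloisFullGlue.sAct D hS b f = f) :
    ∃ y : ConjFamily.Fk L M, (f : LaurentSeries L) = qExpand L M (y : LaurentSeries L) := by
  have : (StabFull.GammaPM M).FiniteIndex :=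
    Subgroup.finiteIndex_of_le (StabFull.Gamma_le_GammaPM M)
  refine FixedFields.exists_eq_qExpand_of_fixed D hfull hS hinv ?_ f ?_
  · rw [hx]
    exact FixedFields.qExpand_jq_mem_borelSeries
  · intro g hg
    rw [← GaloisFullGlue.emb_sAct_red D hS, hf _ (red_mem_borel hg)]

end Borel

/-! ### the full level data -/

theorem natCast_ne_zero_of_not_dvd {k : Type*} [Field k] (M ℓ : ℕ) [CharP k ℓ]
    (hℓM : ¬ ℓ ∣ M) : ((M : ℕ) : k) ≠ 0 := fun h =>
  hℓM ((CharP.cast_eq_zero_iff k ℓ M).mp h)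

section Main

variable {L : Type} [Field L] [Algebra ℚ L] [IsAlgClosed L] (A : ValuationSubring L)
  {k : Type} [Field k] [IsAlgClosed k] (π : A →+* k) (M : ℕ) [NeZero M]
  (ℓ : ℕ) [Fact ℓ.Prime] [CharP k ℓ] (hπ : Function.Surjective π) (hℓM : ¬ ℓ ∣ M)
  (hM : 5 ≤ M) (ζ : Aˣ) (hζ : IsPrimitiveRoot (ζ : A) M)
  {ι : L →+* ℂ} {x : fullField M (((ζ : Aˣ) : A) : L)}
  (D : EmbData L ↥(fullField M (((ζ : Aˣ) : A) : L)) ι x (StabFull.GammaPM M))
  (hS : GaloisAbs.Stable D) (hfull : StabFull.IsFullEmb D.emb)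
  (hinv : ∀ f : fullField M (((ζ : Aˣ) : A) : L),
    (∀ g : SL(2, ℤ), g • D.emb f = D.emb f) → f ∈ L⟮x⟯)
  (hx : (x : LaurentSeries L) = qExpand L M (jqModC L))
  (htop : IntermediateField.adjoin L (ratioGens M (((ζ : Aˣ) : A) : L)) =
    fullField M (((ζ : Aˣ) : A) : L))

/-- **the full level data of the ratio datum** (target of (A4), `Red1/IgusaLevel.lean`). -/
def fullLevelData :
    (ratioIntGen A M (ζ : A)).FullLevelData π SL(2, ZMod M) where
  F' := fullField M (((ζ : Aˣ) : A) : L)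
  hF' := fullField_eq_F hπ hζ (natCast_ne_zero_of_not_dvd M ℓ hℓM) htop
  act := GaloisFullGlue.sAct D hS
  perm := fun g => ModelInt.perm g⁻¹
  act_x := fun g x' hx' => by
    have e : x' = x := Subtype.ext (hx'.trans ((ratioIntGen_x _).trans hx.symm))
    rw [e, GaloisFullGlue.sAct_x, hx, ratioIntGen_x]
  act_e := fun g i y hy => by
    have e : y = ⟨_, eL_mem_fullField hπ hζ (natCast_ne_zero_of_not_dvd M ℓ hℓM) i⟩ :=
      Subtype.ext hy
    rw [e]
    exact act_eL hπ hζ (natCast_ne_zero_of_not_dvd M ℓ hℓM)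
      (GaloisFullGlue.actsOnRatios hS hfull) g i _
  fixed := fun f hf => by
    have h1 : f ∈ fixedFieldOf (GaloisFullGlue.sAct D hS) ⊤ :=
      (mem_fixedFieldOf _).mpr fun g _ => hf g
    rw [GaloisFullGlue.fixedFieldOf_top hS hinv] at h1
    have h2 := coe_mem_adjoin_of_mem h1
    rwa [hx, ← ratioIntGen_x (A := A) (M := M) (ζ : A)] at h2
  B := borel M
  u := upperU M (-1)
  ζ := ζ
  hu := fun f => by
    rw [upperU_neg_one]
    have hζu : ζ ^ M = 1 :=
      Units.ext (by rw [Units.val_pow_eq_pow_val, hζ.pow_eq_one, Units.val_one])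
    exact GaloisFullTwist.sAct_upperU_inv (Units.map (A.subtype : A →* L) ζ) hS
      (by rw [← map_pow, hζu, map_one]) hfull f
  hBu := fun b hb => borel_conj_neg_mem_zpowers hb
  hnc := normalClosure_upperU_neg_one
  hB := FullLevelInputs.hB_fullLevel A π M ℓ hπ hℓM (fullField M (((ζ : Aˣ) : A) : L))
    (qExpand_Fk_mem_fullField (M := M) _) (GaloisFullGlue.sAct D hS)
    (fun g x' hx' => by
      have e : x' = x := Subtype.ext (hx'.trans hx.symm)
      rw [e, GaloisFullGlue.sAct_x, hx])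
    (borel M) (hMc_borel D hS hfull hinv hx)
  dist := DistRatioIdx.dist_perm_inv hM hπ hζ (natCast_ne_zero_of_not_dvd M ℓ hℓM)
    (GaloisFullGlue.sAct D hS) (GaloisFullGlue.sAct_neg_one hS)

@[simp] theorem fullLevelData_act :
    (fullLevelData A π M ℓ hπ hℓM hM ζ hζ D hS hfull hinv hx htop).act =
      GaloisFullGlue.sAct D hS := rfl

@[simp] theorem fullLevelData_F' :
    (fullLevelData A π M ℓ hπ hℓM hM ζ hζ D hS hfull hinv hx htop).F' =
      fullField M (((ζ : Aˣ) : A) : L) := rfl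

@[simp] theorem fullLevelData_perm (g : SL(2, ZMod M)) :
    (fullLevelData A π M ℓ hπ hℓM hM ζ hζ D hS hfull hinv hx htop).perm g =
      ModelInt.perm g⁻¹ := rfl

@[simp] theorem fullLevelData_B :
    (fullLevelData A π M ℓ hπ hℓM hM ζ hζ D hS hfull hinv hx htop).B = borel M := rfl

@[simp] theorem fullLevelData_u :
    (fullLevelData A π M ℓ hπ hℓM hM ζ hζ D hS hfull hinv hx htop).u = upperU M (-1) := rfl

include hπ hℓM hM hζ hS hfull hinv hx htop in
/-- **Igusa for the full level ratio datum**: `[F : L(j)] ≤ [κ : k(j̄)]`. -/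
theorem full_ratioIntGen : (ratioIntGen A M (ζ : A)).Full π :=
  (fullLevelData A π M ℓ hπ hℓM hM ζ hζ D hS hfull hinv hx htop).full hπ

end Main

end Fermat.Agent.S48x.Ana.FullLevelInst
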