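/-
P-S48, block G1 layer (a), slice (A2), period-`M` expansion machinery (helper29, paired with
helper62 by helper88).

`cuspFnAlg M` (`S24.CuspOrd`): holomorphic `M`-periodic functions of moderate growth.  Precomposition
with `τ ↦ M τ` turns period `M` into period `1`, hence

* `scaleHom M : cuspFnAlg M →ₐ[ℂ] PerFun`, `zLaurent M : cuspFnAlg M →ₐ[ℂ] LaurentSeries ℂ`
  (`:= qLaurent ∘ scaleHom`), the expansion in `z = q_M = exp(2πiτ/M)`; `zLaurent_injective`,
  `zLaurent_algebraMap`.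
* `zLaurent_of_mem_PerFun` : on `1`-periodic functions `zLaurent = qExpand ℂ M ∘ qLaurent`.
* `zLaurent_jd` : `zLaurent (jd d) = qExpand ℂ (d * M) (jqModC ℂ)`.
* `zLaurent_of_hasSum` : a bounded element of `cuspFnAlg M` with `f τ = ∑ c_n q_M(τ)^n` has
  `zLaurent f = ∑ c_n z^n`.
* `zLaurent_dHol` : `zLaurent (f_v - f_w) = (2πi)² • (eSeries v - eSeries w)` (`ζ₀ = zetaM M`).
-/
import Mathlib
import Fermat.Agent.S48x.Ana.WpHolo
import Fermat.Agent.S24.Embed

set_option autoImplicit false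
set_option linter.unusedSectionVars false

open UpperHalfPlane hiding I
open Complex Filter Topology ModularCurve
open scoped Real MatrixGroups Manifold

namespace Fermat.Agent.S48x.Ana.PerM

open Fermat.Agent.S48x.PPack Fermat.Agent.S48x.Model Fermat.Agent.S24 Fermat.Agent.S24.CuspOrd
open Fermat.Agent.S24.QExp

variable (M : ℕ) [NeZero M]

/-! ### Scaling period `M` to period `1` -/

theorem mulNat_vadd_one (z : ℍ) : mulNat M ((1 : ℝ) +ᵥ z) = ((M : ℝ)) +ᵥ mulNat M z := by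
  ext
  simp [mul_add]

theorem mulNat_surjective : Function.Surjective (mulNat M) := by
  intro z
  have hM : (0 : ℝ) < M := by exact_mod_cast Nat.pos_of_ne_zero (NeZero.ne M)
  refine ⟨⟨(z : ℂ) / M, ?_⟩, ?_⟩
  · have : ((z : ℂ) / M).im = z.im / M := by
      rw [show ((z : ℂ) / M) = (z : ℂ) / ((M : ℝ) : ℂ) by push_cast; rfl, Complex.div_ofReal_im]
      rfl
    rw [this]
    exact div_pos z.im_pos hM
  · ext
    have hM' : (M : ℂ) ≠ 0 := Nat.cast_ne_zero.mpr (NeZero.ne M)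
    simp only [coe_mulNat]
    field_simp

theorem isPer_one_comp_mulNat {f : ℍ → ℂ} (hf : CuspOrd.IsPer (M : ℝ) f) :
    QExp.IsPer 1 (f ∘ mulNat M) := by
  intro z
  simp only [Function.comp_apply]
  rw [mulNat_vadd_one, hf]

/-- Precomposition with `τ ↦ M τ`, from `M`-periodic to `1`-periodic functions. -/
noncomputable def scaleHom : cuspFnAlg M →ₐ[ℂ] PerFun where
  toFun f := PerFun.mk (((f : HolFun) : ℍ → ℂ) ∘ mulNat M)
    (mdiff_scale (coe_mulNat M) f.2.mdiff) (isPer_one_comp_mulNat M f.2.isPer)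
    (QExp.ModGrowth.scale (coe_mulNat M) f.2.growth)
  map_one' := rfl
  map_zero' := rfl
  map_mul' _ _ := rfl
  map_add' _ _ := rfl
  commutes' _ := rfl

@[simp] theorem fn_scaleHom (f : cuspFnAlg M) :
    fn (scaleHom M f) = ((f : HolFun) : ℍ → ℂ) ∘ mulNat M := rfl

theorem scaleHom_injective : Function.Injective (scaleHom M) := by
  intro f g h
  have h1 : fn (scaleHom M f) = fn (scaleHom M g) := by rw [h]
  rw [fn_scaleHom, fn_scaleHom] at h1
  apply Subtype.ext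
  apply HolFun.ext
  intro τ
  obtain ⟨z, rfl⟩ := mulNat_surjective M τ
  exact congrFun h1 z

/-- The expansion in `z = q_M = exp(2πiτ/M)` of an `M`-periodic function. -/
noncomputable def zLaurent : cuspFnAlg M →ₐ[ℂ] LaurentSeries ℂ := qLaurent.comp (scaleHom M)

theorem zLaurent_apply (f : cuspFnAlg M) : zLaurent M f = qLaurent (scaleHom M f) := rfl

theorem zLaurent_injective : Function.Injective (zLaurent M) :=
  qLaurent_injective.comp (scaleHom_injective M)

theorem zLaurent_algebraMap (c : ℂ) :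
    zLaurent M (algebraMap ℂ (cuspFnAlg M) c) = HahnSeries.C c := by
  rw [AlgHom.commutes, algebraMap_laurentSeries_eq_single]
  rfl

/-! ### `1`-periodic functions -/

theorem perFun_le_cuspFnAlg : (PerFun : Subalgebra ℂ HolFun) ≤ cuspFnAlg M := by
  intro f hf
  have h1 : IsCuspFn 1 ((f : HolFun) : ℍ → ℂ) := ⟨f.2, by
    have h2 : QExp.IsPer 1 ((f : HolFun) : ℍ → ℂ) := hf.1
    intro z
    have h3 := h2 z
    simpa using h3, hf.2⟩
  exact h1.of_dvd (one_dvd M)

theorem scaleHom_of_mem_PerFun {f : HolFun} (hf : f ∈ PerFun) :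
    scaleHom M ⟨f, perFun_le_cuspFnAlg M hf⟩ = QExp.scale M (mulNat M) (coe_mulNat M) ⟨f, hf⟩ :=
  rfl

/-- On `1`-periodic functions the `z`-expansion is the `q`-expansion with `q = z^M`. -/
theorem zLaurent_of_mem_PerFun {f : HolFun} (hf : f ∈ PerFun) :
    zLaurent M ⟨f, perFun_le_cuspFnAlg M hf⟩ = qExpand ℂ M (qLaurent ⟨f, hf⟩) := by
  rw [zLaurent_apply, scaleHom_of_mem_PerFun, qLaurent_scale]

theorem jd_mem_cuspFnAlg (d : ℕ) [NeZero d] : JLevel.jd d ∈ cuspFnAlg M :=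
  perFun_le_cuspFnAlg M (Embed.jd_mem_PerFun d)

/-- The `z`-expansion of `j(dτ)` is `j(z^(dM))`. -/
theorem zLaurent_jd (d : ℕ) [NeZero d] :
    zLaurent M ⟨JLevel.jd d, jd_mem_cuspFnAlg M d⟩ = qExpand ℂ (d * M) (jqModC ℂ) := by
  have h1 : (⟨JLevel.jd d, Embed.jd_mem_PerFun d⟩ : PerFun) = Embed.jdPer d :=
    Subtype.ext (Embed.coe_jdPer d).symm
  have h2 : zLaurent M ⟨JLevel.jd d, jd_mem_cuspFnAlg M d⟩ =
      qExpand ℂ M (qLaurent ⟨JLevel.jd d, Embed.jd_mem_PerFun d⟩) :=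
    zLaurent_of_mem_PerFun M (Embed.jd_mem_PerFun d)
  rw [h2, h1, Embed.qLaurent_jdPer, coeffMap_qExpand, ← jqModC_rat, coeffMap_jqModC,
    qExpand_qExpand]
  exact qExpand_congr (mul_comm M d) _

/-! ### Expansions from `HasSum` -/

theorem qM_mulNat (τ : ℍ) : qM M (mulNat M τ) = qH τ := by
  have hM' : (M : ℂ) ≠ 0 := Nat.cast_ne_zero.mpr (NeZero.ne M)
  rw [qM, qH, Function.Periodic.qParam, coe_mulNat]
  congr 1
  simp only [ofReal_one, div_one]
  field_simp

/-- A bounded `M`-periodic holomorphic function with `f τ = ∑ c_n q_M(τ)^n` has `z`-expansion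
`∑ c_n z^n`. -/
theorem zLaurent_of_hasSum (f : cuspFnAlg M)
    (hb : IsBoundedAtImInfty ((f : HolFun) : ℍ → ℂ)) (c : ℕ → ℂ)
    (h : ∀ τ : ℍ, HasSum (fun n : ℕ => c n * qM M τ ^ n) (((f : HolFun) : ℍ → ℂ) τ)) :
    zLaurent M f = HahnSeries.ofPowerSeries ℤ ℂ (PowerSeries.mk c) := by
  have hnice : Nice (fn (scaleHom M f)) :=
    ⟨fn_mdiff _, fn_isPer _, bdd_scale (coe_mulNat M) hb⟩
  rw [zLaurent_apply, qLaurent_of_bdd _ hnice.bdd]
  congr 1
  refine hnice.qExpansion_unique fun τ => ?_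
  have h1 := h (mulNat M τ)
  rw [qM_mulNat] at h1
  simpa [fn_scaleHom, smul_eq_mul] using h1

/-- Variant with a scalar: `a⁻¹ f τ = ∑ c_n q_M(τ)^n` gives `zLaurent f = a • ∑ c_n z^n`. -/
theorem zLaurent_of_hasSum_inv_mul (f : cuspFnAlg M)
    (hb : IsBoundedAtImInfty ((f : HolFun) : ℍ → ℂ)) (c : ℕ → ℂ) {a : ℂ} (ha : a ≠ 0)
    (h : ∀ τ : ℍ, HasSum (fun n : ℕ => c n * qM M τ ^ n) (a⁻¹ * ((f : HolFun) : ℍ → ℂ) τ)) :
    zLaurent M f = a • HahnSeries.ofPowerSeries ℤ ℂ (PowerSeries.mk c) := by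
  have h1 : ∀ τ : ℍ, HasSum (fun n : ℕ => (a * c n) * qM M τ ^ n)
      (((f : HolFun) : ℍ → ℂ) τ) := by
    intro τ
    have h2 := (h τ).mul_left a
    rw [← mul_assoc, mul_inv_cancel₀ ha, one_mul] at h2
    have h3 : (fun n : ℕ => (a * c n) * qM M τ ^ n) = fun n : ℕ => a * (c n * qM M τ ^ n) :=
      funext fun n => mul_assoc _ _ _
    rw [h3]
    exact h2
  rw [zLaurent_of_hasSum M f hb (fun n => a * c n) h1]
  ext k
  rcases le_or_gt 0 k with hk | hk
  · lift k to ℕ using hk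
    rw [HahnSeries.coeff_smul, HahnSeries.ofPowerSeries_apply_coeff,
      HahnSeries.ofPowerSeries_apply_coeff, PowerSeries.coeff_mk, PowerSeries.coeff_mk,
      smul_eq_mul]
  · rw [HahnSeries.coeff_smul, ofPowerSeries_coeff_of_neg _ hk, ofPowerSeries_coeff_of_neg _ hk,
      smul_zero]

/-! ### The division values -/

theorem isBoundedAtImInfty_wpHol (v : Vec M) : IsBoundedAtImInfty ((wpHol M v : HolFun) : ℍ → ℂ) := by
  by_cases hv : v = 0
  · subst hv
    rw [wpHol_zero]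
    exact Filter.const_boundedAtFilter atImInfty (0 : ℂ)
  · rw [coe_wpHol M hv]
    exact isBoundedAtImInfty_wpVec M hv

theorem isBoundedAtImInfty_dHol (v w : Vec M) :
    IsBoundedAtImInfty ((dHol M v w : HolFun) : ℍ → ℂ) := by
  have h := (isBoundedAtImInfty_wpHol M v).sub (isBoundedAtImInfty_wpHol M w)
  exact h

theorem two_pi_I_sq_ne_zero : ((2 * π * I) ^ 2 : ℂ) ≠ 0 :=
  pow_ne_zero 2 Complex.two_pi_I_ne_zero

theorem eSeries_sub_eq (ζ : ℂ) (v w : Vec M) :
    eSeries M ζ v - eSeries M ζ w =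
      HahnSeries.ofPowerSeries ℤ ℂ (PowerSeries.mk fun N => eCoeff M ζ v N - eCoeff M ζ w N) := by
  rw [eSeries, eSeries, ← map_sub]
  congr 1

/-- **The `z`-expansion of `f_v - f_w`** is `(2πi)² (e_v - e_w)`, `ζ₀ = exp(2πi/M)`. -/
theorem zLaurent_dHol {v w : Vec M} (hv : v ≠ 0) (hw : w ≠ 0) :
    zLaurent M ⟨dHol M v w, dHol_mem_cuspFnAlg M v w⟩ =
      ((2 * π * I) ^ 2 : ℂ) • (eSeries M (zetaM M) v - eSeries M (zetaM M) w) := by
  rw [eSeries_sub_eq]
  exact zLaurent_of_hasSum_inv_mul M ⟨dHol M v w, dHol_mem_cuspFnAlg M v w⟩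
    (isBoundedAtImInfty_dHol M v w) _ two_pi_I_sq_ne_zero (fun τ => hasSum_dHol M hv hw τ)

/-- `f_v - f_w = 0` iff `e_v - e_w = 0` (for `ζ₀`). -/
theorem eSeries_sub_eq_zero_iff {v w : Vec M} (hv : v ≠ 0) (hw : w ≠ 0) :
    eSeries M (zetaM M) v - eSeries M (zetaM M) w = 0 ↔ (v = w ∨ v = -w) := by
  rw [← dHol_eq_zero_iff M hv hw]
  constructor
  · intro h
    have h1 := zLaurent_dHol M hv hw
    rw [h, smul_zero] at h1
    have h2 := zLaurent_injective M (h1.trans (map_zero _).symm)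
    exact congrArg Subtype.val h2
  · intro h
    have h1 := zLaurent_dHol M hv hw
    have h2 : (⟨dHol M v w, dHol_mem_cuspFnAlg M v w⟩ : cuspFnAlg M) = 0 := Subtype.ext h
    rw [h2, map_zero] at h1
    exact (smul_eq_zero.1 h1.symm).resolve_left two_pi_I_sq_ne_zero

/-! ### The fraction field level: the `ψ` of `S24.EmbedAbs.exists_ringHom_of_generators` -/

open Fermat.Agent.S24.EmbedGen

/-- `zLaurent` as a ring homomorphism (the `ψ₀` of `S24.EmbedGen`). -/
noncomputable def psiM : cuspFnAlg M →+* LaurentSeries ℂ := (zLaurent M : cuspFnAlg M →+* _)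

theorem psiM_apply (f : cuspFnAlg M) : psiM M f = zLaurent M f := rfl

theorem psiM_injective : Function.Injective (psiM M) := zLaurent_injective M

theorem psiM_algebraMap (c : ℂ) : psiM M (algebraMap ℂ (cuspFnAlg M) c) = HahnSeries.C c :=
  zLaurent_algebraMap M c

/-- The element `(f_v - f_w)/(f_v' - f_w')` of `Frac (cuspFnAlg M)`. -/
noncomputable def ratioFrac (v w v' w' : Vec M) : FracP (cuspFnAlg M) :=
  algebraMap (cuspFnAlg M) (FracP (cuspFnAlg M)) ⟨dHol M v w, dHol_mem_cuspFnAlg M v w⟩ /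
    algebraMap (cuspFnAlg M) (FracP (cuspFnAlg M)) ⟨dHol M v' w', dHol_mem_cuspFnAlg M v' w'⟩

theorem toMer_ratioFrac (v w v' w' : Vec M) :
    toMer (cuspFnAlg M) (ratioFrac M v w v' w') = Rfun M v w v' w' := by
  rw [ratioFrac, toMer_div]
  rfl

/-- The `z`-expansion of `R(v, w; v', w')` is the formal `ratio`. -/
theorem qFrac_ratioFrac {v w v' w' : Vec M} (hv : v ≠ 0) (hw : w ≠ 0) (hv' : v' ≠ 0)
    (hw' : w' ≠ 0) :
    qFrac (psiM M) (psiM_injective M) (ratioFrac M v w v' w') = ratio M (zetaM M) v w v' w' := by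
  rw [ratioFrac, qFrac_div, psiM_apply, psiM_apply, zLaurent_dHol M hv hw,
    zLaurent_dHol M hv' hw', ratio]
  by_cases h0 : eSeries M (zetaM M) v' - eSeries M (zetaM M) w' = 0
  · rw [h0, smul_zero, div_zero, div_zero]
  · rw [← HahnSeries.C_mul_eq_smul, ← HahnSeries.C_mul_eq_smul]
    exact mul_div_mul_left _ _ (HahnSeries.C_ne_zero two_pi_I_sq_ne_zero)

/-- The `z`-expansion of `j(dτ)` at the fraction field level. -/
theorem qFrac_jd (d : ℕ) [NeZero d] :
    qFrac (psiM M) (psiM_injective M)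
      (algebraMap (cuspFnAlg M) (FracP (cuspFnAlg M)) ⟨JLevel.jd d, jd_mem_cuspFnAlg M d⟩) =
      qExpand ℂ (d * M) (jqModC ℂ) := by
  rw [qFrac_algebraMap, psiM_apply, zLaurent_jd]

end Fermat.Agent.S48x.Ana.PerM
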