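/-
P-S48, layer (a) of G1, slice (A2) support (helper96): the weight zero trick.

The differences `dHol M v w = f_v - f_w` have weight two, so their `SL(2, ℤ)`-translates (for the
plain `S24` action `(γ • f) τ = f (γ⁻¹ • τ)`) are not periodic.  The products of six differences
divided by `Δ` have weight zero: all their translates are again of this form, hence they lie in
`S24.JD.cuspAlg M` (all translates are holomorphic, `M`-periodic, of moderate growth), and

  `Rfun M v w v' w' = wt0 (numPairs v w v' w') / wt0 (denPairs v' w')`.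

* `discriminant_smul` : `Δ (γ • τ) = (cτ + d)¹² Δ τ`.
* `invDeltaHol : HolFun`, `invDeltaHol_mem_cuspFnAlg`, `smul_invDeltaHol`.
* `dProd M s`, `pairSL`, `smul_dProd`, `dProd_mem_cuspFnAlg`.
* `wt0 M s`, `smul_wt0`, `wt0_mem_cuspFnAlg`, `wt0_mem_cuspAlg`, `wt0_ne_zero`.
* `numPairs`, `denPairs`, `Rfun_eq_wt0_div`.
-/
import Mathlib
import Fermat.Agent.S48x.Ana.WpHolo
import Fermat.Agent.S24.JD

set_option autoImplicit false
set_option linter.unusedSectionVars false

open UpperHalfPlane hiding I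
open Complex Filter Topology
open scoped Real MatrixGroups Manifold ModularForm

namespace Fermat.Agent.S48x.Ana

open Fermat.Agent.S48x.PPack Fermat.Agent.S48x.Model Fermat.Agent.S24 Fermat.Agent.S24.CuspOrd

local notation "Δ" => ModularForm.discriminant

/-! ### The discriminant -/

/-- `Δ (γ τ) = (cτ + d)¹² Δ τ`. -/
theorem discriminant_smul (γ : SL(2, ℤ)) (τ : ℍ) : Δ (γ • τ) = denom γ τ ^ 12 * Δ τ := by
  have h : (Δ ∣[(12 : ℤ)] γ) = Δ := CuspForm.discriminant.slash_action_eq' _ ⟨γ, rfl⟩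
  have h1 := congrFun h τ
  rw [ModularForm.SL_slash_apply] at h1
  have hd : denom γ τ ≠ 0 := denom_ne_zero γ τ
  rw [zpow_neg, show ((12 : ℤ)) = ((12 : ℕ) : ℤ) from rfl, zpow_natCast] at h1
  field_simp at h1
  rw [h1]

/-- `1 / Δ` as an element of `HolFun`. -/
noncomputable def invDeltaHol : HolFun :=
  ⟨fun τ : ℍ => (Δ τ)⁻¹, by
    have h : MDiff (ModularForm.discriminant : ℍ → ℂ) := CuspForm.discriminant.holo'
    exact h.inv ModularForm.discriminant_ne_zero⟩

theorem invDeltaHol_apply (τ : ℍ) : (invDeltaHol : ℍ → ℂ) τ = (Δ τ)⁻¹ := rfl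

theorem invDeltaHol_ne_zero : invDeltaHol ≠ 0 := by
  intro h
  have := congrFun (congrArg Subtype.val h) UpperHalfPlane.I
  exact inv_ne_zero (ModularForm.discriminant_ne_zero _) this

theorem invDeltaHol_mem_cuspFnAlg (N : ℕ) : invDeltaHol ∈ cuspFnAlg N := by
  rw [mem_cuspFnAlg]
  refine ⟨invDeltaHol.2, fun τ => ?_, ⟨1, ?_⟩⟩
  · rw [invDeltaHol_apply, invDeltaHol_apply, isPer_discriminant_nat N τ]
  · have : (fun z : ℍ => Δ z ^ 1 * (invDeltaHol : ℍ → ℂ) z) = fun _ => (1 : ℂ) := by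
      funext z
      rw [invDeltaHol_apply, pow_one, mul_inv_cancel₀ (ModularForm.discriminant_ne_zero z)]
    rw [this]
    exact Filter.const_boundedAtFilter _ _

/-- The weight `-12` law for `1 / Δ` in the `S24` action. -/
theorem smul_invDeltaHol (γ : SL(2, ℤ)) :
    denomSqHol γ⁻¹ ^ 6 * (γ • invDeltaHol) = invDeltaHol := by
  apply HolFun.ext
  intro τ
  rw [HolFun.coe_mul_apply, HolFun.coe_pow_apply, denomSqHol_apply, HolFun.sl_smul_apply,
    invDeltaHol_apply, invDeltaHol_apply, discriminant_smul]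
  have hd : denom (γ⁻¹ : SL(2, ℤ)) τ ≠ 0 := denom_ne_zero _ τ
  have hΔ : Δ τ ≠ 0 := ModularForm.discriminant_ne_zero τ
  field_simp

variable (M : ℕ) [NeZero M]

/-! ### Sixfold products of differences -/

/-- The product of six differences `f_v - f_w` (weight twelve). -/
noncomputable def dProd (s : Fin 6 → Vec M × Vec M) : HolFun := ∏ i, dHol M (s i).1 (s i).2

/-- The right action of `SL(2, ℤ)` on six pairs of labels. -/
def pairSL (s : Fin 6 → Vec M × Vec M) (γ : SL(2, ℤ)) : Fin 6 → Vec M × Vec M :=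
  fun i => (vecSL M (s i).1 γ, vecSL M (s i).2 γ)

theorem pairSL_one (s : Fin 6 → Vec M × Vec M) : pairSL M s 1 = s := by
  funext i
  simp only [pairSL, vecSL_one]

theorem pairSL_mul (s : Fin 6 → Vec M × Vec M) (γ γ' : SL(2, ℤ)) :
    pairSL M s (γ * γ') = pairSL M (pairSL M s γ) γ' := by
  funext i
  simp only [pairSL, vecSL_mul]

theorem dProd_mem_cuspFnAlg (s : Fin 6 → Vec M × Vec M) : dProd M s ∈ cuspFnAlg M :=
  Subalgebra.prod_mem _ fun i _ => dHol_mem_cuspFnAlg M (s i).1 (s i).2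

theorem dProd_ne_zero {s : Fin 6 → Vec M × Vec M} (hs : ∀ i, dHol M (s i).1 (s i).2 ≠ 0) :
    dProd M s ≠ 0 :=
  Finset.prod_ne_zero_iff.2 fun i _ => hs i

theorem smul_dProd (s : Fin 6 → Vec M × Vec M) (γ : SL(2, ℤ)) :
    γ • dProd M s = denomSqHol γ⁻¹ ^ 6 * dProd M (pairSL M s γ⁻¹) := by
  unfold dProd
  rw [Finset.smul_prod']
  simp only [smul_dHol, pairSL]
  rw [Finset.prod_mul_distrib, Finset.prod_const, Finset.card_univ, Fintype.card_fin]

/-! ### Weight zero -/

/-- The weight zero function `∏ (f_v - f_w) / Δ` (six factors). -/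
noncomputable def wt0 (s : Fin 6 → Vec M × Vec M) : HolFun := dProd M s * invDeltaHol

theorem wt0_apply (s : Fin 6 → Vec M × Vec M) (τ : ℍ) :
    (wt0 M s : ℍ → ℂ) τ = (dProd M s : ℍ → ℂ) τ * (Δ τ)⁻¹ := rfl

/-- **All translates of `wt0` are again of the same form.** -/
theorem smul_wt0 (s : Fin 6 → Vec M × Vec M) (γ : SL(2, ℤ)) :
    γ • wt0 M s = wt0 M (pairSL M s γ⁻¹) := by
  unfold wt0
  rw [smul_mul', smul_dProd]
  have h := smul_invDeltaHol γ
  calc denomSqHol γ⁻¹ ^ 6 * dProd M (pairSL M s γ⁻¹) * γ • invDeltaHol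
      = dProd M (pairSL M s γ⁻¹) * (denomSqHol γ⁻¹ ^ 6 * γ • invDeltaHol) := by ring
    _ = dProd M (pairSL M s γ⁻¹) * invDeltaHol := by rw [h]

theorem wt0_mem_cuspFnAlg (s : Fin 6 → Vec M × Vec M) : wt0 M s ∈ cuspFnAlg M :=
  (cuspFnAlg M).mul_mem (dProd_mem_cuspFnAlg M s) (invDeltaHol_mem_cuspFnAlg M)

/-- `wt0 M s` lies in `S24.JD.cuspAlg M`: all its `SL(2, ℤ)`-translates are cusp functions of
level `M`. -/
theorem wt0_mem_cuspAlg (s : Fin 6 → Vec M × Vec M) : wt0 M s ∈ JD.cuspAlg M := by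
  intro g
  rw [smul_wt0]
  exact wt0_mem_cuspFnAlg M _

theorem wt0_ne_zero {s : Fin 6 → Vec M × Vec M} (hs : ∀ i, dHol M (s i).1 (s i).2 ≠ 0) :
    wt0 M s ≠ 0 :=
  mul_ne_zero (dProd_ne_zero M hs) invDeltaHol_ne_zero

/-! ### The ratios as quotients of weight zero functions -/

/-- The six pairs `(v, w), (v', w'), …, (v', w')` of the numerator. -/
def numPairs (v w v' w' : Vec M) : Fin 6 → Vec M × Vec M :=
  Fin.cons (v, w) fun _ => (v', w')

/-- The six pairs `(v', w'), …, (v', w')` of the denominator. -/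
def denPairs (v' w' : Vec M) : Fin 6 → Vec M × Vec M := fun _ => (v', w')

theorem dProd_numPairs (v w v' w' : Vec M) :
    dProd M (numPairs M v w v' w') = dHol M v w * dHol M v' w' ^ 5 := by
  unfold dProd numPairs
  rw [Fin.prod_univ_succ]
  simp

theorem dProd_denPairs (v' w' : Vec M) : dProd M (denPairs M v' w') = dHol M v' w' ^ 6 := by
  unfold dProd denPairs
  simp

theorem pairSL_numPairs (v w v' w' : Vec M) (γ : SL(2, ℤ)) :
    pairSL M (numPairs M v w v' w') γ =
      numPairs M (vecSL M v γ) (vecSL M w γ) (vecSL M v' γ) (vecSL M w' γ) := by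
  funext i
  refine Fin.cases ?_ (fun j => ?_) i
  · simp [pairSL, numPairs]
  · simp [pairSL, numPairs]

theorem pairSL_denPairs (v' w' : Vec M) (γ : SL(2, ℤ)) :
    pairSL M (denPairs M v' w') γ = denPairs M (vecSL M v' γ) (vecSL M w' γ) := rfl

theorem wt0_denPairs_ne_zero {v' w' : Vec M} (h : dHol M v' w' ≠ 0) :
    wt0 M (denPairs M v' w') ≠ 0 :=
  wt0_ne_zero M fun _ => h

/-- **The ratio as a quotient of weight zero functions in `JD.cuspAlg M`.** -/
theorem Rfun_eq_wt0_div (v w : Vec M) {v' w' : Vec M} (h : dHol M v' w' ≠ 0) :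
    Rfun M v w v' w' =
      algebraMap HolFun MerFun (wt0 M (numPairs M v w v' w')) /
        algebraMap HolFun MerFun (wt0 M (denPairs M v' w')) := by
  unfold Rfun wt0
  rw [dProd_numPairs, dProd_denPairs, map_mul, map_mul, map_mul, map_pow, map_pow]
  have h1 : algebraMap HolFun MerFun (dHol M v' w') ≠ 0 := algebraMap_ne_zero h
  have h2 : algebraMap HolFun MerFun invDeltaHol ≠ 0 := algebraMap_ne_zero invDeltaHol_ne_zero
  field_simp

end Fermat.Agent.S48x.Ana
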