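import Mathlib
import Fermat.Agent.S48x.Ana.PerM
import Fermat.Agent.S48x.Ana.WtZero
import Fermat.Agent.S48x.Ana.StabFull
import Fermat.Agent.S24.EmbedAbs
import Fermat.Agent.S24.EmbedGen
import Fermat.Agent.Gateway.Dict.ConjAbs

/-!
# P-S48, G1 layer (a), slice (A2) + analytic half of (A3): the analytic model of the function
field of `X(M)`  (helper62)

For a field of constants `L` with `ι : L →+* ℂ`, `ζ : L` with `ι ζ = exp(2πi/M)`:

* `structure EmbFullData ι M ζ` : an embedding `emb : fullField M ζ →+* MerFun` with constants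
  `↦` constants, `j(z^(dM)) ↦ jd d` (`d ∣ M`), `ratio v w v' w' ↦ Rfun M v w v' w'`, and
  `emb_frac`: every value is a quotient `a / b` of elements of `S24.JD.cuspAlg M` (all
  `SL(2,ℤ)`-translates are cusp functions of level `M`) whose `z`-expansions
  (`PerM.zLaurent`, `z = exp(2πiτ/M)`) satisfy `coeffMap ι x * zLaurent b = zLaurent a`;
* `exists_embFullData` : existence (clone of `Gateway/Dict/EmbedL.exists_embDataL`, with
  `P := JD.cuspAlg M`, `ψ₀ := zLaurent`; the ratio generators are quotients of the weight zero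
  functions `wt0` of `Ana/WtZero.lean`);
* `EmbFullData.isFullEmb`, `.fixed` (`±Γ(M)` fixes the image), `.isCuspMer_smul`,
  `.emb_injective`, `.smul_emb_ratio`, `.emb_eq_of_zLaurent_eq`, `.zLaurent_eq_of_emb_eq`,
  `.toEmbData : ConjAbs.EmbData L (fullField M ζ) ι (jFull ζ) (StabFull.GammaPM M)` (`5 ≤ M`).
-/

set_option autoImplicit false
set_option linter.unusedSectionVars false

open ModularCurve
open UpperHalfPlane hiding I
open scoped MatrixGroups

namespace Fermat.Agent.S48x.Ana.EmbFull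

open Fermat.Agent.S48x.PPack Fermat.Agent.S48x.Model Fermat.Agent.S48x.Ana
open Fermat.Agent.S24 Fermat.Agent.S24.CuspOrd Fermat.Agent.S24.EmbedGen
open Fermat.Agent.S24.JLevel (jd)
open Fermat.Agent.Gateway.Dict

variable (M : ℕ) [NeZero M]

/-! ### The algebra `P = JD.cuspAlg M` and its `z`-expansion -/

theorem cuspAlg_le_cuspFnAlg : JD.cuspAlg M ≤ cuspFnAlg M :=
  fun _ hf => JD.isCuspFn_of_mem_cuspAlg hf

/-- The `z`-expansion on `JD.cuspAlg M`. -/
noncomputable def psiA : JD.cuspAlg M →+* LaurentSeries ℂ :=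
  (PerM.psiM M).comp (Subalgebra.inclusion (cuspAlg_le_cuspFnAlg M)).toRingHom

theorem psiA_apply (f : JD.cuspAlg M) :
    psiA M f = PerM.zLaurent M ⟨(f : HolFun), cuspAlg_le_cuspFnAlg M f.2⟩ := rfl

theorem psiA_injective : Function.Injective (psiA M) :=
  (PerM.psiM_injective M).comp (Subalgebra.inclusion_injective (cuspAlg_le_cuspFnAlg M))

theorem psiA_algebraMap (c : ℂ) : psiA M (algebraMap ℂ (JD.cuspAlg M) c) = HahnSeries.C c :=
  PerM.psiM_algebraMap M c

/-! ### The generators in `Frac P` -/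

theorem zLaurent_wt0 (s : Fin 6 → Vec M × Vec M) :
    PerM.zLaurent M ⟨wt0 M s, wt0_mem_cuspFnAlg M s⟩ =
      PerM.zLaurent M ⟨dProd M s, dProd_mem_cuspFnAlg M s⟩ *
        PerM.zLaurent M ⟨invDeltaHol, invDeltaHol_mem_cuspFnAlg M⟩ := by
  rw [← map_mul]
  rfl

theorem zLaurent_dProd_numPairs (v w v' w' : Vec M) :
    PerM.zLaurent M ⟨dProd M (numPairs M v w v' w'), dProd_mem_cuspFnAlg M _⟩ =
      PerM.zLaurent M ⟨dHol M v w, dHol_mem_cuspFnAlg M v w⟩ *
        PerM.zLaurent M ⟨dHol M v' w', dHol_mem_cuspFnAlg M v' w'⟩ ^ 5 := by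
  rw [← map_pow, ← map_mul]
  congr 1
  exact Subtype.ext (dProd_numPairs M v w v' w')

theorem zLaurent_dProd_denPairs (v' w' : Vec M) :
    PerM.zLaurent M ⟨dProd M (denPairs M v' w'), dProd_mem_cuspFnAlg M _⟩ =
      PerM.zLaurent M ⟨dHol M v' w', dHol_mem_cuspFnAlg M v' w'⟩ ^ 6 := by
  rw [← map_pow]
  congr 1
  exact Subtype.ext (dProd_denPairs M v' w')

theorem zLaurent_invDeltaHol_ne_zero :
    PerM.zLaurent M ⟨invDeltaHol, invDeltaHol_mem_cuspFnAlg M⟩ ≠ 0 := by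
  intro h
  have h1 := PerM.zLaurent_injective M (h.trans (map_zero _).symm)
  exact invDeltaHol_ne_zero (congrArg Subtype.val h1)

theorem zLaurent_dHol_div {v w v' w' : Vec M} (hv : v ≠ 0) (hw : w ≠ 0) (hv' : v' ≠ 0)
    (hw' : w' ≠ 0) :
    PerM.zLaurent M ⟨dHol M v w, dHol_mem_cuspFnAlg M v w⟩ /
      PerM.zLaurent M ⟨dHol M v' w', dHol_mem_cuspFnAlg M v' w'⟩ =
        ratio M (zetaM M) v w v' w' := by
  have h := PerM.qFrac_ratioFrac M hv hw hv' hw'
  rw [PerM.ratioFrac, qFrac_div] at h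
  exact h

/-- The ratio generator as an element of `Frac (JD.cuspAlg M)`. -/
noncomputable def wtFrac (v w v' w' : Vec M) : FracP (JD.cuspAlg M) :=
  algebraMap (JD.cuspAlg M) (FracP (JD.cuspAlg M))
      ⟨wt0 M (numPairs M v w v' w'), wt0_mem_cuspAlg M _⟩ /
    algebraMap (JD.cuspAlg M) (FracP (JD.cuspAlg M))
      ⟨wt0 M (denPairs M v' w'), wt0_mem_cuspAlg M _⟩

theorem toMer_wtFrac (v w : Vec M) {v' w' : Vec M} (h : dHol M v' w' ≠ 0) :
    toMer (JD.cuspAlg M) (wtFrac M v w v' w') = Rfun M v w v' w' := by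
  rw [wtFrac, toMer_div, Rfun_eq_wt0_div M v w h]

theorem qFrac_wtFrac {v w v' w' : Vec M} (hv : v ≠ 0) (hw : w ≠ 0) (hv' : v' ≠ 0)
    (hw' : w' ≠ 0) (h : dHol M v' w' ≠ 0) :
    qFrac (psiA M) (psiA_injective M) (wtFrac M v w v' w') = ratio M (zetaM M) v w v' w' := by
  rw [wtFrac, qFrac_div, psiA_apply, psiA_apply]
  show PerM.zLaurent M ⟨wt0 M (numPairs M v w v' w'), wt0_mem_cuspFnAlg M _⟩ /
    PerM.zLaurent M ⟨wt0 M (denPairs M v' w'), wt0_mem_cuspFnAlg M _⟩ = _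
  rw [zLaurent_wt0, zLaurent_wt0, zLaurent_dProd_numPairs, zLaurent_dProd_denPairs,
    ← zLaurent_dHol_div M hv hw hv' hw']
  have hB : PerM.zLaurent M ⟨dHol M v' w', dHol_mem_cuspFnAlg M v' w'⟩ ≠ 0 := by
    intro h0
    have h1 := PerM.zLaurent_injective M (h0.trans (map_zero _).symm)
    exact h (congrArg Subtype.val h1)
  have hD := zLaurent_invDeltaHol_ne_zero M
  field_simp

theorem ratio_eq_zero_of_dHol_eq_zero (v w : Vec M) {v' w' : Vec M} (hv' : v' ≠ 0) (hw' : w' ≠ 0)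
    (h : dHol M v' w' = 0) : ratio M (zetaM M) v w v' w' = 0 := by
  have h1 := (PerM.eSeries_sub_eq_zero_iff M hv' hw').mpr ((dHol_eq_zero_iff M hv' hw').mp h)
  rw [ratio, h1, div_zero]

theorem Rfun_eq_zero_of_dHol_eq_zero (v w : Vec M) {v' w' : Vec M} (h : dHol M v' w' = 0) :
    Rfun M v w v' w' = 0 := by
  unfold Rfun
  rw [h, map_zero, div_zero]

/-! ### Base change of the generators -/

section BaseChange

variable {M}
variable {L : Type*} [Field L] (ι : L →+* ℂ) {ζ : L}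

theorem coeffMap_jqd (d : ℕ) [NeZero d] :
    coeffMap ι (qExpand L d (jqModC L)) = qExpand ℂ d (jqModC ℂ) := by
  rw [coeffMap_qExpand, coeffMap_jqModC]

/-- A preimage of `exp(2πi/M)` is a primitive `M`-th root of unity. -/
theorem isPrimitiveRoot_of_map_eq_zetaM (hζ : ι ζ = zetaM M) : IsPrimitiveRoot ζ M := by
  have h : IsPrimitiveRoot (zetaM M) M := Complex.isPrimitiveRoot_exp M (NeZero.ne M)
  rw [← hζ] at h
  exact IsPrimitiveRoot.of_map_of_injective h ι.injective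

end BaseChange

/-! ### The structure -/

/-- The analytic model of the function field of `X(M)` over `L`. -/
structure EmbFullData {L : Type*} [Field L] (ι : L →+* ℂ) (M : ℕ) [NeZero M] (ζ : L) where
  /-- the embedding -/
  emb : ↥(fullField M ζ) →+* MerFun
  emb_const : ∀ c : L, emb (algebraMap L ↥(fullField M ζ) c) = Conj.const (ι c)
  emb_jd : ∀ (d : ℕ) [NeZero d] (hd : d ∣ M),
    emb ⟨qExpand L (d * M) (jqModC L), jqd_mem_fullField ζ hd⟩ = algebraMap HolFun MerFun (jd d)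
  emb_ratio : ∀ (v w v' w' : Vec M) (hv : v ≠ 0) (hw : w ≠ 0) (hv' : v' ≠ 0) (hw' : w' ≠ 0),
    emb ⟨ratio M ζ v w v' w', ratio_mem_fullField ζ hv hw hv' hw'⟩ = Rfun M v w v' w'
  emb_frac : ∀ x : ↥(fullField M ζ), ∃ a b : HolFun, ∃ (ha : a ∈ JD.cuspAlg M)
    (hb : b ∈ JD.cuspAlg M), b ≠ 0 ∧
    emb x = algebraMap HolFun MerFun a / algebraMap HolFun MerFun b ∧
    coeffMap ι (x : LaurentSeries L) * PerM.zLaurent M ⟨b, JD.isCuspFn_of_mem_cuspAlg hb⟩ =
      PerM.zLaurent M ⟨a, JD.isCuspFn_of_mem_cuspAlg ha⟩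

section Exists

variable {M}
variable {L : Type*} [Field L] (ι : L →+* ℂ) {ζ : L}

/-- The embedding into `Frac (JD.cuspAlg M)`, compatible with `z`-expansions. -/
theorem exists_embFrac (hζ : ι ζ = zetaM M) :
    ∃ emb₀ : ↥(fullField M ζ) →+* FracP (JD.cuspAlg M),
      ∀ x, qFrac (psiA M) (psiA_injective M) (emb₀ x) = coeffMap ι (x : LaurentSeries L) := by
  have h1 : ∀ c : L, coeffMap ι (algebraMap L (LaurentSeries L) c) ∈
      (qFrac (psiA M) (psiA_injective M)).fieldRange := by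
    intro c
    rw [coeffMap_algebraMap_eq_C]
    exact rat_mem_fieldRange (psiA_injective M) (psiA_algebraMap M) _
  have h2 : ∀ g ∈ fullGens M ζ, coeffMap ι g ∈ (qFrac (psiA M) (psiA_injective M)).fieldRange := by
    rintro g (⟨d, hd0, hd, rfl⟩ | ⟨v, w, v', w', hv, hw, hv', hw', rfl⟩)
    · have hdM : NeZero (d * M) := ⟨Nat.mul_ne_zero (NeZero.ne d) (NeZero.ne M)⟩
      refine ⟨algebraMap (JD.cuspAlg M) (FracP (JD.cuspAlg M)) ⟨jd d, JD.jd_mem_cuspAlg hd⟩, ?_⟩
      rw [qFrac_algebraMap, psiA_apply, coeffMap_jqd]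
      exact PerM.zLaurent_jd M d
    · rw [coeffMap_ratio, hζ]
      by_cases h : dHol M v' w' = 0
      · rw [ratio_eq_zero_of_dHol_eq_zero M v w hv' hw' h]
        exact zero_mem _
      · exact ⟨wtFrac M v w v' w', qFrac_wtFrac M hv hw hv' hw' h⟩
  exact EmbedAbs.exists_ringHom_of_generators (K := L) (L := LaurentSeries L)
    (coeffMap ι) (qFrac (psiA M) (psiA_injective M)) (fullGens M ζ) h1 h2

/-- **(A2)** Existence of the analytic model of the function field of `X(M)`. -/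
theorem exists_embFullData (hζ : ι ζ = zetaM M) : Nonempty (EmbFullData ι M ζ) := by
  obtain ⟨emb₀, hemb₀⟩ := exists_embFrac ι hζ
  have hqinj : Function.Injective (qFrac (psiA M) (psiA_injective M)) :=
    (qFrac (psiA M) (psiA_injective M)).injective
  refine ⟨⟨(toMer (JD.cuspAlg M)).comp emb₀, ?_, ?_, ?_, ?_⟩⟩
  · intro c
    have h1 : emb₀ (algebraMap L ↥(fullField M ζ) c) =
        algebraMap (JD.cuspAlg M) (FracP (JD.cuspAlg M)) (algebraMap ℂ (JD.cuspAlg M) (ι c)) := by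
      apply hqinj
      rw [hemb₀, qFrac_algebraMap, psiA_algebraMap]
      exact coeffMap_algebraMap_eq_C ι c
    rw [RingHom.comp_apply, h1, toMer_algebraMap]
    rfl
  · intro d hd0 hd
    have h1 : emb₀ ⟨qExpand L (d * M) (jqModC L), jqd_mem_fullField ζ hd⟩ =
        algebraMap (JD.cuspAlg M) (FracP (JD.cuspAlg M)) ⟨jd d, JD.jd_mem_cuspAlg hd⟩ := by
      apply hqinj
      have hdM : NeZero (d * M) := ⟨Nat.mul_ne_zero (NeZero.ne d) (NeZero.ne M)⟩
      rw [hemb₀, qFrac_algebraMap, psiA_apply, coeffMap_jqd]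
      exact (PerM.zLaurent_jd M d).symm
    rw [RingHom.comp_apply, h1, toMer_algebraMap]
  · intro v w v' w' hv hw hv' hw'
    by_cases h : dHol M v' w' = 0
    · have h1 : emb₀ ⟨ratio M ζ v w v' w', ratio_mem_fullField ζ hv hw hv' hw'⟩ = 0 := by
        apply hqinj
        rw [hemb₀, map_zero, coeffMap_ratio, hζ]
        exact ratio_eq_zero_of_dHol_eq_zero M v w hv' hw' h
      rw [RingHom.comp_apply, h1, map_zero, Rfun_eq_zero_of_dHol_eq_zero M v w h]
    · have h1 : emb₀ ⟨ratio M ζ v w v' w', ratio_mem_fullField ζ hv hw hv' hw'⟩ =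
          wtFrac M v w v' w' := by
        apply hqinj
        rw [hemb₀, qFrac_wtFrac M hv hw hv' hw' h, coeffMap_ratio, hζ]
      rw [RingHom.comp_apply, h1, toMer_wtFrac M v w h]
  · intro x
    obtain ⟨a, b, hb, hab⟩ := IsFractionRing.div_surjective (JD.cuspAlg M) (emb₀ x)
    have hb0 : b ≠ 0 := nonZeroDivisors.ne_zero hb
    refine ⟨a, b, a.2, b.2, fun h0 => hb0 (Subtype.ext h0), ?_, ?_⟩
    · rw [RingHom.comp_apply, ← hab, toMer_div]
    · have h2 := hemb₀ x
      rw [← hab, qFrac_div] at h2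
      have hψb : psiA M b ≠ 0 := fun h0 => hb0 (psiA_injective M (by rw [h0, map_zero]))
      have h3 : coeffMap ι (x : LaurentSeries L) * psiA M b = psiA M a := by
        rw [← h2, div_mul_cancel₀ _ hψb]
      exact h3

end Exists

/-! ### Consequences -/

namespace EmbFullData

variable {M}
variable {L : Type*} [Field L] {ι : L →+* ℂ} {ζ : L} (D : EmbFullData ι M ζ)

theorem emb_injective : Function.Injective D.emb := D.emb.injective

/-- The hypotheses of `Ana/StabFull.lean`. -/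
theorem isFullEmb : StabFull.IsFullEmb D.emb where
  const_fixed c γ := by rw [D.emb_const, Conj.sl_smul_const]
  jd d _ hd := D.emb_jd d hd
  ratio := D.emb_ratio

/-- **(A3), `⇐`**: the image of the embedding is fixed by `±Γ(M)`. -/
theorem fixed {γ : SL(2, ℤ)} (hγ : γ ∈ StabFull.GammaPM M) (x : ↥(fullField M ζ)) :
    γ • D.emb x = D.emb x :=
  StabFull.fixes_of_mem_GammaPM D.isFullEmb hγ x

/-- **(A3)**: the exact stabiliser of the image is `±Γ(M)`. -/
theorem fixes_iff (hM : 5 ≤ M) (hζ : IsPrimitiveRoot ζ M) (γ : SL(2, ℤ)) :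
    (∀ f : ↥(fullField M ζ), γ • D.emb f = D.emb f) ↔ γ ∈ StabFull.GammaPM M :=
  StabFull.fixes_iff hM hζ D.isFullEmb γ

/-- Every translate of every value of the embedding is a quotient of cusp functions of level
`M`. -/
theorem isCuspMer_smul (x : ↥(fullField M ζ)) (g : SL(2, ℤ)) : IsCuspMer M (g • D.emb x) := by
  obtain ⟨a, b, ha, hb, hb0, hx, -⟩ := D.emb_frac x
  obtain ⟨a', e', ha', he', he0, h⟩ := JD.exists_smul_div_eq ha hb hb0 g
  exact ⟨a', e', JD.isCuspFn_of_mem_cuspAlg ha', JD.isCuspFn_of_mem_cuspAlg he', he0, by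
    rw [hx, h]⟩

theorem isCuspMer_emb (x : ↥(fullField M ζ)) : IsCuspMer M (D.emb x) := by
  have := D.isCuspMer_smul x 1
  rwa [one_smul] at this

/-- The action of `SL(2, ℤ)` on the ratio generators: `g • ratio v w v' w' = ratio (v g⁻¹) …`. -/
theorem smul_emb_ratio {v w v' w' : Vec M} (hv : v ≠ 0) (hw : w ≠ 0) (hv' : v' ≠ 0)
    (hw' : w' ≠ 0) (g : SL(2, ℤ)) :
    g • D.emb ⟨ratio M ζ v w v' w', ratio_mem_fullField ζ hv hw hv' hw'⟩ =
      D.emb ⟨ratio M ζ (vecSL M v g⁻¹) (vecSL M w g⁻¹) (vecSL M v' g⁻¹) (vecSL M w' g⁻¹),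
        ratio_mem_fullField ζ (vecSL_ne_zero M hv g⁻¹) (vecSL_ne_zero M hw g⁻¹)
          (vecSL_ne_zero M hv' g⁻¹) (vecSL_ne_zero M hw' g⁻¹)⟩ := by
  rw [D.emb_ratio v w v' w' hv hw hv' hw',
    D.emb_ratio _ _ _ _ (vecSL_ne_zero M hv g⁻¹) (vecSL_ne_zero M hw g⁻¹)
      (vecSL_ne_zero M hv' g⁻¹) (vecSL_ne_zero M hw' g⁻¹), smul_Rfun]

/-- The action of `SL(2, ℤ)` on the `j`-generators: `Γ₀(M)` fixes them. -/
theorem smul_emb_jd {d : ℕ} [NeZero d] (hd : d ∣ M) {g : SL(2, ℤ)}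
    (hg : g ∈ CongruenceSubgroup.Gamma0 M) :
    g • D.emb ⟨qExpand L (d * M) (jqModC L), jqd_mem_fullField ζ hd⟩ =
      D.emb ⟨qExpand L (d * M) (jqModC L), jqd_mem_fullField ζ hd⟩ := by
  rw [D.emb_jd d hd, StabFull.smul_algebraMap_jd hd hg]

/-- If `θ ∈ JD.cuspAlg M` has `z`-expansion `coeffMap ι a` then `emb a = θ`. -/
theorem emb_eq_of_zLaurent_eq (a : ↥(fullField M ζ)) {θ : HolFun} (hθ : θ ∈ cuspFnAlg M)
    (hq : PerM.zLaurent M ⟨θ, hθ⟩ = coeffMap ι (a : LaurentSeries L)) :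
    D.emb a = algebraMap HolFun MerFun θ := by
  obtain ⟨a', b', ha', hb', hb0, hx, hq'⟩ := D.emb_frac a
  rw [← hq] at hq'
  have h1 : (⟨θ, hθ⟩ : cuspFnAlg M) * ⟨b', JD.isCuspFn_of_mem_cuspAlg hb'⟩ =
      ⟨a', JD.isCuspFn_of_mem_cuspAlg ha'⟩ := by
    apply PerM.zLaurent_injective M
    rw [map_mul]
    exact hq'
  have h2 : θ * b' = a' := congrArg (fun f : cuspFnAlg M => (f : HolFun)) h1
  have hb0' : algebraMap HolFun MerFun b' ≠ 0 := fun h0 =>
    hb0 (IsFractionRing.injective HolFun MerFun (by rw [h0, map_zero]))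
  rw [hx, ← h2, map_mul, mul_div_assoc, div_self hb0', mul_one]

/-- Conversely, if `emb a = θ` with `θ` a cusp function of level `M`, then the `z`-expansion of
`θ` is `coeffMap ι a`. -/
theorem zLaurent_eq_of_emb_eq (a : ↥(fullField M ζ)) {θ : HolFun} (hθ : θ ∈ cuspFnAlg M)
    (h : D.emb a = algebraMap HolFun MerFun θ) :
    PerM.zLaurent M ⟨θ, hθ⟩ = coeffMap ι (a : LaurentSeries L) := by
  obtain ⟨a', b', ha', hb', hb0, hx, hq'⟩ := D.emb_frac a
  have hb0' : algebraMap HolFun MerFun b' ≠ 0 := fun h0 =>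
    hb0 (IsFractionRing.injective HolFun MerFun (by rw [h0, map_zero]))
  have h1 : θ * b' = a' := by
    apply IsFractionRing.injective HolFun MerFun
    rw [map_mul, ← h, hx, div_mul_cancel₀ _ hb0']
  have h2 : (⟨θ, hθ⟩ : cuspFnAlg M) * ⟨b', JD.isCuspFn_of_mem_cuspAlg hb'⟩ =
      ⟨a', JD.isCuspFn_of_mem_cuspAlg ha'⟩ := Subtype.ext h1
  have hqb : PerM.zLaurent M ⟨b', JD.isCuspFn_of_mem_cuspAlg hb'⟩ ≠ 0 := fun h0 =>
    hb0 (congrArg (fun f : cuspFnAlg M => (f : HolFun))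
      (PerM.zLaurent_injective M (by rw [h0, map_zero]) :
        (⟨b', JD.isCuspFn_of_mem_cuspAlg hb'⟩ : cuspFnAlg M) = 0))
  have h3 : PerM.zLaurent M ⟨θ, hθ⟩ * PerM.zLaurent M ⟨b', JD.isCuspFn_of_mem_cuspAlg hb'⟩ =
      coeffMap ι (a : LaurentSeries L) *
        PerM.zLaurent M ⟨b', JD.isCuspFn_of_mem_cuspAlg hb'⟩ := by
    rw [← map_mul, h2, hq']
  exact mul_right_cancel₀ hqb h3

/-- The function `j(z^M) = j(q)` in the full field. -/
noncomputable def jFull (ζ : L) : ↥(fullField M ζ) :=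
  ⟨qExpand L (1 * M) (jqModC L), jqd_mem_fullField ζ (one_dvd M)⟩

theorem emb_jFull : D.emb (jFull ζ) = algebraMap HolFun MerFun jHol := by
  have h := D.emb_jd 1 (one_dvd M)
  rw [JD.jd_one_eq_jHol] at h
  exact h

/-- The abstract embedding data of `Gateway/Dict/ConjAbs.lean`, with `Γ = ±Γ(M)` (`5 ≤ M`). -/
noncomputable def toEmbData (hM : 5 ≤ M) (hζ : IsPrimitiveRoot ζ M) :
    ConjAbs.EmbData L ↥(fullField M ζ) ι (jFull ζ) (StabFull.GammaPM M) where
  emb := D.emb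
  emb_const := D.emb_const
  emb_x := D.emb_jFull
  fixed _ hγ f := D.fixed hγ f
  stab γ h := (D.fixes_iff hM hζ γ).mp h

@[simp] theorem toEmbData_emb (hM : 5 ≤ M) (hζ : IsPrimitiveRoot ζ M) :
    (D.toEmbData hM hζ).emb = D.emb := rfl

end EmbFullData

/-- **(A2)+(A3), packaged**: for `5 ≤ M` and `ι ζ = exp(2πi/M)` there is an analytic model of
the function field of `X(M)` over `L` in the shape of `Gateway/Dict/ConjAbs.lean`, with
`Γ = ±Γ(M)`, all of whose translates are quotients of cusp functions of level `M`. -/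
theorem exists_embData_full {L : Type*} [Field L] (ι : L →+* ℂ) {M : ℕ} [NeZero M] {ζ : L}
    (hM : 5 ≤ M) (hζ : ι ζ = zetaM M) :
    ∃ D : ConjAbs.EmbData L ↥(fullField M ζ) ι (EmbFullData.jFull ζ) (StabFull.GammaPM M),
      StabFull.IsFullEmb D.emb ∧
        ∀ (x : ↥(fullField M ζ)) (g : SL(2, ℤ)), IsCuspMer M (g • D.emb x) := by
  obtain ⟨D⟩ := exists_embFullData ι hζ
  exact ⟨D.toEmbData hM (isPrimitiveRoot_of_map_eq_zetaM ι hζ), D.isFullEmb,
    fun x g => D.isCuspMer_smul x g⟩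

namespace EmbFullData

end EmbFullData

end Fermat.Agent.S48x.Ana.EmbFull
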