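/-
P-S48, block G1, layer (a), slice (A4) (helper53): the abstract Galois structure of a function
field with an analytic realisation, over a field of constants `L` embedded in `ℂ`.

Setting.  `FC / ℂ` has an analytic realisation `D : EmbData ℂ FC id xC Γ` (an embedding into
`MerFun` with image exactly fixed by the NORMAL finite index subgroup `Γ` of `SL(2,ℤ)`, all
translates cusp-meromorphic).  `FL / L` is a field with a ring homomorphism `c : FL →+* FC` above
`ι : L →+* ℂ`, `x : FL` with `c x = xC`, and `S ⊆ FL` a set which is permuted by `SL(2,ℤ)` (through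
`D.emb ∘ c`) and rigid (only `Γ` fixes it pointwise).  `hLD` is the linear disjointness of `FL` and
`ℂ(xC)` over `L(x)` (automatic for Laurent series with coefficientwise base change,
see `Ana/LaurentLD.lean`).  Then

* `adjoin_eq_top` : `FL = L(x, S)`;
* `exists_smul_eq` : `SL(2,ℤ)` preserves the image of `FL`;
* `sAct : SL(2,ℤ) →* (FL ≃ₐ[L] FL)` with `D.emb (c (sAct g f)) = g • D.emb (c f)`;
* `sAct_eq_one_iff`, `sAct_x`, `mem_adjoin_of_fixed` (invariants `= L(x)`),
  `finrank_eq_card` (`[FL : L(x)] = [SL(2,ℤ) : Γ]`).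
-/
import Fermat.Agent.S27x.G1.DegreeGamma

set_option autoImplicit false
set_option linter.unusedSectionVars false
set_option linter.style.haveILetI false
set_option maxHeartbeats 400000

noncomputable section

open UpperHalfPlane IntermediateField Polynomial
open scoped MatrixGroups

namespace Fermat.Agent.S48x.Ana.GaloisDescent

open Fermat.Agent.S24 Fermat.Agent.S24.MerFun Fermat.Agent.S24.CuspOrd
open Fermat.Agent.Gateway.Dict Fermat.Agent.Gateway.Dict.ConjAbs

/-! ### Transport of a group action along an injective ring homomorphism -/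

section Transport

variable {G F M : Type*} [Group G] [Field F] [CommRing M] [Nontrivial M] [MulSemiringAction G M]
  (e : F →+* M) (hst : ∀ (g : G) (f : F), ∃ f' : F, g • e f = e f')

/-- the transported action, as a function. -/
def actFun (g : G) (f : F) : F := Classical.choose (hst g f)

theorem e_actFun (g : G) (f : F) : e (actFun e hst g f) = g • e f :=
  (Classical.choose_spec (hst g f)).symm

theorem actFun_one (f : F) : actFun e hst 1 f = f :=
  e.injective (by rw [e_actFun, one_smul])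

theorem actFun_mul (g h : G) (f : F) :
    actFun e hst (g * h) f = actFun e hst g (actFun e hst h f) :=
  e.injective (by rw [e_actFun, e_actFun, e_actFun, mul_smul])

/-- the transported action, as ring automorphisms. -/
def actEquiv (g : G) : F ≃+* F where
  toFun := actFun e hst g
  invFun := actFun e hst g⁻¹
  left_inv f := by rw [← actFun_mul, inv_mul_cancel, actFun_one]
  right_inv f := by rw [← actFun_mul, mul_inv_cancel, actFun_one]
  map_mul' a b := e.injective (by
    rw [e_actFun, map_mul, map_mul, smul_mul', e_actFun, e_actFun])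
  map_add' a b := e.injective (by
    rw [e_actFun, map_add, map_add, smul_add, e_actFun, e_actFun])

@[simp] theorem actEquiv_apply (g : G) (f : F) : actEquiv e hst g f = actFun e hst g f := rfl

/-- the transported action, as a homomorphism into the ring automorphisms. -/
def actHom : G →* (F ≃+* F) where
  toFun := actEquiv e hst
  map_one' := RingEquiv.ext fun f => actFun_one e hst f
  map_mul' g h := RingEquiv.ext fun f => actFun_mul e hst g h f

theorem e_actHom (g : G) (f : F) : e (actHom e hst g f) = g • e f := e_actFun e hst g f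

end Transport

/-! ### The action on the complex function field -/

section Complex

variable {FC : Type*} [Field FC] [Algebra ℂ FC] {xC : FC} {Γ : Subgroup SL(2, ℤ)} [Γ.Normal]
  [Fintype (SL(2, ℤ) ⧸ Γ)] (D : EmbData ℂ FC (RingHom.id ℂ) xC Γ) {n : ℕ} (hn : 0 < n)
  (hcusp : ∀ (f : FC) (g : SL(2, ℤ)), IsCuspMer n (g • D.emb f))

include hn hcusp

/-- for a normal `Γ`, the image of the analytic embedding is stable under `SL(2,ℤ)`. -/
theorem exists_smul_eq_complex (g : SL(2, ℤ)) (f : FC) : ∃ f' : FC, g • D.emb f = D.emb f' := by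
  have h : g • D.emb f ∈ D.emb.range := by
    rw [Fermat.Agent.S27x.G1.mem_range_iff D hn hcusp]
    refine ⟨fun γ hγ => ?_, fun g' => ?_⟩
    · have h1 : g⁻¹ * γ * g ∈ Γ := by
        have := Subgroup.Normal.conj_mem (inferInstance : Γ.Normal) γ hγ g⁻¹
        rwa [inv_inv] at this
      calc γ • g • D.emb f = g • ((g⁻¹ * γ * g) • D.emb f) := by
            rw [← mul_smul, ← mul_smul]; congr 1; group
        _ = g • D.emb f := by rw [D.fixed _ h1]
    · rw [← mul_smul]
      exact hcusp f _
  obtain ⟨f', hf'⟩ := h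
  exact ⟨f', hf'.symm⟩

/-- an element of `FC` whose image is `SL(2,ℤ)`-invariant lies in `ℂ(xC)`. -/
theorem mem_adjoin_of_invariant_complex (f : FC) (hf : ∀ g : SL(2, ℤ), g • D.emb f = D.emb f) :
    f ∈ ℂ⟮xC⟯ := by
  obtain ⟨P, Q, hQ, hPQ⟩ := RangeC.exists_ratfunc_of_invariant hn (D.emb f) hf
    (by have := hcusp f 1; rwa [one_smul] at this)
  obtain ⟨e, he⟩ := Fermat.Agent.S27x.G1.exists_adjoin_of_ratfunc D hQ hPQ
  have : algebraMap ℂ⟮xC⟯ FC e = f := D.emb.injective he
  rw [← this]
  exact e.2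

end Complex

/-! ### Descent to the field of constants `L` -/

section Main

variable {L : Type*} [Field L] {FL : Type*} [Field FL] [Algebra L FL]
  {FC : Type*} [Field FC] [Algebra ℂ FC]
  (ι : L →+* ℂ) (c : FL →+* FC) (hc : ∀ a : L, c (algebraMap L FL a) = algebraMap ℂ FC (ι a))
  (x : FL) {Γ : Subgroup SL(2, ℤ)} [Γ.Normal] [Fintype (SL(2, ℤ) ⧸ Γ)]
  (D : EmbData ℂ FC (RingHom.id ℂ) (c x) Γ) {n : ℕ} (hn : 0 < n)
  (hcusp : ∀ (f : FC) (g : SL(2, ℤ)), IsCuspMer n (g • D.emb f))
  (S : Set FL)
  (hperm : ∀ (g : SL(2, ℤ)), ∀ s ∈ S, ∃ s' ∈ S, g • D.emb (c s) = D.emb (c s'))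
  (hrig : ∀ g : SL(2, ℤ), (∀ s ∈ S, g • D.emb (c s) = D.emb (c s)) → g ∈ Γ)
  (hLD : ∀ (m : ℕ) (f : Fin m → FL), LinearIndependent L⟮x⟯ f →
    LinearIndependent ℂ⟮c x⟯ (fun i => c (f i)))

/-- the analytic realisation of `FL`. -/
def embL : FL →+* MerFun := D.emb.comp c

@[simp] theorem embL_apply (f : FL) : embL c x D f = D.emb (c f) := rfl

include hc in
theorem smul_embL_const (g : SL(2, ℤ)) (a : L) :
    g • embL c x D (algebraMap L FL a) = embL c x D (algebraMap L FL a) := by
  rw [embL_apply, hc, D.emb_const, Conj.sl_smul_const]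

theorem smul_embL_x (g : SL(2, ℤ)) : g • embL c x D x = embL c x D x := by
  rw [embL_apply, D.emb_x, MerFun.sl_smul_algebraMap, Fermat.Agent.S24.sl_smul_jHol]

/-- the elements of `FL` whose `g`-translate comes from a given intermediate field `E`. -/
def stabField (E : IntermediateField L FL) (g : SL(2, ℤ)) : IntermediateField L FL where
  carrier := {f | ∃ f' ∈ E, g • embL c x D f = embL c x D f'}
  mul_mem' := by
    rintro a b ⟨a', ha', ha⟩ ⟨b', hb', hb⟩
    exact ⟨a' * b', E.mul_mem ha' hb', by rw [map_mul, smul_mul', ha, hb, map_mul]⟩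
  one_mem' := ⟨1, E.one_mem, by rw [map_one, smul_one]⟩
  add_mem' := by
    rintro a b ⟨a', ha', ha⟩ ⟨b', hb', hb⟩
    exact ⟨a' + b', E.add_mem ha' hb', by rw [map_add, smul_add, ha, hb, map_add]⟩
  zero_mem' := ⟨0, E.zero_mem, by rw [map_zero, smul_zero]⟩
  algebraMap_mem' a := ⟨algebraMap L FL a, E.algebraMap_mem a, smul_embL_const ι c hc x D g a⟩
  inv_mem' := by
    rintro a ⟨a', ha', ha⟩
    exact ⟨a'⁻¹, E.inv_mem ha', by rw [map_inv₀, smul_inv'', ha, map_inv₀]⟩

/-- the field generated by `x` and `S`. -/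
def genField : IntermediateField L FL := IntermediateField.adjoin L (insert x S)

theorem x_mem_genField : x ∈ genField (L := L) x S :=
  IntermediateField.subset_adjoin L _ (Set.mem_insert x S)

theorem mem_genField_of_mem {s : FL} (hs : s ∈ S) : s ∈ genField (L := L) x S :=
  IntermediateField.subset_adjoin L _ (Set.mem_insert_of_mem x hs)

theorem adjoin_x_le_genField : L⟮x⟯ ≤ genField (L := L) x S := by
  rw [IntermediateField.adjoin_le_iff]
  intro y hy
  rw [Set.mem_singleton_iff] at hy
  rw [hy]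
  exact x_mem_genField x S

include hperm in
theorem genField_le_stabField (g : SL(2, ℤ)) :
    genField (L := L) x S ≤ stabField ι c hc x D (genField (L := L) x S) g := by
  rw [genField, IntermediateField.adjoin_le_iff]
  intro y hy
  rcases hy with hy | hy
  · rw [hy]
    exact ⟨x, x_mem_genField x S, smul_embL_x c x D g⟩
  · obtain ⟨s', hs', h⟩ := hperm g y hy
    exact ⟨s', mem_genField_of_mem x S hs', h⟩

/-- the analytic realisation of `L(x, S)`. -/
def embE : ↥(genField (L := L) x S) →+* MerFun :=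
  (embL c x D).comp (algebraMap ↥(genField (L := L) x S) FL)

@[simp] theorem embE_apply (f : ↥(genField (L := L) x S)) :
    embE c x D S f = D.emb (c (f : FL)) := rfl

include hc hperm in
theorem exists_smul_embE (g : SL(2, ℤ)) (f : ↥(genField (L := L) x S)) :
    ∃ f' : ↥(genField (L := L) x S), g • embE c x D S f = embE c x D S f' := by
  obtain ⟨f', hf', h⟩ := genField_le_stabField ι c hc x D S hperm g f.2
  exact ⟨⟨f', hf'⟩, h⟩

/-- the action of `SL(2,ℤ)` on `L(x, S)`. -/
def actE : SL(2, ℤ) →* (↥(genField (L := L) x S) ≃+* ↥(genField (L := L) x S)) :=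
  actHom (embE c x D S) (exists_smul_embE ι c hc x D S hperm)

theorem embE_actE (g : SL(2, ℤ)) (f : ↥(genField (L := L) x S)) :
    embE c x D S (actE ι c hc x D S hperm g f) = g • embE c x D S f :=
  e_actHom _ _ g f

theorem actE_eq_one_of_mem {g : SL(2, ℤ)} (hg : g ∈ Γ) : actE ι c hc x D S hperm g = 1 := by
  refine RingEquiv.ext fun f => (embE c x D S).injective ?_
  rw [embE_actE, embE_apply, D.fixed g hg]
  rfl

include hrig in
theorem mem_of_actE_eq_one {g : SL(2, ℤ)} (hg : actE ι c hc x D S hperm g = 1) : g ∈ Γ := by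
  refine hrig g fun s hs => ?_
  have h := embE_actE ι c hc x D S hperm g ⟨s, mem_genField_of_mem x S hs⟩
  rw [hg] at h
  exact h.symm

/-- elements of `L(x)` are fixed by the action. -/
theorem actE_apply_of_mem_adjoin (g : SL(2, ℤ)) (f : ↥(genField (L := L) x S))
    (hf : (f : FL) ∈ L⟮x⟯) : actE ι c hc x D S hperm g f = f := by
  refine (embE c x D S).injective ?_
  rw [embE_actE, embE_apply]
  -- the fixed elements form an intermediate field containing `x`
  let I : IntermediateField L FL :=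
    { carrier := {f | g • embL c x D f = embL c x D f}
      mul_mem' := by
        intro a b ha hb
        show g • embL c x D (a * b) = embL c x D (a * b)
        rw [map_mul, smul_mul', ha, hb]
      one_mem' := by
        show g • embL c x D 1 = embL c x D 1
        rw [map_one, smul_one]
      add_mem' := by
        intro a b ha hb
        show g • embL c x D (a + b) = embL c x D (a + b)
        rw [map_add, smul_add, ha, hb]
      zero_mem' := by
        show g • embL c x D 0 = embL c x D 0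
        rw [map_zero, smul_zero]
      algebraMap_mem' := fun a => smul_embL_const ι c hc x D g a
      inv_mem' := by
        intro a ha
        show g • embL c x D a⁻¹ = embL c x D a⁻¹
        rw [map_inv₀, smul_inv'', ha] }
  have hI : L⟮x⟯ ≤ I := by
    rw [IntermediateField.adjoin_le_iff]
    intro y hy
    rw [Set.mem_singleton_iff] at hy
    rw [hy]
    exact smul_embL_x c x D g
  exact hI hf

/-! #### Artin's theorem for `L(x, S)` -/

/-- the action of the finite quotient group on `L(x, S)`. -/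
def actQ : (SL(2, ℤ) ⧸ Γ) →* (↥(genField (L := L) x S) ≃+* ↥(genField (L := L) x S)) :=
  QuotientGroup.lift Γ (actE ι c hc x D S hperm)
    (fun _ hg => actE_eq_one_of_mem ι c hc x D S hperm hg)

@[simp] theorem actQ_mk (g : SL(2, ℤ)) :
    actQ ι c hc x D S hperm (QuotientGroup.mk g) = actE ι c hc x D S hperm g := rfl

include hrig in
theorem actQ_injective : Function.Injective (actQ ι c hc x D S hperm) := by
  rw [injective_iff_map_eq_one]
  intro q hq
  induction q using QuotientGroup.induction_on with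
  | H g =>
    rw [actQ_mk] at hq
    exact (QuotientGroup.eq_one_iff g).mpr (mem_of_actE_eq_one ι c hc x D S hperm hrig hq)

include ι hc hperm hrig in
/-- **Artin.**  There are `[SL(2,ℤ) : Γ]` elements of `L(x, S)` linearly independent over
`L(x)`. -/
theorem exists_linearIndependent :
    ∃ b : Fin (Fintype.card (SL(2, ℤ) ⧸ Γ)) → FL,
      (∀ i, b i ∈ genField (L := L) x S) ∧ LinearIndependent L⟮x⟯ b := by
  letI : MulSemiringAction (SL(2, ℤ) ⧸ Γ) ↥(genField (L := L) x S) :=
    MulSemiringAction.compHom _ (actQ ι c hc x D S hperm)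
  have hsmul : ∀ (q : SL(2, ℤ) ⧸ Γ) (f : ↥(genField (L := L) x S)),
      q • f = actQ ι c hc x D S hperm q f := fun _ _ => rfl
  haveI : FaithfulSMul (SL(2, ℤ) ⧸ Γ) ↥(genField (L := L) x S) := by
    refine ⟨fun {q q'} h => actQ_injective ι c hc x D S hperm hrig (RingEquiv.ext fun f => ?_)⟩
    rw [← hsmul, ← hsmul]
    exact h f
  have hfr := FixedPoints.finrank_eq_card (SL(2, ℤ) ⧸ Γ) ↥(genField (L := L) x S)
  set K' := FixedPoints.subfield (SL(2, ℤ) ⧸ Γ) ↥(genField (L := L) x S) with hK'
  let b0 := Module.finBasisOfFinrankEq K' ↥(genField (L := L) x S) hfr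
  refine ⟨fun i => ((b0 i : ↥(genField (L := L) x S)) : FL), fun i => (b0 i).2, ?_⟩
  -- the embedding of `L(x)` into the fixed field
  have hfix : ∀ a : L⟮x⟯, ∃ a' : K', ((a' : ↥(genField (L := L) x S)) : FL) = (a : FL) := by
    intro a
    have haE : (a : FL) ∈ genField (L := L) x S := adjoin_x_le_genField x S a.2
    refine ⟨⟨⟨a, haE⟩, ?_⟩, rfl⟩
    intro q
    induction q using QuotientGroup.induction_on with
    | H g =>
      rw [hsmul, actQ_mk]
      exact actE_apply_of_mem_adjoin ι c hc x D S hperm g ⟨a, haE⟩ a.2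
  choose i hi using hfix
  have hli := b0.linearIndependent
  have := hli.map_of_injective_injective (R' := L⟮x⟯) (M' := FL) i
    ((algebraMap ↥(genField (L := L) x S) FL : ↥(genField (L := L) x S) →+* FL) :
      ↥(genField (L := L) x S) →+ FL)
    (fun r hr => by
      have h1 := hi r
      rw [hr] at h1
      exact Subtype.ext h1.symm)
    (fun m hm => Subtype.ext hm)
    (fun r m => by
      show (((i r : ↥(genField (L := L) x S)) * m : ↥(genField (L := L) x S)) : FL) =
        (r : FL) * (m : FL)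
      rw [MulMemClass.coe_mul, hi r])
  exact this

/-! #### The degree count -/

include ι hc hperm hrig hn hcusp hLD in
/-- a family of `[SL(2,ℤ) : Γ]` elements of `L(x, S)`, independent over `L(x)`, spanning `FL`. -/
theorem exists_basis :
    ∃ b : Fin (Fintype.card (SL(2, ℤ) ⧸ Γ)) → FL,
      (∀ i, b i ∈ genField (L := L) x S) ∧ LinearIndependent L⟮x⟯ b ∧
        ∀ f : FL, f ∈ Submodule.span L⟮x⟯ (Set.range b) := by
  obtain ⟨b, hbE, hb⟩ := exists_linearIndependent ι c hc x D S hperm hrig
  refine ⟨b, hbE, hb, fun f => ?_⟩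
  have hfd := Fermat.Agent.S27x.G1.finiteDimensional D hn hcusp
  have hfr := Fermat.Agent.S27x.G1.finrank_eq_card D hn hcusp
  by_contra hf
  have h1 : LinearIndependent L⟮x⟯
      (Fin.snoc b f : Fin (Fintype.card (SL(2, ℤ) ⧸ Γ) + 1) → FL) :=
    linearIndependent_finSnoc.mpr ⟨hb, hf⟩
  have h2 := hLD _ _ h1
  have h3 := h2.fintype_card_le_finrank
  rw [hfr, Fintype.card_fin] at h3
  omega

include ι hc hperm hrig hn hcusp hLD in
/-- **`FL` is generated by `x` and `S`.** -/
theorem mem_genField (f : FL) : f ∈ genField (L := L) x S := by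
  obtain ⟨b, hbE, -, hspan⟩ := exists_basis ι c hc x D hn hcusp S hperm hrig hLD
  refine Submodule.span_induction (p := fun y _ => y ∈ genField (L := L) x S) ?_ ?_ ?_ ?_
    (hspan f)
  · rintro y ⟨i, rfl⟩
    exact hbE i
  · exact (genField (L := L) x S).zero_mem
  · intro y z _ _ hy hz
    exact (genField (L := L) x S).add_mem hy hz
  · intro a y _ hy
    rw [Algebra.smul_def]
    exact (genField (L := L) x S).mul_mem (adjoin_x_le_genField x S a.2) hy

include ι hc hperm hrig hn hcusp hLD in
theorem adjoin_eq_top : IntermediateField.adjoin L (insert x S) = ⊤ :=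
  eq_top_iff.mpr fun f _ => mem_genField ι c hc x D hn hcusp S hperm hrig hLD f

include ι hc hperm hrig hn hcusp hLD in
/-- **`SL(2,ℤ)` preserves the image of `FL`.** -/
theorem exists_smul_eq (g : SL(2, ℤ)) (f : FL) : ∃ f' : FL, g • D.emb (c f) = D.emb (c f') := by
  obtain ⟨f', -, h⟩ := genField_le_stabField ι c hc x D S hperm g
    (mem_genField ι c hc x D hn hcusp S hperm hrig hLD f)
  exact ⟨f', h⟩

include ι hc hperm hrig hn hcusp hLD in
theorem finrank_eq_card :
    FiniteDimensional L⟮x⟯ FL ∧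
      Module.finrank L⟮x⟯ FL = Fintype.card (SL(2, ℤ) ⧸ Γ) := by
  obtain ⟨b, -, hb, hspan⟩ := exists_basis ι c hc x D hn hcusp S hperm hrig hLD
  let B := Module.Basis.mk hb (fun f _ => hspan f)
  refine ⟨Module.Finite.of_basis B, ?_⟩
  rw [Module.finrank_eq_card_basis B, Fintype.card_fin]

/-! #### The action on `FL` -/

/-- the action of `SL(2,ℤ)` on `FL` by ring automorphisms. -/
def sActRing : SL(2, ℤ) →* (FL ≃+* FL) :=
  actHom (embL c x D) (exists_smul_eq ι c hc x D hn hcusp S hperm hrig hLD)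

theorem embL_sActRing (g : SL(2, ℤ)) (f : FL) :
    embL c x D (sActRing ι c hc x D hn hcusp S hperm hrig hLD g f) = g • embL c x D f :=
  e_actHom _ _ g f

theorem sActRing_algebraMap (g : SL(2, ℤ)) (a : L) :
    sActRing ι c hc x D hn hcusp S hperm hrig hLD g (algebraMap L FL a) = algebraMap L FL a :=
  (embL c x D).injective (by rw [embL_sActRing, smul_embL_const ι c hc x D g a])

/-- **the action of `SL(2,ℤ)` on `FL` by `L`-algebra automorphisms.** -/
def sAct : SL(2, ℤ) →* (FL ≃ₐ[L] FL) where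
  toFun g := AlgEquiv.ofRingEquiv (f := sActRing ι c hc x D hn hcusp S hperm hrig hLD g)
    (sActRing_algebraMap ι c hc x D hn hcusp S hperm hrig hLD g)
  map_one' := AlgEquiv.ext fun f => by
    show sActRing ι c hc x D hn hcusp S hperm hrig hLD 1 f = f
    rw [map_one]; rfl
  map_mul' g h := AlgEquiv.ext fun f => by
    show sActRing ι c hc x D hn hcusp S hperm hrig hLD (g * h) f =
      sActRing ι c hc x D hn hcusp S hperm hrig hLD g
        (sActRing ι c hc x D hn hcusp S hperm hrig hLD h f)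
    rw [map_mul]; rfl

/-- the defining property of `sAct`. -/
theorem emb_sAct (g : SL(2, ℤ)) (f : FL) :
    D.emb (c (sAct ι c hc x D hn hcusp S hperm hrig hLD g f)) = g • D.emb (c f) :=
  embL_sActRing ι c hc x D hn hcusp S hperm hrig hLD g f

theorem sAct_eq_of_smul_eq {g : SL(2, ℤ)} {f f' : FL} (h : g • D.emb (c f) = D.emb (c f')) :
    sAct ι c hc x D hn hcusp S hperm hrig hLD g f = f' :=
  (embL c x D).injective (by rw [embL_apply, emb_sAct, h]; rfl)

theorem sAct_x (g : SL(2, ℤ)) : sAct ι c hc x D hn hcusp S hperm hrig hLD g x = x :=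
  sAct_eq_of_smul_eq ι c hc x D hn hcusp S hperm hrig hLD (smul_embL_x c x D g)

theorem sAct_eq_one_iff (g : SL(2, ℤ)) :
    sAct ι c hc x D hn hcusp S hperm hrig hLD g = 1 ↔ g ∈ Γ := by
  constructor
  · intro h
    refine hrig g fun s _ => ?_
    rw [← emb_sAct ι c hc x D hn hcusp S hperm hrig hLD, h]
    rfl
  · intro hg
    exact AlgEquiv.ext fun f =>
      sAct_eq_of_smul_eq ι c hc x D hn hcusp S hperm hrig hLD (D.fixed g hg (c f))

/-- elements of `L(x)` are fixed. -/
theorem sAct_apply_of_mem_adjoin (g : SL(2, ℤ)) {f : FL} (hf : f ∈ L⟮x⟯) :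
    sAct ι c hc x D hn hcusp S hperm hrig hLD g f = f := by
  have h : L⟮x⟯ ≤ IntermediateField.fixedField
      (Subgroup.zpowers (sAct ι c hc x D hn hcusp S hperm hrig hLD g)) := by
    rw [IntermediateField.adjoin_le_iff]
    intro y hy
    rw [Set.mem_singleton_iff] at hy
    rw [hy]
    intro σ
    obtain ⟨k, hk⟩ := Subgroup.mem_zpowers_iff.mp σ.2
    show (σ : FL ≃ₐ[L] FL) x = x
    rw [← hk, ← map_zpow]
    exact sAct_x ι c hc x D hn hcusp S hperm hrig hLD _
  exact h hf ⟨_, Subgroup.mem_zpowers _⟩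

/-- **the invariants are `L(x)`.** -/
theorem mem_adjoin_of_fixed {f : FL}
    (hf : ∀ g : SL(2, ℤ), sAct ι c hc x D hn hcusp S hperm hrig hLD g f = f) : f ∈ L⟮x⟯ := by
  have h1 : c f ∈ ℂ⟮c x⟯ :=
    mem_adjoin_of_invariant_complex D hn hcusp (c f) fun g => by
      rw [← emb_sAct ι c hc x D hn hcusp S hperm hrig hLD, hf g]
  by_contra hfx
  have h2 : LinearIndependent L⟮x⟯ ![(1 : FL), f] := by
    rw [LinearIndependent.pair_iff' one_ne_zero]
    intro a ha
    apply hfx
    rw [← ha, Algebra.smul_def, mul_one]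
    exact a.2
  have h3 := hLD 2 _ h2
  rw [Fintype.linearIndependent_iff] at h3
  have h4 := h3 ![⟨c f, h1⟩, -1] (by
    simp [Fin.sum_univ_two, Algebra.smul_def]) 1
  simp at h4

end Main

/-! ### Bundled form -/

/-- The input data of the descent, bundled. -/
structure Input (L : Type*) [Field L] (FL : Type*) [Field FL] [Algebra L FL]
    (FC : Type*) [Field FC] [Algebra ℂ FC] (ι : L →+* ℂ) (Γ : Subgroup SL(2, ℤ)) where
  /-- the coefficientwise base change -/
  c : FL →+* FC
  hc : ∀ a : L, c (algebraMap L FL a) = algebraMap ℂ FC (ι a)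
  /-- the function `j` -/
  x : FL
  /-- the analytic realisation of the complex function field -/
  D : EmbData ℂ FC (RingHom.id ℂ) (c x) Γ
  /-- the cusp level -/
  n : ℕ
  hn : 0 < n
  hcusp : ∀ (f : FC) (g : SL(2, ℤ)), IsCuspMer n (g • D.emb f)
  /-- the permuted generators -/
  S : Set FL
  hperm : ∀ (g : SL(2, ℤ)), ∀ s ∈ S, ∃ s' ∈ S, g • D.emb (c s) = D.emb (c s')
  hrig : ∀ g : SL(2, ℤ), (∀ s ∈ S, g • D.emb (c s) = D.emb (c s)) → g ∈ Γ
  hLD : ∀ (m : ℕ) (f : Fin m → FL), LinearIndependent L⟮x⟯ f →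
    LinearIndependent ℂ⟮c x⟯ (fun i => c (f i))

namespace Input

variable {L : Type*} [Field L] {FL : Type*} [Field FL] [Algebra L FL]
  {FC : Type*} [Field FC] [Algebra ℂ FC] {ι : L →+* ℂ} {Γ : Subgroup SL(2, ℤ)} [Γ.Normal]
  [Fintype (SL(2, ℤ) ⧸ Γ)] (I : Input L FL FC ι Γ)

/-- the analytic realisation of `FL`. -/
def emb : FL →+* MerFun := I.D.emb.comp I.c

@[simp] theorem emb_apply (f : FL) : I.emb f = I.D.emb (I.c f) := rfl

theorem adjoin_eq_top : IntermediateField.adjoin L (insert I.x I.S) = ⊤ :=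
  GaloisDescent.adjoin_eq_top ι I.c I.hc I.x I.D I.hn I.hcusp I.S I.hperm I.hrig I.hLD

theorem exists_smul_eq (g : SL(2, ℤ)) (f : FL) : ∃ f' : FL, g • I.emb f = I.emb f' :=
  GaloisDescent.exists_smul_eq ι I.c I.hc I.x I.D I.hn I.hcusp I.S I.hperm I.hrig I.hLD g f

theorem finiteDimensional : FiniteDimensional L⟮I.x⟯ FL :=
  (GaloisDescent.finrank_eq_card ι I.c I.hc I.x I.D I.hn I.hcusp I.S I.hperm I.hrig I.hLD).1

theorem finrank_eq_card : Module.finrank L⟮I.x⟯ FL = Fintype.card (SL(2, ℤ) ⧸ Γ) :=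
  (GaloisDescent.finrank_eq_card ι I.c I.hc I.x I.D I.hn I.hcusp I.S I.hperm I.hrig I.hLD).2

/-- the action of `SL(2,ℤ)` on `FL`. -/
def sAct : SL(2, ℤ) →* (FL ≃ₐ[L] FL) :=
  GaloisDescent.sAct ι I.c I.hc I.x I.D I.hn I.hcusp I.S I.hperm I.hrig I.hLD

theorem emb_sAct (g : SL(2, ℤ)) (f : FL) : I.emb (I.sAct g f) = g • I.emb f :=
  GaloisDescent.emb_sAct ι I.c I.hc I.x I.D I.hn I.hcusp I.S I.hperm I.hrig I.hLD g f

theorem sAct_eq_of_smul_eq {g : SL(2, ℤ)} {f f' : FL} (h : g • I.emb f = I.emb f') :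
    I.sAct g f = f' :=
  GaloisDescent.sAct_eq_of_smul_eq ι I.c I.hc I.x I.D I.hn I.hcusp I.S I.hperm I.hrig I.hLD h

theorem sAct_x (g : SL(2, ℤ)) : I.sAct g I.x = I.x :=
  GaloisDescent.sAct_x ι I.c I.hc I.x I.D I.hn I.hcusp I.S I.hperm I.hrig I.hLD g

theorem sAct_eq_one_iff (g : SL(2, ℤ)) : I.sAct g = 1 ↔ g ∈ Γ :=
  GaloisDescent.sAct_eq_one_iff ι I.c I.hc I.x I.D I.hn I.hcusp I.S I.hperm I.hrig I.hLD g

theorem sAct_apply_of_mem_adjoin (g : SL(2, ℤ)) {f : FL} (hf : f ∈ L⟮I.x⟯) : I.sAct g f = f :=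
  GaloisDescent.sAct_apply_of_mem_adjoin ι I.c I.hc I.x I.D I.hn I.hcusp I.S I.hperm I.hrig I.hLD g hf

theorem mem_adjoin_of_fixed {f : FL} (hf : ∀ g : SL(2, ℤ), I.sAct g f = f) : f ∈ L⟮I.x⟯ :=
  GaloisDescent.mem_adjoin_of_fixed ι I.c I.hc I.x I.D I.hn I.hcusp I.S I.hperm I.hrig I.hLD hf

/-- an element is fixed by `sAct g` iff its analytic realisation is fixed by `g`. -/
theorem sAct_apply_eq_iff (g : SL(2, ℤ)) (f : FL) : I.sAct g f = f ↔ g • I.emb f = I.emb f := by
  constructor
  · intro h
    rw [← I.emb_sAct, h]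
  · exact fun h => I.sAct_eq_of_smul_eq h

end Input

end Fermat.Agent.S48x.Ana.GaloisDescent
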