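/-
P-S48, block G1, layer (a), slice (A4), CONCRETE instance (helper53): the Galois structure of the
function field of `X(M)` over a field of constants `L ⊆ ℂ`.

For `ι : L →+* ℂ`, `ζ : L` with `ι ζ = exp(2πi/M)`, `5 ≤ M`, `FL := fullField M ζ`:

* `cFull ι hζ : FL →+* fullField M (zetaM M)` : the coefficientwise base change;
* `fullInput ι hM hζ : GaloisDescent.Input L FL FC ι (GammaPM M)` (`x = jFull ζ`,
  `S = ratioSet ζ`), hence everything in `Ana/GaloisDescent.lean`;
* `emb_eq_fullInput_emb` : every embedding `emb : FL →+* MerFun` with `IsFullEmb emb` and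
  constants to constants is the embedding of `fullInput`;
* `sActFull ι hM hζ : SL(2,ℤ) →* (FL ≃ₐ[L] FL)` with `emb (sActFull g f) = g • emb f`
  (`emb_sActFull`) for every such embedding, `stable_of_isFullEmb`, `sActFull_ratio`,
  `sActFull_jqd`, `sActFull_eq_one_iff` (kernel `±Γ(M)`), `mem_adjoin_of_sActFull_fixed`
  (invariants `L(j)`), `finrank_fullField`, `adjoin_jFull_ratioSet_eq_top`.
-/
import Mathlib
import Fermat.Agent.S48x.Ana.GaloisDescent
import Fermat.Agent.S48x.Ana.LaurentLD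
import Fermat.Agent.S48x.Ana.EmbFull
import Fermat.Agent.S48x.Model.Descent
import Fermat.Agent.S48x.Ana.GaloisAbs

set_option autoImplicit false
set_option linter.unusedSectionVars false
set_option linter.style.haveILetI false
set_option maxHeartbeats 400000

noncomputable section

open ModularCurve IntermediateField
open UpperHalfPlane hiding I
open scoped MatrixGroups

namespace Fermat.Agent.S48x.Ana.GaloisFull

open Fermat.Agent.S48x.PPack Fermat.Agent.S48x.Model Fermat.Agent.S48x.Ana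
open Fermat.Agent.S24 Fermat.Agent.S24.CuspOrd
open Fermat.Agent.S24.JLevel (jd)
open Fermat.Agent.Gateway.Dict
open Fermat.Agent.S48x.Ana.EmbFull Fermat.Agent.S48x.Ana.StabFull

/-! ### The group `±Γ(M)` -/

section Group

variable (M : ℕ) [NeZero M]

instance GammaPM_normal : (GammaPM M).Normal := by
  refine ⟨fun γ hγ g => ?_⟩
  rw [mem_GammaPM_iff] at hγ ⊢
  rw [map_mul, map_mul, map_inv]
  rcases hγ with h | h
  · left
    rw [h, mul_one, mul_inv_cancel]
  · right
    rw [h, mul_neg, mul_one, neg_mul, mul_inv_cancel]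

instance GammaPM_finiteIndex : (GammaPM M).FiniteIndex :=
  Subgroup.finiteIndex_of_le (Gamma_le_GammaPM M)

instance GammaPM_fintypeQuotient : Fintype (SL(2, ℤ) ⧸ GammaPM M) :=
  Subgroup.fintypeQuotientOfFiniteIndex

end Group

/-! ### The coefficientwise base change -/

section BaseChange

variable {L : Type*} [Field L] (ι : L →+* ℂ) {M : ℕ} [NeZero M] {ζ : L}

theorem coeffMap_mem_fullField (hζ : ι ζ = zetaM M) {f : LaurentSeries L}
    (hf : f ∈ fullField M ζ) : coeffMap ι f ∈ fullField M (zetaM M) := by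
  refine Descent.coeffMap_mem_adjoin ι ?_ hf
  rintro x (⟨d, hd0, hd, rfl⟩ | ⟨v, w, v', w', hv, hw, hv', hw', rfl⟩)
  · have hdM : NeZero (d * M) := ⟨Nat.mul_ne_zero (NeZero.ne d) (NeZero.ne M)⟩
    rw [coeffMap_jqd]
    exact jqd_mem_fullField (zetaM M) hd
  · rw [coeffMap_ratio, hζ]
    exact ratio_mem_fullField (zetaM M) hv hw hv' hw'

/-- the coefficientwise base change `fullField M ζ →+* fullField M (zetaM M)`. -/
def cFull (hζ : ι ζ = zetaM M) : ↥(fullField M ζ) →+* ↥(fullField M (zetaM M)) :=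
  ((coeffMap ι).comp (fullField M ζ).toSubfield.subtype).codRestrict
    (fullField M (zetaM M)).toSubfield fun f => coeffMap_mem_fullField ι hζ f.2

@[simp] theorem coe_cFull (hζ : ι ζ = zetaM M) (f : ↥(fullField M ζ)) :
    ((cFull ι hζ f : ↥(fullField M (zetaM M))) : LaurentSeries ℂ) =
      coeffMap ι (f : LaurentSeries L) := rfl

theorem cFull_algebraMap (hζ : ι ζ = zetaM M) (a : L) :
    cFull ι hζ (algebraMap L ↥(fullField M ζ) a) =
      algebraMap ℂ ↥(fullField M (zetaM M)) (ι a) :=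
  Subtype.ext (Descent.coeffMap_algebraMap' ι a)

theorem cFull_jqd (hζ : ι ζ = zetaM M) {d : ℕ} [NeZero d] (hd : d ∣ M) :
    cFull ι hζ ⟨qExpand L (d * M) (jqModC L), jqd_mem_fullField ζ hd⟩ =
      ⟨qExpand ℂ (d * M) (jqModC ℂ), jqd_mem_fullField (zetaM M) hd⟩ := by
  have hdM : NeZero (d * M) := ⟨Nat.mul_ne_zero (NeZero.ne d) (NeZero.ne M)⟩
  exact Subtype.ext (coeffMap_jqd ι (d * M))

theorem cFull_jFull (hζ : ι ζ = zetaM M) :
    cFull ι hζ (EmbFullData.jFull ζ) = EmbFullData.jFull (zetaM M) :=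
  cFull_jqd ι hζ (one_dvd M)

theorem cFull_ratio (hζ : ι ζ = zetaM M) {v w v' w' : Vec M} (hv : v ≠ 0) (hw : w ≠ 0)
    (hv' : v' ≠ 0) (hw' : w' ≠ 0) :
    cFull ι hζ ⟨ratio M ζ v w v' w', ratio_mem_fullField ζ hv hw hv' hw'⟩ =
      ⟨ratio M (zetaM M) v w v' w', ratio_mem_fullField (zetaM M) hv hw hv' hw'⟩ := by
  apply Subtype.ext
  rw [coe_cFull, coeffMap_ratio, hζ]

end BaseChange

/-! ### The complex model -/

section Complex

variable (M : ℕ) [NeZero M]

/-- the analytic model of the function field of `X(M)` over `ℂ` (a choice). -/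
def dataC : EmbFullData (RingHom.id ℂ) M (zetaM M) :=
  (exists_embFullData (RingHom.id ℂ) (ζ := zetaM M) rfl).some

theorem isPrimitiveRoot_zetaM : IsPrimitiveRoot (zetaM M) M :=
  isPrimitiveRoot_of_map_eq_zetaM (RingHom.id ℂ) rfl

end Complex

/-! ### The input of the descent -/

section Input

variable {L : Type*} [Field L] (ι : L →+* ℂ) {M : ℕ} [NeZero M] {ζ : L}

/-- the ratio generators of `fullField M ζ`. -/
def ratioSet (ζ : L) : Set ↥(fullField M ζ) :=
  {f | ∃ v w v' w' : Vec M, v ≠ 0 ∧ w ≠ 0 ∧ v' ≠ 0 ∧ w' ≠ 0 ∧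
    (f : LaurentSeries L) = ratio M ζ v w v' w'}

theorem ratio_mem_ratioSet {v w v' w' : Vec M} (hv : v ≠ 0) (hw : w ≠ 0) (hv' : v' ≠ 0)
    (hw' : w' ≠ 0) :
    (⟨ratio M ζ v w v' w', ratio_mem_fullField ζ hv hw hv' hw'⟩ : ↥(fullField M ζ)) ∈
      ratioSet ζ :=
  ⟨v, w, v', w', hv, hw, hv', hw', rfl⟩

/-- the embedding data over `ℂ`, with `x` in the shape the descent wants. -/
def embDataC (hM : 5 ≤ M) (hζ : ι ζ = zetaM M) :
    ConjAbs.EmbData ℂ ↥(fullField M (zetaM M)) (RingHom.id ℂ)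
      (cFull ι hζ (EmbFullData.jFull ζ)) (GammaPM M) where
  emb := (dataC M).emb
  emb_const := (dataC M).emb_const
  emb_x := by rw [cFull_jFull]; exact (dataC M).emb_jFull
  fixed _ hγ f := (dataC M).fixed hγ f
  stab γ h := ((dataC M).fixes_iff hM (isPrimitiveRoot_zetaM M) γ).mp h

@[simp] theorem embDataC_emb (hM : 5 ≤ M) (hζ : ι ζ = zetaM M) :
    (embDataC ι hM hζ).emb = (dataC M).emb := rfl

/-- **The input of `Ana/GaloisDescent.lean` for the function field of `X(M)`.** -/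
def fullInput (hM : 5 ≤ M) (hζ : ι ζ = zetaM M) :
    GaloisDescent.Input L ↥(fullField M ζ) ↥(fullField M (zetaM M)) ι (GammaPM M) where
  c := cFull ι hζ
  hc := cFull_algebraMap ι hζ
  x := EmbFullData.jFull ζ
  D := embDataC ι hM hζ
  n := M
  hn := NeZero.pos M
  hcusp f g := (dataC M).isCuspMer_smul f g
  S := ratioSet ζ
  hperm := by
    rintro g s ⟨v, w, v', w', hv, hw, hv', hw', hs⟩
    have hs' : s = ⟨ratio M ζ v w v' w', ratio_mem_fullField ζ hv hw hv' hw'⟩ := Subtype.ext hs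
    refine ⟨⟨ratio M ζ (vecSL M v g⁻¹) (vecSL M w g⁻¹) (vecSL M v' g⁻¹) (vecSL M w' g⁻¹),
      ratio_mem_fullField ζ (vecSL_ne_zero M hv g⁻¹) (vecSL_ne_zero M hw g⁻¹)
        (vecSL_ne_zero M hv' g⁻¹) (vecSL_ne_zero M hw' g⁻¹)⟩,
      ratio_mem_ratioSet (vecSL_ne_zero M hv g⁻¹) (vecSL_ne_zero M hw g⁻¹)
        (vecSL_ne_zero M hv' g⁻¹) (vecSL_ne_zero M hw' g⁻¹), ?_⟩
    rw [hs', cFull_ratio ι hζ hv hw hv' hw', cFull_ratio ι hζ (vecSL_ne_zero M hv g⁻¹)
      (vecSL_ne_zero M hw g⁻¹) (vecSL_ne_zero M hv' g⁻¹) (vecSL_ne_zero M hw' g⁻¹)]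
    exact (dataC M).smul_emb_ratio hv hw hv' hw' g
  hrig := by
    intro g hg
    refine mem_GammaPM_of_smul_Rfun hM (isPrimitiveRoot_zetaM M) (dataC M).emb_ratio ?_
    intro v w v' w' hv hw hv' hw'
    have h := hg _ (ratio_mem_ratioSet (ζ := ζ) hv hw hv' hw')
    rw [cFull_ratio ι hζ hv hw hv' hw'] at h
    rw [← (dataC M).emb_ratio v w v' w' hv hw hv' hw']
    exact h
  hLD _ f hf :=
    LaurentLD.linearIndependent_coeffMap_adjoin (cFull ι hζ) (coe_cFull ι hζ)
      (EmbFullData.jFull ζ) f hf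

end Input

/-! ### Uniqueness of the analytic model, and the exports -/

section Exports

variable {L : Type*} [Field L] (ι : L →+* ℂ) {M : ℕ} [NeZero M] {ζ : L}
  (hM : 5 ≤ M) (hζ : ι ζ = zetaM M)

theorem fullInput_emb_apply (f : ↥(fullField M ζ)) :
    (fullInput ι hM hζ).emb f = (dataC M).emb (cFull ι hζ f) := rfl

/-- **Uniqueness**: an embedding of `fullField M ζ` into `MerFun` with the normalisations of
`EmbFullData` is the one of `fullInput`. -/
theorem emb_eq_fullInput_emb {emb : ↥(fullField M ζ) →+* MerFun} (h : IsFullEmb emb)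
    (hconst : ∀ a : L, emb (algebraMap L ↥(fullField M ζ) a) = Conj.const (ι a)) :
    emb = (fullInput ι hM hζ).emb := by
  apply ringHom_ext_adjoin
  · intro a
    refine (hconst a).trans ?_
    have h1 := cFull_algebraMap ι hζ a
    have h2 := (dataC M).emb_const (ι a)
    exact ((congrArg (dataC M).emb h1).trans h2).symm
  · rintro x (⟨d, hd0, hd, rfl⟩ | ⟨v, w, v', w', hv, hw, hv', hw', rfl⟩)
    · refine (h.jd d hd).trans ?_
      have h1 := cFull_jqd ι hζ hd
      have h2 := (dataC M).emb_jd d hd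
      exact ((congrArg (dataC M).emb h1).trans h2).symm
    · refine (h.ratio v w v' w' hv hw hv' hw').trans ?_
      have h1 := cFull_ratio ι hζ hv hw hv' hw'
      have h2 := (dataC M).emb_ratio v w v' w' hv hw hv' hw'
      exact ((congrArg (dataC M).emb h1).trans h2).symm

/-- **the action of `SL(2,ℤ)` on the function field of `X(M)` over `L`.** -/
def sActFull : SL(2, ℤ) →* (↥(fullField M ζ) ≃ₐ[L] ↥(fullField M ζ)) :=
  (fullInput ι hM hζ).sAct

/-- the defining property of `sActFull`, for every normalised embedding. -/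
theorem emb_sActFull {emb : ↥(fullField M ζ) →+* MerFun} (h : IsFullEmb emb)
    (hconst : ∀ a : L, emb (algebraMap L ↥(fullField M ζ) a) = Conj.const (ι a))
    (g : SL(2, ℤ)) (f : ↥(fullField M ζ)) : emb (sActFull ι hM hζ g f) = g • emb f := by
  rw [emb_eq_fullInput_emb ι hM hζ h hconst]
  exact (fullInput ι hM hζ).emb_sAct g f

include hM hζ in
/-- **`SL(2,ℤ)` preserves the image of every normalised embedding.** -/
theorem stable_of_isFullEmb {emb : ↥(fullField M ζ) →+* MerFun} (h : IsFullEmb emb)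
    (hconst : ∀ a : L, emb (algebraMap L ↥(fullField M ζ) a) = Conj.const (ι a))
    (g : SL(2, ℤ)) (f : ↥(fullField M ζ)) : ∃ f', g • emb f = emb f' :=
  ⟨_, (emb_sActFull ι hM hζ h hconst g f).symm⟩

theorem sActFull_eq_of_smul_eq {emb : ↥(fullField M ζ) →+* MerFun} (h : IsFullEmb emb)
    (hconst : ∀ a : L, emb (algebraMap L ↥(fullField M ζ) a) = Conj.const (ι a))
    {g : SL(2, ℤ)} {f f' : ↥(fullField M ζ)} (hf : g • emb f = emb f') :
    sActFull ι hM hζ g f = f' :=
  emb.injective ((emb_sActFull ι hM hζ h hconst g f).trans hf)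

theorem sActFull_apply_eq_iff {emb : ↥(fullField M ζ) →+* MerFun} (h : IsFullEmb emb)
    (hconst : ∀ a : L, emb (algebraMap L ↥(fullField M ζ) a) = Conj.const (ι a))
    (g : SL(2, ℤ)) (f : ↥(fullField M ζ)) :
    sActFull ι hM hζ g f = f ↔ g • emb f = emb f := by
  constructor
  · intro hf
    rw [← emb_sActFull ι hM hζ h hconst, hf]
  · exact fun hf => sActFull_eq_of_smul_eq ι hM hζ h hconst hf

/-- the action on the ratio generators: `g · ratio v w v' w' = ratio (v g⁻¹) (w g⁻¹) …`. -/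
theorem sActFull_ratio (g : SL(2, ℤ)) {v w v' w' : Vec M} (hv : v ≠ 0) (hw : w ≠ 0)
    (hv' : v' ≠ 0) (hw' : w' ≠ 0) :
    sActFull ι hM hζ g ⟨ratio M ζ v w v' w', ratio_mem_fullField ζ hv hw hv' hw'⟩ =
      ⟨ratio M ζ (vecSL M v g⁻¹) (vecSL M w g⁻¹) (vecSL M v' g⁻¹) (vecSL M w' g⁻¹),
        ratio_mem_fullField ζ (vecSL_ne_zero M hv g⁻¹) (vecSL_ne_zero M hw g⁻¹)
          (vecSL_ne_zero M hv' g⁻¹) (vecSL_ne_zero M hw' g⁻¹)⟩ := by
  apply (fullInput ι hM hζ).sAct_eq_of_smul_eq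
  rw [fullInput_emb_apply, fullInput_emb_apply, cFull_ratio ι hζ hv hw hv' hw',
    cFull_ratio ι hζ (vecSL_ne_zero M hv g⁻¹) (vecSL_ne_zero M hw g⁻¹)
      (vecSL_ne_zero M hv' g⁻¹) (vecSL_ne_zero M hw' g⁻¹)]
  exact (dataC M).smul_emb_ratio hv hw hv' hw' g

theorem coe_sActFull_ratio (g : SL(2, ℤ)) {v w v' w' : Vec M} (hv : v ≠ 0) (hw : w ≠ 0)
    (hv' : v' ≠ 0) (hw' : w' ≠ 0) :
    ((sActFull ι hM hζ g ⟨ratio M ζ v w v' w', ratio_mem_fullField ζ hv hw hv' hw'⟩ :
        ↥(fullField M ζ)) : LaurentSeries L) =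
      ratio M ζ (vecSL M v g⁻¹) (vecSL M w g⁻¹) (vecSL M v' g⁻¹) (vecSL M w' g⁻¹) := by
  rw [sActFull_ratio ι hM hζ g hv hw hv' hw']

/-- `Γ₀(M)` fixes the generators `j(z^(dM))`, `d ∣ M`. -/
theorem sActFull_jqd {g : SL(2, ℤ)} (hg : g ∈ CongruenceSubgroup.Gamma0 M) {d : ℕ} [NeZero d]
    (hd : d ∣ M) :
    sActFull ι hM hζ g ⟨qExpand L (d * M) (jqModC L), jqd_mem_fullField ζ hd⟩ =
      ⟨qExpand L (d * M) (jqModC L), jqd_mem_fullField ζ hd⟩ := by
  apply (fullInput ι hM hζ).sAct_eq_of_smul_eq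
  rw [fullInput_emb_apply, cFull_jqd ι hζ hd]
  exact (dataC M).smul_emb_jd hd hg

/-- every element of `SL(2,ℤ)` fixes `j = j(z^M)`. -/
theorem sActFull_jFull (g : SL(2, ℤ)) :
    sActFull ι hM hζ g (EmbFullData.jFull ζ) = EmbFullData.jFull ζ :=
  (fullInput ι hM hζ).sAct_x g

/-- **the kernel of the action is `±Γ(M)`.** -/
theorem sActFull_eq_one_iff (g : SL(2, ℤ)) : sActFull ι hM hζ g = 1 ↔ g ∈ GammaPM M :=
  (fullInput ι hM hζ).sAct_eq_one_iff g

theorem sActFull_ker : (sActFull ι hM hζ).ker = GammaPM M := by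
  ext g
  rw [MonoidHom.mem_ker]
  exact sActFull_eq_one_iff ι hM hζ g

theorem sActFull_apply_of_mem_adjoin (g : SL(2, ℤ)) {f : ↥(fullField M ζ)}
    (hf : f ∈ L⟮EmbFullData.jFull ζ⟯) : sActFull ι hM hζ g f = f :=
  (fullInput ι hM hζ).sAct_apply_of_mem_adjoin g hf

/-- **the invariants of `SL(2,ℤ)` are `L(j)`.** -/
theorem mem_adjoin_of_sActFull_fixed {f : ↥(fullField M ζ)}
    (hf : ∀ g : SL(2, ℤ), sActFull ι hM hζ g f = f) : f ∈ L⟮EmbFullData.jFull ζ⟯ :=
  (fullInput ι hM hζ).mem_adjoin_of_fixed hf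

include ι hM hζ in
/-- **the function field of `X(M)` is generated by `j` and the ratios.** -/
theorem adjoin_jFull_ratioSet_eq_top :
    IntermediateField.adjoin L
      (insert (EmbFullData.jFull (M := M) ζ) (ratioSet (M := M) ζ)) = ⊤ :=
  (fullInput ι hM hζ).adjoin_eq_top

include ι hM hζ in
theorem finiteDimensional_fullField :
    FiniteDimensional L⟮EmbFullData.jFull (M := M) ζ⟯ ↥(fullField M ζ) :=
  (fullInput ι hM hζ).finiteDimensional

include ι hM hζ in
/-- **`[L(X(M)) : L(j)] = [SL(2,ℤ) : ±Γ(M)]`.** -/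
theorem finrank_fullField :
    Module.finrank L⟮EmbFullData.jFull (M := M) ζ⟯ ↥(fullField M ζ) =
      Fintype.card (SL(2, ℤ) ⧸ GammaPM M) :=
  (fullInput ι hM hζ).finrank_eq_card

include ι hM hζ in
theorem finrank_fullField_eq_index :
    Module.finrank L⟮EmbFullData.jFull (M := M) ζ⟯ ↥(fullField M ζ) = (GammaPM M).index := by
  rw [finrank_fullField ι hM hζ, Subgroup.index, Nat.card_eq_fintype_card]

/-! ### The same, for an `EmbFullData` -/

variable (D : EmbFullData ι M ζ)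

theorem emb_sActFull_data (g : SL(2, ℤ)) (f : ↥(fullField M ζ)) :
    D.emb (sActFull ι hM hζ g f) = g • D.emb f :=
  emb_sActFull ι hM hζ D.isFullEmb D.emb_const g f

theorem emb_data_eq : D.emb = (fullInput ι hM hζ).emb :=
  emb_eq_fullInput_emb ι hM hζ D.isFullEmb D.emb_const

include hζ in
/-- **the hypothesis `Stable` of `Ana/GaloisAbs.lean`** for the `EmbData` of an `EmbFullData`. -/
theorem stable_toEmbData (hprim : IsPrimitiveRoot ζ M) :
    GaloisAbs.Stable (D.toEmbData hM hprim) := fun g f =>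
  ⟨sActFull ι hM hζ g f, emb_sActFull_data ι hM hζ D g f⟩

/-- the action of `Ana/GaloisAbs.lean` is `sActFull`. -/
theorem act_eq_sActFull (hprim : IsPrimitiveRoot ζ M) (g : SL(2, ℤ)) :
    GaloisAbs.act (D.toEmbData hM hprim) (stable_toEmbData ι hM hζ D hprim) g =
      sActFull ι hM hζ g := by
  refine AlgEquiv.ext fun f => D.emb.injective ?_
  rw [emb_sActFull_data]
  exact GaloisAbs.emb_act (D.toEmbData hM hprim) (stable_toEmbData ι hM hζ D hprim) g f

end Exports

end Fermat.Agent.S48x.Ana.GaloisFull
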