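import Mathlib
import Fermat.Agent.S48x.Ana.FullLevelInst
import Fermat.Agent.S48x.Ana.GaloisFull

/-!
# P-S48, bridge (A4) → (R9), unconditional form (helper75)

For `L` algebraically closed of characteristic zero with an embedding `ι : L →+* ℂ`, a valuation
subring `A ⊆ L` with `π : A →+* k` onto an algebraically closed field of characteristic `ℓ ∤ M`,
`5 ≤ M` and `ζ : Aˣ` with `ι ζ = exp(2πi/M)`:

* `embDataIota ι hM hιζ : EmbData L ↥(fullField M ζ) ι (jFull ζ) (±Γ(M))` (a choice of analytic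
  model, `Ana/EmbFull.exists_embFullData`), with `stable_embDataIota`, `isFullEmb_embDataIota`,
  `hinv_embDataIota` (from `Ana/GaloisFull.lean`);
* `fullLevelDataIota` : the full level data of `Red1/IgusaLevel.lean` for the ratio datum
  `ModelInt.ratioIntGen A M ζ` and `G₀ = SL(2, ZMod M)`; its action is
  `GaloisFullGlue.sAct (embDataIota ι hM hιζ) (stable_embDataIota ι hM hιζ)` (`rfl`);
* `full_ratioIntGen_of_iota` : `(ratioIntGen A M ζ).Full π` (Igusa at full level);
* `fullField_eq_ratioIntGen_F` : `fullField M ζ = (ratioIntGen A M ζ).F`.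
-/

set_option autoImplicit false
set_option linter.unusedSectionVars false

noncomputable section

namespace Fermat.Agent.S48x.Ana.FullLevelInst

open IntermediateField ModularCurve
open Fermat.Agent.Gateway.Red Fermat.Agent.Gateway.GoodRed
open Fermat.Agent.Gateway.Dict.ConjAbs
open Fermat.Agent.S48x.Model Fermat.Agent.S48x.Model.Rigidity
open Fermat.Agent.S48x.Red1 Fermat.Agent.S48x.Red1.ModelInt
open Fermat.Agent.S48x.Ana.GaloisAct
open Fermat.Agent.S48x.Ana.EmbFull
open scoped MatrixGroups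
open scoped Fermat.Agent.S48x.Red1.Shortcuts

section Top

variable {L : Type*} [Field L] {M : ℕ} [NeZero M] {ζ : L} (ι : L →+* ℂ)

theorem coe_jFull (ζ : L) :
    ((EmbFullData.jFull (M := M) ζ : fullField M ζ) : LaurentSeries L) =
      qExpand L M (jqModC L) :=
  qExpand_congr (one_mul M) _

/-- **the full-level field is generated by `j(z^M)` and the ratios** (helper53's
`adjoin_jFull_ratioSet_eq_top`, as an equality of intermediate fields of `L((z))`). -/
theorem adjoin_ratioGens_eq_fullField (hM : 5 ≤ M) (hιζ : ι ζ = PPack.zetaM M) :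
    IntermediateField.adjoin L (ratioGens M ζ) = fullField M ζ :=
  adjoin_ratioGens_eq_of_top (EmbFullData.jFull ζ) (coe_jFull ζ) (GaloisFull.ratioSet ζ)
    (fun _ hf => hf) (GaloisFull.adjoin_jFull_ratioSet_eq_top ι hM hιζ)

variable (hM : 5 ≤ M) (hιζ : ι ζ = PPack.zetaM M)

/-- the analytic model of the full-level field over `(L, ι)` (a choice). -/
def embDataIota :
    EmbData L ↥(fullField M ζ) ι (EmbFullData.jFull ζ) (StabFull.GammaPM M) :=
  (exists_embFullData ι hιζ).some.toEmbData hM (isPrimitiveRoot_of_map_eq_zetaM ι hιζ)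

theorem isFullEmb_embDataIota : StabFull.IsFullEmb (embDataIota ι hM hιζ).emb :=
  (exists_embFullData ι hιζ).some.isFullEmb

theorem stable_embDataIota : GaloisAbs.Stable (embDataIota ι hM hιζ) :=
  GaloisFull.stable_toEmbData ι hM hιζ _ _

theorem hinv_embDataIota (f : fullField M ζ)
    (hf : ∀ g : SL(2, ℤ), g • (embDataIota ι hM hιζ).emb f = (embDataIota ι hM hιζ).emb f) :
    f ∈ L⟮EmbFullData.jFull ζ⟯ :=
  GaloisFull.mem_adjoin_of_sActFull_fixed ι hM hιζ fun g =>
    (GaloisFull.sActFull_apply_eq_iff ι hM hιζ (exists_embFullData ι hιζ).some.isFullEmb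
      (exists_embFullData ι hιζ).some.emb_const g f).mpr (hf g)

end Top

section Main

variable {L : Type} [Field L] [Algebra ℚ L] [IsAlgClosed L] (A : ValuationSubring L)
  {k : Type} [Field k] [IsAlgClosed k] (π : A →+* k) (M : ℕ) [NeZero M]
  (ℓ : ℕ) [Fact ℓ.Prime] [CharP k ℓ] (hπ : Function.Surjective π) (hℓM : ¬ ℓ ∣ M)
  (hM : 5 ≤ M) (ζ : Aˣ) (ι : L →+* ℂ) (hιζ : ι ((((ζ : Aˣ) : A) : L)) = PPack.zetaM M)

include hιζ in
omit [Algebra ℚ L] [IsAlgClosed L] in
theorem isPrimitiveRoot_of_iota : IsPrimitiveRoot ((ζ : Aˣ) : A) M :=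
  IsPrimitiveRoot.of_map_of_injective (f := A.subtype)
    (isPrimitiveRoot_of_map_eq_zetaM ι hιζ) Subtype.val_injective

/-- **the full level data** (unconditional). -/
def fullLevelDataIota : (ratioIntGen A M (ζ : A)).FullLevelData π SL(2, ZMod M) :=
  fullLevelData A π M ℓ hπ hℓM hM ζ (isPrimitiveRoot_of_iota A M ζ ι hιζ)
    (embDataIota ι hM hιζ) (stable_embDataIota ι hM hιζ) (isFullEmb_embDataIota ι hM hιζ)
    (hinv_embDataIota ι hM hιζ) (coe_jFull _) (adjoin_ratioGens_eq_fullField ι hM hιζ)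

theorem fullLevelDataIota_act :
    (fullLevelDataIota A π M ℓ hπ hℓM hM ζ ι hιζ).act =
      GaloisFullGlue.sAct (embDataIota ι hM hιζ) (stable_embDataIota ι hM hιζ) := rfl

include hπ hℓM hM hιζ in
/-- **Igusa at full level**: `[L(X(M)) : L(j)] ≤ [κ : k(j̄)]` for the ratio datum. -/
theorem full_ratioIntGen_of_iota : (ratioIntGen A M (ζ : A)).Full π :=
  (fullLevelDataIota A π M ℓ hπ hℓM hM ζ ι hιζ).full hπ

include hπ hℓM hM hιζ in
omit [Algebra ℚ L] [IsAlgClosed L] [IsAlgClosed k] [Fact ℓ.Prime] in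
/-- the field of the ratio datum is the full-level field. -/
theorem fullField_eq_ratioIntGen_F :
    fullField M ((((ζ : Aˣ) : A) : L)) = (ratioIntGen A M (ζ : A)).F :=
  fullField_eq_F hπ (isPrimitiveRoot_of_iota A M ζ ι hιζ)
    (natCast_ne_zero_of_not_dvd M ℓ hℓM) (adjoin_ratioGens_eq_fullField ι hM hιζ)

end Main

end Fermat.Agent.S48x.Ana.FullLevelInst
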