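import Mathlib
import Fermat.Agent.S48x.Ana.FullLevelFinal

/-!
# P-S48, bridge (A4) → (R9): the facts about the full level data used by `Red1/Gamma1Compose`
(helper75)

For the terms `fullLevelData …` (`Ana/FullLevelInst.lean`) and `fullLevelDataIota …`
(`Ana/FullLevelFinal.lean`): the four facts `hperm`, `hjF`, `hjB`, `hζu` (the fields of
`Gamma1Compose.Inputs`), in particular `hjB`: the Borel subgroup fixes `j(z^(dM))`, `d ∣ M`.
-/

set_option autoImplicit false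
set_option linter.unusedSectionVars false

noncomputable section

namespace Fermat.Agent.S48x.Ana.FullLevelInst

open IntermediateField ModularCurve
open Fermat.Agent.Gateway.Red Fermat.Agent.Gateway.GoodRed
open Fermat.Agent.Gateway.Dict.ConjAbs
open Fermat.Agent.S48x.Model Fermat.Agent.S48x.Model.Rigidity
open Fermat.Agent.S48x.Red1 Fermat.Agent.S48x.Red1.ModelInt
open Fermat.Agent.S48x.Ana.GaloisAct
open Fermat.Agent.S48x.Ana.EmbFull
open scoped MatrixGroups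
open scoped Fermat.Agent.S48x.Red1.Shortcuts

section Borel

variable {L : Type*} [Field L] {M : ℕ} [NeZero M] {ζ : L} {ι : L →+* ℂ} {x : fullField M ζ}
  (D : EmbData L ↥(fullField M ζ) ι x (StabFull.GammaPM M)) (hS : GaloisAbs.Stable D)

/-- every element of the Borel subgroup of `SL(2, ZMod M)` is the reduction of an element of
`Γ₀(M)`. -/
theorem exists_mem_Gamma0_red_eq {g : SL(2, ZMod M)} (hg : g 1 0 = 0) :
    ∃ γ ∈ CongruenceSubgroup.Gamma0 M, RedSurj.red M γ = g := by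
  obtain ⟨γ, rfl⟩ := RedSurj.red_surjective M g
  refine ⟨γ, ?_, rfl⟩
  rw [CongruenceSubgroup.Gamma0_mem]
  rwa [RedSurj.red_apply] at hg

/-- **the Borel subgroup fixes `j(z^(dM))`, `d ∣ M`** (the easy half of (M-c)). -/
theorem sAct_jqd_of_borel (hfull : StabFull.IsFullEmb D.emb) {g : SL(2, ZMod M)}
    (hg : g 1 0 = 0) {d : ℕ} [NeZero d] (hd : d ∣ M) (f : fullField M ζ)
    (hf : (f : LaurentSeries L) = qExpand L (d * M) (jqModC L)) :
    GaloisFullGlue.sAct D hS g f = f := by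
  obtain ⟨γ, hγ, rfl⟩ := exists_mem_Gamma0_red_eq hg
  have e : f = ⟨qExpand L (d * M) (jqModC L), jqd_mem_fullField ζ hd⟩ := Subtype.ext hf
  rw [GaloisFullGlue.sAct_red, GaloisAbs.act_eq_iff, e, hfull.jd d hd,
    StabFull.smul_algebraMap_jd hd hγ]

end Borel

section Main

variable {L : Type} [Field L] [Algebra ℚ L] [IsAlgClosed L] (A : ValuationSubring L)
  {k : Type} [Field k] [IsAlgClosed k] (π : A →+* k) (M : ℕ) [NeZero M]
  (ℓ : ℕ) [Fact ℓ.Prime] [CharP k ℓ] (hπ : Function.Surjective π) (hℓM : ¬ ℓ ∣ M)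
  (hM : 5 ≤ M) (ζ : Aˣ)

section Hyp

variable (hζ : IsPrimitiveRoot (ζ : A) M)
  {ι : L →+* ℂ} {x : fullField M (((ζ : Aˣ) : A) : L)}
  (D : EmbData L ↥(fullField M (((ζ : Aˣ) : A) : L)) ι x (StabFull.GammaPM M))
  (hS : GaloisAbs.Stable D) (hfull : StabFull.IsFullEmb D.emb)
  (hinv : ∀ f : fullField M (((ζ : Aˣ) : A) : L),
    (∀ g : SL(2, ℤ), g • D.emb f = D.emb f) → f ∈ L⟮x⟯)
  (hx : (x : LaurentSeries L) = qExpand L M (jqModC L))
  (htop : IntermediateField.adjoin L (ratioGens M (((ζ : Aˣ) : A) : L)) =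
    fullField M (((ζ : Aˣ) : A) : L))

/-- **the four facts `hperm`, `hjF`, `hjB`, `hζu`** about `fullLevelData` (the fields of
`Red1/Gamma1Compose.Inputs`). -/
theorem fullLevelData_facts :
    (∀ (g : SL(2, ZMod M)) (q : QuadIdx M),
      (fullLevelData A π M ℓ hπ hℓM hM ζ hζ D hS hfull hinv hx htop).perm g q =
        ModelInt.perm g⁻¹ q) ∧
    (∀ (d : ℕ) [NeZero d], d ∣ M → qExpand L (d * M) (jqModC L) ∈
      (fullLevelData A π M ℓ hπ hℓM hM ζ hζ D hS hfull hinv hx htop).F') ∧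
    (∀ g : SL(2, ZMod M), g 1 0 = 0 → ∀ (d : ℕ) [NeZero d], d ∣ M →
      ∀ f : (fullLevelData A π M ℓ hπ hℓM hM ζ hζ D hS hfull hinv hx htop).F',
        (f : LaurentSeries L) = qExpand L (d * M) (jqModC L) →
        (fullLevelData A π M ℓ hπ hℓM hM ζ hζ D hS hfull hinv hx htop).act g f = f) ∧
    IsPrimitiveRoot
      (((fullLevelData A π M ℓ hπ hℓM hM ζ hζ D hS hfull hinv hx htop).ζ : Aˣ) : A) M :=
  ⟨fun _ _ => rfl, fun _ _ hd => jqd_mem_fullField _ hd,
    fun _ hg _ _ hd f hf => sAct_jqd_of_borel D hS hfull hg hd f hf, hζ⟩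

end Hyp

variable (ι : L →+* ℂ) (hιζ : ι ((((ζ : Aˣ) : A) : L)) = PPack.zetaM M)

/-- **the four facts `hperm`, `hjF`, `hjB`, `hζu`** about `fullLevelDataIota`. -/
theorem fullLevelDataIota_facts :
    (∀ (g : SL(2, ZMod M)) (q : QuadIdx M),
      (fullLevelDataIota A π M ℓ hπ hℓM hM ζ ι hιζ).perm g q = ModelInt.perm g⁻¹ q) ∧
    (∀ (d : ℕ) [NeZero d], d ∣ M → qExpand L (d * M) (jqModC L) ∈
      (fullLevelDataIota A π M ℓ hπ hℓM hM ζ ι hιζ).F') ∧
    (∀ g : SL(2, ZMod M), g 1 0 = 0 → ∀ (d : ℕ) [NeZero d], d ∣ M →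
      ∀ f : (fullLevelDataIota A π M ℓ hπ hℓM hM ζ ι hιζ).F',
        (f : LaurentSeries L) = qExpand L (d * M) (jqModC L) →
        (fullLevelDataIota A π M ℓ hπ hℓM hM ζ ι hιζ).act g f = f) ∧
    IsPrimitiveRoot (((fullLevelDataIota A π M ℓ hπ hℓM hM ζ ι hιζ).ζ : Aˣ) : A) M :=
  fullLevelData_facts A π M ℓ hπ hℓM hM ζ (isPrimitiveRoot_of_iota A M ζ ι hιζ)
    (embDataIota ι hM hιζ) (stable_embDataIota ι hM hιζ) (isFullEmb_embDataIota ι hM hιζ)
    (hinv_embDataIota ι hM hιζ) (coe_jFull _) (adjoin_ratioGens_eq_fullField ι hM hιζ)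

theorem fullLevelDataIota_ζ : (fullLevelDataIota A π M ℓ hπ hℓM hM ζ ι hιζ).ζ = ζ := rfl

theorem fullLevelDataIota_F' :
    (fullLevelDataIota A π M ℓ hπ hℓM hM ζ ι hιζ).F' = fullField M (((ζ : Aˣ) : A) : L) := rfl

end Main

end Fermat.Agent.S48x.Ana.FullLevelInst
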