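import Mathlib
import Fermat.Agent.Gateway.Dict.ConjAbs
import Fermat.Agent.S27x.G1.DegreeGamma

/-!
# P-S48 (A6), abstract part: automorphisms of a function field from the `SL(2,ℤ)`-action

Setting: `D : ConjAbs.EmbData K F ι x Γ` an analytic realisation `D.emb : F →+* MerFun` of a
function field `F / K`.  If `g ∈ SL(2,ℤ)` maps `D.emb F` into itself (`StableUnder D g`) and so
does `g⁻¹`, then `f ↦ emb⁻¹ (g • emb f)` is a `K`-automorphism `δ_g` of `F`:

* `algEquivOfStable`, `emb_algEquivOfStable` : the automorphism and its characterisation;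
* `stableUnder_of_generators` : stability may be checked on a generating set;
* `exists_algEquiv_of_smul` : the existence statement for a generating set;
* `algEquiv_unique`, `algEquiv_mul`, `algEquiv_of_mem`, `algEquiv_apply_of_smul_eq`,
  `algEquiv_apply_x` : uniqueness, multiplicativity `δ_{g h} = δ_g ∘ δ_h`, `δ_γ = 1` for `γ ∈ Γ`,
  fixed elements;
* `stableUnder_of_mem_normalizer`, `exists_algEquiv_of_mem_normalizer` : over `ℂ`, in the block-A
  setting (finite index, cusp-meromorphy), every element of the normaliser of `Γ` is stable.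
-/

set_option autoImplicit false
set_option linter.style.haveILetI false

noncomputable section

open scoped MatrixGroups

namespace Fermat.Agent.S48x.Ana

open Fermat.Agent.S24 Fermat.Agent.S24.Conj Fermat.Agent.Gateway.Dict
  Fermat.Agent.Gateway.Dict.ConjAbs

section General

variable {K F : Type*} [Field K] [Field F] [Algebra K F] {ι : K →+* ℂ} {x : F}
  {Γ : Subgroup SL(2, ℤ)} (D : EmbData K F ι x Γ)

/-- `g` maps the image of the analytic embedding into itself. -/
def StableUnder (g : SL(2, ℤ)) : Prop :=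
  ∀ f : F, ∃ f' : F, g • D.emb f = D.emb f'

/-- the elements of `F` whose `g`-translate lies in the image of the embedding -/
def stableField (g : SL(2, ℤ)) : IntermediateField K F :=
  (Subfield.comap (ConjAbs.tw D g) D.emb.fieldRange).toIntermediateField (fun c => by
    show ConjAbs.tw D g (algebraMap K F c) ∈ D.emb.fieldRange
    rw [ConjAbs.tw_apply, D.emb_const, sl_smul_const]
    exact ⟨algebraMap K F c, D.emb_const c⟩)

theorem mem_stableField {g : SL(2, ℤ)} {f : F} :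
    f ∈ stableField D g ↔ ∃ f' : F, g • D.emb f = D.emb f' := by
  show ConjAbs.tw D g f ∈ D.emb.fieldRange ↔ _
  rw [RingHom.mem_fieldRange, ConjAbs.tw_apply]
  exact ⟨fun ⟨f', h⟩ => ⟨f', h.symm⟩, fun ⟨f', h⟩ => ⟨f', h.symm⟩⟩

/-- stability may be checked on a generating set -/
theorem stableUnder_of_generators (g : SL(2, ℤ)) (S : Set F)
    (hS : IntermediateField.adjoin K S = ⊤)
    (hg : ∀ s ∈ S, ∃ s' : F, g • D.emb s = D.emb s') : StableUnder D g := by
  have hle : IntermediateField.adjoin K S ≤ stableField D g :=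
    IntermediateField.adjoin_le_iff.mpr fun s hs => (mem_stableField D).mpr (hg s hs)
  intro f
  have hf : f ∈ stableField D g := hle (by rw [hS]; exact IntermediateField.mem_top)
  exact (mem_stableField D).mp hf

theorem stableUnder_one : StableUnder D 1 := fun f => ⟨f, one_smul _ _⟩

theorem StableUnder.mul {g h : SL(2, ℤ)} (hg : StableUnder D g) (hh : StableUnder D h) :
    StableUnder D (g * h) := by
  intro f
  obtain ⟨f₁, h1⟩ := hh f
  obtain ⟨f₂, h2⟩ := hg f₁
  exact ⟨f₂, by rw [mul_smul, h1, h2]⟩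

theorem stableUnder_of_mem {γ : SL(2, ℤ)} (hγ : γ ∈ Γ) : StableUnder D γ :=
  fun f => ⟨f, D.fixed γ hγ f⟩

theorem emb_injective : Function.Injective D.emb := D.emb.injective

/-- the ring endomorphism `f ↦ emb⁻¹ (g • emb f)` -/
def ringHomOfStable (g : SL(2, ℤ)) (hg : StableUnder D g) : F →+* F :=
  (D.emb.rangeRestrictFieldEquiv.symm : D.emb.fieldRange →+* F).comp
    ((ConjAbs.tw D g).codRestrict D.emb.fieldRange (fun f => by
      obtain ⟨f', hf'⟩ := hg f
      rw [ConjAbs.tw_apply, hf']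
      exact ⟨f', rfl⟩))

theorem emb_ringHomOfStable (g : SL(2, ℤ)) (hg : StableUnder D g) (f : F) :
    D.emb (ringHomOfStable D g hg f) = g • D.emb f := by
  have h := D.emb.rangeRestrictFieldEquiv.apply_symm_apply
    ((ConjAbs.tw D g).codRestrict D.emb.fieldRange (fun f => by
      obtain ⟨f', hf'⟩ := hg f
      rw [ConjAbs.tw_apply, hf']
      exact ⟨f', rfl⟩) f)
  have h2 := congrArg (Subtype.val) h
  exact h2

/-- the `K`-automorphism `δ_g` of `F` attached to a stable `g` with stable inverse -/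
def algEquivOfStable (g : SL(2, ℤ)) (hg : StableUnder D g) (hg' : StableUnder D g⁻¹) :
    F ≃ₐ[K] F :=
  AlgEquiv.ofRingEquiv (f := RingEquiv.ofRingHom (ringHomOfStable D g hg)
    (ringHomOfStable D g⁻¹ hg')
    (by
      ext f
      apply emb_injective D
      simp only [RingHom.coe_comp, Function.comp_apply, RingHom.id_apply]
      rw [emb_ringHomOfStable, emb_ringHomOfStable, ← mul_smul, mul_inv_cancel, one_smul])
    (by
      ext f
      apply emb_injective D
      simp only [RingHom.coe_comp, Function.comp_apply, RingHom.id_apply]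
      rw [emb_ringHomOfStable, emb_ringHomOfStable, ← mul_smul, inv_mul_cancel, one_smul]))
    (fun c => by
      apply emb_injective D
      show D.emb (ringHomOfStable D g hg (algebraMap K F c)) = _
      rw [emb_ringHomOfStable, D.emb_const, sl_smul_const])

theorem emb_algEquivOfStable (g : SL(2, ℤ)) (hg : StableUnder D g) (hg' : StableUnder D g⁻¹)
    (f : F) : D.emb (algEquivOfStable D g hg hg' f) = g • D.emb f :=
  emb_ringHomOfStable D g hg f

/-- **(A6.1)** existence of `δ_g` from a generating set. -/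
theorem exists_algEquiv_of_smul (g : SL(2, ℤ)) (S : Set F)
    (hS : IntermediateField.adjoin K S = ⊤)
    (hg : ∀ s ∈ S, ∃ s' : F, g • D.emb s = D.emb s')
    (hg' : ∀ s ∈ S, ∃ s' : F, g⁻¹ • D.emb s = D.emb s') :
    ∃ δ : F ≃ₐ[K] F, ∀ f, D.emb (δ f) = g • D.emb f :=
  ⟨algEquivOfStable D g (stableUnder_of_generators D g S hS hg)
    (stableUnder_of_generators D g⁻¹ S hS hg'), emb_algEquivOfStable D g _ _⟩

/-! ### Uniqueness, multiplicativity, fixed elements -/

/-- **(A6.2)** uniqueness -/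
theorem algEquiv_unique {g : SL(2, ℤ)} {δ δ' : F ≃ₐ[K] F}
    (h : ∀ f, D.emb (δ f) = g • D.emb f) (h' : ∀ f, D.emb (δ' f) = g • D.emb f) : δ = δ' := by
  ext f
  apply emb_injective D
  rw [h, h']

/-- **(A6.2)** multiplicativity: `δ_{g h} = δ_g ∘ δ_h` -/
theorem algEquiv_mul {g h : SL(2, ℤ)} {δg δh δgh : F ≃ₐ[K] F}
    (hg : ∀ f, D.emb (δg f) = g • D.emb f) (hh : ∀ f, D.emb (δh f) = h • D.emb f)
    (hgh : ∀ f, D.emb (δgh f) = (g * h) • D.emb f) : δgh = δg * δh := by
  ext f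
  apply emb_injective D
  rw [hgh, AlgEquiv.mul_apply, hg, hh, mul_smul]

/-- the product of two automorphisms of the form `δ_g` is of this form -/
theorem algEquiv_mul_spec {g h : SL(2, ℤ)} {δg δh : F ≃ₐ[K] F}
    (hg : ∀ f, D.emb (δg f) = g • D.emb f) (hh : ∀ f, D.emb (δh f) = h • D.emb f) (f : F) :
    D.emb ((δg * δh) f) = (g * h) • D.emb f := by
  rw [AlgEquiv.mul_apply, hg, hh, mul_smul]

/-- the inverse of `δ_g` is `δ_{g⁻¹}` -/
theorem algEquiv_inv_spec {g : SL(2, ℤ)} {δg : F ≃ₐ[K] F}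
    (hg : ∀ f, D.emb (δg f) = g • D.emb f) (f : F) :
    D.emb (δg⁻¹ f) = g⁻¹ • D.emb f := by
  have h := hg (δg⁻¹ f)
  have h2 : δg (δg⁻¹ f) = f := by
    rw [← AlgEquiv.mul_apply, mul_inv_cancel, AlgEquiv.one_apply]
  rw [h2] at h
  rw [h, ← mul_smul, inv_mul_cancel, one_smul]

/-- **(A6.2)** `δ_γ = 1` for `γ ∈ Γ` -/
theorem algEquiv_of_mem {γ : SL(2, ℤ)} (hγ : γ ∈ Γ) {δ : F ≃ₐ[K] F}
    (h : ∀ f, D.emb (δ f) = γ • D.emb f) : δ = 1 := by
  ext f
  apply emb_injective D
  rw [h, D.fixed γ hγ, AlgEquiv.one_apply]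

/-- conversely, if `δ_g = 1` then `g ∈ Γ` -/
theorem mem_of_algEquiv_eq_one {g : SL(2, ℤ)} {δ : F ≃ₐ[K] F}
    (h : ∀ f, D.emb (δ f) = g • D.emb f) (h1 : δ = 1) : g ∈ Γ := by
  refine D.stab g fun f => ?_
  rw [← h, h1, AlgEquiv.one_apply]

/-- **(A6.3)** `δ_g` fixes every `f` whose image is `g`-invariant -/
theorem algEquiv_apply_of_smul_eq {g : SL(2, ℤ)} {δ : F ≃ₐ[K] F}
    (h : ∀ f, D.emb (δ f) = g • D.emb f) {f : F} (hf : g • D.emb f = D.emb f) : δ f = f := by
  apply emb_injective D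
  rw [h, hf]

/-- **(A6.3)** `δ_g` fixes `x` (which is sent to `j`) -/
theorem algEquiv_apply_x {g : SL(2, ℤ)} {δ : F ≃ₐ[K] F}
    (h : ∀ f, D.emb (δ f) = g • D.emb f) : δ x = x := by
  refine algEquiv_apply_of_smul_eq D h ?_
  rw [D.emb_x, MerFun.sl_smul_algebraMap, sl_smul_jHol]

/-! ### The group homomorphism `g ↦ δ_g` -/

/-- For a subgroup `Γ'` all of whose elements are stable, `g ↦ δ_g` is a group homomorphism
`Γ' → Aut_K F` (with kernel `Γ' ∩ Γ`, see `autHom_eq_one_iff`). -/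
def autHom (Γ' : Subgroup SL(2, ℤ)) (h : ∀ g ∈ Γ', StableUnder D g) : Γ' →* (F ≃ₐ[K] F) where
  toFun g := algEquivOfStable D g (h g g.2) (h (g : SL(2, ℤ))⁻¹ (Γ'.inv_mem g.2))
  map_one' := algEquiv_of_mem D Γ.one_mem (emb_algEquivOfStable D _ _ _)
  map_mul' _ _ := algEquiv_mul D (emb_algEquivOfStable D _ _ _) (emb_algEquivOfStable D _ _ _)
    (emb_algEquivOfStable D _ _ _)

theorem emb_autHom (Γ' : Subgroup SL(2, ℤ)) (h : ∀ g ∈ Γ', StableUnder D g) (g : Γ') (f : F) :
    D.emb (autHom D Γ' h g f) = (g : SL(2, ℤ)) • D.emb f :=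
  emb_algEquivOfStable D _ _ _ f

theorem autHom_eq_one_iff (Γ' : Subgroup SL(2, ℤ)) (h : ∀ g ∈ Γ', StableUnder D g) (g : Γ') :
    autHom D Γ' h g = 1 ↔ (g : SL(2, ℤ)) ∈ Γ :=
  ⟨fun h1 => mem_of_algEquiv_eq_one D (emb_autHom D Γ' h g) h1,
    fun hg => algEquiv_of_mem D hg (emb_autHom D Γ' h g)⟩

end General

/-! ### The normaliser, over `ℂ` -/

section Normalizer

open Fermat.Agent.S24.CuspOrd Fermat.Agent.S27x.G1

variable {F : Type*} [Field F] [Algebra ℂ F] {x : F} {Γ : Subgroup SL(2, ℤ)}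
  (D : EmbData ℂ F (RingHom.id ℂ) x Γ) [Fintype (SL(2, ℤ) ⧸ Γ)] {n : ℕ}

/-- **(A6.4)** over `ℂ`, in the block-A setting, every element of the normaliser of `Γ` maps the
image of the embedding into itself. -/
theorem stableUnder_of_mem_normalizer (hn : 0 < n)
    (hcusp : ∀ (f : F) (g : SL(2, ℤ)), IsCuspMer n (g • D.emb f)) {g : SL(2, ℤ)}
    (hg : g ∈ Subgroup.normalizer (Γ : Set SL(2, ℤ))) : StableUnder D g := by
  intro f
  have hmem : g • D.emb f ∈ D.emb.range := by
    rw [mem_range_iff D hn hcusp]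
    refine ⟨fun γ hγ => ?_, fun g' => ?_⟩
    · have hconj : g⁻¹ * γ * g ∈ Γ := by
        have := (Subgroup.mem_normalizer_iff.mp hg (g⁻¹ * γ * g))
        rw [this]
        have e : g * (g⁻¹ * γ * g) * g⁻¹ = γ := by group
        rw [e]
        exact hγ
      calc γ • g • D.emb f = g • ((g⁻¹ * γ * g) • D.emb f) := by
            rw [← mul_smul, ← mul_smul]
            congr 1
            group
        _ = g • D.emb f := by rw [D.fixed _ hconj]
    · rw [← mul_smul]
      exact hcusp f (g' * g)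
  obtain ⟨f', hf'⟩ := hmem
  exact ⟨f', hf'.symm⟩

/-- **(A6.4)** the automorphism attached to an element of the normaliser -/
theorem exists_algEquiv_of_mem_normalizer (hn : 0 < n)
    (hcusp : ∀ (f : F) (g : SL(2, ℤ)), IsCuspMer n (g • D.emb f)) {g : SL(2, ℤ)}
    (hg : g ∈ Subgroup.normalizer (Γ : Set SL(2, ℤ))) : ∃ δ : F ≃ₐ[ℂ] F, ∀ f, D.emb (δ f) = g • D.emb f :=
  ⟨algEquivOfStable D g (stableUnder_of_mem_normalizer D hn hcusp hg)
    (stableUnder_of_mem_normalizer D hn hcusp ((Subgroup.normalizer (Γ : Set SL(2, ℤ))).inv_mem hg)),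
    emb_algEquivOfStable D g _ _⟩

end Normalizer

section NormalizerFiniteIndex

open Fermat.Agent.S24.CuspOrd

variable {F : Type*} [Field F] [Algebra ℂ F] {x : F} {Γ : Subgroup SL(2, ℤ)}
  (D : EmbData ℂ F (RingHom.id ℂ) x Γ) [Γ.FiniteIndex] {n : ℕ}

/-- `stableUnder_of_mem_normalizer` with `[Γ.FiniteIndex]` -/
theorem stableUnder_of_mem_normalizer' (hn : 0 < n)
    (hcusp : ∀ (f : F) (g : SL(2, ℤ)), IsCuspMer n (g • D.emb f)) {g : SL(2, ℤ)}
    (hg : g ∈ Subgroup.normalizer (Γ : Set SL(2, ℤ))) : StableUnder D g := by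
  letI : Fintype (SL(2, ℤ) ⧸ Γ) := Subgroup.fintypeQuotientOfFiniteIndex
  exact stableUnder_of_mem_normalizer D hn hcusp hg

/-- `exists_algEquiv_of_mem_normalizer` with `[Γ.FiniteIndex]` -/
theorem exists_algEquiv_of_mem_normalizer' (hn : 0 < n)
    (hcusp : ∀ (f : F) (g : SL(2, ℤ)), IsCuspMer n (g • D.emb f)) {g : SL(2, ℤ)}
    (hg : g ∈ Subgroup.normalizer (Γ : Set SL(2, ℤ))) :
    ∃ δ : F ≃ₐ[ℂ] F, ∀ f, D.emb (δ f) = g • D.emb f := by
  letI : Fintype (SL(2, ℤ) ⧸ Γ) := Subgroup.fintypeQuotientOfFiniteIndex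
  exact exists_algEquiv_of_mem_normalizer D hn hcusp hg

/-- the group homomorphism `N(Γ) → Aut_ℂ F`, `g ↦ δ_g`, with kernel `Γ` -/
def normalizerAutHom (hn : 0 < n)
    (hcusp : ∀ (f : F) (g : SL(2, ℤ)), IsCuspMer n (g • D.emb f)) :
    Subgroup.normalizer (Γ : Set SL(2, ℤ)) →* (F ≃ₐ[ℂ] F) :=
  autHom D _ fun _ hg => stableUnder_of_mem_normalizer' D hn hcusp hg

theorem emb_normalizerAutHom (hn : 0 < n)
    (hcusp : ∀ (f : F) (g : SL(2, ℤ)), IsCuspMer n (g • D.emb f))
    (g : Subgroup.normalizer (Γ : Set SL(2, ℤ))) (f : F) :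
    D.emb (normalizerAutHom D hn hcusp g f) = (g : SL(2, ℤ)) • D.emb f :=
  emb_autHom D _ _ g f

end NormalizerFiniteIndex

end Fermat.Agent.S48x.Ana
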