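/-
P-S48, block G1, layer (a) (helper88): the bridge between the P-pack `q`-expansion coefficients
`PPack.wpCoeff` of the `℘`-division values and the formal coefficients `Model.eCoeff`.

`wpCoeff M a b N = eCoeff M ζ_M (a, b) N + common M N` where `common` does not depend on `(a, b)`;
hence `(2πi)⁻² (f_v - f_w)(τ) = ∑_N (eCoeff v N - eCoeff w N) q_M^N`.
-/
import Fermat.Agent.S48x.Model.Series
import Fermat.Agent.S48x.PPack.QExp
import Fermat.Agent.S48x.PPack.CycloUnit

set_option autoImplicit false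
set_option linter.unusedSectionVars false

noncomputable section

open UpperHalfPlane hiding I
open Complex
open scoped Real

namespace Fermat.Agent.S48x.Ana.Bridge

open Fermat.Agent.S48x.Model Fermat.Agent.S48x.PPack Fermat.Agent.S48x.PPack.CycloUnit

variable (M : ℕ) [NeZero M]

/-- The class of `(a, b) ∈ ℤ²` in `(ℤ/M)²`. -/
def vecOf (a b : ℤ) : Vec M := ((a : ZMod M), (b : ZMod M))

/-- The part of `wpCoeff` which does not depend on `(a, b)`. -/
def common (N : ℕ) : ℂ :=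
  if N = 0 then 1 / 12 else -∑ d ∈ N.divisors, (if M ∣ d then 2 * ((N / d : ℕ) : ℂ) else 0)

theorem zetaM_pow_val (b : ℤ) (k : ℕ) :
    zetaM M ^ ((b : ZMod M).val * k) = zetaM M ^ (b * (k : ℤ)) := by
  rw [pow_mul, zpow_mul, zpow_natCast, ← zpow_natCast (zetaM M) ((b : ZMod M).val)]
  congr 1
  apply zetaM_zpow_congr
  rw [ZMod.val_intCast]
  exact Int.emod_emod_of_dvd b (dvd_refl _)

theorem zetaM_pow_neg_val (b : ℤ) (k : ℕ) :
    zetaM M ^ ((-(b : ZMod M)).val * k) = zetaM M ^ (-(b * (k : ℤ))) := by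
  have h := zetaM_pow_val M (-b) k
  rw [Int.cast_neg] at h
  rw [h, neg_mul]

theorem natCast_eq_intCast_iff (d : ℕ) (a : ℤ) :
    ((d : ℕ) : ZMod M) = (a : ZMod M) ↔ (d : ℤ) ≡ a [ZMOD M] := by
  rw [← ZMod.intCast_eq_intCast_iff, Int.cast_natCast]

theorem phiL_eq (b : ℤ) :
    zetaM M ^ ((b : ZMod M)).val / (1 - zetaM M ^ ((b : ZMod M)).val) ^ 2 = phiL (zetaM M ^ b) := by
  have h := zetaM_pow_val M b 1
  rw [mul_one, Nat.cast_one, mul_one] at h
  rw [h, phiL]

/-- **The bridge**: the P-pack coefficient is the formal coefficient plus a summand independent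
of `(a, b)`. -/
theorem wpCoeff_eq (a b : ℤ) (N : ℕ) :
    wpCoeff M a b N = eCoeff M (zetaM M) (vecOf M a b) N + common M N := by
  rcases Nat.eq_zero_or_pos N with rfl | hN
  · rw [wpCoeff_zero, eCoeff, common, if_pos rfl, if_pos rfl, vecOf]
    have hiff : ((a : ZMod M) = 0) ↔ (M : ℤ) ∣ a := ZMod.intCast_zmod_eq_zero_iff_dvd a M
    by_cases ha : (M : ℤ) ∣ a
    · rw [if_pos ha, if_pos (hiff.mpr ha), phiL_eq]
      ring
    · rw [if_neg ha, if_neg (fun h => ha (hiff.mp h))]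
      ring
  · have hN0 : N ≠ 0 := hN.ne'
    rw [wpCoeff_of_ne_zero M a b hN0, eCoeff, common, if_neg hN0, if_neg hN0,
      Nat.sum_divisorsAntidiagonal' (f := fun k d => (k : ℂ) *
        ((if ((d : ℕ) : ZMod M) = (vecOf M a b).1 then zetaM M ^ ((vecOf M a b).2.val * k) else 0) +
          (if ((d : ℕ) : ZMod M) = -(vecOf M a b).1 then
            zetaM M ^ ((-(vecOf M a b).2).val * k) else 0))),
      ← Finset.sum_neg_distrib, ← Finset.sum_add_distrib]
    refine Finset.sum_congr rfl fun d _ => ?_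
    have h1 : (((d : ℕ) : ZMod M) = (a : ZMod M)) ↔ (d : ℤ) ≡ a [ZMOD M] :=
      natCast_eq_intCast_iff M d a
    have h2 : (((d : ℕ) : ZMod M) = -(a : ZMod M)) ↔ (d : ℤ) ≡ -a [ZMOD M] := by
      have := natCast_eq_intCast_iff M d (-a)
      rwa [Int.cast_neg] at this
    rw [wpTerm]
    show _ = ((N / d : ℕ) : ℂ) *
        ((if ((d : ℕ) : ZMod M) = (a : ZMod M) then
            zetaM M ^ ((b : ZMod M).val * (N / d)) else 0) +
          (if ((d : ℕ) : ZMod M) = -(a : ZMod M) then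
            zetaM M ^ ((-(b : ZMod M)).val * (N / d)) else 0)) +
      -(if M ∣ d then 2 * ((N / d : ℕ) : ℂ) else 0)
    rw [zetaM_pow_val, zetaM_pow_neg_val]
    simp only [h1, h2]
    split_ifs <;> ring

/-- The difference of two P-pack coefficients is the difference of the formal coefficients. -/
theorem wpCoeff_sub (a b a' b' : ℤ) (N : ℕ) :
    wpCoeff M a b N - wpCoeff M a' b' N =
      eCoeff M (zetaM M) (vecOf M a b) N - eCoeff M (zetaM M) (vecOf M a' b') N := by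
  rw [wpCoeff_eq, wpCoeff_eq]
  ring

/-- **(P2) for differences, in Model form**: the `q_M`-expansion of `(2πi)⁻² (f_v - f_w)`. -/
theorem hasSum_wpDiv_sub {a b a' b' : ℤ} (h : ¬ ((M : ℤ) ∣ a ∧ (M : ℤ) ∣ b))
    (h' : ¬ ((M : ℤ) ∣ a' ∧ (M : ℤ) ∣ b')) (τ : ℍ) :
    HasSum (fun N : ℕ => (eCoeff M (zetaM M) (vecOf M a b) N -
        eCoeff M (zetaM M) (vecOf M a' b') N) * qM M τ ^ N)
      (((2 * π * I) ^ 2)⁻¹ * (wpDiv M a b τ - wpDiv M a' b' τ)) := by
  have h1 := (hasSum_wpDiv M h τ).sub (hasSum_wpDiv M h' τ)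
  rw [← mul_sub] at h1
  refine h1.congr_fun fun N => ?_
  rw [← wpCoeff_sub]
  ring

theorem vecOf_ne_zero {a b : ℤ} (h : ¬ ((M : ℤ) ∣ a ∧ (M : ℤ) ∣ b)) : vecOf M a b ≠ 0 := by
  intro h0
  apply h
  have h1 : (a : ZMod M) = 0 := congrArg Prod.fst h0
  have h2 : (b : ZMod M) = 0 := congrArg Prod.snd h0
  exact ⟨(ZMod.intCast_zmod_eq_zero_iff_dvd a M).mp h1, (ZMod.intCast_zmod_eq_zero_iff_dvd b M).mp h2⟩

end Fermat.Agent.S48x.Ana.Bridge
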