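import Fermat.Agent.S48x.HeckeFF.C1Qbar
import Fermat.Agent.S28.Laurent

/-!
# P-S48, G1 layer (a): degrees and finiteness descend along a base change of constants (helper80)

Item (iv) of the (A)-checklist.  `K ⊆ L` arbitrary fields (`L = ℂ` in the application),
`E ⊆ K((q))`, `F = L(ι E) ⊆ L((q))` (`IsBC E F`).

* `finite_and_finrank_of_isBC_conv` : the CONVERSE of `HeckeFF.finite_and_finrank_of_isBC`:
  finiteness of `F0 ≤ F1` over `L` implies finiteness of `E0 ≤ E1` over `K`, with the same degree.
* `isBC_adjoin_simple` : `IsBC K⟮x⟯ L⟮ι x⟯`.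
* `finiteAlong_adjoin_simple_iff`, `finrankAlong_adjoin_simple` : bridge between the
  `FiniteAlong (inclusion _)` language and `FiniteDimensional K⟮x⟯ E` for `x : E`.
* `finiteDimensional_and_finrank_of_isBC` : `[F : L(ι x)] < ∞ ⇒ [E : K(x)] < ∞`, equal degrees;
  `finiteDimensional_and_finrank_of_isBC'` : the other direction with the degree.
* `transcendental_of_ne_C`, `transcendental_of_coeffMap_ne_C` : non-constant elements are
  transcendental over the constants.
* section `Iota` : the same for an arbitrary ring hom `ι : L →+* C` of fields and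
  `extField ι E := C(coeffMap ι '' E)`, resp. `laurentBaseChange C Fq` for a rational model `Fq`.
-/

set_option autoImplicit false
set_option linter.unusedSectionVars false
set_option linter.style.haveILetI false

noncomputable section

open ModularCurve AlgebraicCurve IntermediateField

namespace Fermat.Agent.S48x.Ana.DegreeBC

open Fermat.Agent.Gateway.BaseChange Fermat.Agent.Gateway.Hecke.NormBC
open Fermat.Agent.S48x

/-! ### transport of rank / finiteness along a bijection of the scalars -/

section Transport

variable {A B M : Type*} [Field A] [Field B] [AddCommGroup M] [Module A M] [Module B M]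

theorem rank_eq_of_smul_eq (e : A → B) (he : Function.Bijective e)
    (hsm : ∀ (a : A) (m : M), e a • m = a • m) : Module.rank A M = Module.rank B M :=
  rank_eq_of_equiv_equiv e (AddEquiv.refl M) he (fun a m => (hsm a m).symm)

theorem finite_iff_of_smul_eq (e : A → B) (he : Function.Bijective e)
    (hsm : ∀ (a : A) (m : M), e a • m = a • m) : Module.Finite A M ↔ Module.Finite B M := by
  rw [← Module.rank_lt_aleph0_iff, ← Module.rank_lt_aleph0_iff, rank_eq_of_smul_eq e he hsm]

theorem finrank_eq_of_smul_eq (e : A → B) (he : Function.Bijective e)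
    (hsm : ∀ (a : A) (m : M), e a • m = a • m) : Module.finrank A M = Module.finrank B M := by
  unfold Module.finrank
  rw [rank_eq_of_smul_eq e he hsm]

end Transport

/-! ### (a) the converse of `finite_and_finrank_of_isBC` -/

section Converse

variable {K L : Type*} [Field K] [Field L] [Algebra K L]
  {E0 E1 : IntermediateField K (LaurentSeries K)}
  {F0 F1 : IntermediateField L (LaurentSeries L)}

/-- **Finiteness and the degree descend.**  If `F1 / F0` is finite then so is `E1 / E0`, of the
same degree. -/
theorem finite_and_finrank_of_isBC_conv (hE : E0 ≤ E1) (hF : F0 ≤ F1) (h0 : IsBC E0 F0)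
    (h1 : IsBC E1 F1) (hfin : FiniteAlong L (IntermediateField.inclusion hF)) :
    FiniteAlong K (IntermediateField.inclusion hE) ∧
      finrankAlong K (IntermediateField.inclusion hE)
        = finrankAlong L (IntermediateField.inclusion hF) := by
  classical
  letI algE : Algebra E0 E1 := (IntermediateField.inclusion hE).toRingHom.toAlgebra
  letI algF : Algebra F0 F1 := (IntermediateField.inclusion hF).toRingHom.toAlgebra
  haveI hfin' : Module.Finite F0 F1 := hfin
  have hrank : Module.rank E0 E1 ≤ ((Module.finrank F0 F1 : ℕ) : Cardinal) := by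
    apply rank_le
    intro s hs
    have hli := linearIndependent_iotaF hE hF h0 h1 (fun i : s => (i : E1)) hs
    have := hli.fintype_card_le_finrank
    simpa using this
  have hfinK : Module.Finite E0 E1 := by
    rw [← Module.rank_lt_aleph0_iff]
    exact lt_of_le_of_lt hrank Cardinal.natCast_lt_aleph0
  have hKfin : FiniteAlong K (IntermediateField.inclusion hE) := hfinK
  exact ⟨hKfin, ((HeckeFF.finite_and_finrank_of_isBC hE hF h0 h1 hKfin).2).symm⟩

theorem finiteAlong_of_isBC_conv (hE : E0 ≤ E1) (hF : F0 ≤ F1) (h0 : IsBC E0 F0)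
    (h1 : IsBC E1 F1) (hfin : FiniteAlong L (IntermediateField.inclusion hF)) :
    FiniteAlong K (IntermediateField.inclusion hE) :=
  (finite_and_finrank_of_isBC_conv hE hF h0 h1 hfin).1

theorem finrankAlong_of_isBC_conv (hE : E0 ≤ E1) (hF : F0 ≤ F1) (h0 : IsBC E0 F0)
    (h1 : IsBC E1 F1) (hfin : FiniteAlong L (IntermediateField.inclusion hF)) :
    finrankAlong K (IntermediateField.inclusion hE)
      = finrankAlong L (IntermediateField.inclusion hF) :=
  (finite_and_finrank_of_isBC_conv hE hF h0 h1 hfin).2

/-- `L(ι x)` is the base change of `K(x)`. -/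
theorem isBC_adjoin_simple (x : LaurentSeries K) : IsBC K⟮x⟯ L⟮iota K L x⟯ := by
  constructor
  apply le_antisymm
  · rw [adjoin_simple_le_iff]
    exact IntermediateField.subset_adjoin L _ ⟨x, mem_adjoin_simple_self K x, rfl⟩
  · rw [IntermediateField.adjoin_le_iff]
    rintro _ ⟨y, hy, rfl⟩
    replace hy : y ∈ K⟮x⟯ := hy
    show iota K L y ∈ L⟮iota K L x⟯
    induction hy using IntermediateField.adjoin_induction with
    | mem z hz =>
      rw [Set.mem_singleton_iff] at hz
      subst hz
      exact mem_adjoin_simple_self L _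
    | algebraMap c =>
      rw [iota_algebraMap]
      exact IntermediateField.algebraMap_mem _ _
    | add a b _ _ ha hb => rw [map_add]; exact add_mem ha hb
    | inv a _ ha => rw [map_inv₀]; exact inv_mem ha
    | mul a b _ _ ha hb => rw [map_mul]; exact mul_mem ha hb

end Converse

/-! ### bridge: `FiniteAlong (inclusion _)` versus `FiniteDimensional K⟮x⟯ E` -/

section Bridge

variable {K Ω : Type*} [Field K] [Field Ω] [Algebra K Ω] (E : IntermediateField K Ω) (x : E)

/-- `K(x) ≤ E` inside `Ω` for `x : E`. -/
theorem adjoin_simple_coe_le : K⟮(x : Ω)⟯ ≤ E := adjoin_simple_le_iff.mpr x.2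

/-- The canonical map from `K⟮x⟯ ⊆ E` to `K⟮↑x⟯ ⊆ Ω`. -/
def adjoinSimpleMap : (K⟮x⟯ : IntermediateField K E) → (K⟮(x : Ω)⟯ : IntermediateField K Ω) :=
  fun a => ⟨((a : E) : Ω), by
    rw [← IntermediateField.lift_adjoin_simple K E x]
    exact (IntermediateField.mem_lift (a : E)).mpr a.2⟩

theorem adjoinSimpleMap_bijective : Function.Bijective (adjoinSimpleMap E x) := by
  constructor
  · intro a b hab
    have h1 : (((a : E) : Ω)) = ((b : E) : Ω) :=
      congrArg (fun z : (K⟮(x : Ω)⟯ : IntermediateField K Ω) => (z : Ω)) hab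
    exact Subtype.ext (Subtype.ext h1)
  · intro b
    have hbE : (b : Ω) ∈ E := adjoin_simple_coe_le E x b.2
    have hb : (⟨(b : Ω), hbE⟩ : E) ∈ K⟮x⟯ := by
      rw [← IntermediateField.mem_lift, IntermediateField.lift_adjoin_simple]
      exact b.2
    exact ⟨⟨⟨(b : Ω), hbE⟩, hb⟩, Subtype.ext rfl⟩

theorem adjoinSimpleMap_smul (a : (K⟮x⟯ : IntermediateField K E)) (m : E) :
    letI := (IntermediateField.inclusion (adjoin_simple_coe_le E x)).toRingHom.toAlgebra
    adjoinSimpleMap E x a • m = a • m := by
  letI := (IntermediateField.inclusion (adjoin_simple_coe_le E x)).toRingHom.toAlgebra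
  rw [Algebra.smul_def, Algebra.smul_def]
  rfl

theorem finiteAlong_adjoin_simple_iff :
    FiniteAlong K (IntermediateField.inclusion (adjoin_simple_coe_le E x))
      ↔ FiniteDimensional K⟮x⟯ E := by
  letI := (IntermediateField.inclusion (adjoin_simple_coe_le E x)).toRingHom.toAlgebra
  exact (finite_iff_of_smul_eq (adjoinSimpleMap E x) (adjoinSimpleMap_bijective E x)
    (adjoinSimpleMap_smul E x)).symm

theorem finrankAlong_adjoin_simple :
    finrankAlong K (IntermediateField.inclusion (adjoin_simple_coe_le E x))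
      = Module.finrank K⟮x⟯ E := by
  letI := (IntermediateField.inclusion (adjoin_simple_coe_le E x)).toRingHom.toAlgebra
  exact (finrank_eq_of_smul_eq (adjoinSimpleMap E x) (adjoinSimpleMap_bijective E x)
    (adjoinSimpleMap_smul E x)).symm

end Bridge

/-! ### (b) `[E : K(x)] = [F : L(ι x)]` -/

section Simple

variable {K L : Type*} [Field K] [Field L] [Algebra K L]
  {E : IntermediateField K (LaurentSeries K)} {F : IntermediateField L (LaurentSeries L)}

/-- **Descent of finiteness over a simple transcendental subfield.**  If `F / L(ι x)` is finite,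
then `E / K(x)` is finite of the same degree. -/
theorem finiteDimensional_and_finrank_of_isBC (h : IsBC E F) (x : E)
    [hfin : FiniteDimensional L⟮h.iotaF x⟯ F] :
    FiniteDimensional K⟮x⟯ E ∧ Module.finrank K⟮x⟯ E = Module.finrank L⟮h.iotaF x⟯ F := by
  have h0 : IsBC K⟮(x : LaurentSeries K)⟯ L⟮((h.iotaF x : F) : LaurentSeries L)⟯ :=
    isBC_adjoin_simple (x : LaurentSeries K)
  have hfinL := (finiteAlong_adjoin_simple_iff F (h.iotaF x)).mpr hfin
  obtain ⟨h1, h2⟩ := finite_and_finrank_of_isBC_conv (adjoin_simple_coe_le E x)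
    (adjoin_simple_coe_le F (h.iotaF x)) h0 h hfinL
  refine ⟨(finiteAlong_adjoin_simple_iff E x).mp h1, ?_⟩
  rw [← finrankAlong_adjoin_simple E x, h2, finrankAlong_adjoin_simple F (h.iotaF x)]

theorem finiteDimensional_of_isBC (h : IsBC E F) (x : E)
    [FiniteDimensional L⟮h.iotaF x⟯ F] : FiniteDimensional K⟮x⟯ E :=
  (finiteDimensional_and_finrank_of_isBC h x).1

theorem finrank_of_isBC (h : IsBC E F) (x : E) [FiniteDimensional L⟮h.iotaF x⟯ F] :
    Module.finrank K⟮x⟯ E = Module.finrank L⟮h.iotaF x⟯ F :=
  (finiteDimensional_and_finrank_of_isBC h x).2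

/-- The forward direction, with the degree. -/
theorem finiteDimensional_and_finrank_of_isBC' (h : IsBC E F) (x : E)
    [hfin : FiniteDimensional K⟮x⟯ E] :
    FiniteDimensional L⟮h.iotaF x⟯ F ∧
      Module.finrank L⟮h.iotaF x⟯ F = Module.finrank K⟮x⟯ E := by
  have h0 : IsBC K⟮(x : LaurentSeries K)⟯ L⟮((h.iotaF x : F) : LaurentSeries L)⟯ :=
    isBC_adjoin_simple (x : LaurentSeries K)
  have hfinK := (finiteAlong_adjoin_simple_iff E x).mpr hfin
  obtain ⟨h1, h2⟩ := HeckeFF.finite_and_finrank_of_isBC (adjoin_simple_coe_le E x)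
    (adjoin_simple_coe_le F (h.iotaF x)) h0 h hfinK
  refine ⟨(finiteAlong_adjoin_simple_iff F (h.iotaF x)).mp h1, ?_⟩
  rw [← finrankAlong_adjoin_simple F (h.iotaF x), h2, finrankAlong_adjoin_simple E x]

/-- An element of `E ⊆ K((q))` which is not a constant series is transcendental over `K`. -/
theorem transcendental_of_ne_C {x : E} (hx : ∀ c : K, (x : LaurentSeries K) ≠ HahnSeries.C c) :
    Transcendental K x := by
  have h1 : Transcendental K ((x : E) : LaurentSeries K) := fun halg => by
    obtain ⟨c, hc⟩ := Fermat.Agent.S28.eq_C_of_isAlgebraic halg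
    exact hx c hc
  exact (transcendental_algebraMap_iff (algebraMap E (LaurentSeries K)).injective).mp h1

/-- An element of `E ⊆ K((q))` whose image under `coeffMap φ` is not constant is transcendental. -/
theorem transcendental_of_coeffMap_ne_C {C : Type*} [Field C] (φ : K →+* C) {x : E}
    (hx : ∀ c : C, coeffMap φ (x : LaurentSeries K) ≠ HahnSeries.C c) : Transcendental K x := by
  apply transcendental_of_ne_C
  intro c hc
  apply hx (φ c)
  rw [hc, HahnSeries.C_apply, HahnSeries.C_apply]
  exact coeffMap_single φ 0 c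

end Simple

/-! ### the same along an arbitrary ring hom `ι : L →+* C` -/

section Iota

variable {L C : Type*} [Field L] [Field C] (ι : L →+* C)

/-- `EC := C(coeffMap ι '' E) ⊆ C((q))`. -/
def extField (E : IntermediateField L (LaurentSeries L)) :
    IntermediateField C (LaurentSeries C) :=
  IntermediateField.adjoin C (⇑(coeffMap ι) '' (E : Set (LaurentSeries L)))

theorem isBC_extField (E : IntermediateField L (LaurentSeries L)) :
    letI := ι.toAlgebra
    IsBC E (extField ι E) := by
  letI := ι.toAlgebra
  exact ⟨rfl⟩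

/-- `coeffMap ι` as a ring hom `E → EC`. -/
def extHom (E : IntermediateField L (LaurentSeries L)) : E →+* extField ι E :=
  letI := ι.toAlgebra
  (isBC_extField ι E).iotaF

@[simp] theorem coe_extHom (E : IntermediateField L (LaurentSeries L)) (x : E) :
    ((extHom ι E x : extField ι E) : LaurentSeries C) = coeffMap ι (x : LaurentSeries L) := rfl

/-- **(iv)(b)**: `[EC : C(xC)] < ∞ ⇒ [E : L(x)] < ∞`, with equal degrees. -/
theorem finiteDimensional_and_finrank_extField (E : IntermediateField L (LaurentSeries L)) (x : E)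
    [hfin : FiniteDimensional C⟮extHom ι E x⟯ (extField ι E)] :
    FiniteDimensional L⟮x⟯ E ∧
      Module.finrank L⟮x⟯ E = Module.finrank C⟮extHom ι E x⟯ (extField ι E) := by
  letI := ι.toAlgebra
  haveI : FiniteDimensional C⟮(isBC_extField ι E).iotaF x⟯ (extField ι E) := hfin
  exact finiteDimensional_and_finrank_of_isBC (isBC_extField ι E) x

/-- Variant with an explicitly given base change `EC` and image `xC` of `x`. -/
theorem finiteDimensional_and_finrank_of_eq_adjoin (E : IntermediateField L (LaurentSeries L))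
    (EC : IntermediateField C (LaurentSeries C))
    (hEC : EC = IntermediateField.adjoin C (⇑(coeffMap ι) '' (E : Set (LaurentSeries L))))
    (x : E) (xC : EC) (hx : (xC : LaurentSeries C) = coeffMap ι (x : LaurentSeries L))
    [FiniteDimensional C⟮xC⟯ EC] :
    FiniteDimensional L⟮x⟯ E ∧ Module.finrank L⟮x⟯ E = Module.finrank C⟮xC⟯ EC := by
  letI := ι.toAlgebra
  have h : IsBC E EC := ⟨hEC⟩
  obtain rfl : xC = h.iotaF x := Subtype.ext hx
  exact finiteDimensional_and_finrank_of_isBC h x

variable [Algebra ℚ L] [Algebra ℚ C]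

theorem isScalarTower_toAlgebra :
    letI := ι.toAlgebra
    IsScalarTower ℚ L C := by
  letI := ι.toAlgebra
  refine IsScalarTower.of_algebraMap_eq fun q => ?_
  exact RingHom.congr_fun (Subsingleton.elim (algebraMap ℚ C) (ι.comp (algebraMap ℚ L))) q

theorem isBC_laurentBaseChange_toAlgebra (Fq : IntermediateField ℚ (LaurentSeries ℚ)) :
    letI := ι.toAlgebra
    IsBC (laurentBaseChange L Fq) (laurentBaseChange C Fq) := by
  letI := ι.toAlgebra
  haveI := isScalarTower_toAlgebra ι
  exact isBC_laurentBaseChange L C Fq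

/-- `coeffMap ι` as a ring hom `F_L → F_C` for a rational model `Fq`. -/
def lbcHom (Fq : IntermediateField ℚ (LaurentSeries ℚ)) :
    laurentBaseChange L Fq →+* laurentBaseChange C Fq :=
  letI := ι.toAlgebra
  (isBC_laurentBaseChange_toAlgebra ι Fq).iotaF

@[simp] theorem coe_lbcHom (Fq : IntermediateField ℚ (LaurentSeries ℚ))
    (x : laurentBaseChange L Fq) :
    ((lbcHom ι Fq x : laurentBaseChange C Fq) : LaurentSeries C)
      = coeffMap ι (x : LaurentSeries L) := rfl

/-- **(iv)(b) for rational models**: `[F_C : C(xC)] < ∞ ⇒ [F_L : L(x)] < ∞`, equal degrees. -/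
theorem finiteDimensional_and_finrank_laurentBaseChange
    (Fq : IntermediateField ℚ (LaurentSeries ℚ)) (x : laurentBaseChange L Fq)
    (xC : laurentBaseChange C Fq)
    (hx : (xC : LaurentSeries C) = coeffMap ι (x : LaurentSeries L))
    [FiniteDimensional C⟮xC⟯ (laurentBaseChange C Fq)] :
    FiniteDimensional L⟮x⟯ (laurentBaseChange L Fq) ∧
      Module.finrank L⟮x⟯ (laurentBaseChange L Fq)
        = Module.finrank C⟮xC⟯ (laurentBaseChange C Fq) := by
  letI := ι.toAlgebra
  have h := isBC_laurentBaseChange_toAlgebra ι Fq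
  obtain rfl : xC = h.iotaF x := Subtype.ext hx
  exact finiteDimensional_and_finrank_of_isBC h x

end Iota

end Fermat.Agent.S48x.Ana.DegreeBC
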