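import Fermat.Agent.S48x.Ana.DegreeF1
import Fermat.Agent.S48x.Ana.LevelPFinal

/-!
# P-S48, G1: the degeneracy map `α : F1_L → F1(p)_L` has degree `p + 1` (helper80)

HYPOTHESIS-FREE instantiation of helper48's `Ana/LevelPFinal.finrank_alphaL_C` at helper8's
uniformisation `Emb1Inst.embDataC` of `X₁(M)` (`8 ≤ M`), and descent to every field `K ↪ ℂ`:

* `finite_and_finrank_alphaG_baseChange_conv`, `finite_and_finrank_alphaG_of_ringHom` : GENERIC
  converse base change for `alphaG` (corollary of `DegreeBC.finite_and_finrank_of_isBC_conv`);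
* `hrange_embDataC` : the range of `embDataC` is everything `±Γ₁(M)`-invariant and cusp-meromorphic;
* `isAlgebraic_levelField_C` : the instance argument of `LevelP.embDataP1_mem_cuspAllField`, ...;
* `finrank_alphaL_gamma1_C`, `finrank_alphaL_gamma1` :
  `FiniteAlong K (alphaL (gamma1Field M) p K) ∧ finrankAlong K (alphaL (gamma1Field M) p K) = p + 1`
  (= `hfin`, `hdeg` of `LevelP.normQExpFormulaD_levelP`, `NormQ1.normQExp_hecke`).
-/

set_option autoImplicit false
set_option linter.unusedSectionVars false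
set_option linter.style.haveILetI false

noncomputable section

open ModularCurve AlgebraicCurve IntermediateField
open scoped MatrixGroups

namespace Fermat.Agent.S48x.Ana.DegreeP1

open Fermat.Agent.Gateway.BaseChange
open Fermat.Agent.Gateway.Dict Fermat.Agent.Gateway.Dict.NormAlpha
open Fermat.Agent.S48x.Model Fermat.Agent.S48x.G1 Fermat.Agent.S48x.Ana.Emb1
open Fermat.Agent.S48x.Ana.DegreeBC Fermat.Agent.S48x.Ana.DegreeF1 Fermat.Agent.S48x.HeckeFF
open Fermat.Agent.S48x.Ana.LevelP Fermat.Agent.S48x.PPack Fermat.Agent.S48x.PPack.CycloUnit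

/-! ### generic: converse base change for `alphaG` -/

section Conv

variable {F₀ F₁ : IntermediateField ℚ (LaurentSeries ℚ)}

/-- Finiteness and the degree of `α` descend from `L` to `K ⊆ L`. -/
theorem finite_and_finrank_alphaG_baseChange_conv (K L : Type*) [Field K] [Field L] [Algebra K L]
    [Algebra ℚ K] [Algebra ℚ L] [IsScalarTower ℚ K L] (hle : F₀ ≤ F₁)
    (hfin : FiniteAlong L (alphaG L hle)) :
    FiniteAlong K (alphaG K hle) ∧
      finrankAlong K (alphaG K hle) = finrankAlong L (alphaG L hle) :=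
  finite_and_finrank_of_isBC_conv (laurentBaseChange_mono K hle) (laurentBaseChange_mono L hle)
    (isBC_laurentBaseChange K L F₀) (isBC_laurentBaseChange K L F₁) hfin

/-- The same along an arbitrary ring hom `ι : K →+* C` of fields of characteristic zero. -/
theorem finite_and_finrank_alphaG_of_ringHom {K C : Type*} [Field K] [Field C] [Algebra ℚ K]
    [Algebra ℚ C] (ι : K →+* C) (hle : F₀ ≤ F₁) (hfin : FiniteAlong C (alphaG C hle)) :
    FiniteAlong K (alphaG K hle) ∧
      finrankAlong K (alphaG K hle) = finrankAlong C (alphaG C hle) := by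
  letI := ι.toAlgebra
  haveI := isScalarTower_toAlgebra ι
  exact finite_and_finrank_alphaG_baseChange_conv K C hle hfin

end Conv

/-! ### instantiation at `gamma1Field M` -/

section Inst

variable {M : ℕ} [NeZero M]

/-- **The range of the analytic uniformisation of `X₁(M)` over `ℂ`.** -/
theorem hrange_embDataC (hM : 8 ≤ M) :
    ∀ x ∈ cuspAllField M, (∀ γ ∈ Gamma1pm M, γ • x = x) → x ∈ (embDataC hM).emb.range := by
  intro x hx hinv
  letI : Fintype (SL(2, ℤ) ⧸ Gamma1pm M) := Fintype.ofFinite _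
  exact (Fermat.Agent.S27x.G1.mem_range_iff (embDataC hM) (Nat.pos_of_ne_zero (NeZero.ne M))
    (hcusp_embDataC hM) x).mpr ⟨hinv, mem_cuspAllField.mp hx⟩

theorem hasQ_embDataC_id (hM : 8 ≤ M) (f : ↥(laurentBaseChange ℂ (gamma1Field M))) :
    QExpMer.HasQ ((embDataC hM).emb f) (coeffMap (RingHom.id ℂ) (f : LaurentSeries ℂ)) :=
  hasQ_embData1 (ι := RingHom.id ℂ) hM (isPrimitiveRoot_zetaM M) rfl f

variable (p : ℕ) [NeZero p]

/-- The level field over `ℂ` is finite over `ℂ(α j)`. -/
theorem finiteDimensional_levelField_C (hM : 8 ≤ M) (hp : p.Prime) :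
    FiniteDimensional (IntermediateField.adjoin ℂ {alphaL (gamma1Field M) p ℂ (jF1R ℂ M)})
      ↥(laurentBaseChange ℂ (levelField (gamma1Field M) p)) := by
  haveI := finiteDimensional_jG (L := ℂ) (RingHom.id ℂ) hM (jq_mem_gamma1Field M)
  have h := finiteDimensional_levelField ℂ p hp (jq_mem_gamma1Field M)
  rwa [← alphaL_jG ℂ p (jq_mem_gamma1Field M)] at h

theorem isAlgebraic_levelField_C (hM : 8 ≤ M) (hp : p.Prime) :
    Algebra.IsAlgebraic (IntermediateField.adjoin ℂ {alphaL (gamma1Field M) p ℂ (jF1R ℂ M)})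
      ↥(laurentBaseChange ℂ (levelField (gamma1Field M) p)) :=
  haveI := finiteDimensional_levelField_C p hM hp
  Algebra.IsAlgebraic.of_finite _ _

/-- **Degree of `α` over `ℂ`**, hypothesis-free. -/
theorem finrank_alphaL_gamma1_C (hM : 8 ≤ M) (hp : p.Prime) (hpM : ¬ p ∣ M) :
    FiniteAlong ℂ (alphaL (gamma1Field M) p ℂ) ∧
      finrankAlong ℂ (alphaL (gamma1Field M) p ℂ) = p + 1 :=
  haveI := isAlgebraic_levelField_C p hM hp
  finrank_alphaL_C p (embDataC hM) (hasQ_embDataC_id hM) hp (by omega) hpM (hrange_embDataC hM)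

/-- **Degree of `α` over any field `K ↪ ℂ`**, hypothesis-free. -/
theorem finrank_alphaL_gamma1 {K : Type} [Field K] [Algebra ℚ K] (ι : K →+* ℂ) (hM : 8 ≤ M)
    (hp : p.Prime) (hpM : ¬ p ∣ M) :
    FiniteAlong K (alphaL (gamma1Field M) p K) ∧
      finrankAlong K (alphaL (gamma1Field M) p K) = p + 1 := by
  obtain ⟨h1, h2⟩ := finrank_alphaL_gamma1_C p hM hp hpM
  obtain ⟨h3, h4⟩ := finite_and_finrank_alphaG_of_ringHom ι
    (le_levelField (gamma1Field M) p) h1
  exact ⟨h3, h4.trans h2⟩

theorem finiteAlong_alphaL_gamma1 {K : Type} [Field K] [Algebra ℚ K] (ι : K →+* ℂ) (hM : 8 ≤ M)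
    (hp : p.Prime) (hpM : ¬ p ∣ M) : FiniteAlong K (alphaL (gamma1Field M) p K) :=
  (finrank_alphaL_gamma1 p ι hM hp hpM).1

theorem finrankAlong_alphaL_gamma1 {K : Type} [Field K] [Algebra ℚ K] (ι : K →+* ℂ) (hM : 8 ≤ M)
    (hp : p.Prime) (hpM : ¬ p ∣ M) : finrankAlong K (alphaL (gamma1Field M) p K) = p + 1 :=
  (finrank_alphaL_gamma1 p ι hM hp hpM).2

end Inst

end Fermat.Agent.S48x.Ana.DegreeP1
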