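/-
P-S48, block G1 layer (a), slice (A6'), (helper77): the diamond operators on `Pic⁰` of
`F1 L M = laurentBaseChange L (gamma1Field M)` and on its torsion, and their commutation with the
arithmetic Galois action.

Everything is formal from `Ana/Diamond.lean`: `δ_d` is an `L`-algebra automorphism of `F1 L M`,
hence an element `diamondSemi d` of `SemilinearAut L (F1 L M)` (`SemilinearAut.ofAlgAut`), which
acts on places, divisors, `Pic⁰` and torsion by the Prelude instances; it commutes with
`arithmeticGalois (gamma1Field M) σ` IN THE GROUP `SemilinearAut L (F1 L M)`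
(`Diamond.arithmeticRingAut_diamond`), so the two actions commute on every object.
-/
import Fermat.Agent.S48x.Ana.Diamond
import Fermat.Prelude.Def_ModularCurve_ArithmeticGalois

set_option autoImplicit false
set_option linter.unusedSectionVars false
set_option linter.style.haveILetI false

noncomputable section

open ModularCurve AlgebraicCurve
open scoped MatrixGroups

namespace Fermat.Agent.S48x.Ana.Diamond

open Fermat.Agent.S48x.Model

variable {M : ℕ} [NeZero M] {L : Type*} [Field L] [Algebra ℚ L]
  {ζ : L} (hζ : IsPrimitiveRoot ζ M) {ι : L →+* ℂ} (D : SlashData M L ζ ι)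
include hζ

/-- The diamond operators as semilinear (in fact linear) automorphisms of `F1 L M`. -/
def diamondSemi : (ZMod M)ˣ →* SemilinearAut L ↥(laurentBaseChange L (gamma1Field M)) :=
  SemilinearAut.ofAlgAut.comp (diamondHom hζ D)

@[simp]
theorem diamondSemi_smul (d : (ZMod M)ˣ) (f : ↥(laurentBaseChange L (gamma1Field M))) :
    diamondSemi hζ D d • f = diamond hζ D d f := rfl

@[simp]
theorem baseAut_diamondSemi (d : (ZMod M)ˣ) :
    SemilinearAut.baseAut (diamondSemi hζ D d) = 1 := rfl

/-- **The diamond operators commute with the arithmetic Galois action**, in the group of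
semilinear automorphisms of `F1 L M`. -/
theorem commute_diamondSemi_arithmeticGalois (d : (ZMod M)ˣ) (σ : L ≃ₐ[ℚ] L) :
    Commute (diamondSemi hζ D d) (arithmeticGalois (gamma1Field M) σ) := by
  refine Subtype.ext (Prod.ext (RingEquiv.ext fun f => ?_) ?_)
  · show diamond hζ D d (arithmeticRingAut (gamma1Field M) σ f) =
      arithmeticRingAut (gamma1Field M) σ (diamond hζ D d f)
    exact (arithmeticRingAut_diamond hζ D σ d f).symm
  · show (1 : RingAut L) * σ.toRingEquiv = σ.toRingEquiv * 1
    rw [one_mul, mul_one]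

/-- On any object with an action of the semilinear automorphisms (places, divisors, `Pic⁰`, …) the
diamond operators commute with the Galois action. -/
theorem diamondSemi_smul_comm {X : Type*}
    [MulAction (SemilinearAut L ↥(laurentBaseChange L (gamma1Field M))) X]
    (d : (ZMod M)ˣ) (σ : L ≃ₐ[ℚ] L) (x : X) :
    diamondSemi hζ D d • (arithmeticGalois (gamma1Field M) σ • x) =
      arithmeticGalois (gamma1Field M) σ • (diamondSemi hζ D d • x) := by
  rw [← mul_smul, ← mul_smul, (commute_diamondSemi_arithmeticGalois hζ D d σ).eq]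

/-- The diamond operator `⟨d⟩` on `Pic⁰ (F1 L M)`. -/
def diamondPic (d : (ZMod M)ˣ) :
    Pic0 L ↥(laurentBaseChange L (gamma1Field M)) →+
      Pic0 L ↥(laurentBaseChange L (gamma1Field M)) :=
  DistribSMul.toAddMonoidHom _ (diamondSemi hζ D d)

@[simp]
theorem diamondPic_apply (d : (ZMod M)ˣ) (x : Pic0 L ↥(laurentBaseChange L (gamma1Field M))) :
    diamondPic hζ D d x = diamondSemi hζ D d • x := rfl

theorem diamondPic_one (x : Pic0 L ↥(laurentBaseChange L (gamma1Field M))) :
    diamondPic hζ D 1 x = x := by
  rw [diamondPic_apply, map_one, one_smul]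

theorem diamondPic_mul (d d' : (ZMod M)ˣ) (x : Pic0 L ↥(laurentBaseChange L (gamma1Field M))) :
    diamondPic hζ D (d * d') x = diamondPic hζ D d (diamondPic hζ D d' x) := by
  rw [diamondPic_apply, diamondPic_apply, diamondPic_apply, map_mul, mul_smul]

/-- **`σ ⟨d⟩ x = ⟨d⟩ σ x`** on `Pic⁰ (F1 L M)` (the `[GAL]` input for the diamond operators). -/
theorem galois_smul_diamondPic (σ : L ≃ₐ[ℚ] L) (d : (ZMod M)ˣ)
    (x : Pic0 L ↥(laurentBaseChange L (gamma1Field M))) :
    σ • diamondPic hζ D d x = diamondPic hζ D d (σ • x) := by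
  rw [galois_smul_pic0_def, galois_smul_pic0_def, diamondPic_apply, diamondPic_apply]
  exact (diamondSemi_smul_comm hζ D d σ x).symm

/-- The diamond operators on the `n`-torsion of `Pic⁰ (F1 L M)`. -/
def diamondTorsion (n : ℕ) : (ZMod M)ˣ →*
    Module.End (ZMod n) (Pic0.torsion L ↥(laurentBaseChange L (gamma1Field M)) n) :=
  (SemilinearAut.torsionRep L ↥(laurentBaseChange L (gamma1Field M)) n).comp (diamondSemi hζ D)

@[simp]
theorem coe_diamondTorsion_apply (n : ℕ) (d : (ZMod M)ˣ)
    (x : Pic0.torsion L ↥(laurentBaseChange L (gamma1Field M)) n) :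
    ((diamondTorsion hζ D n d x : Pic0.torsion L ↥(laurentBaseChange L (gamma1Field M)) n) :
      Pic0 L ↥(laurentBaseChange L (gamma1Field M))) =
      diamondPic hζ D d (x : Pic0 L ↥(laurentBaseChange L (gamma1Field M))) := rfl

/-- The Galois representation on the `n`-torsion of `Pic⁰ (F1 L M)` (as for `JZero`). -/
def torsionGaloisRep1 (M : ℕ) [NeZero M] (L : Type*) [Field L] [Algebra ℚ L] (n : ℕ) :
    (L ≃ₐ[ℚ] L) →*
      Module.End (ZMod n) (Pic0.torsion L ↥(laurentBaseChange L (gamma1Field M)) n) :=
  (SemilinearAut.torsionRep _ _ n).comp (arithmeticGalois (gamma1Field M))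

/-- On torsion, the diamond operators commute with the Galois representation. -/
theorem commute_diamondTorsion_torsionGaloisRep1 (n : ℕ) (d : (ZMod M)ˣ) (σ : L ≃ₐ[ℚ] L) :
    Commute (diamondTorsion hζ D n d) (torsionGaloisRep1 M L n σ) := by
  show (SemilinearAut.torsionRep _ _ n) (diamondSemi hζ D d) *
      (SemilinearAut.torsionRep _ _ n) (arithmeticGalois (gamma1Field M) σ) =
    (SemilinearAut.torsionRep _ _ n) (arithmeticGalois (gamma1Field M) σ) *
      (SemilinearAut.torsionRep _ _ n) (diamondSemi hζ D d)
  rw [← map_mul, ← map_mul, (commute_diamondSemi_arithmeticGalois hζ D d σ).eq]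

end Fermat.Agent.S48x.Ana.Diamond
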