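/-
P-S48, block G1, glue between layer (a) slice (A6) (`Ana/Diamond.lean`, `Ana/DiamondPic.lean`) and
layer (b2) slice (S2) (`HeckeFF/Diamond.lean`), (helper77).

`HeckeFF.DiamondSys L F₀ G` is the consumption shape of the diamond operators in the function-field
Hecke layer: a group acting on `laurentBaseChange L F₀` by `L`-algebra automorphisms commuting with
the coefficientwise Galois action.  Here it is instantiated for `F₀ = gamma1Field M`,
`G = (ℤ/M)ˣ` from a `Diamond.SlashData M L ζ ι`:

* `diamondSys hζ D : HeckeFF.DiamondSys L (gamma1Field M) (ZMod M)ˣ`, with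
  `diamondSys_act_apply : (diamondSys hζ D).act d f = diamond hζ D d f`;
* the transported generator formulas `coe_diamondSys_act_ratio1`, `diamondSys_act_j`,
  `diamondSys_act_eq_self_of_mem_gamma0Field` and the analytic characterisation
  `emb_diamondSys_act`;
* `diamondSys_pic_apply : (diamondSys hζ D).pic d x = diamondPic hζ D d x` (the two `Pic⁰` actions
  agree, definitionally), so all of `DiamondSys.{pic_comm, galois_pic_comm, isKummerRep_pic,
  pic_mem_torsion, pic_heckeG_comm}` apply to `diamondPic`.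
-/
import Fermat.Agent.S48x.Ana.DiamondPic
import Fermat.Agent.S48x.HeckeFF.Diamond

set_option autoImplicit false
set_option linter.unusedSectionVars false
set_option linter.style.haveILetI false

noncomputable section

open ModularCurve AlgebraicCurve
open scoped MatrixGroups

namespace Fermat.Agent.S48x.Ana.Diamond

open CongruenceSubgroup Fermat.Agent.S48x.Model Fermat.Agent.S48x.G1 Fermat.Agent.S48x.HeckeFF
  Fermat.Agent.Gateway.Kummer

variable {M : ℕ} [NeZero M] {L : Type*} [Field L] [Algebra ℚ L]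
  {ζ : L} (hζ : IsPrimitiveRoot ζ M) {ι : L →+* ℂ} (D : SlashData M L ζ ι)
include hζ

/-- The diamond operators of `F1 L M` as a `HeckeFF.DiamondSys`. -/
def diamondSys : DiamondSys L (gamma1Field M) (ZMod M)ˣ where
  act := diamondHom hζ D
  galois_comm d σ u := arithmeticRingAut_diamond hζ D σ d u

@[simp]
theorem diamondSys_act (d : (ZMod M)ˣ) : (diamondSys hζ D).act d = diamond hζ D d := rfl

theorem diamondSys_act_apply (d : (ZMod M)ˣ) (f : ↥(laurentBaseChange L (gamma1Field M))) :
    (diamondSys hζ D).act d f = diamond hζ D d f := rfl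

/-- Analytic characterisation: `⟨d⟩` is the action of `τ⁻¹` for any `τ ∈ Γ₀(M)` with lower right
entry `d` (the action on `MerFun` being `(g • f) z = f (g⁻¹ z)`); this is the hypothesis `hg` of
`HeckeFF/Theta.theta_smul`. -/
theorem emb_diamondSys_act (d : (ZMod M)ˣ) {τ : SL(2, ℤ)} (hτ : τ ∈ Gamma0 M)
    (hd : lr M τ = (d : ZMod M)) (f : ↥(laurentBaseChange L (gamma1Field M))) :
    D.emb ((diamondSys hζ D).act d f) = τ⁻¹ • D.emb f :=
  emb_diamond_inv hζ D d hτ hd f

/-- `⟨d⟩ (ratio1 b c b' c') = ratio1 (d b) (d c) (d b') (d c')`. -/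
theorem coe_diamondSys_act_ratio1 (d : (ZMod M)ˣ) {b c b' c' : ZMod M}
    (hb : b ≠ 0) (hc : c ≠ 0) (hb' : b' ≠ 0) (hc' : c' ≠ 0)
    {x : ↥(laurentBaseChange L (gamma1Field M))}
    (hx : (x : LaurentSeries L) = ratio1 M ζ b c b' c') :
    (((diamondSys hζ D).act d x : ↥(laurentBaseChange L (gamma1Field M))) : LaurentSeries L) =
      ratio1 M ζ ((d : ZMod M) * b) ((d : ZMod M) * c) ((d : ZMod M) * b') ((d : ZMod M) * c') :=
  coe_diamond_ratio1 hζ D d hb hc hb' hc' hx

/-- `⟨d⟩` fixes `j(e τ)` for `e ∣ M`. -/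
theorem diamondSys_act_j (d : (ZMod M)ˣ) {e : ℕ} [NeZero e] (he : e ∣ M)
    {x : ↥(laurentBaseChange L (gamma1Field M))}
    (hx : (x : LaurentSeries L) = qExpand L e (jqModC L)) : (diamondSys hζ D).act d x = x :=
  diamond_j hζ D d he hx

/-- The `Pic⁰` action of the `DiamondSys` is `diamondPic`. -/
theorem diamondSys_pic_apply (d : (ZMod M)ˣ)
    (x : Pic0 L ↥(laurentBaseChange L (gamma1Field M))) :
    (diamondSys hζ D).pic d x = diamondPic hζ D d x := rfl

theorem diamondSys_pic (d : (ZMod M)ˣ) :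
    ((diamondSys hζ D).pic d : Pic0 L ↥(laurentBaseChange L (gamma1Field M)) →+
      Pic0 L ↥(laurentBaseChange L (gamma1Field M))) = diamondPic hζ D d := rfl

/-- The diamond operators on `Pic⁰ (F1 L M)` commute with each other. -/
theorem diamondPic_comm (d d' : (ZMod M)ˣ) (x : Pic0 L ↥(laurentBaseChange L (gamma1Field M))) :
    diamondPic hζ D d (diamondPic hζ D d' x) = diamondPic hζ D d' (diamondPic hζ D d x) :=
  (diamondSys hζ D).pic_comm d d' x

/-- The Kummer representative of `⟨d⟩ x` is `δ_d u`. -/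
theorem isKummerRep_diamondPic {m : ℕ} {x : Pic0 L ↥(laurentBaseChange L (gamma1Field M))}
    {u : ↥(laurentBaseChange L (gamma1Field M))} (h : IsKummerRep m x u) (d : (ZMod M)ˣ) :
    IsKummerRep m (diamondPic hζ D d x) (diamond hζ D d u) :=
  (diamondSys hζ D).isKummerRep_pic h d

end Fermat.Agent.S48x.Ana.Diamond
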