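/-
P-S48, block G1 layer (a), (A6) INSTANTIATED (helper77): the diamond operators of `X₁(M)`,
unconditional.

`Ana/Diamond.lean` builds `δ_d` from a `SlashData M L ζ ι`; `Ana/Emb1Inst.lean` (helper8) provides
the analytic uniformisation `embData1 ι ζ hM hζ hι` of `F1 L M = laurentBaseChange L (gamma1Field M)`
with the slash laws of `Γ₀(M)` on the generators.  This file plugs the second into the first:

* `slashData1 hM hζ hι : SlashData M L ζ ι`, `slashData1_emb`;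
* `diamond1 hM hζ hι d : F1 L M ≃ₐ[L] F1 L M`, `diamond1Hom`, with
  `embData1_diamond1 : emb (δ_d f) = τ⁻¹ • emb f` for `τ ∈ Γ₀(M)`, `lr M τ = d`,
  `coe_diamond1_ratio1`, `diamond1_j`, `arithmeticRingAut_diamond1`;
* `diamondSys1 hM hζ hι : HeckeFF.DiamondSys L (gamma1Field M) (ZMod M)ˣ`;
* for `L` algebraically closed of characteristic zero (`ℚ̄`, `ℂ`) with any `ι : L →+* ℂ`:
  `exists_diamondSys`: existence of the `DiamondSys` with the generator formulas (no choice of `ζ`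
  visible to the consumer except through the formula on `ratio1`).
-/
import Fermat.Agent.S48x.Ana.Emb1Inst
import Fermat.Agent.S48x.Ana.DiamondSysInst

set_option autoImplicit false
set_option linter.unusedSectionVars false
set_option linter.style.haveILetI false

noncomputable section

open ModularCurve AlgebraicCurve
open scoped MatrixGroups

namespace Fermat.Agent.S48x.Ana.Diamond

open CongruenceSubgroup Fermat.Agent.S48x.Model Fermat.Agent.S48x.G1 Fermat.Agent.S48x.HeckeFF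
  Fermat.Agent.S48x.PPack Fermat.Agent.S48x.Ana.Emb1

variable {M : ℕ} [NeZero M] {L : Type*} [Field L] [Algebra ℚ L] {ι : L →+* ℂ} {ζ : L}

/-- The `SlashData` of the analytic uniformisation `embData1` of `X₁(M)`. -/
def slashData1 (hM : 8 ≤ M) (hζ : IsPrimitiveRoot ζ M) (hι : ι ζ = zetaM M) :
    SlashData M L ζ ι where
  emb := (embData1 ι ζ hM hζ hι).emb
  emb_const := (embData1 ι ζ hM hζ hι).emb_const
  slash_j := fun _ hg _ _ he x hx => embData1_slash_j hM hζ hι hg he x hx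
  slash_ratio1 := fun _ hg _ _ _ _ hb hc hb' hc' x y hx hy =>
    embData1_slash_ratio1 hM hζ hι hg hb hc hb' hc' x y hx hy

@[simp]
theorem slashData1_emb (hM : 8 ≤ M) (hζ : IsPrimitiveRoot ζ M) (hι : ι ζ = zetaM M) :
    (slashData1 hM hζ hι).emb = (embData1 ι ζ hM hζ hι).emb := rfl

/-- **The diamond automorphism `δ_d` of the function field of `X₁(M)`.** -/
def diamond1 (hM : 8 ≤ M) (hζ : IsPrimitiveRoot ζ M) (hι : ι ζ = zetaM M) (d : (ZMod M)ˣ) :
    ↥(laurentBaseChange L (gamma1Field M)) ≃ₐ[L] ↥(laurentBaseChange L (gamma1Field M)) :=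
  diamond hζ (slashData1 hM hζ hι) d

/-- The diamond operators as a group homomorphism. -/
def diamond1Hom (hM : 8 ≤ M) (hζ : IsPrimitiveRoot ζ M) (hι : ι ζ = zetaM M) : (ZMod M)ˣ →*
    (↥(laurentBaseChange L (gamma1Field M)) ≃ₐ[L] ↥(laurentBaseChange L (gamma1Field M))) :=
  diamondHom hζ (slashData1 hM hζ hι)

@[simp]
theorem diamond1Hom_apply (hM : 8 ≤ M) (hζ : IsPrimitiveRoot ζ M) (hι : ι ζ = zetaM M)
    (d : (ZMod M)ˣ) : diamond1Hom hM hζ hι d = diamond1 hM hζ hι d := rfl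

/-- **`emb (δ_d f) = τ⁻¹ • emb f`** for any `τ ∈ Γ₀(M)` with lower right entry `d`. -/
theorem embData1_diamond1 (hM : 8 ≤ M) (hζ : IsPrimitiveRoot ζ M) (hι : ι ζ = zetaM M)
    (d : (ZMod M)ˣ) {τ : SL(2, ℤ)} (hτ : τ ∈ Gamma0 M) (hd : lr M τ = (d : ZMod M))
    (f : ↥(laurentBaseChange L (gamma1Field M))) :
    (embData1 ι ζ hM hζ hι).emb (diamond1 hM hζ hι d f) = τ⁻¹ • (embData1 ι ζ hM hζ hι).emb f :=
  emb_diamond_inv hζ (slashData1 hM hζ hι) d hτ hd f

/-- `emb (δ_d f) = g • emb f` for any `g ∈ Γ₀(M)` whose inverse has lower right entry `d`. -/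
theorem embData1_diamond1' (hM : 8 ≤ M) (hζ : IsPrimitiveRoot ζ M) (hι : ι ζ = zetaM M)
    (d : (ZMod M)ˣ) {g : SL(2, ℤ)} (hg : g ∈ Gamma0 M) (hd : lr M g⁻¹ = (d : ZMod M))
    (f : ↥(laurentBaseChange L (gamma1Field M))) :
    (embData1 ι ζ hM hζ hι).emb (diamond1 hM hζ hι d f) = g • (embData1 ι ζ hM hζ hι).emb f :=
  emb_diamond hζ (slashData1 hM hζ hι) d hg hd f

/-- `δ_d (ratio1 b c b' c') = ratio1 (d b) (d c) (d b') (d c')`. -/
theorem coe_diamond1_ratio1 (hM : 8 ≤ M) (hζ : IsPrimitiveRoot ζ M) (hι : ι ζ = zetaM M)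
    (d : (ZMod M)ˣ) {b c b' c' : ZMod M} (hb : b ≠ 0) (hc : c ≠ 0) (hb' : b' ≠ 0) (hc' : c' ≠ 0)
    {x : ↥(laurentBaseChange L (gamma1Field M))}
    (hx : (x : LaurentSeries L) = ratio1 M ζ b c b' c') :
    ((diamond1 hM hζ hι d x : ↥(laurentBaseChange L (gamma1Field M))) : LaurentSeries L) =
      ratio1 M ζ ((d : ZMod M) * b) ((d : ZMod M) * c) ((d : ZMod M) * b') ((d : ZMod M) * c') :=
  coe_diamond_ratio1 hζ (slashData1 hM hζ hι) d hb hc hb' hc' hx

/-- `δ_d` fixes the `j(q^e)`, `e ∣ M`. -/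
theorem diamond1_j (hM : 8 ≤ M) (hζ : IsPrimitiveRoot ζ M) (hι : ι ζ = zetaM M)
    (d : (ZMod M)ˣ) {e : ℕ} [NeZero e] (he : e ∣ M)
    {x : ↥(laurentBaseChange L (gamma1Field M))}
    (hx : (x : LaurentSeries L) = qExpand L e (jqModC L)) : diamond1 hM hζ hι d x = x :=
  diamond_j hζ (slashData1 hM hζ hι) d he hx

/-- `δ_d` fixes the function field of `X₀(M)`. -/
theorem diamond1_eq_self_of_mem_gamma0Field (hM : 8 ≤ M) (hζ : IsPrimitiveRoot ζ M)
    (hι : ι ζ = zetaM M) (d : (ZMod M)ˣ) {f : ↥(laurentBaseChange L (gamma1Field M))}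
    (hf : (f : LaurentSeries L) ∈ laurentBaseChange L (modularFunctionFieldFull M)) :
    diamond1 hM hζ hι d f = f :=
  diamond_eq_self_of_mem_gamma0Field hζ (slashData1 hM hζ hι) d hf

/-- `δ_d` commutes with the coefficientwise Galois action. -/
theorem arithmeticRingAut_diamond1 (hM : 8 ≤ M) (hζ : IsPrimitiveRoot ζ M) (hι : ι ζ = zetaM M)
    (σ : L ≃ₐ[ℚ] L) (d : (ZMod M)ˣ) (f : ↥(laurentBaseChange L (gamma1Field M))) :
    arithmeticRingAut (gamma1Field M) σ (diamond1 hM hζ hι d f) =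
      diamond1 hM hζ hι d (arithmeticRingAut (gamma1Field M) σ f) :=
  arithmeticRingAut_diamond hζ (slashData1 hM hζ hι) σ d f

/-- **The diamond system of `X₁(M)`** in the shape consumed by `HeckeFF`. -/
def diamondSys1 (hM : 8 ≤ M) (hζ : IsPrimitiveRoot ζ M) (hι : ι ζ = zetaM M) :
    DiamondSys L (gamma1Field M) (ZMod M)ˣ :=
  diamondSys hζ (slashData1 hM hζ hι)

@[simp]
theorem diamondSys1_act (hM : 8 ≤ M) (hζ : IsPrimitiveRoot ζ M) (hι : ι ζ = zetaM M)
    (d : (ZMod M)ˣ) : (diamondSys1 hM hζ hι).act d = diamond1 hM hζ hι d := rfl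

/-- The diamond operators on `Pic⁰ (F1 L M)`. -/
def diamondPic1 (hM : 8 ≤ M) (hζ : IsPrimitiveRoot ζ M) (hι : ι ζ = zetaM M) :
    (ZMod M)ˣ →* AddMonoid.End (Pic0 L ↥(laurentBaseChange L (gamma1Field M))) :=
  (diamondSys1 hM hζ hι).pic

theorem diamondPic1_apply (hM : 8 ≤ M) (hζ : IsPrimitiveRoot ζ M) (hι : ι ζ = zetaM M)
    (d : (ZMod M)ˣ) (x : Pic0 L ↥(laurentBaseChange L (gamma1Field M))) :
    diamondPic1 hM hζ hι d x = diamondPic hζ (slashData1 hM hζ hι) d x := rfl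

/-- `[GAL]` for the diamond operators. -/
theorem galois_smul_diamondPic1 (hM : 8 ≤ M) (hζ : IsPrimitiveRoot ζ M) (hι : ι ζ = zetaM M)
    (σ : L ≃ₐ[ℚ] L) (d : (ZMod M)ˣ) (x : Pic0 L ↥(laurentBaseChange L (gamma1Field M))) :
    σ • diamondPic1 hM hζ hι d x = diamondPic1 hM hζ hι d (σ • x) :=
  (diamondSys1 hM hζ hι).galois_pic_comm σ d x

/-- Existence form, for an algebraically closed field of characteristic zero embedded in `ℂ`:
a diamond system on `F1 L M` together with the analytic characterisation of its action. -/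
theorem exists_diamondSys [IsAlgClosed L] (ι : L →+* ℂ) (hM : 8 ≤ M) :
    ∃ (ζ : L) (hζ : IsPrimitiveRoot ζ M) (hι : ι ζ = zetaM M)
      (S : DiamondSys L (gamma1Field M) (ZMod M)ˣ),
      (∀ (d : (ZMod M)ˣ) (τ : SL(2, ℤ)), τ ∈ Gamma0 M → lr M τ = (d : ZMod M) →
        ∀ f, (embData1 ι ζ hM hζ hι).emb (S.act d f) = τ⁻¹ • (embData1 ι ζ hM hζ hι).emb f) ∧
      (∀ (d : (ZMod M)ˣ) (b c b' c' : ZMod M), b ≠ 0 → c ≠ 0 → b' ≠ 0 → c' ≠ 0 →
        ∀ x : ↥(laurentBaseChange L (gamma1Field M)),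
          (x : LaurentSeries L) = ratio1 M ζ b c b' c' →
          ((S.act d x : ↥(laurentBaseChange L (gamma1Field M))) : LaurentSeries L) =
            ratio1 M ζ ((d : ZMod M) * b) ((d : ZMod M) * c) ((d : ZMod M) * b')
              ((d : ZMod M) * c')) := by
  haveI : CharZero L := algebraRat.charZero L
  obtain ⟨ζ, hζ, hι⟩ := exists_zeta ι M
  exact ⟨ζ, hζ, hι, diamondSys1 hM hζ hι,
    fun d τ hτ hd f => embData1_diamond1 hM hζ hι d hτ hd f,
    fun d b c b' c' hb hc hb' hc' x hx => coe_diamond1_ratio1 hM hζ hι d hb hc hb' hc' hx⟩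

end Fermat.Agent.S48x.Ana.Diamond
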