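/-
P-S48, block G1, glue (a)/(b2)/(B6) (helper77): BASE CHANGE OF CONSTANTS `K → L` COMMUTES WITH THE
DIAMOND AUTOMORPHISMS (e.g. `K = ℚ̄`, `L = ℂ`).

`F1 K M = laurentBaseChange K (gamma1Field M)`, `F1 L M` likewise; the base change map
`(HeckeFF.setupG K L (gamma1Field M)).ι = (isBC_laurentBaseChange K L _).iotaF` is coefficientwise
`algebraMap K L`.  The diamond automorphisms `δ_d` of `Ana/Diamond.lean` (over `K` from a
`SlashData M K ζ ιK`, over `L` from a `SlashData M L ζ' ιL`, `ζ' = algebraMap K L ζ`; NO relation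
between the two analytic embeddings is needed) are both determined by their values on the
generators `j(q^e)`, `ratio1 M ζ b c b' c'`, hence are intertwined by `ι`:

* `diamond_setupG_ι : δ_d^L (ι f) = ι (δ_d^K f)`;
* `coe_diamond_baseChange` : the same on the underlying series (`coeffMap (algebraMap K L)`);
* `diamondSemi_smul_setupG_ι` : the hypothesis `hg` of `HeckeFF.bcG_smul`/`torsionEquivG_smul`;
* `bcG_diamondPic`, `torsionEquivG_diamondTorsion` : base change on `Pic⁰` / on torsion commutes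
  with the diamond operators;
* the same for the unconditional `diamond1`, `diamondPic1` of `Ana/DiamondInst.lean`
  (`diamond1_setupG_ι`, `bcG_diamondPic1`);
* section `KbarC`: the statements for `ℚ̄ → ℂ` in the vocabulary of `G1a/Transfer.lean`
  (`G1a.bcPic0`, `G1a.torsionEquiv`; local instance `algKbarC`):
  `transfer_bcPic0_diamondPic`, `transfer_torsionEquiv_diamondSemi`,
  `transfer_torsionEquiv_diamondPic1`.
-/
import Fermat.Agent.S48x.Ana.DiamondInst
import Fermat.Agent.S48x.HeckeFF.BaseChange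
import Fermat.Agent.S48x.G1a.Transfer

set_option autoImplicit false
set_option linter.unusedSectionVars false
set_option linter.style.haveILetI false

noncomputable section

open ModularCurve AlgebraicCurve IntermediateField
open scoped MatrixGroups

namespace Fermat.Agent.S48x.Ana.Diamond

open CongruenceSubgroup Fermat.Agent.S48x.Model Fermat.Agent.S48x.G1 Fermat.Agent.S48x.HeckeFF
  Fermat.Agent.Gateway.BaseChange Fermat.Agent.S48x.PPack Fermat.Agent.S48x.PPack.CycloUnit

section General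

variable {M : ℕ} [NeZero M] {K L : Type*} [Field K] [Field L] [Algebra K L] [Algebra ℚ K]
  [Algebra ℚ L] [IsScalarTower ℚ K L]
  {ζ : K} (hζ : IsPrimitiveRoot ζ M) {ιK : K →+* ℂ} (D : SlashData M K ζ ιK)
  {ζ' : L} (hζ' : IsPrimitiveRoot ζ' M) {ιL : L →+* ℂ} (D' : SlashData M L ζ' ιL)
  (hζζ' : algebraMap K L ζ = ζ')

include hζζ' in
/-- **Base change intertwines the diamond automorphisms.** -/
theorem diamond_setupG_ι (d : (ZMod M)ˣ) (f : ↥(laurentBaseChange K (gamma1Field M))) :
    diamond hζ' D' d ((setupG K L (gamma1Field M)).ι f) =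
      (setupG K L (gamma1Field M)).ι (diamond hζ D d f) := by
  have key := Twist.ringHom_ext_of_generates (generates_gens hζ)
    ((diamond hζ' D' d).toRingEquiv.toRingHom.comp (setupG K L (gamma1Field M)).ι)
    ((setupG K L (gamma1Field M)).ι.comp (diamond hζ D d).toRingEquiv.toRingHom) ?_ ?_
  · exact DFunLike.congr_fun key f
  · intro c
    show diamond hζ' D' d ((setupG K L (gamma1Field M)).ι (algebraMap K _ c)) =
      (setupG K L (gamma1Field M)).ι (diamond hζ D d (algebraMap K _ c))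
    rw [AlgEquiv.commutes, (setupG K L (gamma1Field M)).ι_const, AlgEquiv.commutes]
  · rintro x (⟨e, he0, he, hx⟩ | ⟨b, c, b', c', hb, hc, hb', hc', hx⟩)
    · show diamond hζ' D' d ((setupG K L (gamma1Field M)).ι x) =
        (setupG K L (gamma1Field M)).ι (diamond hζ D d x)
      have h1 : (((setupG K L (gamma1Field M)).ι x : ↥(laurentBaseChange L (gamma1Field M))) :
          LaurentSeries L) = qExpand L e (jqModC L) := by
        rw [coe_setupG_ι, hx]
        show coeffMap (algebraMap K L) (qExpand K e (jqModC K)) = _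
        rw [coeffMap_qExpand, coeffMap_jqModC]
      rw [diamond_j hζ' D' d he h1, diamond_j hζ D d he hx]
    · show diamond hζ' D' d ((setupG K L (gamma1Field M)).ι x) =
        (setupG K L (gamma1Field M)).ι (diamond hζ D d x)
      have h1 : (((setupG K L (gamma1Field M)).ι x : ↥(laurentBaseChange L (gamma1Field M))) :
          LaurentSeries L) = ratio1 M ζ' b c b' c' := by
        rw [coe_setupG_ι, hx]
        show coeffMap (algebraMap K L) (ratio1 M ζ b c b' c') = _
        rw [coeffMap_ratio1, hζζ']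
      apply Subtype.ext
      rw [coe_diamond_ratio1 hζ' D' d hb hc hb' hc' h1, coe_setupG_ι,
        coe_diamond_ratio1 hζ D d hb hc hb' hc' hx]
      show _ = coeffMap (algebraMap K L) (ratio1 M ζ _ _ _ _)
      rw [coeffMap_ratio1, hζζ']

include hζζ' in
/-- The same on the underlying Laurent series. -/
theorem coe_diamond_baseChange (d : (ZMod M)ˣ) (f : ↥(laurentBaseChange K (gamma1Field M)))
    (f' : ↥(laurentBaseChange L (gamma1Field M)))
    (hf : (f' : LaurentSeries L) = coeffMap (algebraMap K L) (f : LaurentSeries K)) :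
    ((diamond hζ' D' d f' : ↥(laurentBaseChange L (gamma1Field M))) : LaurentSeries L) =
      coeffMap (algebraMap K L)
        ((diamond hζ D d f : ↥(laurentBaseChange K (gamma1Field M))) : LaurentSeries K) := by
  have h1 : f' = (setupG K L (gamma1Field M)).ι f := Subtype.ext hf
  rw [h1, diamond_setupG_ι hζ D hζ' D' hζζ' d f, coe_setupG_ι]
  rfl

include hζζ' in
/-- The hypothesis `hg` of `HeckeFF.bcG_smul` / `HeckeFF.torsionEquivG_smul` for the diamonds. -/
theorem diamondSemi_smul_setupG_ι (d : (ZMod M)ˣ) (f : ↥(laurentBaseChange K (gamma1Field M))) :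
    diamondSemi hζ' D' d • (setupG K L (gamma1Field M)).ι f =
      (setupG K L (gamma1Field M)).ι (diamondSemi hζ D d • f) := by
  rw [diamondSemi_smul, diamondSemi_smul]
  exact diamond_setupG_ι hζ D hζ' D' hζζ' d f

include hζζ' in
/-- **Base change on `Pic⁰` commutes with the diamond operators.** -/
theorem bcG_diamondPic
    (hK : ∀ v : Place K ↥(laurentBaseChange K (gamma1Field M)),
      Function.Surjective (algebraMap K v.ResidueField))
    (d : (ZMod M)ˣ) (x : Pic0 K ↥(laurentBaseChange K (gamma1Field M))) :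
    bcG K L (gamma1Field M) hK (diamondPic hζ D d x) =
      diamondPic hζ' D' d (bcG K L (gamma1Field M) hK x) := by
  rw [diamondPic_apply, diamondPic_apply]
  exact (bcG_smul hK (diamondSemi hζ D d) (diamondSemi hζ' D' d)
    (diamondSemi_smul_setupG_ι hζ D hζ' D' hζζ' d) x).symm

end General

section Torsion

variable {M : ℕ} [NeZero M] {K L : Type*} [Field K] [Field L] [Algebra K L] [Algebra ℚ K]
  [Algebra ℚ L] [IsScalarTower ℚ K L] [IsAlgClosed K] [IsAlgClosed L] [CharZero K]
  {ζ : K} (hζ : IsPrimitiveRoot ζ M) {ιK : K →+* ℂ} (D : SlashData M K ζ ιK)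
  {ζ' : L} (hζ' : IsPrimitiveRoot ζ' M) {ιL : L →+* ℂ} (D' : SlashData M L ζ' ιL)
  (hζζ' : algebraMap K L ζ = ζ')
  {t : ↥(laurentBaseChange K (gamma1Field M))} (ht : Transcendental K t)
  [FiniteDimensional K⟮t⟯ ↥(laurentBaseChange K (gamma1Field M))]

include hζζ' in
/-- **The torsion isomorphism `Pic⁰(F1 K M)[n] ≃ Pic⁰(F1 L M)[n]` is diamond equivariant**
(semilinear-automorphism form). -/
theorem torsionEquivG_diamondSemi (n : ℕ)
    [Finite (Pic0.torsion L ↥(laurentBaseChange L (gamma1Field M)) n)] (d : (ZMod M)ˣ)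
    (y : Pic0.torsion K ↥(laurentBaseChange K (gamma1Field M)) n) :
    torsionEquivG (L := L) ht n (diamondSemi hζ D d • y) =
      diamondSemi hζ' D' d • torsionEquivG (L := L) ht n y :=
  torsionEquivG_smul ht n (diamondSemi hζ D d) (diamondSemi hζ' D' d)
    (diamondSemi_smul_setupG_ι hζ D hζ' D' hζζ' d) y

include hζζ' in
/-- The same for `diamondTorsion`. -/
theorem torsionEquivG_diamondTorsion (n : ℕ)
    [Finite (Pic0.torsion L ↥(laurentBaseChange L (gamma1Field M)) n)] (d : (ZMod M)ˣ)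
    (y : Pic0.torsion K ↥(laurentBaseChange K (gamma1Field M)) n) :
    torsionEquivG (L := L) ht n (diamondTorsion hζ D n d y) =
      diamondTorsion hζ' D' n d (torsionEquivG (L := L) ht n y) :=
  torsionEquivG_diamondSemi hζ D hζ' D' hζζ' ht n d y

include hζζ' in
/-- Pointwise form on `Pic⁰`: `bc (⟨d⟩ y) = ⟨d⟩ (bc y)` for torsion points. -/
theorem coe_torsionEquivG_diamondPic (n : ℕ)
    [Finite (Pic0.torsion L ↥(laurentBaseChange L (gamma1Field M)) n)] (d : (ZMod M)ˣ)
    (y : Pic0.torsion K ↥(laurentBaseChange K (gamma1Field M)) n) :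
    diamondPic hζ' D' d
        ((torsionEquivG (L := L) ht n y : Pic0.torsion L _ n) :
          Pic0 L ↥(laurentBaseChange L (gamma1Field M))) =
      bcG K L (gamma1Field M) (Fermat.Agent.S24.PD.residue_surjective ht)
        (diamondPic hζ D d (y : Pic0 K ↥(laurentBaseChange K (gamma1Field M)))) := by
  rw [coe_torsionEquivG, bcG_diamondPic hζ D hζ' D' hζζ']

end Torsion

/-! ### The unconditional diamonds of `Ana/DiamondInst.lean` -/

section Inst

variable {M : ℕ} [NeZero M] {K L : Type*} [Field K] [Field L] [Algebra K L] [Algebra ℚ K]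
  [Algebra ℚ L] [IsScalarTower ℚ K L]
  {ιK : K →+* ℂ} {ιL : L →+* ℂ} {ζ : K}

/-- The hypotheses of `diamond1` transfer along `K → L` when `ιK = ιL ∘ algebraMap K L`. -/
theorem isPrimitiveRoot_algebraMap (hζ : IsPrimitiveRoot ζ M) :
    IsPrimitiveRoot (algebraMap K L ζ) M :=
  hζ.map_of_injective (algebraMap K L).injective

theorem diamond1_setupG_ι (hM : 8 ≤ M) (hζ : IsPrimitiveRoot ζ M) (hι : ιK ζ = zetaM M)
    (hι' : ιL (algebraMap K L ζ) = zetaM M) (d : (ZMod M)ˣ)
    (f : ↥(laurentBaseChange K (gamma1Field M))) :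
    diamond1 hM (isPrimitiveRoot_algebraMap (L := L) hζ) hι' d
        ((setupG K L (gamma1Field M)).ι f) =
      (setupG K L (gamma1Field M)).ι (diamond1 hM hζ hι d f) :=
  diamond_setupG_ι hζ (slashData1 hM hζ hι) (isPrimitiveRoot_algebraMap hζ)
    (slashData1 hM (isPrimitiveRoot_algebraMap hζ) hι') rfl d f

theorem bcG_diamondPic1 (hM : 8 ≤ M) (hζ : IsPrimitiveRoot ζ M) (hι : ιK ζ = zetaM M)
    (hι' : ιL (algebraMap K L ζ) = zetaM M)
    (hK : ∀ v : Place K ↥(laurentBaseChange K (gamma1Field M)),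
      Function.Surjective (algebraMap K v.ResidueField))
    (d : (ZMod M)ˣ) (x : Pic0 K ↥(laurentBaseChange K (gamma1Field M))) :
    bcG K L (gamma1Field M) hK (diamondPic1 hM hζ hι d x) =
      diamondPic1 hM (isPrimitiveRoot_algebraMap (L := L) hζ) hι' d
        (bcG K L (gamma1Field M) hK x) :=
  bcG_diamondPic hζ (slashData1 hM hζ hι) (isPrimitiveRoot_algebraMap hζ)
    (slashData1 hM (isPrimitiveRoot_algebraMap hζ) hι') rfl hK d x

end Inst

/-! ### `ℚ̄ → ℂ` in the vocabulary of `G1a/Transfer.lean` -/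

section KbarC

open Fermat.Agent.S24.Setup Fermat.Agent.Gateway.BaseChange.Modular

attribute [local instance] Fermat.Agent.Gateway.BaseChange.Modular.algKbarC

variable {M : ℕ} [NeZero M]
  {ζ : Kbar} (hζ : IsPrimitiveRoot ζ M) {ιK : Kbar →+* ℂ} (D : SlashData M Kbar ζ ιK)
  {ζ' : ℂ} (hζ' : IsPrimitiveRoot ζ' M) {ιL : ℂ →+* ℂ} (D' : SlashData M ℂ ζ' ιL)
  (hζζ' : algebraMap Kbar ℂ ζ = ζ')
  {x : ↥(laurentBaseChange Kbar (gamma1Field M))} (hx : Transcendental Kbar x)
  [FiniteDimensional Kbar⟮x⟯ ↥(laurentBaseChange Kbar (gamma1Field M))]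

include hζζ' in
/-- `G1a.bcPic0` commutes with the diamond operators. -/
theorem transfer_bcPic0_diamondPic (d : (ZMod M)ˣ)
    (y : Pic0 Kbar ↥(laurentBaseChange Kbar (gamma1Field M))) :
    Fermat.Agent.S48x.G1a.bcPic0 hx (diamondPic hζ D d y) =
      diamondPic hζ' D' d (Fermat.Agent.S48x.G1a.bcPic0 hx y) :=
  bcG_diamondPic hζ D hζ' D' hζζ' (Fermat.Agent.S24.PD.residue_surjective hx) d y

include hζζ' in
/-- `G1a.torsionEquiv` is diamond equivariant. -/
theorem transfer_torsionEquiv_diamondSemi (n : ℕ)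
    [Finite (Pic0.torsion ℂ ↥(laurentBaseChange ℂ (gamma1Field M)) n)] (d : (ZMod M)ˣ)
    (y : Pic0.torsion Kbar ↥(laurentBaseChange Kbar (gamma1Field M)) n) :
    Fermat.Agent.S48x.G1a.torsionEquiv hx n (diamondSemi hζ D d • y) =
      diamondSemi hζ' D' d • Fermat.Agent.S48x.G1a.torsionEquiv hx n y :=
  torsionEquivG_diamondSemi hζ D hζ' D' hζζ' hx n d y

include hζζ' in
/-- `G1a.torsionEquiv` is equivariant for `diamondTorsion`. -/
theorem transfer_torsionEquiv_diamondTorsion (n : ℕ)
    [Finite (Pic0.torsion ℂ ↥(laurentBaseChange ℂ (gamma1Field M)) n)] (d : (ZMod M)ˣ)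
    (y : Pic0.torsion Kbar ↥(laurentBaseChange Kbar (gamma1Field M)) n) :
    Fermat.Agent.S48x.G1a.torsionEquiv hx n (diamondTorsion hζ D n d y) =
      diamondTorsion hζ' D' n d (Fermat.Agent.S48x.G1a.torsionEquiv hx n y) :=
  torsionEquivG_diamondSemi hζ D hζ' D' hζζ' hx n d y

omit hζ' D' in
/-- The unconditional diamonds: `ζ : ℚ̄` with `algebraMap ℚ̄ ℂ ζ = zetaM M`; over `ℚ̄` the
embedding is `ι = algebraMap ℚ̄ ℂ`, over `ℂ` it is the identity. -/
theorem transfer_bcPic0_diamondPic1 (hM : 8 ≤ M) (hι : algebraMap Kbar ℂ ζ = zetaM M)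
    (d : (ZMod M)ˣ) (y : Pic0 Kbar ↥(laurentBaseChange Kbar (gamma1Field M))) :
    Fermat.Agent.S48x.G1a.bcPic0 hx
        (diamondPic1 (ι := algebraMap Kbar ℂ) hM hζ hι d y) =
      diamondPic1 (ι := RingHom.id ℂ) hM (isPrimitiveRoot_zetaM M) rfl d
        (Fermat.Agent.S48x.G1a.bcPic0 hx y) :=
  bcG_diamondPic hζ (slashData1 hM hζ hι) (isPrimitiveRoot_zetaM M)
    (slashData1 (ι := RingHom.id ℂ) hM (isPrimitiveRoot_zetaM M) rfl) hι
    (Fermat.Agent.S24.PD.residue_surjective hx) d y

end KbarC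

end Fermat.Agent.S48x.Ana.Diamond
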