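import Fermat.Agent.S48x.G1a.Transfer
import Fermat.Agent.S48x.Ana.DegreeF1

/-!
# P-S48, G1 layer (a), count glue (helper24): the torsion of `J₁(M)` as closed terms

Instantiation of `G1a/Transfer` (helper79) at the rational model `Fq := Model.gamma1Field M`
with the analytic uniformisation `Ana/Emb1Inst.embDataC` of `X₁(M)` (helper8) and the degree
statements of `Ana/DegreeF1` (helper80).  Everything below depends only on `hM : 8 ≤ M`.

Notation: `F1K M = laurentBaseChange Kbar (gamma1Field M)`, `F1C M = laurentBaseChange ℂ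
(gamma1Field M)`, `Γ = G1.Gamma1pm M`, `X = SL(2,ℤ) ⧸ Γ`.

* `transcendental_jK`, `finiteDimensional_jK`, `finrank_jK`; curve instances
  `isCurveOver_K`, `essFiniteType_K`, `isCurveOver_C`, `essFiniteType_C`;
* `bcPic0 hM : Pic0 Kbar (F1K M) →+ Pic0 ℂ (F1C M)`, `bcPic0_injective`;
* `genusFF_eq`, `two_genusFF_add_C`, `two_genusFF_add_K` (Riemann-Hurwitz in orbit form);
* `countOK_C`, `countOK_Kbar` : `#Pic⁰[m] = m ^ (2 g)`; `finite_torsion_C`, `finite_torsion_K`;
* `torsionEquiv`, `thetaEquivC`, `thetaEquivKbar : Pic⁰(F1K M)[m] ≃+ Hom_pe(Γ, μ_m)`,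
  `thetaEquivC_apply` (`= Theta.theta` of the dictionary input of `embDataC`),
  `thetaEquivKbar_apply`.
-/

set_option autoImplicit false
set_option linter.unusedSectionVars false
set_option linter.style.haveILetI false

noncomputable section

open scoped MatrixGroups

namespace Fermat.Agent.S48x.Ana.Emb1Count

open ModularCurve AlgebraicCurve IntermediateField ModularGroup
open Fermat.Agent.S24 Fermat.Agent.S24.Setup Fermat.Agent.S24.CuspOrd
open Fermat.Agent.Gateway.BaseChange Fermat.Agent.Gateway.BaseChange.Modular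
open Fermat.Agent.Gateway.A2 Fermat.Agent.Gateway.A2.Count
open Fermat.Agent.Gateway.Dict.ConjAbs
open Fermat.Agent.S27x
open Fermat.Agent.S48x.Model Fermat.Agent.S48x.G1 Fermat.Agent.S48x.Ana.Emb1

attribute [local instance] Fermat.Agent.Gateway.BaseChange.Modular.algKbarC

variable {M : ℕ} [NeZero M]

/-- The function field of `X₁(M)` over `ℚ̄`. -/
abbrev F1K (M : ℕ) [NeZero M] : IntermediateField Kbar (LaurentSeries Kbar) :=
  laurentBaseChange Kbar (gamma1Field M)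

/-- The function field of `X₁(M)` over `ℂ`. -/
abbrev F1C (M : ℕ) [NeZero M] : IntermediateField ℂ (LaurentSeries ℂ) :=
  laurentBaseChange ℂ (gamma1Field M)

/-! ### The coordinate `j` over `ℚ̄` -/

theorem transcendental_jK : Transcendental Kbar (jF1R Kbar M) :=
  DegreeF1.transcendental_jF1R Kbar

theorem finiteDimensional_jK (hM : 8 ≤ M) :
    FiniteDimensional Kbar⟮jF1R Kbar M⟯ (F1K M) :=
  DegreeF1.finiteDimensional iota hM

theorem finrank_jK (hM : 8 ≤ M) :
    Module.finrank Kbar⟮jF1R Kbar M⟯ (F1K M) = (Gamma1pm M).index :=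
  DegreeF1.finrank_eq_index iota hM

/-! ### Curve instances -/

theorem isCurveOver_K (hM : 8 ≤ M) : IsCurveOver Kbar (F1K M) :=
  haveI := finiteDimensional_jK hM
  G1a.isCurveOver_FK (transcendental_jK (M := M))

theorem essFiniteType_K (hM : 8 ≤ M) : Algebra.EssFiniteType Kbar (F1K M) :=
  haveI := finiteDimensional_jK hM
  G1a.essFiniteType_FK (jF1R Kbar M)

theorem isCurveOver_C (hM : 8 ≤ M) : IsCurveOver ℂ (F1C M) :=
  haveI := finiteDimensional_jK hM
  G1a.isCurveOver_FC (transcendental_jK (M := M))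

theorem essFiniteType_C (hM : 8 ≤ M) : Algebra.EssFiniteType ℂ (F1C M) :=
  haveI := finiteDimensional_jK hM
  G1a.essFiniteType_FC (jF1R Kbar M)

/-! ### Base change `ℚ̄ → ℂ` -/

/-- Base change `Pic⁰(F1K M) → Pic⁰(F1C M)`. -/
def bcPic0 (hM : 8 ≤ M) : Pic0 Kbar (F1K M) →+ Pic0 ℂ (F1C M) :=
  haveI := finiteDimensional_jK hM
  G1a.bcPic0 (transcendental_jK (M := M))

theorem bcPic0_injective (hM : 8 ≤ M) : Function.Injective (bcPic0 hM) :=
  haveI := finiteDimensional_jK hM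
  G1a.bcPic0_injective (transcendental_jK (M := M))

/-- The genus of `X₁(M)` is the same over `ℚ̄` and over `ℂ`. -/
theorem genusFF_eq (hM : 8 ≤ M) : genusFF ℂ (F1C M) = genusFF Kbar (F1K M) :=
  haveI := finiteDimensional_jK hM
  G1a.genusFF_eq (transcendental_jK (M := M))

/-- Riemann-Hurwitz for `X₁(M)` over `ℂ`, in orbit form. -/
theorem two_genusFF_add_C (hM : 8 ≤ M) :
    2 * genusFF ℂ (F1C M)
      + orbNum (S : SL(2, ℤ)) (SL(2, ℤ) ⧸ Gamma1pm M)
      + orbNum (S * T : SL(2, ℤ)) (SL(2, ℤ) ⧸ Gamma1pm M)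
      + orbNum (T : SL(2, ℤ)) (SL(2, ℤ) ⧸ Gamma1pm M)
      = Nat.card (SL(2, ℤ) ⧸ Gamma1pm M) + 2 :=
  haveI := isCurveOver_C hM
  A.two_genusFF_add (embDataC hM) (NeZero.pos M) (hcusp_embDataC hM)

/-- Riemann-Hurwitz for `X₁(M)` over `ℚ̄`, in orbit form. -/
theorem two_genusFF_add_K (hM : 8 ≤ M) :
    2 * genusFF Kbar (F1K M)
      + orbNum (S : SL(2, ℤ)) (SL(2, ℤ) ⧸ Gamma1pm M)
      + orbNum (S * T : SL(2, ℤ)) (SL(2, ℤ) ⧸ Gamma1pm M)
      + orbNum (T : SL(2, ℤ)) (SL(2, ℤ) ⧸ Gamma1pm M)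
      = Nat.card (SL(2, ℤ) ⧸ Gamma1pm M) + 2 := by
  rw [← genusFF_eq hM]
  exact two_genusFF_add_C hM

/-! ### The torsion count -/

/-- `#Pic⁰(F1C M)[m] = m ^ (2 g)`. -/
theorem countOK_C (hM : 8 ≤ M) : Contract.CountOK ℂ (F1C M) :=
  haveI := finiteDimensional_jK hM
  G1a.countOK_C (transcendental_jK (M := M)) (embDataC hM) (NeZero.pos M) (hcusp_embDataC hM)

theorem finite_torsion_C (hM : 8 ≤ M) {m : ℕ} (hm : 0 < m) :
    Finite (Pic0.torsion ℂ (F1C M) m) :=
  haveI := finiteDimensional_jK hM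
  G1a.finite_torsion_C (transcendental_jK (M := M)) (embDataC hM) (NeZero.pos M)
    (hcusp_embDataC hM) hm

/-- `#J₁(M)[m] = m ^ (2 g)`: the torsion count over `ℚ̄`. -/
theorem countOK_Kbar (hM : 8 ≤ M) : Contract.CountOK Kbar (F1K M) :=
  haveI := finiteDimensional_jK hM
  G1a.countOK_Kbar (transcendental_jK (M := M)) (embDataC hM) (NeZero.pos M)
    (hcusp_embDataC hM)

theorem finite_torsion_K (hM : 8 ≤ M) {m : ℕ} (hm : 0 < m) :
    Finite (Pic0.torsion Kbar (F1K M) m) := by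
  apply Nat.finite_of_card_ne_zero
  rw [countOK_Kbar hM m hm]
  exact (pow_pos hm _).ne'

/-! ### `θ` -/

/-- Base change on `m`-torsion is an isomorphism. -/
def torsionEquiv (hM : 8 ≤ M) (m : ℕ) [NeZero m] :
    Pic0.torsion Kbar (F1K M) m ≃+ Pic0.torsion ℂ (F1C M) m :=
  haveI := finiteDimensional_jK hM
  haveI := finite_torsion_C hM (Nat.pos_of_ne_zero (NeZero.ne m))
  G1a.torsionEquiv (transcendental_jK (M := M)) m

theorem coe_torsionEquiv (hM : 8 ≤ M) (m : ℕ) [NeZero m] (y : Pic0.torsion Kbar (F1K M) m) :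
    (torsionEquiv hM m y : Pic0 ℂ (F1C M)) = bcPic0 hM (y : Pic0 Kbar (F1K M)) := rfl

/-- `θ : Pic⁰(F1C M)[m] ≃+ Hom_pe(±Γ₁(M), μ_m)`. -/
def thetaEquivC (hM : 8 ≤ M) (m : ℕ) [NeZero m] :
    Pic0.torsion ℂ (F1C M) m ≃+ Additive (charPE (Gamma1pm M) (rootsOfUnity m ℂ)) :=
  haveI := finiteDimensional_jK hM
  G1a.thetaEquivC (transcendental_jK (M := M)) (embDataC hM) (NeZero.pos M)
    (hcusp_embDataC hM) m

/-- `θ ∘ bc : J₁(M)[m] ≃+ Hom_pe(±Γ₁(M), μ_m)`. -/
def thetaEquivKbar (hM : 8 ≤ M) (m : ℕ) [NeZero m] :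
    Pic0.torsion Kbar (F1K M) m ≃+ Additive (charPE (Gamma1pm M) (rootsOfUnity m ℂ)) :=
  (torsionEquiv hM m).trans (thetaEquivC hM m)

theorem thetaEquivKbar_apply (hM : 8 ≤ M) (m : ℕ) [NeZero m]
    (z : Pic0.torsion Kbar (F1K M) m) :
    thetaEquivKbar hM m z = thetaEquivC hM m (torsionEquiv hM m z) := rfl

/-- `thetaEquivC` is `Theta.theta` of the dictionary input attached to `embDataC`. -/
theorem thetaEquivC_apply (hM : 8 ≤ M) (m : ℕ) [NeZero m] (x : Pic0.torsion ℂ (F1C M) m) :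
    haveI := isCurveOver_C hM
    thetaEquivC hM m x
      = Theta.theta (A.dictInput (embDataC hM) (NeZero.pos M) (hcusp_embDataC hM))
          (NeZero.pos M) x := rfl

end Fermat.Agent.S48x.Ana.Emb1Count
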