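import Mathlib
import Fermat.Prelude.Def_ModularCurve_ArithmeticGalois
import Fermat.Agent.S24.EmbedAbs
import Fermat.Agent.S24.EmbedGen
import Fermat.Agent.S24.Conj
import Fermat.Agent.S24.JD
import Fermat.Agent.S24.CuspOrdMer

/-!
P-S48, layer (a) (analytic dictionary), helper19: the GENERIC embedding core.

Input: a field of constants `L` with `ι : L →+* ℂ`, a subalgebra `P ≤ HolFun` with an injective
"expansion" ring hom `ψ₀ : P →+* LaurentSeries ℂ` which is the identity on constants
(`hconst`), and an intermediate field `F ≤ adjoin L G` of `LaurentSeries L` all of whose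
generators `g ∈ G` have analytic counterparts: `coeffMap ι g * ψ₀ b = ψ₀ a` with `a b : P`,
`b ≠ 0` (`HasFrac`).

Output: `GenEmb ι ψ₀ hinj F` = an embedding `emb₀ : F →+* Frac P` compatible with expansions,
hence `emb : F →+* MerFun` with
* `emb_const`, `emb_frac`, `emb_eq_div` (uniqueness), `emb_eq` (holomorphic counterpart),
* the converse transfers `coeffMap_mul_eq_of_emb_mul_eq`, `coeffMap_eq_of_emb_eq`,
* `emb_congr` (compatibility between different `F`'s and different `GenEmb`'s),
* `fixed_of_forall_smul_eq`, `isCuspMer_smul` (from `P ≤ JD.cuspAlg n`),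
* `aeval` transfer (`coeffMap_mul_aeval_eq`) used for the invariants `⇒ L(x)` descent.

This is `Gateway/Dict/EmbedL.exists_embFracL/exists_embL` with the generator set as a parameter;
`Ana/Emb1`, `Ana/LevelP`, `Ana/EmbFull` are instances (period `1` with `ψ₀ = qLaurent` on a
subalgebra of `PerFun`; period `M` with `ψ₀ = zLaurent M`).
-/

set_option autoImplicit false

open ModularCurve
open scoped MatrixGroups

namespace Fermat.Agent.S48x.Ana.EmbedGenSet

open Fermat.Agent.S24 Fermat.Agent.S24.EmbedGen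

variable {L : Type*} [Field L] (ι : L →+* ℂ) {P : Subalgebra ℂ HolFun}
  (ψ₀ : P →+* LaurentSeries ℂ) (hinj : Function.Injective ψ₀)

/-- `s` is the expansion of a quotient of two elements of `P`. -/
def HasFrac (s : LaurentSeries ℂ) : Prop := ∃ a b : P, b ≠ 0 ∧ s * ψ₀ b = ψ₀ a

variable {ψ₀}

theorem hasFrac_of_eq {s : LaurentSeries ℂ} (a : P) (h : ψ₀ a = s) : HasFrac ψ₀ s :=
  ⟨a, 1, one_ne_zero, by rw [map_one, mul_one, h]⟩

include hinj in
theorem psi_ne_zero {b : P} (hb : b ≠ 0) : ψ₀ b ≠ 0 := fun h0 =>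
  hb (hinj (by rw [h0, map_zero]))

theorem mem_fieldRange_iff (s : LaurentSeries ℂ) :
    s ∈ (qFrac ψ₀ hinj).fieldRange ↔ HasFrac ψ₀ s := by
  constructor
  · rintro ⟨y, rfl⟩
    obtain ⟨a, b, hb, hab⟩ := IsFractionRing.div_surjective P y
    have hb0 : b ≠ 0 := nonZeroDivisors.ne_zero hb
    refine ⟨a, b, hb0, ?_⟩
    rw [← hab, qFrac_div, div_mul_cancel₀ _ (psi_ne_zero hinj hb0)]
  · rintro ⟨a, b, hb, hab⟩
    refine ⟨algebraMap P (FracP P) a / algebraMap P (FracP P) b, ?_⟩
    rw [qFrac_div, div_eq_iff (psi_ne_zero hinj hb), hab]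

/-- The generic embedding into `Frac P`, compatible with expansions. -/
theorem exists_embFrac (hconst : ∀ c : ℂ, ψ₀ (algebraMap ℂ P c) = HahnSeries.C c)
    (G : Set (LaurentSeries L)) (hG : ∀ g ∈ G, HasFrac ψ₀ (coeffMap ι g))
    (F : IntermediateField L (LaurentSeries L)) (hF : F ≤ IntermediateField.adjoin L G) :
    ∃ emb₀ : F →+* FracP P,
      ∀ x, qFrac ψ₀ hinj (emb₀ x) = coeffMap ι (x : LaurentSeries L) := by
  have h1 : ∀ c : L, coeffMap ι (algebraMap L (LaurentSeries L) c) ∈
      (qFrac ψ₀ hinj).fieldRange := by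
    intro c
    rw [coeffMap_algebraMap_eq_C]
    exact rat_mem_fieldRange hinj hconst _
  have h2 : ∀ g ∈ G, coeffMap ι g ∈ (qFrac ψ₀ hinj).fieldRange := fun g hg =>
    (mem_fieldRange_iff hinj _).2 (hG g hg)
  obtain ⟨e, he⟩ := EmbedAbs.exists_ringHom_of_generators (K := L) (L := LaurentSeries L)
    (coeffMap ι) (qFrac ψ₀ hinj) G h1 h2
  refine ⟨e.comp (IntermediateField.inclusion hF).toRingHom, fun x => ?_⟩
  rw [RingHom.comp_apply, he]
  rfl

variable (ψ₀)

/-- The output of the generic core: an embedding of `F` into `Frac P` compatible with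
expansions. -/
structure GenEmb (F : IntermediateField L (LaurentSeries L)) where
  /-- the embedding into the fraction field of `P` -/
  emb₀ : F →+* FracP P
  q_emb₀ : ∀ x, qFrac ψ₀ hinj (emb₀ x) = coeffMap ι (x : LaurentSeries L)

variable {ψ₀}

theorem nonempty_genEmb (hconst : ∀ c : ℂ, ψ₀ (algebraMap ℂ P c) = HahnSeries.C c)
    (G : Set (LaurentSeries L)) (hG : ∀ g ∈ G, HasFrac ψ₀ (coeffMap ι g))
    (F : IntermediateField L (LaurentSeries L)) (hF : F ≤ IntermediateField.adjoin L G) :
    Nonempty (GenEmb ι ψ₀ hinj F) := by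
  obtain ⟨e, he⟩ := exists_embFrac ι hinj hconst G hG F hF
  exact ⟨⟨e, he⟩⟩

namespace GenEmb

variable {ι hinj} {F : IntermediateField L (LaurentSeries L)} (D : GenEmb ι ψ₀ hinj F)

/-- The embedding into `MerFun`. -/
noncomputable def emb : F →+* MerFun := (toMer P).comp D.emb₀

theorem emb_apply (x : F) : D.emb x = toMer P (D.emb₀ x) := rfl

theorem qFrac_injective : Function.Injective (qFrac ψ₀ hinj) := (qFrac ψ₀ hinj).injective

theorem toMer_injective : Function.Injective (toMer P) := (toMer P).injective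

/-- `emb₀` is determined by the series. -/
theorem emb₀_eq_iff (x : F) (y : FracP P) :
    D.emb₀ x = y ↔ qFrac ψ₀ hinj y = coeffMap ι (x : LaurentSeries L) := by
  constructor
  · rintro rfl
    exact D.q_emb₀ x
  · intro h
    apply qFrac_injective (hinj := hinj)
    rw [D.q_emb₀, h]

theorem emb₀_eq_div (x : F) (a b : P) (hb : b ≠ 0)
    (h : coeffMap ι (x : LaurentSeries L) * ψ₀ b = ψ₀ a) :
    D.emb₀ x = algebraMap P (FracP P) a / algebraMap P (FracP P) b := by
  rw [emb₀_eq_iff, qFrac_div, div_eq_iff (psi_ne_zero hinj hb), h]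

/-- Uniqueness clause: any representation of the series as a quotient computes `emb`. -/
theorem emb_eq_div (x : F) (a b : P) (hb : b ≠ 0)
    (h : coeffMap ι (x : LaurentSeries L) * ψ₀ b = ψ₀ a) :
    D.emb x = algebraMap HolFun MerFun (a : HolFun) / algebraMap HolFun MerFun (b : HolFun) := by
  rw [emb_apply, D.emb₀_eq_div x a b hb h, toMer_div]

/-- A holomorphic counterpart computes `emb`. -/
theorem emb_eq (x : F) (a : P) (h : ψ₀ a = coeffMap ι (x : LaurentSeries L)) :
    D.emb x = algebraMap HolFun MerFun (a : HolFun) := by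
  have := D.emb_eq_div x a 1 one_ne_zero (by rw [map_one, mul_one, h])
  rw [this]
  simp

theorem emb_frac (x : F) : ∃ a b : P, b ≠ 0 ∧
    D.emb x = algebraMap HolFun MerFun (a : HolFun) / algebraMap HolFun MerFun (b : HolFun) ∧
    coeffMap ι (x : LaurentSeries L) * ψ₀ b = ψ₀ a := by
  obtain ⟨a, b, hb, hab⟩ := IsFractionRing.div_surjective P (D.emb₀ x)
  have hb0 : b ≠ 0 := nonZeroDivisors.ne_zero hb
  refine ⟨a, b, hb0, ?_, ?_⟩
  · rw [emb_apply, ← hab, toMer_div]
  · have h2 := D.q_emb₀ x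
    rw [← hab, qFrac_div] at h2
    rw [← h2, div_mul_cancel₀ _ (psi_ne_zero hinj hb0)]

include D in
theorem hasFrac (x : F) : HasFrac ψ₀ (coeffMap ι (x : LaurentSeries L)) := by
  obtain ⟨a, b, hb, -, h⟩ := D.emb_frac x
  exact ⟨a, b, hb, h⟩

theorem emb_const (hconst : ∀ c : ℂ, ψ₀ (algebraMap ℂ P c) = HahnSeries.C c) (c : L) :
    D.emb (algebraMap L F c) = Conj.const (ι c) := by
  have h := D.emb_eq (algebraMap L F c) (algebraMap ℂ P (ι c)) (by
    rw [hconst]
    exact (coeffMap_algebraMap_eq_C ι c).symm)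
  rw [h]
  rfl

/-- Converse transfer: a multiplicative relation with elements of `P` on the analytic side
gives the relation between expansions. -/
theorem coeffMap_mul_eq_of_emb_mul_eq (x : F) (u v : P)
    (h : D.emb x * algebraMap HolFun MerFun (u : HolFun) = algebraMap HolFun MerFun (v : HolFun)) :
    coeffMap ι (x : LaurentSeries L) * ψ₀ u = ψ₀ v := by
  have h1 : D.emb₀ x * algebraMap P (FracP P) u = algebraMap P (FracP P) v := by
    apply toMer_injective
    rw [map_mul, toMer_algebraMap, toMer_algebraMap]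
    exact h
  have h2 := congrArg (qFrac ψ₀ hinj) h1
  rwa [map_mul, D.q_emb₀, qFrac_algebraMap, qFrac_algebraMap] at h2

theorem coeffMap_eq_of_emb_eq (x : F) (v : P)
    (h : D.emb x = algebraMap HolFun MerFun (v : HolFun)) :
    coeffMap ι (x : LaurentSeries L) = ψ₀ v := by
  have := D.coeffMap_mul_eq_of_emb_mul_eq x 1 v (by simpa using h)
  simpa using this

/-- Compatibility between two instances of the construction (e.g. `F ≤ F'`). -/
theorem emb_congr {F' : IntermediateField L (LaurentSeries L)} (D' : GenEmb ι ψ₀ hinj F')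
    (x : F) (x' : F') (h : (x : LaurentSeries L) = x') : D.emb x = D'.emb x' := by
  rw [emb_apply, emb_apply]
  congr 1
  rw [emb₀_eq_iff, D'.q_emb₀, h]

theorem emb_inclusion {F' : IntermediateField L (LaurentSeries L)} (D' : GenEmb ι ψ₀ hinj F')
    (hF : F ≤ F') (x : F) : D'.emb (IntermediateField.inclusion hF x) = D.emb x :=
  (D.emb_congr D' x _ rfl).symm

/-- Restriction of the data to a smaller field. -/
noncomputable def restrict {F' : IntermediateField L (LaurentSeries L)} (D' : GenEmb ι ψ₀ hinj F')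
    (hF : F ≤ F') : GenEmb ι ψ₀ hinj F where
  emb₀ := D'.emb₀.comp (IntermediateField.inclusion hF).toRingHom
  q_emb₀ _ := D'.q_emb₀ _

/-! ### The action of `SL(2, ℤ)` -/

/-- If `γ` fixes every element of `P` then it fixes the image of `emb`. -/
theorem fixed_of_forall_smul_eq (γ : SL(2, ℤ)) (hγ : ∀ a : P, γ • (a : HolFun) = a) (x : F) :
    γ • D.emb x = D.emb x := by
  obtain ⟨a, b, -, hx, -⟩ := D.emb_frac x
  rw [hx, smul_div₀', MerFun.sl_smul_algebraMap, MerFun.sl_smul_algebraMap, hγ a, hγ b]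

/-- Every translate of every value is a quotient of cusp functions of level `n`. -/
theorem isCuspMer_smul {n : ℕ} (hP : P ≤ JD.cuspAlg n) (x : F) (g : SL(2, ℤ)) :
    CuspOrd.IsCuspMer n (g • D.emb x) := by
  obtain ⟨a, b, hb0, hx, -⟩ := D.emb_frac x
  have hb0' : (b : HolFun) ≠ 0 := fun h0 => hb0 (Subtype.ext h0)
  obtain ⟨a', e', ha', he', he0, h⟩ := JD.exists_smul_div_eq (hP a.2) (hP b.2) hb0' g
  exact ⟨a', e', JD.isCuspFn_of_mem_cuspAlg ha', JD.isCuspFn_of_mem_cuspAlg he', he0,
    by rw [hx, h]⟩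

theorem isCuspMer_emb {n : ℕ} (hP : P ≤ JD.cuspAlg n) (x : F) :
    CuspOrd.IsCuspMer n (D.emb x) := by
  have := D.isCuspMer_smul hP x 1
  rwa [one_smul] at this

end GenEmb

end Fermat.Agent.S48x.Ana.EmbedGenSet
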