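import Mathlib
import Fermat.Agent.S48x.Ana.StabFull
import Fermat.Agent.S48x.Ana.EmbedGenSet
import Fermat.Agent.S48x.Model.DescentHyp
import Fermat.Agent.Gateway.Dict.ConjAbs

/-!
P-S48, layer (a) of G1, slice (A5), ASSEMBLY (helper67): the analytic realisation
`ConjAbs.EmbData L (F1 L M) ι x (Gamma1pm M)` of the function field
`F1 L M = laurentBaseChange L (gamma1Field M)` of `X₁(M)`.

Hypothesis-style on the generic embedding core (`Ana/EmbedGenSet.lean`, helper19):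
`D : GenEmb ι ψ₀ hinj (gamma1FieldC M ζ)` with `hD : StabFull.IsGamma1Emb D.emb` (constants are
fixed, `j(q^d) ↦ jd d`, `ratio1 b c b' c' ↦ Rfun (0,b) (0,c) (0,b') (0,c')`) — produced by
`Ana/Per1.lean` (helper74).

Part 1 is generic in an intermediate field `F` with `hF : F = gamma1FieldC M ζ` (so that nothing
about `gamma1Field M` is ever unfolded); Part 2 is the instance
`F = laurentBaseChange L (gamma1Field M)`, `hF = laurentBaseChange_gamma1Field_eq hζ`.

* `DF D hF` / `D1 D hζ` : the restriction of `D` to `F`;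
* `embF_eq`, `embF_jd`, `embF_ratio1`, `embF_x` / `emb1_*` : values (stated for `x : F` with given
  underlying series);
* `fixedF`, `stabF` / `fixed1`, `stab1` : exact stabiliser `±Γ₁(M)` (`8 ≤ M`);
* `embDataF` / `embData1` : the `ConjAbs.EmbData`;
* `slashF_j`, `slashF_ratio1` / `slash1_j`, `slash1_ratio1` : the action of `Γ₀(M)` on the
  generators (the fields of `Ana/Diamond.SlashData`, with `lr M g⁻¹`).
-/

set_option autoImplicit false
set_option linter.unusedSectionVars false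

open UpperHalfPlane hiding I
open scoped MatrixGroups

noncomputable section

namespace Fermat.Agent.S48x.Ana.Emb1Data

open Fermat.Agent.S48x.Model Fermat.Agent.S48x.Ana Fermat.Agent.S24 ModularCurve
open Fermat.Agent.S48x.Ana.EmbedGenSet Fermat.Agent.S48x.Ana.StabFull
open Fermat.Agent.S24.JLevel (jd)
open Fermat.Agent.Gateway.Dict

/-! ## Part 1: generic in `F = gamma1FieldC M ζ` -/

section Generic

variable {M : ℕ} [NeZero M] {L : Type*} [Field L] {ι : L →+* ℂ} {ζ : L}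
  {P : Subalgebra ℂ HolFun} {ψ₀ : P →+* LaurentSeries ℂ} {hinj : Function.Injective ψ₀}
  {F : IntermediateField L (LaurentSeries L)}

/-- the restriction of the generic embedding of `gamma1FieldC M ζ` to `F`. -/
def DF (D : GenEmb ι ψ₀ hinj (gamma1FieldC M ζ)) (hF : F = gamma1FieldC M ζ) :
    GenEmb ι ψ₀ hinj F :=
  D.restrict hF.le

variable (D : GenEmb ι ψ₀ hinj (gamma1FieldC M ζ)) (hF : F = gamma1FieldC M ζ)

/-- the embedding of `F` is the restriction of the embedding of `gamma1FieldC M ζ`. -/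
theorem embF_eq (x : ↥F) (y : ↥(gamma1FieldC M ζ)) (h : (x : LaurentSeries L) = y) :
    (DF D hF).emb x = D.emb y :=
  (DF D hF).emb_congr D x y h

include hF in
/-- every element of `gamma1FieldC M ζ` comes from `F`. -/
theorem exists_eq_coe (y : ↥(gamma1FieldC M ζ)) : ∃ x : ↥F, (x : LaurentSeries L) = y :=
  ⟨⟨y, hF.ge y.2⟩, rfl⟩

include hF in
theorem exists_coe_eq (x : ↥F) : ∃ y : ↥(gamma1FieldC M ζ), (x : LaurentSeries L) = y :=
  ⟨⟨x, hF.le x.2⟩, rfl⟩

variable (hD : IsGamma1Emb D.emb)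
include hD

/-- `j(q^d) ↦ jd d`, `d ∣ M`. -/
theorem embF_jd {d : ℕ} [NeZero d] (hd : d ∣ M) (x : ↥F)
    (hx : (x : LaurentSeries L) = qExpand L d (jqModC L)) :
    (DF D hF).emb x = algebraMap HolFun MerFun (jd d) := by
  rw [embF_eq D hF x ⟨qExpand L d (jqModC L), jqd_mem_gamma1FieldC ζ hd⟩ hx]
  exact hD.jd d hd

/-- `j ↦ j`. -/
theorem embF_x (x : ↥F) (hx : (x : LaurentSeries L) = jqModC L) :
    (DF D hF).emb x = algebraMap HolFun MerFun jHol := by
  rw [embF_jd D hF hD (one_dvd M) x (by rw [hx, qExpand_one_apply]), JD.jd_one_eq_jHol]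

/-- `ratio1 b c b' c' ↦ Rfun (0,b) (0,c) (0,b') (0,c')`. -/
theorem embF_ratio1 {b c b' c' : ZMod M} (hb : b ≠ 0) (hc : c ≠ 0) (hb' : b' ≠ 0) (hc' : c' ≠ 0)
    (x : ↥F) (hx : (x : LaurentSeries L) = ratio1 M ζ b c b' c') :
    (DF D hF).emb x = Rfun M (0, b) (0, c) (0, b') (0, c') := by
  rw [embF_eq D hF x ⟨ratio1 M ζ b c b' c', ratio1_mem_gamma1FieldC ζ hb hc hb' hc'⟩ hx]
  exact hD.ratio1 b c b' c' hb hc hb' hc'

/-- `±Γ₁(M)` fixes the analytic model of `F` pointwise. -/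
theorem fixedF {γ : SL(2, ℤ)} (hγ : γ ∈ G1.Gamma1pm M) (f : ↥F) :
    γ • (DF D hF).emb f = (DF D hF).emb f := by
  obtain ⟨y, hy⟩ := exists_coe_eq hF f
  rw [embF_eq D hF f y hy]
  exact fixes_of_mem_Gamma1pm hD hγ y

/-- the exact stabiliser of the analytic model of `F` is `±Γ₁(M)` (`8 ≤ M`). -/
theorem stabF (hζ : IsPrimitiveRoot ζ M) (hM : 8 ≤ M) (γ : SL(2, ℤ))
    (h : ∀ f : ↥F, γ • (DF D hF).emb f = (DF D hF).emb f) : γ ∈ G1.Gamma1pm M := by
  refine (fixes1_iff hM hζ hD γ).mp fun y => ?_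
  obtain ⟨x, hx⟩ := exists_eq_coe hF y
  rw [← embF_eq D hF x y hx]
  exact h x

theorem fixesF_iff (hζ : IsPrimitiveRoot ζ M) (hM : 8 ≤ M) (γ : SL(2, ℤ)) :
    (∀ f : ↥F, γ • (DF D hF).emb f = (DF D hF).emb f) ↔ γ ∈ G1.Gamma1pm M :=
  ⟨stabF D hF hD hζ hM γ, fun hγ f => fixedF D hF hD hγ f⟩

/-- the analytic realisation of `F = gamma1FieldC M ζ`, exact stabiliser `±Γ₁(M)`; `x` is any
element of `F` with underlying series `j`. -/
def embDataF (hconst : ∀ c : ℂ, ψ₀ (algebraMap ℂ P c) = HahnSeries.C c)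
    (hζ : IsPrimitiveRoot ζ M) (hM : 8 ≤ M) (x : ↥F) (hx : (x : LaurentSeries L) = jqModC L) :
    ConjAbs.EmbData L ↥F ι x (G1.Gamma1pm M) where
  emb := (DF D hF).emb
  emb_const c := (DF D hF).emb_const hconst c
  emb_x := embF_x D hF hD x hx
  fixed _ hγ f := fixedF D hF hD hγ f
  stab γ h := stabF D hF hD hζ hM γ h

theorem embDataF_emb (hconst : ∀ c : ℂ, ψ₀ (algebraMap ℂ P c) = HahnSeries.C c)
    (hζ : IsPrimitiveRoot ζ M) (hM : 8 ≤ M) (x : ↥F) (hx : (x : LaurentSeries L) = jqModC L) :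
    (embDataF D hF hD hconst hζ hM x hx).emb = (DF D hF).emb := rfl

/-! ### The action of `Γ₀(M)` on the generators (the fields of `Ana/Diamond.SlashData`) -/

theorem slashF_j {g : SL(2, ℤ)} (hg : g ∈ CongruenceSubgroup.Gamma0 M) {e : ℕ} [NeZero e]
    (he : e ∣ M) (x : ↥F) (hx : (x : LaurentSeries L) = qExpand L e (jqModC L)) :
    g • (DF D hF).emb x = (DF D hF).emb x := by
  rw [embF_jd D hF hD he x hx]
  exact smul_algebraMap_jd he hg

theorem slashF_ratio1 {g : SL(2, ℤ)} (hg : g ∈ CongruenceSubgroup.Gamma0 M) {b c b' c' : ZMod M}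
    (hb : b ≠ 0) (hc : c ≠ 0) (hb' : b' ≠ 0) (hc' : c' ≠ 0) (x y : ↥F)
    (hx : (x : LaurentSeries L) = ratio1 M ζ b c b' c')
    (hy : (y : LaurentSeries L) =
      ratio1 M ζ (G1.lr M g⁻¹ * b) (G1.lr M g⁻¹ * c) (G1.lr M g⁻¹ * b') (G1.lr M g⁻¹ * c')) :
    g • (DF D hF).emb x = (DF D hF).emb y := by
  have hu : IsUnit (G1.lr M g⁻¹) := IsUnit.of_mul_eq_one _ (G1.lr_inv_mul_lr hg)
  have h0 : ∀ t : ZMod M, t ≠ 0 → G1.lr M g⁻¹ * t ≠ 0 := fun t ht h =>
    ht (hu.mul_right_eq_zero.mp h)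
  rw [embF_ratio1 D hF hD hb hc hb' hc' x hx,
    embF_ratio1 D hF hD (h0 b hb) (h0 c hc) (h0 b' hb') (h0 c' hc') y hy]
  exact smul_Rfun_zero_fst M hg b c b' c'

end Generic

/-! ## Part 2: the instance `F1 L M = laurentBaseChange L (gamma1Field M)` -/

section Instance

variable {M : ℕ} [NeZero M] {L : Type*} [Field L] [Algebra ℚ L] {ι : L →+* ℂ} {ζ : L}
  {P : Subalgebra ℂ HolFun} {ψ₀ : P →+* LaurentSeries ℂ} {hinj : Function.Injective ψ₀}
  (D : GenEmb ι ψ₀ hinj (gamma1FieldC M ζ)) (hζ : IsPrimitiveRoot ζ M)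

/-- the restriction of the generic embedding of `gamma1FieldC M ζ` to
`F1 L M = laurentBaseChange L (gamma1Field M)`. -/
def D1 : GenEmb ι ψ₀ hinj (laurentBaseChange L (gamma1Field M)) :=
  DF D (laurentBaseChange_gamma1Field_eq hζ)

theorem emb1_eq (x : ↥(laurentBaseChange L (gamma1Field M))) (y : ↥(gamma1FieldC M ζ))
    (h : (x : LaurentSeries L) = y) : (D1 D hζ).emb x = D.emb y :=
  embF_eq D (laurentBaseChange_gamma1Field_eq hζ) x y h

variable (hD : IsGamma1Emb D.emb)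
include hD

theorem emb1_jd {d : ℕ} [NeZero d] (hd : d ∣ M) (x : ↥(laurentBaseChange L (gamma1Field M)))
    (hx : (x : LaurentSeries L) = qExpand L d (jqModC L)) :
    (D1 D hζ).emb x = algebraMap HolFun MerFun (jd d) :=
  embF_jd D (laurentBaseChange_gamma1Field_eq hζ) hD hd x hx

theorem emb1_x (x : ↥(laurentBaseChange L (gamma1Field M)))
    (hx : (x : LaurentSeries L) = jqModC L) :
    (D1 D hζ).emb x = algebraMap HolFun MerFun jHol :=
  embF_x D (laurentBaseChange_gamma1Field_eq hζ) hD x hx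

theorem emb1_ratio1 {b c b' c' : ZMod M} (hb : b ≠ 0) (hc : c ≠ 0) (hb' : b' ≠ 0) (hc' : c' ≠ 0)
    (x : ↥(laurentBaseChange L (gamma1Field M)))
    (hx : (x : LaurentSeries L) = ratio1 M ζ b c b' c') :
    (D1 D hζ).emb x = Rfun M (0, b) (0, c) (0, b') (0, c') :=
  embF_ratio1 D (laurentBaseChange_gamma1Field_eq hζ) hD hb hc hb' hc' x hx

theorem fixed1 {γ : SL(2, ℤ)} (hγ : γ ∈ G1.Gamma1pm M)
    (f : ↥(laurentBaseChange L (gamma1Field M))) :
    γ • (D1 D hζ).emb f = (D1 D hζ).emb f :=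
  fixedF D (laurentBaseChange_gamma1Field_eq hζ) hD hγ f

theorem stab1 (hM : 8 ≤ M) (γ : SL(2, ℤ))
    (h : ∀ f : ↥(laurentBaseChange L (gamma1Field M)), γ • (D1 D hζ).emb f = (D1 D hζ).emb f) :
    γ ∈ G1.Gamma1pm M :=
  stabF D (laurentBaseChange_gamma1Field_eq hζ) hD hζ hM γ h

/-- **(A5) (i)**: the analytic realisation of the function field `F1 L M` of `X₁(M)`, exact
stabiliser `±Γ₁(M)`; `x` is any element of `F1 L M` with underlying series `j`. -/
def embData1 (hconst : ∀ c : ℂ, ψ₀ (algebraMap ℂ P c) = HahnSeries.C c) (hM : 8 ≤ M)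
    (x : ↥(laurentBaseChange L (gamma1Field M))) (hx : (x : LaurentSeries L) = jqModC L) :
    ConjAbs.EmbData L ↥(laurentBaseChange L (gamma1Field M)) ι x (G1.Gamma1pm M) :=
  embDataF D (laurentBaseChange_gamma1Field_eq hζ) hD hconst hζ hM x hx

theorem embData1_emb (hconst : ∀ c : ℂ, ψ₀ (algebraMap ℂ P c) = HahnSeries.C c)
    (hM : 8 ≤ M) (x : ↥(laurentBaseChange L (gamma1Field M)))
    (hx : (x : LaurentSeries L) = jqModC L) :
    (embData1 D hζ hD hconst hM x hx).emb = (D1 D hζ).emb :=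
  embDataF_emb D (laurentBaseChange_gamma1Field_eq hζ) hD hconst hζ hM x hx

theorem slash1_j {g : SL(2, ℤ)} (hg : g ∈ CongruenceSubgroup.Gamma0 M) {e : ℕ} [NeZero e]
    (he : e ∣ M) (x : ↥(laurentBaseChange L (gamma1Field M)))
    (hx : (x : LaurentSeries L) = qExpand L e (jqModC L)) :
    g • (D1 D hζ).emb x = (D1 D hζ).emb x :=
  slashF_j D (laurentBaseChange_gamma1Field_eq hζ) hD hg he x hx

theorem slash1_ratio1 {g : SL(2, ℤ)} (hg : g ∈ CongruenceSubgroup.Gamma0 M)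
    {b c b' c' : ZMod M} (hb : b ≠ 0) (hc : c ≠ 0) (hb' : b' ≠ 0) (hc' : c' ≠ 0)
    (x y : ↥(laurentBaseChange L (gamma1Field M)))
    (hx : (x : LaurentSeries L) = ratio1 M ζ b c b' c')
    (hy : (y : LaurentSeries L) =
      ratio1 M ζ (G1.lr M g⁻¹ * b) (G1.lr M g⁻¹ * c) (G1.lr M g⁻¹ * b') (G1.lr M g⁻¹ * c')) :
    g • (D1 D hζ).emb x = (D1 D hζ).emb y :=
  slashF_ratio1 D (laurentBaseChange_gamma1Field_eq hζ) hD hg hb hc hb' hc' x y hx hy

end Instance

end Fermat.Agent.S48x.Ana.Emb1Data
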