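import Mathlib
import Fermat.Agent.S48x.Ana.Emb1Inst
import Fermat.Agent.S27x.G1.DegreeGamma
import Fermat.Agent.S27x.G1.PlacesGamma

/-!
# P-S48, layer (a), slice (A5) (helper8): transcendence of `j` and the degree over `ℂ(j)`

* `transcendental_jF1R`: `j` is transcendental over `L` in `laurentBaseChange L (gamma1Field M)`
  (`L` algebraically closed with an embedding into `ℂ`).
* `finiteDimensional_C`, `finrank_C`: over `ℂ` the function field of `X₁(M)` is finite over
  `ℂ(j)` of degree `[SL(2,ℤ) : ±Γ₁(M)]`.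
-/

set_option autoImplicit false
set_option linter.unusedSectionVars false

noncomputable section

open ModularCurve IntermediateField
open scoped MatrixGroups

namespace Fermat.Agent.S48x.Ana.Emb1

open Fermat.Agent.S24 Fermat.Agent.S24.CuspOrd
open Fermat.Agent.S48x.Model Fermat.Agent.S48x.G1 Fermat.Agent.S48x.PPack
open CongruenceSubgroup

variable {M : ℕ} [NeZero M]

/-- `j` is transcendental over the constants. -/
theorem transcendental_jF1R {L : Type*} [Field L] [Algebra ℚ L] [IsAlgClosed L]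
    {ι : L →+* ℂ} {ζ : L} (hM : 8 ≤ M) (hζ : IsPrimitiveRoot ζ M) (hι : ι ζ = zetaM M) :
    Transcendental L (jF1R L M) :=
  Fermat.Agent.S27x.G1.transcendental_x (embData1 ι ζ hM hζ hι)

instance fintypeQuotGamma1pm : Fintype (SL(2, ℤ) ⧸ Gamma1pm M) :=
  Subgroup.fintypeQuotientOfFiniteIndex

theorem finiteDimensional_C (hM : 8 ≤ M) :
    FiniteDimensional ℂ⟮jF1R ℂ M⟯ ↥(laurentBaseChange ℂ (gamma1Field M)) :=
  Fermat.Agent.S27x.G1.finiteDimensional (embDataC hM) (NeZero.pos M) (hcusp_embDataC hM)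

theorem finrank_C (hM : 8 ≤ M) :
    Module.finrank ℂ⟮jF1R ℂ M⟯ ↥(laurentBaseChange ℂ (gamma1Field M)) = (Gamma1pm M).index := by
  rw [Fermat.Agent.S27x.G1.finrank_eq_card (embDataC hM) (NeZero.pos M) (hcusp_embDataC hM),
    Subgroup.index_eq_card, Nat.card_eq_fintype_card]

end Fermat.Agent.S48x.Ana.Emb1
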