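/-
P-S48, block G1 layer (a), slice (A2) core (helper29, second hand of helper62): the analytic
embedding of the full-level field `Model.fullField M ζ ⊆ L((z))` into `MerFun`, for a field `L` of
constants with `ι : L →+* ℂ`, `ι ζ = exp(2πi/M)`.  Clone of `Gateway/Dict/EmbedL.exists_embL` on top
of `Ana/PerM` (`P := cuspFnAlg M`, `ψ₀ := zLaurent M`).

* `exists_embFrac` : `fullField M ζ →+* Frac (cuspFnAlg M)` compatible with `z`-expansions.
* `exists_embFull` : `emb : fullField M ζ →+* MerFun`, constants ↦ constants,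
  `j(z^(dM)) ↦ jd d`, `ratio v w v' w' ↦ Rfun M v w v' w'`, and every value is a quotient `a / b`
  of elements of `cuspFnAlg M` with `coeffMap ι x * zLaurent b = zLaurent a`.
* `structure FullEmb`, `exists_fullEmb`, and consequences: `FullEmb.fixed` (invariance under
  `Γ(M)`), `FullEmb.isCuspMer_emb`, `FullEmb.emb_eq_of_zLaurent_eq`,
  `FullEmb.zLaurent_eq_of_emb_eq`, `FullEmb.smul_emb_ratio`.
-/
import Mathlib
import Fermat.Agent.S48x.Ana.PerM
import Fermat.Agent.S48x.Ana.StabFull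

set_option autoImplicit false
set_option linter.unusedSectionVars false

open UpperHalfPlane hiding I
open Complex ModularCurve
open scoped Real MatrixGroups

namespace Fermat.Agent.S48x.Ana.EmbFullCore

open Fermat.Agent.S48x.PPack Fermat.Agent.S48x.Model Fermat.Agent.S24 Fermat.Agent.S24.CuspOrd
open Fermat.Agent.S24.QExp Fermat.Agent.S24.EmbedGen Fermat.Agent.S48x.Ana.PerM

variable (M : ℕ) [NeZero M] {L : Type*} [Field L] (ι : L →+* ℂ) (ζ : L)

/-- The generic embedding into `Frac (cuspFnAlg M)`, compatible with `z`-expansions. -/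
theorem exists_embFrac (hζ : ι ζ = zetaM M) :
    ∃ emb₀ : fullField M ζ →+* FracP (cuspFnAlg M),
      ∀ x, qFrac (psiM M) (psiM_injective M) (emb₀ x) = coeffMap ι (x : LaurentSeries L) := by
  have h1 : ∀ c : L, coeffMap ι (algebraMap L (LaurentSeries L) c) ∈
      (qFrac (psiM M) (psiM_injective M)).fieldRange := by
    intro c
    rw [coeffMap_algebraMap_eq_C]
    exact rat_mem_fieldRange (psiM_injective M) (psiM_algebraMap M) _
  have h2 : ∀ g ∈ fullGens M ζ, coeffMap ι g ∈ (qFrac (psiM M) (psiM_injective M)).fieldRange := by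
    rintro g (⟨d, hd0, -, rfl⟩ | ⟨v, w, v', w', hv, hw, hv', hw', rfl⟩)
    · rw [coeffMap_qExpand, coeffMap_jqModC]
      exact ⟨_, qFrac_jd M d⟩
    · rw [coeffMap_ratio, hζ]
      exact ⟨_, qFrac_ratioFrac M hv hw hv' hw'⟩
  exact EmbedAbs.exists_ringHom_of_generators (K := L) (L := LaurentSeries L)
    (coeffMap ι) (qFrac (psiM M) (psiM_injective M)) (fullGens M ζ) h1 h2

/-- **The analytic embedding of the full-level field**, with all its properties. -/
theorem exists_embFull (hζ : ι ζ = zetaM M) :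
    ∃ emb : fullField M ζ →+* MerFun,
      (∀ c : L, emb (algebraMap L (fullField M ζ) c) =
        algebraMap HolFun MerFun (algebraMap ℂ HolFun (ι c))) ∧
      (∀ (d : ℕ) [NeZero d] (hd : d ∣ M),
        emb ⟨qExpand L (d * M) (jqModC L), jqd_mem_fullField ζ hd⟩ =
          algebraMap HolFun MerFun (JLevel.jd d)) ∧
      (∀ (v w v' w' : Vec M) (hv : v ≠ 0) (hw : w ≠ 0) (hv' : v' ≠ 0) (hw' : w' ≠ 0),
        emb ⟨ratio M ζ v w v' w', ratio_mem_fullField ζ hv hw hv' hw'⟩ = Rfun M v w v' w') ∧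
      (∀ x : fullField M ζ, ∃ a b : cuspFnAlg M, b ≠ 0 ∧
        emb x = algebraMap HolFun MerFun (a : HolFun) / algebraMap HolFun MerFun (b : HolFun) ∧
        coeffMap ι (x : LaurentSeries L) * zLaurent M b = zLaurent M a) := by
  obtain ⟨emb₀, hemb₀⟩ := exists_embFrac M ι ζ hζ
  have hqinj : Function.Injective (qFrac (psiM M) (psiM_injective M)) :=
    (qFrac (psiM M) (psiM_injective M)).injective
  refine ⟨(toMer (cuspFnAlg M)).comp emb₀, ?_, ?_, ?_, ?_⟩
  · intro c
    have h1 : emb₀ (algebraMap L (fullField M ζ) c) =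
        algebraMap (cuspFnAlg M) (FracP (cuspFnAlg M)) (algebraMap ℂ (cuspFnAlg M) (ι c)) := by
      apply hqinj
      rw [hemb₀, qFrac_algebraMap, psiM_algebraMap]
      exact coeffMap_algebraMap_eq_C ι c
    rw [RingHom.comp_apply, h1, toMer_algebraMap]
    rfl
  · intro d hd0 hd
    have h1 : emb₀ ⟨qExpand L (d * M) (jqModC L), jqd_mem_fullField ζ hd⟩ =
        algebraMap (cuspFnAlg M) (FracP (cuspFnAlg M)) ⟨JLevel.jd d, jd_mem_cuspFnAlg M d⟩ := by
      apply hqinj
      rw [hemb₀, qFrac_jd]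
      show coeffMap ι (qExpand L (d * M) (jqModC L)) = _
      rw [coeffMap_qExpand, coeffMap_jqModC]
    rw [RingHom.comp_apply, h1, toMer_algebraMap]
  · intro v w v' w' hv hw hv' hw'
    have h1 : emb₀ ⟨ratio M ζ v w v' w', ratio_mem_fullField ζ hv hw hv' hw'⟩ =
        ratioFrac M v w v' w' := by
      apply hqinj
      rw [hemb₀, qFrac_ratioFrac M hv hw hv' hw']
      show coeffMap ι (ratio M ζ v w v' w') = _
      rw [coeffMap_ratio, hζ]
    rw [RingHom.comp_apply, h1, toMer_ratioFrac]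
  · intro x
    obtain ⟨a, b, hb, hab⟩ := IsFractionRing.div_surjective (cuspFnAlg M) (emb₀ x)
    have hb0 : b ≠ 0 := nonZeroDivisors.ne_zero hb
    refine ⟨a, b, hb0, ?_, ?_⟩
    · rw [RingHom.comp_apply, ← hab, toMer_div]
    · have h2 := hemb₀ x
      rw [← hab, qFrac_div] at h2
      have hψb : psiM M b ≠ 0 := fun h0 => hb0 (psiM_injective M (by rw [h0, map_zero]))
      rw [← psiM_apply, ← psiM_apply, ← h2, div_mul_cancel₀ _ hψb]

/-! ### The bundled datum and its consequences -/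

/-- The analytic realisation of the full-level field `fullField M ζ` over `L`. -/
structure FullEmb (ι : L →+* ℂ) (ζ : L) where
  /-- the embedding -/
  emb : fullField M ζ →+* MerFun
  emb_const : ∀ c : L, emb (algebraMap L (fullField M ζ) c) =
    algebraMap HolFun MerFun (algebraMap ℂ HolFun (ι c))
  emb_jd : ∀ (d : ℕ) [NeZero d] (hd : d ∣ M),
    emb ⟨qExpand L (d * M) (jqModC L), jqd_mem_fullField ζ hd⟩ =
      algebraMap HolFun MerFun (JLevel.jd d)
  emb_ratio : ∀ (v w v' w' : Vec M) (hv : v ≠ 0) (hw : w ≠ 0) (hv' : v' ≠ 0) (hw' : w' ≠ 0),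
    emb ⟨ratio M ζ v w v' w', ratio_mem_fullField ζ hv hw hv' hw'⟩ = Rfun M v w v' w'
  emb_frac : ∀ x : fullField M ζ, ∃ a b : cuspFnAlg M, b ≠ 0 ∧
    emb x = algebraMap HolFun MerFun (a : HolFun) / algebraMap HolFun MerFun (b : HolFun) ∧
    coeffMap ι (x : LaurentSeries L) * zLaurent M b = zLaurent M a

/-- Existence of the analytic embedding of the full-level field. -/
theorem exists_fullEmb (hζ : ι ζ = zetaM M) : Nonempty (FullEmb M ι ζ) := by
  obtain ⟨emb, h1, h2, h3, h4⟩ := exists_embFull M ι ζ hζ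
  exact ⟨⟨emb, h1, fun d _ hd => h2 d hd, h3, h4⟩⟩

theorem neg_one_smul_holFun' (a : HolFun) : (-1 : SL(2, ℤ)) • a = a := by
  ext τ
  have h1 : (-1 : SL(2, ℤ))⁻¹ • τ = τ := by
    rw [inv_smul_eq_iff, ModularGroup.SL_neg_smul, one_smul]
  rw [HolFun.sl_smul_apply, h1]

theorem neg_one_smul_merFun' (h : MerFun) : (-1 : SL(2, ℤ)) • h = h := by
  obtain ⟨a, b, -, rfl⟩ := IsFractionRing.div_surjective HolFun h
  rw [smul_div₀', MerFun.sl_smul_algebraMap, MerFun.sl_smul_algebraMap, neg_one_smul_holFun',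
    neg_one_smul_holFun']

theorem neg_smul_merFun' (γ : SL(2, ℤ)) (h : MerFun) : (-γ) • h = γ • h := by
  have : -γ = γ * (-1 : SL(2, ℤ)) := by rw [mul_neg, mul_one]
  rw [this, mul_smul, neg_one_smul_merFun']

namespace FullEmb

variable {M} {ι : L →+* ℂ} {ζ : L} (D : FullEmb M ι ζ)

theorem emb_injective : Function.Injective D.emb := D.emb.injective

/-- Every value of the embedding is a quotient of `M`-periodic cusp functions. -/
theorem isCuspMer_emb (x : fullField M ζ) : IsCuspMer M (D.emb x) := by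
  obtain ⟨a, b, hb0, hx, -⟩ := D.emb_frac x
  exact ⟨a, b, a.2, b.2, fun h0 => hb0 (Subtype.ext h0), hx⟩

/-- The transformation law of the ratio generators under `SL(2, ℤ)`
(`S24` action `(γ • f) τ = f (γ⁻¹ • τ)`). -/
theorem smul_emb_ratio (γ : SL(2, ℤ)) (v w v' w' : Vec M) (hv : v ≠ 0) (hw : w ≠ 0) (hv' : v' ≠ 0)
    (hw' : w' ≠ 0) :
    γ • D.emb ⟨ratio M ζ v w v' w', ratio_mem_fullField ζ hv hw hv' hw'⟩ =
      D.emb ⟨ratio M ζ (vecSL M v γ⁻¹) (vecSL M w γ⁻¹) (vecSL M v' γ⁻¹) (vecSL M w' γ⁻¹),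
        ratio_mem_fullField ζ (vecSL_ne_zero M hv _) (vecSL_ne_zero M hw _)
          (vecSL_ne_zero M hv' _) (vecSL_ne_zero M hw' _)⟩ := by
  rw [D.emb_ratio v w v' w' hv hw hv' hw',
    D.emb_ratio _ _ _ _ (vecSL_ne_zero M hv _) (vecSL_ne_zero M hw _)
      (vecSL_ne_zero M hv' _) (vecSL_ne_zero M hw' _), smul_Rfun]

/-- A criterion for `γ` to fix the image of the embedding: it is enough to check the generators. -/
theorem smul_emb_eq_of_generators (γ : SL(2, ℤ))
    (hj : ∀ (d : ℕ) [NeZero d], d ∣ M → γ • JLevel.jd d = JLevel.jd d)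
    (hR : ∀ v w v' w' : Vec M, v ≠ 0 → w ≠ 0 → v' ≠ 0 → w' ≠ 0 →
      γ • Rfun M v w v' w' = Rfun M v w v' w') (x : fullField M ζ) :
    γ • D.emb x = D.emb x := by
  obtain ⟨y, hy⟩ := x
  induction hy using IntermediateField.adjoin_induction with
  | mem y hy =>
    rcases hy with ⟨d, hd0, hd, rfl⟩ | ⟨v, w, v', w', hv, hw, hv', hw', rfl⟩
    · have h1 := D.emb_jd d hd
      rw [h1, MerFun.sl_smul_algebraMap, hj d hd]
    · have h1 := D.emb_ratio v w v' w' hv hw hv' hw'
      rw [h1, hR v w v' w' hv hw hv' hw']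
  | algebraMap c =>
    have h1 := D.emb_const c
    have h2 : (⟨algebraMap L (LaurentSeries L) c, (fullField M ζ).algebraMap_mem c⟩ :
        fullField M ζ) = algebraMap L (fullField M ζ) c := rfl
    rw [h2, h1, MerFun.sl_smul_algebraMap, HolFun.sl_smul_algebraMap]
  | add y z hy hz ihy ihz =>
    have h2 : (⟨y + z, add_mem hy hz⟩ : fullField M ζ) = ⟨y, hy⟩ + ⟨z, hz⟩ := rfl
    rw [h2, map_add, smul_add, ihy, ihz]
  | inv y hy ihy =>
    have h2 : (⟨y⁻¹, inv_mem hy⟩ : fullField M ζ) = (⟨y, hy⟩ : fullField M ζ)⁻¹ := rfl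
    rw [h2, map_inv₀, smul_inv₀', ihy]
  | mul y z hy hz ihy ihz =>
    have h2 : (⟨y * z, mul_mem hy hz⟩ : fullField M ζ) = ⟨y, hy⟩ * ⟨z, hz⟩ := rfl
    rw [h2, map_mul, smul_mul', ihy, ihz]

/-- The image of the embedding is fixed by the principal congruence subgroup `Γ(M)`. -/
theorem fixed {γ : SL(2, ℤ)} (hγ : γ ∈ CongruenceSubgroup.Gamma M) (x : fullField M ζ) :
    γ • D.emb x = D.emb x := by
  have hγ' : γ⁻¹ ∈ CongruenceSubgroup.Gamma M := inv_mem hγ
  have h0 : γ ∈ CongruenceSubgroup.Gamma0 M := by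
    rw [CongruenceSubgroup.Gamma0_mem]
    exact (CongruenceSubgroup.Gamma_mem.1 hγ).2.2.1
  obtain ⟨h00, h01, h10, h11⟩ := CongruenceSubgroup.Gamma_mem.1 hγ'
  refine D.smul_emb_eq_of_generators γ (fun d _ hd => JLevel.smul_jd_of_mem_Gamma0 hd h0) ?_ x
  intro v w v' w' _ _ _ _
  rw [smul_Rfun, vecSL_of_gamma M v h00 h01 h10 h11, vecSL_of_gamma M w h00 h01 h10 h11,
    vecSL_of_gamma M v' h00 h01 h10 h11, vecSL_of_gamma M w' h00 h01 h10 h11]

/-- The image of the embedding is fixed by `±Γ(M)`. -/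
theorem fixed_of_neg {γ : SL(2, ℤ)} (hγ : -γ ∈ CongruenceSubgroup.Gamma M) (x : fullField M ζ) :
    γ • D.emb x = D.emb x := by
  rw [← neg_smul_merFun', D.fixed hγ]

/-- If `θ ∈ cuspFnAlg M` has `z`-expansion `coeffMap ι a` then `emb a = θ`. -/
theorem emb_eq_of_zLaurent_eq (a : fullField M ζ) (θ : cuspFnAlg M)
    (hq : zLaurent M θ = coeffMap ι (a : LaurentSeries L)) :
    D.emb a = algebraMap HolFun MerFun (θ : HolFun) := by
  obtain ⟨a', b', hb0, hx, hq'⟩ := D.emb_frac a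
  rw [← hq, ← map_mul] at hq'
  have h1 : θ * b' = a' := zLaurent_injective M hq'
  have h2 : (θ : HolFun) * (b' : HolFun) = (a' : HolFun) := congrArg Subtype.val h1
  have hb0' : algebraMap HolFun MerFun (b' : HolFun) ≠ 0 := fun h0 =>
    hb0 (Subtype.ext (IsFractionRing.injective HolFun MerFun (by rw [h0]; exact (map_zero _).symm)))
  rw [hx, ← h2, map_mul, mul_div_assoc, div_self hb0', mul_one]

/-- Conversely, if `emb a = θ` with `θ ∈ cuspFnAlg M` then the `z`-expansion of `θ` is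
`coeffMap ι a`. -/
theorem zLaurent_eq_of_emb_eq (a : fullField M ζ) (θ : cuspFnAlg M)
    (h : D.emb a = algebraMap HolFun MerFun (θ : HolFun)) :
    zLaurent M θ = coeffMap ι (a : LaurentSeries L) := by
  obtain ⟨a', b', hb0, hx, hq'⟩ := D.emb_frac a
  have hb0' : algebraMap HolFun MerFun (b' : HolFun) ≠ 0 := fun h0 =>
    hb0 (Subtype.ext (IsFractionRing.injective HolFun MerFun (by rw [h0]; exact (map_zero _).symm)))
  have h1 : (θ : HolFun) * (b' : HolFun) = (a' : HolFun) := by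
    apply IsFractionRing.injective HolFun MerFun
    rw [map_mul, ← h, hx, div_mul_cancel₀ _ hb0']
  have h2 : θ * b' = a' := Subtype.ext h1
  have hqb : zLaurent M b' ≠ 0 := fun h0 =>
    hb0 (zLaurent_injective M (by rw [h0, map_zero]))
  have h3 : zLaurent M θ * zLaurent M b' = coeffMap ι (a : LaurentSeries L) * zLaurent M b' := by
    rw [hq', ← map_mul, h2]
  exact mul_right_cancel₀ hqb h3

/-- The datum satisfies the hypotheses `IsFullEmb` of `Ana/StabFull.lean` (slice (A3)). -/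
theorem isFullEmb : StabFull.IsFullEmb D.emb where
  const_fixed c γ := by
    rw [D.emb_const, MerFun.sl_smul_algebraMap, HolFun.sl_smul_algebraMap]
  jd d _ hd := D.emb_jd d hd
  ratio := D.emb_ratio

/-- **Exact stabiliser** (slice (A3)): `γ` fixes the image of the embedding iff `γ ≡ ±1 mod M`. -/
theorem fixes_iff (hM : 5 ≤ M) (hζ : IsPrimitiveRoot ζ M) (γ : SL(2, ℤ)) :
    (∀ f, γ • D.emb f = D.emb f) ↔ γ ∈ StabFull.GammaPM M :=
  StabFull.fixes_iff hM hζ D.isFullEmb γ

end FullEmb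

end Fermat.Agent.S48x.Ana.EmbFullCore
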