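/-
P-S48, block G1 layer (a) (helper29): adapters on top of `Ana/EmbFullCore.FullEmb`.

* `xFull M ζ : fullField M ζ` : the function `j(z^M)`; `FullEmb.emb_xFull : emb xFull = j`.
* `FullEmb.isCuspMer_smul` : every `SL(2,ℤ)`-translate of every value of the embedding is a quotient
  of cusp functions of level `M` (`hcusp`), via the weight-zero trick of `Ana/WtZero.lean`.
* `FullEmb.toEmbData` : the `Gateway/Dict/ConjAbs.EmbData L (fullField M ζ) ι (xFull M ζ) (±Γ(M))`
  consumed by `Ana/GaloisAbs.lean` (abstract half of (A4)).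
* `FullEmb.stable_ratio` : the ratio generators have `SL(2,ℤ)`-translates in the image.
* `FullEmb.eq_of_emb_invariant`-type input `hinvC` for `GaloisAbs` over `ℂ` is NOT here (needs
  `Dict/MerInvJ`); see `Ana/GaloisFull*.lean`.
-/
import Mathlib
import Fermat.Agent.S48x.Ana.EmbFullCore
import Fermat.Agent.S48x.Ana.WtZero
import Fermat.Agent.Gateway.Dict.ConjAbs

set_option autoImplicit false
set_option linter.unusedSectionVars false

open UpperHalfPlane hiding I
open Complex ModularCurve
open scoped Real MatrixGroups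

namespace Fermat.Agent.S48x.Ana.EmbFullCore

open Fermat.Agent.S48x.PPack Fermat.Agent.S48x.Model Fermat.Agent.S24 Fermat.Agent.S24.CuspOrd
open Fermat.Agent.S24.QExp Fermat.Agent.S24.EmbedGen Fermat.Agent.S48x.Ana.PerM
open Fermat.Agent.Gateway.Dict

variable (M : ℕ) [NeZero M] {L : Type*} [Field L] (ζ : L)

theorem jqM_mem_fullField : qExpand L M (jqModC L) ∈ fullField M ζ := by
  have h := jqd_mem_fullField (M := M) ζ (one_dvd M)
  rwa [qExpand_congr (one_mul M)] at h

/-- The function `j(z^M)` of the full-level field. -/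
noncomputable def xFull : fullField M ζ := ⟨qExpand L M (jqModC L), jqM_mem_fullField M ζ⟩

@[simp] theorem coe_xFull : ((xFull M ζ : fullField M ζ) : LaurentSeries L) =
    qExpand L M (jqModC L) := rfl

namespace FullEmb

variable {M} {ι : L →+* ℂ} {ζ} (D : FullEmb M ι ζ)

theorem emb_xFull : D.emb (xFull M ζ) = algebraMap HolFun MerFun jHol := by
  have h := D.emb_jd 1 (one_dvd M)
  rw [JD.jd_one_eq_jHol] at h
  rw [← h]
  congr 1
  apply Subtype.ext
  exact (qExpand_congr (one_mul M) _).symm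

/-- `hcusp`: every translate of every value of the embedding is a quotient of cusp functions of
level `M`. -/
theorem isCuspMer_smul (x : fullField M ζ) (g : SL(2, ℤ)) : IsCuspMer M (g • D.emb x) := by
  obtain ⟨y, hy⟩ := x
  induction hy using IntermediateField.adjoin_induction generalizing g with
  | mem y hy =>
    rcases hy with ⟨d, hd0, hd, rfl⟩ | ⟨v, w, v', w', hv, hw, hv', hw', rfl⟩
    · have h1 := D.emb_jd d hd
      rw [h1, MerFun.sl_smul_algebraMap]
      exact isCuspMer_algebraMap (JD.isCuspFn_smul_jd hd g)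
    · have h1 := D.emb_ratio v w v' w' hv hw hv' hw'
      rw [h1]
      by_cases h0 : dHol M v' w' = 0
      · have : Rfun M v w v' w' = 0 := by
          unfold Rfun
          rw [h0, map_zero, div_zero]
        rw [this, smul_zero]
        exact isCuspMer_zero M
      · rw [Rfun_eq_wt0_div M v w h0]
        obtain ⟨a', e', ha', he', he0, h⟩ :=
          JD.exists_smul_div_eq (wt0_mem_cuspAlg M (numPairs M v w v' w'))
            (wt0_mem_cuspAlg M (denPairs M v' w')) (wt0_denPairs_ne_zero M h0) g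
        exact ⟨a', e', JD.isCuspFn_of_mem_cuspAlg ha', JD.isCuspFn_of_mem_cuspAlg he', he0, h⟩
  | algebraMap c =>
    have h1 := D.emb_const c
    have h2 : (⟨algebraMap L (LaurentSeries L) c, (fullField M ζ).algebraMap_mem c⟩ :
        fullField M ζ) = algebraMap L (fullField M ζ) c := rfl
    rw [h2, h1, MerFun.sl_smul_algebraMap, HolFun.sl_smul_algebraMap]
    exact isCuspMer_const M _
  | add y z hy hz ihy ihz =>
    have h2 : (⟨y + z, add_mem hy hz⟩ : fullField M ζ) = ⟨y, hy⟩ + ⟨z, hz⟩ := rfl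
    rw [h2, map_add, smul_add]
    exact (ihy g).add (ihz g)
  | inv y hy ihy =>
    have h2 : (⟨y⁻¹, inv_mem hy⟩ : fullField M ζ) = (⟨y, hy⟩ : fullField M ζ)⁻¹ := rfl
    rw [h2, map_inv₀, smul_inv₀']
    exact (ihy g).inv
  | mul y z hy hz ihy ihz =>
    have h2 : (⟨y * z, mul_mem hy hz⟩ : fullField M ζ) = ⟨y, hy⟩ * ⟨z, hz⟩ := rfl
    rw [h2, map_mul, smul_mul']
    exact (ihy g).mul (ihz g)

/-- The `EmbData` of the full-level field: exact stabiliser `±Γ(M)`. -/
noncomputable def toEmbData (hM : 5 ≤ M) (hζ : IsPrimitiveRoot ζ M) :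
    ConjAbs.EmbData L (fullField M ζ) ι (xFull M ζ) (StabFull.GammaPM M) where
  emb := D.emb
  emb_const := D.emb_const
  emb_x := D.emb_xFull
  fixed γ hγ f := (D.fixes_iff hM hζ γ).2 hγ f
  stab γ h := (D.fixes_iff hM hζ γ).1 h

@[simp] theorem toEmbData_emb (hM : 5 ≤ M) (hζ : IsPrimitiveRoot ζ M) :
    (D.toEmbData hM hζ).emb = D.emb := rfl

/-- The translates of the ratio generators stay in the image. -/
theorem stable_ratio (g : SL(2, ℤ)) (v w v' w' : Vec M) (hv : v ≠ 0) (hw : w ≠ 0) (hv' : v' ≠ 0)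
    (hw' : w' ≠ 0) :
    g • D.emb ⟨ratio M ζ v w v' w', ratio_mem_fullField ζ hv hw hv' hw'⟩ ∈ D.emb.range :=
  ⟨_, (D.smul_emb_ratio g v w v' w' hv hw hv' hw').symm⟩

end FullEmb

end Fermat.Agent.S48x.Ana.EmbFullCore
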