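import Mathlib
import Fermat.Prelude.Def_ModularCurve_LaurentCoeff

/-!
# P-S48, layer (a): algebraic descent `C(x) ∩ K((z)) = K(x)`  (helper30)

`K ⊆ C` fields (`ι : K →+* C`, e.g. `C = ℂ`).  For a `K`-linear functional `lam : C → K` let
`funSeries lam : C((z)) → K((z))` apply `lam` coefficientwise.  The key identity
`funSeries lam (coeffMap ι g * h) = g * funSeries lam h` shows that `funSeries lam` maps the
`C`-algebra generated by `coeffMap ι '' S` into the `K`-algebra generated by `S`, whence:

* `mem_adjoin_of_coeffMap_mem_adjoin` (I1''): `coeffMap ι f ∈ C(coeffMap ι '' S) → f ∈ K(S)`;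
* `mem_adjoin_simple_of_coeffMap_rel` (I1): a relation
  `coeffMap ι f * Q(coeffMap ι x) = P(coeffMap ι x)` with `P Q : C[X]`, `Q(coeffMap ι x) ≠ 0`
  forces `f ∈ K(x)`;
* `transcendental_coeffMap`: `x` transcendental over `K` ⟹ `coeffMap ι x` transcendental over `C`;
* `mem_adjoin_simple_of_coeffMap_rel'` (I1'): the same as (I1) with `Q ≠ 0` and `x` transcendental
  over `K`.
-/

set_option autoImplicit false

noncomputable section

namespace Fermat.Agent.S48x.Ana.InvDescent

open ModularCurve IntermediateField Polynomial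

/-! ### Coefficientwise functionals -/

section Functional

variable {K C : Type*} [Field K] [Field C] [Algebra K C]

/-- Apply a `K`-linear functional coefficientwise. -/
def funSeries (lam : C →ₗ[K] K) (h : LaurentSeries C) : LaurentSeries K := h.map lam

@[simp] theorem funSeries_coeff (lam : C →ₗ[K] K) (h : LaurentSeries C) (n : ℤ) :
    (funSeries lam h).coeff n = lam (h.coeff n) := rfl

theorem funSeries_add (lam : C →ₗ[K] K) (h₁ h₂ : LaurentSeries C) :
    funSeries lam (h₁ + h₂) = funSeries lam h₁ + funSeries lam h₂ := by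
  ext n
  simp

@[simp] theorem funSeries_zero (lam : C →ₗ[K] K) : funSeries lam 0 = 0 := by
  ext n
  simp

theorem funSeries_support_subset (lam : C →ₗ[K] K) (h : LaurentSeries C) :
    (funSeries lam h).support ⊆ h.support := by
  intro n hn
  rw [HahnSeries.mem_support] at hn ⊢
  intro h0
  apply hn
  rw [funSeries_coeff, h0, map_zero]

theorem coeffMap_support_subset (g : LaurentSeries K) :
    (coeffMap (algebraMap K C) g).support ⊆ g.support := by
  intro n hn
  rw [HahnSeries.mem_support] at hn ⊢
  intro h0
  apply hn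
  rw [coeffMap_coeff, h0, map_zero]

/-- **Key identity**: `funSeries lam` is linear over `K((z))`. -/
theorem funSeries_coeffMap_mul (lam : C →ₗ[K] K) (g : LaurentSeries K) (h : LaurentSeries C) :
    funSeries lam (coeffMap (algebraMap K C) g * h) = g * funSeries lam h := by
  ext n
  rw [funSeries_coeff, HahnSeries.coeff_mul_left' g.isPWO_support (coeffMap_support_subset g),
    HahnSeries.coeff_mul_right' h.isPWO_support (funSeries_support_subset lam h), map_sum]
  refine Finset.sum_congr rfl fun ij _ => ?_
  rw [coeffMap_coeff, funSeries_coeff, ← Algebra.smul_def, map_smul, smul_eq_mul]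

theorem funSeries_mul_coeffMap (lam : C →ₗ[K] K) (g : LaurentSeries K) (h : LaurentSeries C) :
    funSeries lam (h * coeffMap (algebraMap K C) g) = funSeries lam h * g := by
  rw [mul_comm, funSeries_coeffMap_mul, mul_comm]

theorem funSeries_algebraMap (lam : C →ₗ[K] K) (c : C) :
    funSeries lam (algebraMap C (LaurentSeries C) c) = algebraMap K (LaurentSeries K) (lam c) := by
  rw [algebraMap_laurentSeries_eq_single, algebraMap_laurentSeries_eq_single]
  ext n
  rcases eq_or_ne n 0 with rfl | hn
  · simp [HahnSeries.coeff_single_same]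
  · simp [HahnSeries.coeff_single_of_ne hn]

/-- `funSeries lam (c * coeffMap ι g) = lam c * g` for constants `c`. -/
theorem funSeries_algebraMap_mul_coeffMap (lam : C →ₗ[K] K) (c : C) (g : LaurentSeries K) :
    funSeries lam (algebraMap C (LaurentSeries C) c * coeffMap (algebraMap K C) g) =
      algebraMap K (LaurentSeries K) (lam c) * g := by
  rw [funSeries_mul_coeffMap, funSeries_algebraMap]

/-- There is a functional not vanishing at a given nonzero element. -/
theorem exists_functional_ne_zero {c : C} (hc : c ≠ 0) : ∃ lam : C →ₗ[K] K, lam c ≠ 0 := by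
  by_contra hcon
  push Not at hcon
  exact hc ((Module.forall_dual_apply_eq_zero_iff K c).mp hcon)

/-- There is a functional such that `funSeries lam h ≠ 0`, for `h ≠ 0`. -/
theorem exists_funSeries_ne_zero {h : LaurentSeries C} (hh : h ≠ 0) :
    ∃ lam : C →ₗ[K] K, funSeries lam h ≠ 0 := by
  obtain ⟨n, hn⟩ : ∃ n, h.coeff n ≠ 0 := by
    by_contra hcon
    push Not at hcon
    exact hh (HahnSeries.ext (funext hcon))
  obtain ⟨lam, hlam⟩ := exists_functional_ne_zero (K := K) hn
  refine ⟨lam, fun h0 => hlam ?_⟩
  rw [← funSeries_coeff, h0, HahnSeries.coeff_zero]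

/-- `funSeries lam` maps the `C`-algebra generated by `coeffMap '' S` into the `K`-algebra
generated by `S`. -/
theorem funSeries_mem_algebraAdjoin (lam : C →ₗ[K] K) (S : Set (LaurentSeries K))
    {a : LaurentSeries C}
    (ha : a ∈ Algebra.adjoin C (⇑(coeffMap (algebraMap K C)) '' S)) :
    funSeries lam a ∈ Algebra.adjoin K S := by
  rw [← Subalgebra.mem_toSubmodule, Algebra.adjoin_eq_span] at ha
  have key : ∀ c : C,
      funSeries lam (algebraMap C (LaurentSeries C) c * a) ∈ Algebra.adjoin K S := by
    induction ha using Submodule.span_induction with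
    | mem m hm =>
      intro c
      have hm' : m ∈ (Submonoid.closure S).map (coeffMap (algebraMap K C) : _ →* _) := by
        rw [MonoidHom.map_mclosure]
        exact hm
      obtain ⟨g, hg, rfl⟩ := hm'
      have h1 : funSeries lam (algebraMap C (LaurentSeries C) c *
          (coeffMap (algebraMap K C) : _ →* _) g) = algebraMap K (LaurentSeries K) (lam c) * g :=
        funSeries_algebraMap_mul_coeffMap lam c g
      rw [h1]
      refine (Algebra.adjoin K S).mul_mem ((Algebra.adjoin K S).algebraMap_mem _) ?_
      have hle : Submonoid.closure S ≤ (Algebra.adjoin K S).toSubmonoid :=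
        Submonoid.closure_le.mpr Algebra.subset_adjoin
      exact hle hg
    | zero => intro c; rw [mul_zero, funSeries_zero]; exact Subalgebra.zero_mem _
    | add x y _ _ hx hy =>
      intro c
      rw [mul_add, funSeries_add]
      exact Subalgebra.add_mem _ (hx c) (hy c)
    | smul d x _ hx =>
      intro c
      rw [Algebra.smul_def, ← mul_assoc, ← map_mul]
      exact hx (c * d)
  have := key 1
  rwa [map_one, one_mul] at this

/-- **Core descent**: a relation `coeffMap f * b = a` with `a`, `b ≠ 0` in the `C`-algebra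
generated by `coeffMap '' S` forces `f ∈ K(S)`. -/
theorem mem_adjoin_of_mul_eq (S : Set (LaurentSeries K)) {f : LaurentSeries K}
    {a b : LaurentSeries C}
    (ha : a ∈ Algebra.adjoin C (⇑(coeffMap (algebraMap K C)) '' S))
    (hb : b ∈ Algebra.adjoin C (⇑(coeffMap (algebraMap K C)) '' S)) (hb0 : b ≠ 0)
    (h : coeffMap (algebraMap K C) f * b = a) : f ∈ IntermediateField.adjoin K S := by
  obtain ⟨lam, hlam⟩ := exists_funSeries_ne_zero (K := K) hb0
  have h1 : f * funSeries lam b = funSeries lam a := by rw [← funSeries_coeffMap_mul, h]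
  have h2 : f = funSeries lam a / funSeries lam b := by rw [eq_div_iff hlam, h1]
  rw [h2]
  exact (IntermediateField.adjoin K S).div_mem
    (IntermediateField.algebra_adjoin_le_adjoin K S (funSeries_mem_algebraAdjoin lam S ha))
    (IntermediateField.algebra_adjoin_le_adjoin K S (funSeries_mem_algebraAdjoin lam S hb))

/-- (I1''), `Algebra` form: `coeffMap f ∈ C(coeffMap '' S) → f ∈ K(S)`. -/
theorem mem_adjoin_of_coeffMap_mem_adjoin_algebraMap (S : Set (LaurentSeries K))
    {f : LaurentSeries K}
    (hf : coeffMap (algebraMap K C) f ∈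
      IntermediateField.adjoin C (⇑(coeffMap (algebraMap K C)) '' S)) :
    f ∈ IntermediateField.adjoin K S := by
  obtain ⟨a, ha, b, hb, hab⟩ := IntermediateField.mem_adjoin_iff_div.mp hf
  by_cases hb0 : b = 0
  · have h0 : coeffMap (algebraMap K C) f = 0 := by rw [hab, hb0, div_zero]
    have hf0 : f = 0 := (map_eq_zero _).mp h0
    rw [hf0]
    exact zero_mem _
  · exact mem_adjoin_of_mul_eq S ha hb hb0 (by rw [hab, div_mul_cancel₀ _ hb0])

/-! ### Polynomials -/

/-- Apply a functional to the coefficients of a polynomial. -/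
def polyMap (lam : C →ₗ[K] K) (Q : Polynomial C) : Polynomial K :=
  ∑ i ∈ Q.support, monomial i (lam (Q.coeff i))

@[simp] theorem polyMap_coeff (lam : C →ₗ[K] K) (Q : Polynomial C) (n : ℕ) :
    (polyMap lam Q).coeff n = lam (Q.coeff n) := by
  rw [polyMap, Polynomial.finsetSum_coeff]
  simp only [coeff_monomial]
  rw [Finset.sum_ite_eq']
  split_ifs with h
  · rfl
  · rw [Polynomial.notMem_support_iff.mp h, map_zero]

theorem polyMap_add (lam : C →ₗ[K] K) (P Q : Polynomial C) :
    polyMap lam (P + Q) = polyMap lam P + polyMap lam Q := by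
  ext n
  simp

theorem polyMap_monomial (lam : C →ₗ[K] K) (n : ℕ) (a : C) :
    polyMap lam (monomial n a) = monomial n (lam a) := by
  ext m
  rw [polyMap_coeff, coeff_monomial, coeff_monomial]
  split_ifs
  · rfl
  · exact map_zero lam

/-- `funSeries lam (Q(coeffMap x)) = (polyMap lam Q)(x)`. -/
theorem funSeries_aeval (lam : C →ₗ[K] K) (x : LaurentSeries K) (Q : Polynomial C) :
    funSeries lam (aeval (coeffMap (algebraMap K C) x) Q) = aeval x (polyMap lam Q) := by
  induction Q using Polynomial.induction_on' with
  | add P Q hP hQ => rw [map_add, funSeries_add, hP, hQ, polyMap_add, map_add]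
  | monomial n a =>
    rw [aeval_monomial, ← map_pow, funSeries_algebraMap_mul_coeffMap, polyMap_monomial,
      aeval_monomial]

end Functional

/-! ### Statements for a ring homomorphism `ι : K →+* C` -/

section Hom

variable {K C : Type*} [Field K] [Field C] (ι : K →+* C)

/-- **(I1'')** `coeffMap ι f ∈ C(coeffMap ι '' S) → f ∈ K(S)`. -/
theorem mem_adjoin_of_coeffMap_mem_adjoin (S : Set (LaurentSeries K)) {f : LaurentSeries K}
    (hf : coeffMap ι f ∈ IntermediateField.adjoin C (⇑(coeffMap ι) '' S)) :
    f ∈ IntermediateField.adjoin K S := by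
  let _ : Algebra K C := ι.toAlgebra
  exact mem_adjoin_of_coeffMap_mem_adjoin_algebraMap S hf

/-- **(I1)** A relation `coeffMap ι f * Q(coeffMap ι x) = P(coeffMap ι x)` with `P Q : C[X]`,
`Q(coeffMap ι x) ≠ 0`, forces `f ∈ K(x)`. -/
theorem mem_adjoin_simple_of_coeffMap_rel (x f : LaurentSeries K) (P Q : Polynomial C)
    (hQ : Polynomial.aeval (coeffMap ι x) Q ≠ 0)
    (h : coeffMap ι f * Polynomial.aeval (coeffMap ι x) Q = Polynomial.aeval (coeffMap ι x) P) :
    f ∈ IntermediateField.adjoin K {x} := by
  let _ : Algebra K C := ι.toAlgebra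
  refine mem_adjoin_of_mul_eq {x} (a := aeval (coeffMap ι x) P) (b := aeval (coeffMap ι x) Q)
    ?_ ?_ hQ h
  · rw [Set.image_singleton, Algebra.adjoin_singleton_eq_range_aeval]
    exact ⟨P, rfl⟩
  · rw [Set.image_singleton, Algebra.adjoin_singleton_eq_range_aeval]
    exact ⟨Q, rfl⟩

/-- Transcendence is preserved by coefficient extension. -/
theorem transcendental_coeffMap {x : LaurentSeries K} (hx : Transcendental K x) :
    Transcendental C (coeffMap ι x) := by
  let _ : Algebra K C := ι.toAlgebra
  rintro ⟨Q, hQ0, hQ⟩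
  obtain ⟨lam, hlam⟩ := exists_functional_ne_zero (K := K) (leadingCoeff_ne_zero.mpr hQ0)
  apply hx
  refine ⟨polyMap lam Q, fun h0 => hlam ?_, ?_⟩
  · have := congrArg (fun p => Polynomial.coeff p Q.natDegree) h0
    simpa using this
  · have h1 := funSeries_aeval lam x Q
    have h2 : aeval (coeffMap (algebraMap K C) x) Q = 0 := hQ
    rw [h2, funSeries_zero] at h1
    exact h1.symm

/-- **(I1')** The same as (I1), with `Q ≠ 0` and `x` transcendental over `K`. -/
theorem mem_adjoin_simple_of_coeffMap_rel' {x : LaurentSeries K} (hx : Transcendental K x)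
    (f : LaurentSeries K) (P Q : Polynomial C) (hQ : Q ≠ 0)
    (h : coeffMap ι f * Polynomial.aeval (coeffMap ι x) Q = Polynomial.aeval (coeffMap ι x) P) :
    f ∈ IntermediateField.adjoin K {x} :=
  mem_adjoin_simple_of_coeffMap_rel ι x f P Q
    (fun h0 => hQ ((transcendental_iff.mp (transcendental_coeffMap ι hx)) Q h0)) h

end Hom


end Fermat.Agent.S48x.Ana.InvDescent
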