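/-
P-S48, block G1 layer (a), (A4) input `hinv` (helper29): for the analytic model `D : FullEmb M ι ζ`
of the full-level field, an element all of whose `SL(2,ℤ)`-translates agree lies in `L(j(z^M))`.

`emb f` is invariant and a quotient of cusp functions, hence a rational function of `j`
(`Gateway/Dict/RangeC.exists_ratfunc_of_invariant`); the relation transfers to `z`-expansions
(`PerM.zLaurent`), and the descent `ℂ(x) ∩ L((z)) = L(x)` is `Ana/InvDescent.lean` (helper30).
-/
import Mathlib
import Fermat.Agent.S48x.Ana.EmbFullData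
import Fermat.Agent.S48x.Ana.InvDescent
import Fermat.Agent.Gateway.Dict.RangeC

set_option autoImplicit false
set_option linter.unusedSectionVars false

open UpperHalfPlane hiding I
open Complex ModularCurve IntermediateField
open scoped Real MatrixGroups

namespace Fermat.Agent.S48x.Ana.EmbFullCore

open Fermat.Agent.S48x.PPack Fermat.Agent.S48x.Model Fermat.Agent.S24 Fermat.Agent.S24.CuspOrd
open Fermat.Agent.S24.QExp Fermat.Agent.S48x.Ana.PerM Fermat.Agent.Gateway.Dict

variable {M : ℕ} [NeZero M] {L : Type*} [Field L] {ι : L →+* ℂ} {ζ : L}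

theorem jHol_mem_cuspFnAlg (M : ℕ) [NeZero M] : jHol ∈ cuspFnAlg M := by
  rw [← JD.jd_one_eq_jHol]
  exact jd_mem_cuspFnAlg M 1

/-- `jHol` as an element of `cuspFnAlg M`. -/
noncomputable def jCusp (M : ℕ) [NeZero M] : cuspFnAlg M := ⟨jHol, jHol_mem_cuspFnAlg M⟩

theorem zLaurent_jCusp (M : ℕ) [NeZero M] :
    zLaurent M (jCusp M) = qExpand ℂ M (jqModC ℂ) := by
  have h := zLaurent_jd M 1
  rw [qExpand_congr (one_mul M)] at h
  rw [← h]
  congr 1
  apply Subtype.ext
  exact JD.jd_one_eq_jHol.symm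

theorem coe_aeval_jCusp (M : ℕ) [NeZero M] (Q : Polynomial ℂ) :
    ((Polynomial.aeval (jCusp M) Q : cuspFnAlg M) : HolFun) = Polynomial.aeval jHol Q := by
  have h := Polynomial.aeval_algHom_apply (cuspFnAlg M).val (jCusp M) Q
  exact h.symm

theorem zLaurent_aeval_jCusp (M : ℕ) [NeZero M] (Q : Polynomial ℂ) :
    zLaurent M (Polynomial.aeval (jCusp M) Q) =
      Polynomial.aeval (qExpand ℂ M (jqModC ℂ)) Q := by
  rw [← Polynomial.aeval_algHom_apply, zLaurent_jCusp]

namespace FullEmb

variable (D : FullEmb M ι ζ)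

theorem coeffMap_xFull : coeffMap ι ((xFull M ζ : fullField M ζ) : LaurentSeries L) =
    qExpand ℂ M (jqModC ℂ) := by
  rw [coe_xFull, coeffMap_qExpand, coeffMap_jqModC]

/-- Transfer of a rational relation over `ℂ(j)` to `z`-expansions. -/
theorem coeffMap_mul_aeval_eq (f : fullField M ζ) (P Q : Polynomial ℂ)
    (h : D.emb f * algebraMap HolFun MerFun (Polynomial.aeval jHol Q) =
      algebraMap HolFun MerFun (Polynomial.aeval jHol P)) :
    coeffMap ι (f : LaurentSeries L) *
        Polynomial.aeval (coeffMap ι ((xFull M ζ : fullField M ζ) : LaurentSeries L)) Q =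
      Polynomial.aeval (coeffMap ι ((xFull M ζ : fullField M ζ) : LaurentSeries L)) P := by
  obtain ⟨a, b, hb0, hx, hq⟩ := D.emb_frac f
  have hb0' : algebraMap HolFun MerFun (b : HolFun) ≠ 0 := fun h0 =>
    hb0 (Subtype.ext (IsFractionRing.injective HolFun MerFun (by rw [h0]; exact (map_zero _).symm)))
  -- the relation in `HolFun`
  have h1 : (a : HolFun) * Polynomial.aeval jHol Q = Polynomial.aeval jHol P * (b : HolFun) := by
    apply IsFractionRing.injective HolFun MerFun
    rw [map_mul, map_mul, ← h, hx]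
    field_simp
  -- the relation in `cuspFnAlg M`
  have h2 : a * Polynomial.aeval (jCusp M) Q = Polynomial.aeval (jCusp M) P * b := by
    apply Subtype.ext
    show (a : HolFun) * ((Polynomial.aeval (jCusp M) Q : cuspFnAlg M) : HolFun) =
      ((Polynomial.aeval (jCusp M) P : cuspFnAlg M) : HolFun) * (b : HolFun)
    rw [coe_aeval_jCusp, coe_aeval_jCusp, h1]
  have h3 := congrArg (zLaurent M) h2
  rw [map_mul, map_mul, zLaurent_aeval_jCusp, zLaurent_aeval_jCusp] at h3
  have hqb : zLaurent M b ≠ 0 := fun h0 => hb0 (zLaurent_injective M (by rw [h0, map_zero]))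
  rw [coeffMap_xFull]
  apply mul_right_cancel₀ hqb
  calc coeffMap ι (f : LaurentSeries L) * Polynomial.aeval (qExpand ℂ M (jqModC ℂ)) Q *
        zLaurent M b
      = (coeffMap ι (f : LaurentSeries L) * zLaurent M b) *
          Polynomial.aeval (qExpand ℂ M (jqModC ℂ)) Q := by ring
    _ = zLaurent M a * Polynomial.aeval (qExpand ℂ M (jqModC ℂ)) Q := by rw [hq]
    _ = Polynomial.aeval (qExpand ℂ M (jqModC ℂ)) P * zLaurent M b := h3

/-- **`hinv`**: an element of the full-level field whose analytic realisation is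
`SL(2,ℤ)`-invariant lies in `L(j(z^M))`. -/
theorem mem_adjoin_xFull_of_invariant (f : fullField M ζ)
    (hf : ∀ g : SL(2, ℤ), g • D.emb f = D.emb f) : f ∈ L⟮xFull M ζ⟯ := by
  have hM : 0 < M := Nat.pos_of_ne_zero (NeZero.ne M)
  obtain ⟨P, Q, hQ, hPQ⟩ :=
    RangeC.exists_ratfunc_of_invariant hM (D.emb f) hf (D.isCuspMer_emb f)
  have h1 := D.coeffMap_mul_aeval_eq f P Q hPQ
  have hQ' : Polynomial.aeval (coeffMap ι ((xFull M ζ : fullField M ζ) : LaurentSeries L)) Q ≠ 0 := by
    rw [coeffMap_xFull, ← zLaurent_aeval_jCusp]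
    intro h0
    have h2 : (Polynomial.aeval (jCusp M) Q : cuspFnAlg M) = 0 :=
      zLaurent_injective M (by rw [h0, map_zero])
    have h3 := congrArg (fun y : cuspFnAlg M => (y : HolFun)) h2
    simp only [coe_aeval_jCusp] at h3
    exact MerInvJ.aeval_jHol_ne_zero hQ h3
  have h2 : (f : LaurentSeries L) ∈
      IntermediateField.adjoin L {((xFull M ζ : fullField M ζ) : LaurentSeries L)} :=
    InvDescent.mem_adjoin_simple_of_coeffMap_rel ι _ _ P Q hQ' h1
  -- pull back along the inclusion `fullField M ζ ≤ LaurentSeries L`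
  have h3 : (L⟮xFull M ζ⟯).map (fullField M ζ).val =
      IntermediateField.adjoin L {((xFull M ζ : fullField M ζ) : LaurentSeries L)} := by
    rw [IntermediateField.adjoin_map, Set.image_singleton]
    rfl
  rw [← h3] at h2
  obtain ⟨y, hy, hyf⟩ := h2
  have : y = f := Subtype.ext hyf
  rwa [← this]

/-- The hypothesis `hinv` of `Ana/GaloisAbs.lean` for `D.toEmbData`. -/
theorem hinv_toEmbData (hM : 5 ≤ M) (hζ : IsPrimitiveRoot ζ M) :
    ∀ f : fullField M ζ, (∀ g : SL(2, ℤ), g • (D.toEmbData hM hζ).emb f = (D.toEmbData hM hζ).emb f) →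
      f ∈ L⟮xFull M ζ⟯ :=
  fun f hf => D.mem_adjoin_xFull_of_invariant f hf

end FullEmb

end Fermat.Agent.S48x.Ana.EmbFullCore
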