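import Mathlib
import Fermat.Agent.S48x.Ana.EmbedGenSet
import Fermat.Agent.Gateway.Dict.RangeC
import Fermat.Agent.Gateway.BaseChange.Fixed

/-!
P-S48, layer (a), helper19: INVARIANTS for the generic embedding core.

For `D : GenEmb ι ψ₀ hinj F` (`Ana/EmbedGenSet.lean`), `x : F` the element with analytic
counterpart `j` (`jP : P`, `(jP : HolFun) = jHol`, `ψ₀ jP = coeffMap ι x`):

* `coeffMap_adjoin_descent` : `ℂ(coeffMap ι '' S) ∩ coeffMap ι (L((z))) = coeffMap ι (L(S))`
  (wrapper of `Gateway/BaseChange/Fixed.IsBC.mem_of_iota_mem` for a ring hom `ι : L →+* ℂ`);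
* `psi_aeval` : `ψ₀ (aeval jP Q) = aeval (ψ₀ jP) Q`;
* `exists_rel_of_invariant` : an `SL(2,ℤ)`-invariant cusp-meromorphic value `D.emb f` gives
  `coeffMap ι f * Q(xC) = P(xC)`, `Q(xC) ≠ 0`, `xC = coeffMap ι x`;
* `mem_adjoin_of_invariant` : hence `f ∈ L⟮x⟯` — this is the hypothesis `hinv` of
  `Ana/GaloisAbs.lean` for every instance of the core, over an arbitrary field of constants.
-/

set_option autoImplicit false

open ModularCurve IntermediateField
open scoped MatrixGroups

namespace Fermat.Agent.S48x.Ana.EmbedGenSet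

open Fermat.Agent.S24 Fermat.Agent.S24.EmbedGen Fermat.Agent.Gateway.BaseChange

section Descent

variable {L : Type*} [Field L] (ι : L →+* ℂ)

/-- **Descent of rationality** along `ι : L →+* ℂ`, for an arbitrary generating set. -/
theorem coeffMap_adjoin_descent (S : Set (LaurentSeries L)) {f : LaurentSeries L}
    (h : coeffMap ι f ∈ IntermediateField.adjoin ℂ (⇑(coeffMap ι) '' S)) :
    f ∈ IntermediateField.adjoin L S := by
  letI : Algebra L ℂ := ι.toAlgebra
  have hiota : ∀ y : LaurentSeries L, iota L ℂ y = coeffMap ι y := fun _ => rfl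
  set F0 : IntermediateField L (LaurentSeries L) := IntermediateField.adjoin L S with hF0
  set F1 : IntermediateField ℂ (LaurentSeries ℂ) :=
    IntermediateField.adjoin ℂ (⇑(iota L ℂ) '' (F0 : Set (LaurentSeries L))) with hF1
  have hBC : IsBC F0 F1 := ⟨rfl⟩
  apply hBC.mem_of_iota_mem
  have hle : IntermediateField.adjoin ℂ (⇑(coeffMap ι) '' S) ≤ F1 := by
    apply IntermediateField.adjoin.mono
    rintro _ ⟨s, hs, rfl⟩
    exact ⟨s, IntermediateField.subset_adjoin L S hs, rfl⟩
  exact hle h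

/-- The simple case: a rational relation over `ℂ` descends. -/
theorem mem_adjoin_simple_of_rel (x f : LaurentSeries L) (P Q : Polynomial ℂ)
    (hQ : Polynomial.aeval (coeffMap ι x) Q ≠ 0)
    (h : coeffMap ι f * Polynomial.aeval (coeffMap ι x) Q = Polynomial.aeval (coeffMap ι x) P) :
    f ∈ IntermediateField.adjoin L {x} := by
  apply coeffMap_adjoin_descent ι {x}
  rw [Set.image_singleton]
  have hx : coeffMap ι x ∈ IntermediateField.adjoin ℂ {coeffMap ι x} :=
    IntermediateField.mem_adjoin_simple_self ℂ _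
  have h1 : coeffMap ι f = Polynomial.aeval (coeffMap ι x) P /
      Polynomial.aeval (coeffMap ι x) Q := by
    rw [eq_div_iff hQ, h]
  rw [h1]
  have hmem : ∀ R : Polynomial ℂ, Polynomial.aeval (coeffMap ι x) R ∈
      IntermediateField.adjoin ℂ {coeffMap ι x} := fun R =>
    (IntermediateField.algebra_adjoin_le_adjoin ℂ {coeffMap ι x})
      (Polynomial.aeval_mem_adjoin_singleton ℂ (coeffMap ι x))
  exact div_mem (hmem P) (hmem Q)

end Descent

section Inv

variable {L : Type*} [Field L] {ι : L →+* ℂ} {P : Subalgebra ℂ HolFun}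
  {ψ₀ : P →+* LaurentSeries ℂ} {hinj : Function.Injective ψ₀}
  {F : IntermediateField L (LaurentSeries L)}

/-- `ψ₀` commutes with polynomial evaluation. -/
theorem psi_aeval (hconst : ∀ c : ℂ, ψ₀ (algebraMap ℂ P c) = HahnSeries.C c) (a : P)
    (Q : Polynomial ℂ) : ψ₀ (Polynomial.aeval a Q) = Polynomial.aeval (ψ₀ a) Q := by
  induction Q using Polynomial.induction_on' with
  | add p q hp hq => rw [map_add, map_add, map_add, hp, hq]
  | monomial n c =>
    rw [Polynomial.aeval_monomial, Polynomial.aeval_monomial, map_mul, map_pow, hconst,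
      algebraMap_laurentSeries_eq_single]
    rfl

variable (D : GenEmb ι ψ₀ hinj F)

/-- An invariant cusp-meromorphic value of the embedding is, on the level of expansions, a
rational function of the expansion of `j`. -/
theorem GenEmb.exists_rel_of_invariant
    (hconst : ∀ c : ℂ, ψ₀ (algebraMap ℂ P c) = HahnSeries.C c)
    (jP : P) (hjP : (jP : HolFun) = jHol) {n : ℕ} (hn : 0 < n) (f : F)
    (hcusp : CuspOrd.IsCuspMer n (D.emb f)) (hfix : ∀ γ : SL(2, ℤ), γ • D.emb f = D.emb f) :
    ∃ A B : Polynomial ℂ, Polynomial.aeval (ψ₀ jP) B ≠ 0 ∧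
      coeffMap ι (f : LaurentSeries L) * Polynomial.aeval (ψ₀ jP) B =
        Polynomial.aeval (ψ₀ jP) A := by
  obtain ⟨A, B, hB, hrel⟩ :=
    Fermat.Agent.Gateway.Dict.RangeC.exists_ratfunc_of_invariant hn (D.emb f) hfix hcusp
  have hcoe : ∀ R : Polynomial ℂ,
      ((Polynomial.aeval jP R : P) : HolFun) = Polynomial.aeval jHol R := by
    intro R
    rw [← hjP]
    exact Polynomial.aeval_subalgebra_coe R P jP
  refine ⟨A, B, ?_, ?_⟩
  · rw [← psi_aeval hconst]
    apply psi_ne_zero hinj
    intro h0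
    apply Fermat.Agent.Gateway.Dict.MerInvJ.aeval_jHol_ne_zero hB
    rw [← hcoe, h0]
    rfl
  · rw [← psi_aeval hconst, ← psi_aeval hconst]
    apply D.coeffMap_mul_eq_of_emb_mul_eq
    rw [hcoe, hcoe]
    exact hrel

/-- **`hinv` for the generic core**: an element all of whose `SL(2,ℤ)`-translates agree lies in
`L(x)`, `x` the element with analytic counterpart `j`. -/
theorem GenEmb.mem_adjoin_of_invariant
    (hconst : ∀ c : ℂ, ψ₀ (algebraMap ℂ P c) = HahnSeries.C c)
    (jP : P) (hjP : (jP : HolFun) = jHol) (x : F)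
    (hx : ψ₀ jP = coeffMap ι (x : LaurentSeries L)) {n : ℕ} (hn : 0 < n) (f : F)
    (hcusp : CuspOrd.IsCuspMer n (D.emb f)) (hfix : ∀ γ : SL(2, ℤ), γ • D.emb f = D.emb f) :
    f ∈ L⟮x⟯ := by
  obtain ⟨A, B, hB, hrel⟩ := D.exists_rel_of_invariant hconst jP hjP hn f hcusp hfix
  rw [hx] at hB hrel
  have h1 : (f : LaurentSeries L) ∈ IntermediateField.adjoin L {(x : LaurentSeries L)} :=
    mem_adjoin_simple_of_rel ι _ _ A B hB hrel
  have h2 : (L⟮x⟯ : IntermediateField L F).map F.val =
      IntermediateField.adjoin L {(x : LaurentSeries L)} := by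
    rw [IntermediateField.adjoin_map, Set.image_singleton]
    rfl
  rw [← h2] at h1
  obtain ⟨y, hy, hyf⟩ := h1
  have : y = f := Subtype.ext hyf
  rwa [this] at hy

end Inv

end Fermat.Agent.S48x.Ana.EmbedGenSet
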