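import Fermat.Agent.S48x.Ana.FixedFields
import Fermat.Agent.S48x.Ana.GaloisFullGlue

/-!
P-S48, layer (a), (A4): the items (M-c), (M-e) of `Ana/FixedFields.lean` (analytic form, helper19)
in the `ψ`-FORM of the `SL₂(ℤ/M)`-action `GaloisFullGlue.sAct` (helper43) — the shape of the
hypotheses `hfix` of `Red1/FullFixedInst.full_of_fixed` and of (M-c) in `Red1/BorelHB.hB_of_borel`
(helper89, adapter).

For `D : EmbData L ↥(fullField M ζ) ι x (±Γ(M))` with `hFull`, `hS`, `hinv` and `x ∈ borelSeries`: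

* `finiteIndex_GammaPM` : `±Γ(M)` has finite index (instance needed by `FixedFields`);
* `borelSub M`, `h1Sub M` : the images of `Γ₀(M)`, `±Γ₁(M)` in `SL(2, ZMod M)`; both contain `-1`;
* `mem_borelSeries_iff_sAct` : `(f : L((z))) ∈ borelSeries L M ↔ ∀ h ∈ borelSub M, sAct h f = f`;
* `mem_h1Series_iff_sAct` : `(f : L((z))) ∈ h1Series M ζ ↔ ∀ h ∈ h1Sub M, sAct h f = f` (`8 ≤ M`);
* `restr_borelSeries_eq_fixedFieldOf`, `restr_h1Series_eq_fixedFieldOf` : the same as equalities of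
  intermediate fields of `↥(fullField M ζ)`.
-/

set_option autoImplicit false
set_option linter.unusedSectionVars false

open ModularCurve IntermediateField
open scoped MatrixGroups

noncomputable section

namespace Fermat.Agent.S48x.Ana.FixedFieldsSAct

open Fermat.Agent.S48x.Model Fermat.Agent.S48x.Ana
open Fermat.Agent.S24 Fermat.Agent.Gateway.Dict.ConjAbs
open Fermat.Agent.S48x.Ana.GaloisAct Fermat.Agent.S48x.Ana.GaloisFullGlue
open Fermat.Agent.S48x.Ana.FixedFields

/-- `±Γ(M)` has finite index in `SL(2,ℤ)`. -/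
instance finiteIndex_GammaPM (M : ℕ) [NeZero M] : (StabFull.GammaPM M).FiniteIndex :=
  Subgroup.finiteIndex_of_le (StabFull.Gamma_le_GammaPM M)

variable (M : ℕ) [NeZero M]

/-- the image of `Γ₀(M)` in `SL(2, ZMod M)` (the "Borel"). -/
def borelSub : Subgroup SL(2, ZMod M) := (CongruenceSubgroup.Gamma0 M).map (RedSurj.red M)

/-- the image of `±Γ₁(M)` in `SL(2, ZMod M)`. -/
def h1Sub : Subgroup SL(2, ZMod M) := (G1.Gamma1pm M).map (RedSurj.red M)

theorem red_neg_one : RedSurj.red M (-1 : SL(2, ℤ)) = -1 := by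
  ext i j
  rw [RedSurj.red_apply]
  fin_cases i <;> fin_cases j <;> simp

theorem neg_one_mem_borelSub : (-1 : SL(2, ZMod M)) ∈ borelSub M := by
  refine ⟨-1, ?_, red_neg_one M⟩
  rw [SetLike.mem_coe, CongruenceSubgroup.Gamma0_mem]
  simp

theorem neg_one_mem_h1Sub : (-1 : SL(2, ZMod M)) ∈ h1Sub M := by
  refine ⟨-1, ?_, red_neg_one M⟩
  have h0 : (-1 : SL(2, ℤ)) ∈ CongruenceSubgroup.Gamma0 M := by
    rw [CongruenceSubgroup.Gamma0_mem]
    simp
  exact ⟨h0, Or.inr (G1.lr_neg_one M)⟩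

variable {M}
variable {L : Type*} [Field L] {ζ : L} {ι : L →+* ℂ} {x : fullField M ζ}
  (D : EmbData L ↥(fullField M ζ) ι x (StabFull.GammaPM M)) (hS : GaloisAbs.Stable D)
  (hFull : StabFull.IsFullEmb D.emb)
  (hinv : ∀ f : ↥(fullField M ζ), (∀ g : SL(2, ℤ), g • D.emb f = D.emb f) → f ∈ L⟮x⟯)

include hFull hinv in
/-- **(M-c)**, `ψ`-form: the image of the `Γ₀(M)`-field is the fixed field of the Borel. -/
theorem restr_borelSeries_eq_fixedFieldOf (hx : (x : LaurentSeries L) ∈ borelSeries L M) :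
    restr (ζ := ζ) (borelSeries L M) = fixedFieldOf (sAct D hS) (borelSub M) := by
  rw [borelSub, fixedFieldOf_map_red, restr_borelSeries_eq_fixedOf D hFull hS hinv hx]

include hFull hinv in
/-- **(M-c)**, `ψ`-form, elementwise. -/
theorem mem_borelSeries_iff_sAct (hx : (x : LaurentSeries L) ∈ borelSeries L M)
    (f : ↥(fullField M ζ)) :
    (f : LaurentSeries L) ∈ borelSeries L M ↔ ∀ h ∈ borelSub M, sAct D hS h f = f := by
  rw [← mem_restr (ζ := ζ), restr_borelSeries_eq_fixedFieldOf D hS hFull hinv hx,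
    mem_fixedFieldOf]

include hFull hinv in
/-- **(M-e)**, `ψ`-form: the image of the `Γ₁(M)`-field is the fixed field of the image of
`±Γ₁(M)`. -/
theorem restr_h1Series_eq_fixedFieldOf (hM : 8 ≤ M) (hζ : IsPrimitiveRoot ζ M)
    (hx : (x : LaurentSeries L) ∈ borelSeries L M) :
    restr (ζ := ζ) (h1Series M ζ) = fixedFieldOf (sAct D hS) (h1Sub M) := by
  rw [h1Sub, fixedFieldOf_map_red, restr_h1Series_eq_fixedOf D hFull hS hinv hM hζ hx]

include hFull hinv in
/-- **(M-e)**, `ψ`-form, elementwise. -/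
theorem mem_h1Series_iff_sAct (hM : 8 ≤ M) (hζ : IsPrimitiveRoot ζ M)
    (hx : (x : LaurentSeries L) ∈ borelSeries L M) (f : ↥(fullField M ζ)) :
    (f : LaurentSeries L) ∈ h1Series M ζ ↔ ∀ h ∈ h1Sub M, sAct D hS h f = f := by
  rw [← mem_restr (ζ := ζ), restr_h1Series_eq_fixedFieldOf D hS hFull hinv hM hζ hx,
    mem_fixedFieldOf]

end Fermat.Agent.S48x.Ana.FixedFieldsSAct
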