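import Mathlib
import Fermat.Agent.S48x.Ana.FullLevelFacts

/-!
# P-S48, bridge (A4) → (R9): the full level data for EVERY primitive root of unity `ζ : A`
(helper75)

The analytic layer needs an embedding `ι : L →+* ℂ` with `ι ζ = exp(2πi/M)`; for `L` algebraic
over `ℚ` such an embedding exists for every primitive `M`-th root of unity `ζ`
(`exists_ringHom_map_eq_zetaM`, choose `ι` after `ζ`).  Hence, for every primitive `ζ : A`:

`exists_fullLevelData_inputs` : a full level datum `I₀` of `ratioIntGen A M ζ` together with all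
the hypotheses of `Red1/Gamma1FixStabPoles.gamma1_full_and_poles_of_fullLevelData`
(`mat₀ g := ↑g⁻¹`, `hperm₀`, `hjF`, `hj₀` (with `LowerRow` weakened to its first component),
`hζL`, `hζk`).
-/

set_option autoImplicit false
set_option linter.unusedSectionVars false

noncomputable section

namespace Fermat.Agent.S48x.Ana.FullLevelInst

open IntermediateField ModularCurve
open Fermat.Agent.Gateway.Red Fermat.Agent.Gateway.GoodRed
open Fermat.Agent.S48x.Model Fermat.Agent.S48x.Model.Rigidity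
open Fermat.Agent.S48x.Red1 Fermat.Agent.S48x.Red1.ModelInt
open scoped MatrixGroups
open scoped Fermat.Agent.S48x.Red1.Shortcuts

/-! ### choosing the complex embedding after `ζ` -/

/-- for `L / ℚ` algebraic, any primitive `M`-th root of unity of `L` can be sent to any primitive
`M`-th root of unity of `ℂ` by a complex embedding (helper97). -/
theorem exists_algHom_apply_eq_of_primitiveRoots {L : Type*} [Field L] [Algebra ℚ L]
    [Algebra.IsAlgebraic ℚ L] {M : ℕ} [NeZero M] {ζ : L} (hζ : IsPrimitiveRoot ζ M) {z : ℂ}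
    (hz : IsPrimitiveRoot z M) : ∃ ι : L →ₐ[ℚ] ℂ, ι ζ = z := by
  have : CharZero L := algebraRat.charZero L
  have hpos : 0 < M := NeZero.pos M
  have hmin : minpoly ℚ ζ = Polynomial.cyclotomic M ℚ := by
    rw [← Polynomial.map_cyclotomic_int, Polynomial.cyclotomic_eq_minpoly hζ hpos]
    exact minpoly.isIntegrallyClosed_eq_field_fractions' ℚ (hζ.isIntegral hpos)
  refine IntermediateField.exists_algHom_of_splits_of_aeval (F := ℚ) (E := L) (K := ℂ)
    (fun s => ⟨Algebra.IsIntegral.isIntegral s, IsAlgClosed.splits _⟩) ?_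
  rw [hmin, Polynomial.aeval_def, Polynomial.eval₂_eq_eval_map, Polynomial.map_cyclotomic]
  exact Polynomial.isRoot_cyclotomic_iff.mpr hz

theorem exists_ringHom_map_eq_zetaM {L : Type*} [Field L] [Algebra ℚ L]
    [Algebra.IsAlgebraic ℚ L] {M : ℕ} [NeZero M] {ζ : L} (hζ : IsPrimitiveRoot ζ M) :
    ∃ ι : L →+* ℂ, ι ζ = PPack.zetaM M := by
  obtain ⟨ι, hι⟩ := exists_algHom_apply_eq_of_primitiveRoots hζ (GaloisFull.isPrimitiveRoot_zetaM M)
  exact ⟨(ι : L →+* ℂ), hι⟩

/-! ### the matrix of the index action -/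

section Mat

variable {M : ℕ} [NeZero M]

/-- the matrix through which `g` acts on the quadruples: `perm g⁻¹` = right multiplication by
`g⁻¹`. -/
def mat₀ (g : SL(2, ZMod M)) : Matrix (Fin 2) (Fin 2) (ZMod M) :=
  ((g⁻¹ : SL(2, ZMod M)) : Matrix (Fin 2) (Fin 2) (ZMod M))

theorem mat₀_mul (g : SL(2, ZMod M)) :
    mat₀ g * (g : Matrix (Fin 2) (Fin 2) (ZMod M)) = 1 := by
  rw [mat₀, ← Matrix.SpecialLinearGroup.coe_mul, inv_mul_cancel,
    Matrix.SpecialLinearGroup.coe_one]

theorem exists_mat₀_mul (g : SL(2, ZMod M)) :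
    ∃ h : Matrix (Fin 2) (Fin 2) (ZMod M), mat₀ g * h = 1 := ⟨_, mat₀_mul g⟩

theorem mat₀_one_zero (g : SL(2, ZMod M)) : mat₀ g 1 0 = -g 1 0 := by
  rw [mat₀, Matrix.SpecialLinearGroup.coe_inv, Matrix.adjugate_fin_two]
  simp

theorem perm_inv_val (g : SL(2, ZMod M)) (q : QuadIdx M) :
    (ModelInt.perm g⁻¹ q).1 =
      (vecAct (mat₀ g) q.1.1, vecAct (mat₀ g) q.1.2.1, vecAct (mat₀ g) q.1.2.2.1,
        vecAct (mat₀ g) q.1.2.2.2) := rfl

end Mat

/-! ### the unit attached to a root of unity -/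

section Unit

variable {L : Type*} [Field L] {A : ValuationSubring L} {M : ℕ} [NeZero M]

/-- a root of unity of `A` as a unit. -/
def unitOfPow {ζ : A} (h : ζ ^ M = 1) : Aˣ where
  val := ζ
  inv := ζ ^ (M - 1)
  val_inv := by rw [← pow_succ', Nat.sub_add_cancel (NeZero.pos M), h]
  inv_val := by rw [← pow_succ, Nat.sub_add_cancel (NeZero.pos M), h]

@[simp] theorem coe_unitOfPow {ζ : A} (h : ζ ^ M = 1) : ((unitOfPow h : Aˣ) : A) = ζ := rfl

end Unit

/-! ### the inputs of `gamma1_full_and_poles_of_fullLevelData`, for every `ζ` -/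

section Main

variable {L : Type} [Field L] [Algebra ℚ L] [Algebra.IsAlgebraic ℚ L] [IsAlgClosed L]
  (A : ValuationSubring L)
  {k : Type} [Field k] [IsAlgClosed k] (π : A →+* k) (M : ℕ) [NeZero M]
  (ℓ : ℕ) [Fact ℓ.Prime] [CharP k ℓ] (hπ : Function.Surjective π) (hℓM : ¬ ℓ ∣ M)
  (hM : 5 ≤ M) {ζ : A} (hζ : IsPrimitiveRoot ζ M)

include hπ hℓM hM hζ in
/-- **for every primitive `M`-th root of unity `ζ : A`**: a full level datum of the ratio datum
together with all the hypotheses of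
`Red1/Gamma1FixStabPoles.gamma1_full_and_poles_of_fullLevelData` (`mat₀ g = ↑g⁻¹`). -/
theorem exists_fullLevelData_inputs :
    ∃ I₀ : (ratioIntGen A M ζ).FullLevelData π SL(2, ZMod M),
      (∀ (g : SL(2, ZMod M)) (q : QuadIdx M), (I₀.perm g q).1 =
        (vecAct (mat₀ g) q.1.1, vecAct (mat₀ g) q.1.2.1, vecAct (mat₀ g) q.1.2.2.1,
          vecAct (mat₀ g) q.1.2.2.2)) ∧
      (∀ (d : ℕ) [NeZero d], d ∣ M → qExpand L (d * M) (jqModC L) ∈ I₀.F') ∧
      (∀ g : SL(2, ZMod M), mat₀ g 1 0 = 0 → ∀ (d : ℕ) [NeZero d], d ∣ M → ∀ f : I₀.F',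
        (f : LaurentSeries L) = qExpand L (d * M) (jqModC L) → I₀.act g f = f) ∧
      IsPrimitiveRoot (Units.map (A.subtype : A →* L) I₀.ζ) M ∧
      IsPrimitiveRoot (Units.map (π : A →* k) I₀.ζ) M ∧
      I₀.F' = fullField M ((ζ : A) : L) := by
  have hζL : IsPrimitiveRoot ((ζ : A) : L) M := isPrimitiveRoot_coe A hζ
  have hMk : ((M : ℕ) : k) ≠ 0 := natCast_ne_zero_of_not_dvd M ℓ hℓM
  have hζk : IsPrimitiveRoot (π ζ) M := isPrimitiveRoot_pi A π hπ hζ hMk
  obtain ⟨ι, hι⟩ := exists_ringHom_map_eq_zetaM hζL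
  obtain ⟨h1, h2, h3, -⟩ :=
    fullLevelDataIota_facts A π M ℓ hπ hℓM hM (unitOfPow hζ.pow_eq_one) ι hι
  refine ⟨fullLevelDataIota A π M ℓ hπ hℓM hM (unitOfPow hζ.pow_eq_one) ι hι,
    fun g q => ?_, h2, fun g hg => h3 g ?_, ?_, ?_, rfl⟩
  · rw [h1]
    exact perm_inv_val g q
  · rw [mat₀_one_zero, neg_eq_zero] at hg
    exact hg
  · exact IsPrimitiveRoot.coe_units_iff.mp hζL
  · exact IsPrimitiveRoot.coe_units_iff.mp hζk

end Main

end Fermat.Agent.S48x.Ana.FullLevelInst
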