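/-
P-S48, layer (a), slice (A4), second half (helper33): the field of `X(M)` is generated by `j` and
the ratios; stability of its analytic model under `SL(2,ℤ)`; the fixed fields of the Borel subgroup
(`Γ₀(M)`, (M-c)) and of `±Γ₁(M)` ((M-e)).

* Part A (formal descent): `ratioField M ζ := L(j(z^M), ratio v w v' w')`.  If over `ℂ` the series
  `j(z^(dM))` lie in `ratioField`, then they do over every `(L, ι : L →+* ℂ)`
  (`Gateway/BaseChange/Fixed.IsBC.mem_of_iota_mem`), hence `fullField M ζ = ratioField M ζ`.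
* Part B (analysis over `ℂ`): `j(z^(dM)) ∈ ratioField` from the `Γ`-general range theorem
  `S27x/G1/DegreeGamma.mem_range_iff` applied to the analytic model of `ratioField` (exact
  stabiliser `±Γ(M)` by rigidity, `Ana/StabFull`).  This is the "degree argument".
* Part C: `Stable D` for every analytic model `D` of `fullField M ζ` (on the generators `j` and
  `ratio` the translates are generators again).
* (M-c), (M-e): `GaloisAbs.eq_fixedOf`.
-/
import Fermat.Agent.S48x.Ana.GaloisAbs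
import Fermat.Agent.S48x.Ana.StabFull
import Fermat.Agent.S48x.Model.Identities
import Fermat.Agent.S48x.Model.LaurentDescent
import Fermat.Agent.S48x.Model.DescentHyp
import Fermat.Agent.Gateway.BaseChange.Fixed
import Fermat.Agent.S27x.G1.DegreeGamma
import Fermat.Agent.Gateway.Dict.DegreeC

set_option autoImplicit false
set_option linter.unusedSectionVars false
set_option linter.style.haveILetI false

noncomputable section

open UpperHalfPlane IntermediateField ModularCurve
open scoped MatrixGroups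

namespace Fermat.Agent.S48x.Ana.GaloisFullFixed

open Fermat.Agent.S24 Fermat.Agent.S24.Conj Fermat.Agent.S24.CuspOrd
open Fermat.Agent.Gateway.Dict.ConjAbs
open Fermat.Agent.S48x.Model Fermat.Agent.S48x.Ana Fermat.Agent.S48x.Ana.GaloisAbs
open Fermat.Agent.S48x.Ana.StabFull
open Fermat.Agent.S24.JLevel (jd)

/-! ### Part A: the field generated by `j` and the ratios; formal descent -/

section RatioField

variable (M : ℕ) [NeZero M] {R : Type*} [Field R] (ζ : R)

/-- The generators `j(z^M)` and `ratio v w v' w'`. -/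
def ratioGens : Set (LaurentSeries R) :=
  {x | x = qExpand R M (jqModC R)} ∪
  {x | ∃ v w v' w' : Vec M, v ≠ 0 ∧ w ≠ 0 ∧ v' ≠ 0 ∧ w' ≠ 0 ∧ x = ratio M ζ v w v' w'}

/-- The field `R(j(z^M), ratios)`. -/
def ratioField : IntermediateField R (LaurentSeries R) :=
  IntermediateField.adjoin R (ratioGens M ζ)

variable {M}

theorem jq_mem_ratioField : qExpand R M (jqModC R) ∈ ratioField M ζ :=
  IntermediateField.subset_adjoin R _ (Or.inl rfl)

theorem ratio_mem_ratioField {v w v' w' : Vec M} (hv : v ≠ 0) (hw : w ≠ 0) (hv' : v' ≠ 0)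
    (hw' : w' ≠ 0) : ratio M ζ v w v' w' ∈ ratioField M ζ :=
  IntermediateField.subset_adjoin R _ (Or.inr ⟨v, w, v', w', hv, hw, hv', hw', rfl⟩)

theorem qExpand_one_mul_eq : qExpand R (1 * M) (jqModC R) = qExpand R M (jqModC R) :=
  qExpand_congr (one_mul M) _

theorem jq_mem_fullField : qExpand R M (jqModC R) ∈ fullField M ζ := by
  rw [← qExpand_one_mul_eq]
  exact jqd_mem_fullField ζ (one_dvd M)

theorem ratioField_le_fullField : ratioField M ζ ≤ fullField M ζ := by
  rw [ratioField, IntermediateField.adjoin_le_iff]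
  rintro x (rfl | ⟨v, w, v', w', hv, hw, hv', hw', rfl⟩)
  · exact jq_mem_fullField ζ
  · exact ratio_mem_fullField ζ hv hw hv' hw'

/-- If the `j(z^(dM))` lie in the field generated by `j` and the ratios, then this field is the
full field. -/
theorem fullField_eq_ratioField
    (h : ∀ (d : ℕ) [NeZero d], d ∣ M → qExpand R (d * M) (jqModC R) ∈ ratioField M ζ) :
    fullField M ζ = ratioField M ζ := by
  refine le_antisymm ?_ (ratioField_le_fullField ζ)
  rw [fullField, IntermediateField.adjoin_le_iff]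
  rintro x (⟨d, hd0, hd, rfl⟩ | ⟨v, w, v', w', hv, hw, hv', hw', rfl⟩)
  · exact h d hd
  · exact ratio_mem_ratioField ζ hv hw hv' hw'

theorem coeffMap_image_ratioGens {S : Type*} [Field S] (φ : R →+* S) :
    ⇑(coeffMap φ) '' ratioGens M ζ = ratioGens M (φ ζ) := by
  ext y
  constructor
  · rintro ⟨x, (rfl | ⟨v, w, v', w', hv, hw, hv', hw', rfl⟩), rfl⟩
    · left
      show coeffMap φ (qExpand R M (jqModC R)) = qExpand S M (jqModC S)
      rw [coeffMap_qExpand, coeffMap_jqModC]
    · right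
      exact ⟨v, w, v', w', hv, hw, hv', hw', coeffMap_ratio φ ζ v w v' w'⟩
  · rintro (rfl | ⟨v, w, v', w', hv, hw, hv', hw', rfl⟩)
    · refine ⟨qExpand R M (jqModC R), Or.inl rfl, ?_⟩
      rw [coeffMap_qExpand, coeffMap_jqModC]
    · exact ⟨ratio M ζ v w v' w', Or.inr ⟨v, w, v', w', hv, hw, hv', hw', rfl⟩,
        coeffMap_ratio φ ζ v w v' w'⟩

end RatioField

section Descent

open Fermat.Agent.Gateway.BaseChange

variable {M : ℕ} [NeZero M] {L : Type*} [Field L] (ι : L →+* ℂ) (ζ : L)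

/-- `ratioField` over `ℂ` is the base change of `ratioField` over `L`. -/
theorem isBC_ratioField :
    letI : Algebra L ℂ := ι.toAlgebra
    IsBC (ratioField M ζ) (ratioField M (ι ζ)) := by
  letI : Algebra L ℂ := ι.toAlgebra
  have hι : iota L ℂ = coeffMap ι := rfl
  refine ⟨le_antisymm ?_ ?_⟩
  · rw [ratioField, IntermediateField.adjoin_le_iff, ← coeffMap_image_ratioGens ζ ι]
    rintro _ ⟨x, hx, rfl⟩
    refine IntermediateField.subset_adjoin ℂ _ ⟨x, ?_, rfl⟩
    exact IntermediateField.subset_adjoin L _ hx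
  · rw [IntermediateField.adjoin_le_iff]
    rintro _ ⟨x, hx, rfl⟩
    have := LaurentDescent.coeffMap_mem_adjoin ι (T := ratioGens M ζ) hx
    rw [coeffMap_image_ratioGens] at this
    exact this

/-- **Formal descent**: if `j(z^(dM)) ∈ ℂ(j(z^M), ratios)` then the same holds over `L`. -/
theorem jqd_mem_ratioField_of_complex {d : ℕ} [NeZero d]
    (h : qExpand ℂ (d * M) (jqModC ℂ) ∈ ratioField M (ι ζ)) :
    qExpand L (d * M) (jqModC L) ∈ ratioField M ζ := by
  letI : Algebra L ℂ := ι.toAlgebra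
  refine (isBC_ratioField ι ζ).mem_of_iota_mem ?_
  show coeffMap ι (qExpand L (d * M) (jqModC L)) ∈ ratioField M (ι ζ)
  rw [coeffMap_qExpand, coeffMap_jqModC]
  exact h

/-- The full field over `L` is generated by `j` and the ratios, as soon as this holds over `ℂ`. -/
theorem fullField_eq_ratioField_of_complex
    (h : ∀ (d : ℕ) [NeZero d], d ∣ M → qExpand ℂ (d * M) (jqModC ℂ) ∈ ratioField M (ι ζ)) :
    fullField M ζ = ratioField M ζ :=
  fullField_eq_ratioField ζ fun d _ hd => jqd_mem_ratioField_of_complex ι ζ (h d hd)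

end Descent

/-! ### Restriction of an analytic realisation -/

/-- Restriction of an analytic realisation to an intermediate field, with its own exact
stabiliser. -/
def restrictEmbData {K E : Type*} [Field K] [Field E] [Algebra K E] {ι : K →+* ℂ} {x : E}
    {Γ : Subgroup SL(2, ℤ)} (D : EmbData K E ι x Γ) (E' : IntermediateField K E) (hx : x ∈ E')
    (Γ' : Subgroup SL(2, ℤ)) (hfix : ∀ γ ∈ Γ', ∀ e ∈ E', γ • D.emb e = D.emb e)
    (hstab : ∀ γ : SL(2, ℤ), (∀ e ∈ E', γ • D.emb e = D.emb e) → γ ∈ Γ') :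
    EmbData K E' ι ⟨x, hx⟩ Γ' where
  emb := D.emb.comp (algebraMap E' E)
  emb_const c := D.emb_const c
  emb_x := D.emb_x
  fixed γ hγ f := hfix γ hγ f f.2
  stab γ hγ := hstab γ fun e he => hγ ⟨e, he⟩

/-! ### Part B: over `ℂ`, the `j(z^(dM))` are rational in `j` and the ratios -/

section Complex

variable {M : ℕ} [NeZero M] {ζ0 : ℂ} {x : ↥(fullField M ζ0)} {Γ : Subgroup SL(2, ℤ)}
  (D : EmbData ℂ ↥(fullField M ζ0) (RingHom.id ℂ) x Γ)

/-- **The degree argument.** Over `ℂ`, every `j(z^(dM))`, `d ∣ M`, lies in the field generated by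
`j(z^M)` and the ratios: its analytic counterpart `j(dτ)` is `±Γ(M)`-invariant with cusp-meromorphic
translates, and the analytic model of `ratioField` has exact stabiliser `±Γ(M)`. -/
theorem jqd_mem_ratioField_complex (hemb : IsFullEmb D.emb) {n : ℕ} (hn : 0 < n)
    (hcusp : ∀ (f : ↥(fullField M ζ0)) (g : SL(2, ℤ)), IsCuspMer n (g • D.emb f))
    (hM : 5 ≤ M) (hζ : IsPrimitiveRoot ζ0 M)
    (hx : (x : LaurentSeries ℂ) = qExpand ℂ M (jqModC ℂ)) {d : ℕ} [NeZero d] (hd : d ∣ M) :
    qExpand ℂ (d * M) (jqModC ℂ) ∈ ratioField M ζ0 := by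
  classical
  set E' : IntermediateField ℂ ↥(fullField M ζ0) :=
    (ratioField M ζ0).comap (fullField M ζ0).val with hE'
  have hmemE' : ∀ e : ↥(fullField M ζ0), e ∈ E' ↔ (e : LaurentSeries ℂ) ∈ ratioField M ζ0 :=
    fun e => Iff.rfl
  have hxE' : x ∈ E' := by
    rw [hmemE', hx]
    exact jq_mem_ratioField ζ0
  have hfix : ∀ γ ∈ GammaPM M, ∀ e ∈ E', γ • D.emb e = D.emb e :=
    fun γ hγ e _ => fixes_of_mem_GammaPM hemb hγ e
  have hstab : ∀ γ : SL(2, ℤ), (∀ e ∈ E', γ • D.emb e = D.emb e) → γ ∈ GammaPM M := by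
    intro γ hγ
    refine mem_GammaPM_of_smul_Rfun hM hζ hemb.ratio ?_
    intro v w v' w' hv hw hv' hw'
    rw [← hemb.ratio v w v' w' hv hw hv' hw']
    exact hγ _ ((hmemE' _).mpr (ratio_mem_ratioField ζ0 hv hw hv' hw'))
  set D' := restrictEmbData D E' hxE' (GammaPM M) hfix hstab with hD'
  haveI : (GammaPM M).FiniteIndex := Subgroup.finiteIndex_of_le (Gamma_le_GammaPM M)
  haveI : Fintype (SL(2, ℤ) ⧸ GammaPM M) := Fintype.ofFinite _
  have hcusp' : ∀ (f : E') (g : SL(2, ℤ)), IsCuspMer n (g • D'.emb f) := fun f g => hcusp f g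
  have key : algebraMap HolFun MerFun (jd d) ∈ D'.emb.range := by
    rw [Fermat.Agent.S27x.G1.mem_range_iff D' hn hcusp']
    refine ⟨fun γ hγ => smul_algebraMap_jd hd (GammaPM_le_Gamma0 M hγ), fun g => ?_⟩
    have := hcusp ⟨qExpand ℂ (d * M) (jqModC ℂ), jqd_mem_fullField ζ0 hd⟩ g
    rwa [hemb.jd d hd] at this
  obtain ⟨f, hf⟩ := key
  have h1 : (f : ↥(fullField M ζ0)) =
      ⟨qExpand ℂ (d * M) (jqModC ℂ), jqd_mem_fullField ζ0 hd⟩ :=
    D.emb.injective (hf.trans (hemb.jd d hd).symm)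
  have h2 : ((f : ↥(fullField M ζ0)) : LaurentSeries ℂ) ∈ ratioField M ζ0 := (hmemE' _).mp f.2
  rw [h1] at h2
  exact h2

end Complex

/-! ### Part C: stability of the analytic model of the full field -/

section Stable

variable {M : ℕ} [NeZero M] {L : Type*} [Field L] {ι : L →+* ℂ} {ζ : L}
  {x : ↥(fullField M ζ)} {Γ : Subgroup SL(2, ℤ)} (D : EmbData L ↥(fullField M ζ) ι x Γ)

/-- the translates of the generators `ratio` are generators. -/
theorem smul_emb_ratio (hemb : IsFullEmb D.emb) (g : SL(2, ℤ)) {v w v' w' : Vec M} (hv : v ≠ 0)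
    (hw : w ≠ 0) (hv' : v' ≠ 0) (hw' : w' ≠ 0) :
    g • D.emb ⟨ratio M ζ v w v' w', ratio_mem_fullField ζ hv hw hv' hw'⟩ =
      D.emb ⟨ratio M ζ (vecSL M v g⁻¹) (vecSL M w g⁻¹) (vecSL M v' g⁻¹) (vecSL M w' g⁻¹),
        ratio_mem_fullField ζ (vecSL_ne_zero M hv g⁻¹) (vecSL_ne_zero M hw g⁻¹)
          (vecSL_ne_zero M hv' g⁻¹) (vecSL_ne_zero M hw' g⁻¹)⟩ := by
  rw [hemb.ratio v w v' w' hv hw hv' hw', smul_Rfun,
    hemb.ratio _ _ _ _ (vecSL_ne_zero M hv g⁻¹) (vecSL_ne_zero M hw g⁻¹)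
      (vecSL_ne_zero M hv' g⁻¹) (vecSL_ne_zero M hw' g⁻¹)]

/-- **Stability.** If the full field is generated by `j` and the ratios, the image of every
analytic model of it is stable under `SL(2,ℤ)`. -/
theorem stable_of_isFullEmb (hemb : IsFullEmb D.emb)
    (hx : (x : LaurentSeries L) = qExpand L M (jqModC L))
    (hgen : fullField M ζ = ratioField M ζ) : Stable D := by
  have hle : ratioField M ζ ≤ (stableField D).map (fullField M ζ).val := by
    rw [ratioField, IntermediateField.adjoin_le_iff]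
    rintro y (rfl | ⟨v, w, v', w', hv, hw, hv', hw', rfl⟩)
    · refine ⟨x, ?_, hx⟩
      intro g
      rw [D.emb_x, MerFun.sl_smul_algebraMap, sl_smul_jHol, ← D.emb_x]
      exact ⟨x, rfl⟩
    · refine ⟨⟨ratio M ζ v w v' w', ratio_mem_fullField ζ hv hw hv' hw'⟩, ?_, rfl⟩
      intro g
      rw [smul_emb_ratio D hemb g hv hw hv' hw']
      exact ⟨_, rfl⟩
  intro g f
  have hf : (f : LaurentSeries L) ∈ ratioField M ζ := by rw [← hgen]; exact f.2
  obtain ⟨f', hf', hff'⟩ := hle hf
  have : f' = f := Subtype.ext hff'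
  rw [← this]
  exact hf' g

end Stable

/-! ### The maps `q ↦ z^M` into the full field -/

section ToFull

variable {M : ℕ} [NeZero M] {L : Type*} [Field L] (ζ : L)

/-- `qExpand M : gamma1FieldC M ζ → fullField M ζ` (`q = z^M`). -/
def toFull1 : ↥(gamma1FieldC M ζ) →ₐ[L] ↥(fullField M ζ) where
  toFun f := ⟨qExpand L M f, Identities.qExpand_mem_fullField ζ f.2⟩
  map_one' := Subtype.ext (map_one _)
  map_mul' _ _ := Subtype.ext (map_mul _ _ _)
  map_zero' := Subtype.ext (map_zero _)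
  map_add' _ _ := Subtype.ext (map_add _ _ _)
  commutes' c := Subtype.ext ((qExpandAlgHomC L M).commutes c)

@[simp] theorem coe_toFull1 (f : ↥(gamma1FieldC M ζ)) :
    ((toFull1 ζ f : ↥(fullField M ζ)) : LaurentSeries L) = qExpand L M (f : LaurentSeries L) := rfl

theorem mem_range_toFull1_iff (f : ↥(fullField M ζ)) :
    f ∈ (toFull1 ζ).fieldRange ↔
      ∃ u ∈ gamma1FieldC M ζ, qExpand L M u = (f : LaurentSeries L) := by
  constructor
  · rintro ⟨u, rfl⟩
    exact ⟨u, u.2, rfl⟩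
  · rintro ⟨u, hu, h⟩
    exact ⟨⟨u, hu⟩, Subtype.ext h⟩

variable [Algebra ℚ L]

theorem jL_mem_gamma1FieldC {d : ℕ} [NeZero d] (hd : d ∣ M) :
    Fermat.Agent.Gateway.Dict.EmbedL.jL L d ∈ gamma1FieldC M ζ := by
  rw [Fermat.Agent.Gateway.Dict.EmbedL.jL, coeffEmb_qExpand_jq]
  exact jqd_mem_gamma1FieldC ζ hd

theorem gamma0Field_le_gamma1FieldC :
    laurentBaseChange L (modularFunctionFieldFull M) ≤ gamma1FieldC M ζ := by
  have h := Fermat.Agent.Gateway.Dict.DegreeC.adjoin_genSetL L M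
  rw [← h, IntermediateField.adjoin_le_iff]
  intro y hy
  obtain ⟨d, hd0, hd, hyd⟩ := hy
  rw [hyd]
  exact jL_mem_gamma1FieldC ζ hd

/-- `qExpand M` from the field of `X₀(M)` into the full field. -/
def toFull0 : ↥(laurentBaseChange L (modularFunctionFieldFull M)) →ₐ[L] ↥(fullField M ζ) :=
  (toFull1 ζ).comp (IntermediateField.inclusion (gamma0Field_le_gamma1FieldC ζ))

theorem toFull0_apply (f : ↥(laurentBaseChange L (modularFunctionFieldFull M))) :
    toFull0 ζ f = toFull1 ζ (IntermediateField.inclusion (gamma0Field_le_gamma1FieldC ζ) f) := by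
  unfold toFull0
  exact AlgHom.comp_apply _ _ _

@[simp] theorem coe_toFull0 (f : ↥(laurentBaseChange L (modularFunctionFieldFull M))) :
    ((toFull0 ζ f : ↥(fullField M ζ)) : LaurentSeries L) = qExpand L M (f : LaurentSeries L) := by
  rw [toFull0_apply, coe_toFull1, IntermediateField.coe_inclusion]

theorem mem_range_toFull0_iff (f : ↥(fullField M ζ)) :
    f ∈ (toFull0 ζ).fieldRange ↔
      ∃ u ∈ laurentBaseChange L (modularFunctionFieldFull M),
        qExpand L M u = (f : LaurentSeries L) := by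
  constructor
  · rintro ⟨u, rfl⟩
    exact ⟨u, u.2, (coe_toFull0 ζ u).symm⟩
  · rintro ⟨u, hu, h⟩
    exact ⟨⟨u, hu⟩, Subtype.ext ((coe_toFull0 ζ ⟨u, hu⟩).trans h)⟩

end ToFull

/-! ### (M-c) and (M-e): the fixed fields of `Γ₀(M)` and of `±Γ₁(M)` -/

section Fixed

variable {M : ℕ} [NeZero M] {L : Type*} [Field L] {ι : L →+* ℂ} {ζ : L}
  {x : ↥(fullField M ζ)} {Γ : Subgroup SL(2, ℤ)} (D : EmbData L ↥(fullField M ζ) ι x Γ)

/-- The analytic model of the field of `X₁(M)` induced by a model of the full field. -/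
theorem isGamma1Emb_comp (hemb : IsFullEmb D.emb) :
    IsGamma1Emb (D.emb.comp (toFull1 (M := M) ζ).toRingHom) where
  const_fixed c γ := by
    show γ • D.emb (toFull1 ζ (algebraMap L _ c)) = D.emb (toFull1 ζ (algebraMap L _ c))
    rw [AlgHom.commutes, D.emb_const, sl_smul_const]
  jd d _ hd := by
    show D.emb (toFull1 ζ ⟨qExpand L d (jqModC L), jqd_mem_gamma1FieldC ζ hd⟩) = _
    rw [← hemb.jd d hd]
    congr 1
    apply Subtype.ext
    show qExpand L M (qExpand L d (jqModC L)) = qExpand L (d * M) (jqModC L)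
    rw [qExpand_qExpand]
    exact qExpand_congr (mul_comm M d) _
  ratio1 b c b' c' hb hc hb' hc' := by
    show D.emb (toFull1 ζ ⟨ratio1 M ζ b c b' c', ratio1_mem_gamma1FieldC ζ hb hc hb' hc'⟩) = _
    rw [← hemb.ratio _ _ _ _ (Identities.zero_pair_ne_zero hb) (Identities.zero_pair_ne_zero hc)
      (Identities.zero_pair_ne_zero hb') (Identities.zero_pair_ne_zero hc')]
    congr 1
    apply Subtype.ext
    exact Identities.qExpand_ratio1 ζ b c b' c'

variable (hS : Stable D) [Γ.FiniteIndex]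
  (hinv : ∀ f : ↥(fullField M ζ), (∀ g : SL(2, ℤ), g • D.emb f = D.emb f) → f ∈ L⟮x⟯)

include hS hinv in
/-- **(M-e)**: the fixed field of `±Γ₁(M)` in the full field is the image of the field of `X₁(M)`
under `q ↦ z^M`. -/
theorem range_toFull1_eq_fixedOf (hemb : IsFullEmb D.emb)
    (hx : (x : LaurentSeries L) = qExpand L M (jqModC L)) (hM : 8 ≤ M)
    (hζ : IsPrimitiveRoot ζ M) :
    (toFull1 ζ).fieldRange = fixedOf D (G1.Gamma1pm M) := by
  have h1 := isGamma1Emb_comp D hemb
  refine eq_fixedOf D hS hinv _ ?_ (G1.Gamma1pm M) ?_ ?_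
  · exact ⟨⟨jqModC L, jq_mem_gamma1FieldC ζ⟩, Subtype.ext hx.symm⟩
  · rintro γ hγ _ ⟨u, rfl⟩
    exact fixes_of_mem_Gamma1pm h1 hγ u
  · intro γ hγ
    exact (fixes1_iff hM hζ h1 γ).mp fun u => hγ _ ⟨u, rfl⟩

include hS hinv in
/-- (M-e), membership form. -/
theorem mem_gamma1_iff (hemb : IsFullEmb D.emb)
    (hx : (x : LaurentSeries L) = qExpand L M (jqModC L)) (hM : 8 ≤ M)
    (hζ : IsPrimitiveRoot ζ M) (f : ↥(fullField M ζ)) :
    (∃ u ∈ gamma1FieldC M ζ, qExpand L M u = (f : LaurentSeries L)) ↔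
      ∀ g ∈ G1.Gamma1pm M, g • D.emb f = D.emb f := by
  rw [← mem_range_toFull1_iff, range_toFull1_eq_fixedOf D hS hinv hemb hx hM hζ]
  exact Iff.rfl

variable [Algebra ℚ L]

open Fermat.Agent.Gateway.Dict.EmbedL Fermat.Agent.Gateway.Dict.DegreeC in
/-- the analytic counterpart of the generators of the field of `X₀(M)`. -/
theorem emb_toFull0_genL (hemb : IsFullEmb D.emb) {d : ℕ} [NeZero d] (hd : d ∣ M) :
    D.emb (toFull0 ζ (genL L M hd)) = algebraMap HolFun MerFun (jd d) := by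
  rw [← hemb.jd d hd]
  congr 1
  apply Subtype.ext
  rw [coe_toFull0, coe_genL, jL, coeffEmb_qExpand_jq, qExpand_qExpand]
  exact qExpand_congr (mul_comm M d) _

open Fermat.Agent.Gateway.Dict.EmbedL Fermat.Agent.Gateway.Dict.DegreeC in
/-- `Γ₀(M)` fixes the image of the field of `X₀(M)`. -/
theorem smul_emb_toFull0 (hemb : IsFullEmb D.emb) {γ : SL(2, ℤ)}
    (hγ : γ ∈ CongruenceSubgroup.Gamma0 M)
    (u : ↥(laurentBaseChange L (modularFunctionFieldFull M))) :
    γ • D.emb (toFull0 ζ u) = D.emb (toFull0 ζ u) := by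
  have hle : IntermediateField.adjoin L (genSetFL L M) ≤
      (fixedOf D (CongruenceSubgroup.Gamma0 M)).comap (toFull0 ζ) := by
    rw [IntermediateField.adjoin_le_iff]
    rintro _ ⟨d, hd0, hd, rfl⟩
    intro g hg
    show g • D.emb (toFull0 ζ (genL L M hd)) = D.emb (toFull0 ζ (genL L M hd))
    rw [emb_toFull0_genL D hemb hd]
    exact smul_algebraMap_jd hd hg
  have hu : u ∈ IntermediateField.adjoin L (genSetFL L M) := by
    rw [adjoin_genSetFL]; exact IntermediateField.mem_top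
  exact hle hu γ hγ

include hS hinv in
open Fermat.Agent.Gateway.Dict.EmbedL Fermat.Agent.Gateway.Dict.DegreeC in
/-- **(M-c)**: the fixed field of the Borel subgroup `Γ₀(M)` in the full field is the image of the
field of `X₀(M)` under `q ↦ z^M`. -/
theorem range_toFull0_eq_fixedOf (hemb : IsFullEmb D.emb)
    (hx : (x : LaurentSeries L) = qExpand L M (jqModC L)) :
    (toFull0 ζ).fieldRange = fixedOf D (CongruenceSubgroup.Gamma0 M) := by
  refine eq_fixedOf D hS hinv _ ?_ (CongruenceSubgroup.Gamma0 M) ?_ ?_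
  · refine ⟨genL L M (one_dvd M), Subtype.ext ?_⟩
    show ((toFull0 ζ (genL L M (one_dvd M)) : ↥(fullField M ζ)) : LaurentSeries L) = x
    rw [coe_toFull0, coe_genL, hx, jL, coeffEmb_qExpand_jq, qExpand_one_apply]
  · rintro γ hγ _ ⟨u, rfl⟩
    exact smul_emb_toFull0 D hemb hγ u
  · intro γ hγ
    apply JLevel.mem_Gamma0_of_smul_jd_eq
    apply IsFractionRing.injective HolFun MerFun
    rw [← MerFun.sl_smul_algebraMap, ← emb_toFull0_genL D hemb (dvd_refl M)]
    exact hγ _ ⟨_, rfl⟩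

include hS hinv in
/-- (M-c), membership form. -/
theorem mem_gamma0_iff (hemb : IsFullEmb D.emb)
    (hx : (x : LaurentSeries L) = qExpand L M (jqModC L)) (f : ↥(fullField M ζ)) :
    (∃ u ∈ laurentBaseChange L (modularFunctionFieldFull M),
        qExpand L M u = (f : LaurentSeries L)) ↔
      ∀ g ∈ CongruenceSubgroup.Gamma0 M, g • D.emb f = D.emb f := by
  rw [← mem_range_toFull0_iff, range_toFull0_eq_fixedOf D hS hinv hemb hx]
  exact Iff.rfl

end Fixed

end Fermat.Agent.S48x.Ana.GaloisFullFixed
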