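import Mathlib
import Fermat.Agent.S48x.Ana.StabFull
import Fermat.Agent.S48x.Model.Identities
import Fermat.Agent.S28.Laurent

/-!
helper74 (P-S48, layer (a), slice (A4), item (M-b)).  The substitution `z ↦ ζ z` on the full
level model `fullField M ζ ⊆ L((z))` corresponds to the translation `τ ↦ τ + 1` on the analytic
side:

* `twistAlg ζu : LaurentSeries L →ₐ[L] LaurentSeries L` (`S28.twist` as an algebra hom);
* `twist_mem_fullField`, `twistFull ζu hζ : ↥(fullField M ζ) →ₐ[L] ↥(fullField M ζ)`,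
  `coe_twistFull`, `twistFull_ratio`, `twistFull_jqd`;
* `emb_twistFull` : for `emb` with `StabFull.IsFullEmb emb`:
  `emb (twistFull f) = T⁻¹ • emb f` (`S24` action `(γ • h) τ = h (γ⁻¹ τ)`, so this is
  `τ ↦ h (τ + 1)`);
* `coe_act_eq_twist` : for any `act g` with `emb (act g f) = g • emb f`:
  `(act T⁻¹ f : LaurentSeries L) = S28.twist ζu f` (the hypothesis `hu` of
  `Red1/IgusaFull.full_of_decomposition`, `u` = the image of `T⁻¹`).
* the inverse direction: `twistFullInv`, `emb_twistFullInv : emb (twistFullInv f) = T • emb f`,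
  `coe_act_T_eq_twist_inv`.
-/

set_option autoImplicit false
set_option linter.unusedSectionVars false

open UpperHalfPlane hiding I
open ModularCurve
open scoped MatrixGroups

namespace Fermat.Agent.S48x.Ana.TwistFull

open Fermat.Agent.S48x.Model Fermat.Agent.S48x.Ana Fermat.Agent.S24
open Fermat.Agent.S24.JLevel (jd)

variable {L : Type*} [Field L]

/-- `S28.twist ζu` (the substitution `z ↦ ζ z`) as an `L`-algebra homomorphism. -/
noncomputable def twistAlg (ζu : Lˣ) : LaurentSeries L →ₐ[L] LaurentSeries L :=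
  { Fermat.Agent.S28.twist ζu with
    commutes' := fun c => by
      show Fermat.Agent.S28.twist ζu (algebraMap L (LaurentSeries L) c) =
        algebraMap L (LaurentSeries L) c
      rw [← Fermat.Agent.S28.C_eq_algebraMap_laurent, Fermat.Agent.S28.twist_C] }

@[simp] theorem twistAlg_apply (ζu : Lˣ) (f : LaurentSeries L) :
    twistAlg ζu f = Fermat.Agent.S28.twist ζu f := rfl

variable {M : ℕ} [NeZero M]

theorem shear_ne_zero {v : Vec M} (hv : v ≠ 0) : ((v.1, v.1 + v.2) : Vec M) ≠ 0 := by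
  intro h
  apply hv
  have h1 : v.1 = 0 := congrArg Prod.fst h
  have h2 : v.1 + v.2 = 0 := congrArg Prod.snd h
  rw [h1, zero_add] at h2
  exact Prod.ext h1 h2

theorem twist_jqd (ζu : Lˣ) (hζ : ζu ^ M = 1) (d : ℕ) [NeZero d] :
    Fermat.Agent.S28.twist ζu (qExpand L (d * M) (jqModC L)) = qExpand L (d * M) (jqModC L) := by
  apply Fermat.Agent.S28.twist_qExpand_of_pow_eq_one
  rw [mul_comm, pow_mul, hζ, one_pow]

/-- the generators of the full level field are permuted by the twist. -/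
theorem twist_mem_fullGens (ζu : Lˣ) (hζ : ζu ^ M = 1) {g : LaurentSeries L}
    (hg : g ∈ fullGens M (ζu : L)) : Fermat.Agent.S28.twist ζu g ∈ fullGens M (ζu : L) := by
  rcases hg with ⟨d, hd0, hd, rfl⟩ | ⟨v, w, v', w', hv, hw, hv', hw', rfl⟩
  · left
    exact ⟨d, hd0, hd, twist_jqd ζu hζ d⟩
  · right
    exact ⟨_, _, _, _, shear_ne_zero hv, shear_ne_zero hw, shear_ne_zero hv', shear_ne_zero hw',
      Identities.twist_ratio ζu hζ v w v' w'⟩

theorem map_twistAlg_le (ζu : Lˣ) (hζ : ζu ^ M = 1) :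
    (fullField M (ζu : L)).map (twistAlg ζu) ≤ fullField M (ζu : L) := by
  rw [fullField, IntermediateField.adjoin_map, IntermediateField.adjoin_le_iff]
  rintro _ ⟨g, hg, rfl⟩
  exact IntermediateField.subset_adjoin L _ (twist_mem_fullGens ζu hζ hg)

theorem twist_mem_fullField (ζu : Lˣ) (hζ : ζu ^ M = 1) {f : LaurentSeries L}
    (hf : f ∈ fullField M (ζu : L)) : Fermat.Agent.S28.twist ζu f ∈ fullField M (ζu : L) :=
  map_twistAlg_le ζu hζ ⟨f, hf, rfl⟩

/-- The twist restricted to the full level field. -/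
noncomputable def twistFull (ζu : Lˣ) (hζ : ζu ^ M = 1) :
    ↥(fullField M (ζu : L)) →ₐ[L] ↥(fullField M (ζu : L)) :=
  ((twistAlg ζu).comp (fullField M (ζu : L)).val).codRestrict
    (fullField M (ζu : L)).toSubalgebra (fun f => twist_mem_fullField ζu hζ f.2)

@[simp] theorem coe_twistFull (ζu : Lˣ) (hζ : ζu ^ M = 1) (f : ↥(fullField M (ζu : L))) :
    ((twistFull ζu hζ f : ↥(fullField M (ζu : L))) : LaurentSeries L) =
      Fermat.Agent.S28.twist ζu (f : LaurentSeries L) := rfl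

theorem twistFull_jqd (ζu : Lˣ) (hζ : ζu ^ M = 1) {d : ℕ} [NeZero d] (hd : d ∣ M) :
    twistFull ζu hζ ⟨qExpand L (d * M) (jqModC L), jqd_mem_fullField (ζu : L) hd⟩ =
      ⟨qExpand L (d * M) (jqModC L), jqd_mem_fullField (ζu : L) hd⟩ :=
  Subtype.ext (twist_jqd ζu hζ d)

theorem twistFull_ratio (ζu : Lˣ) (hζ : ζu ^ M = 1) {v w v' w' : Vec M} (hv : v ≠ 0)
    (hw : w ≠ 0) (hv' : v' ≠ 0) (hw' : w' ≠ 0) :
    twistFull ζu hζ ⟨ratio M (ζu : L) v w v' w', ratio_mem_fullField (ζu : L) hv hw hv' hw'⟩ =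
      ⟨ratio M (ζu : L) (v.1, v.1 + v.2) (w.1, w.1 + w.2) (v'.1, v'.1 + v'.2) (w'.1, w'.1 + w'.2),
        ratio_mem_fullField (ζu : L) (shear_ne_zero hv) (shear_ne_zero hw) (shear_ne_zero hv')
          (shear_ne_zero hw')⟩ :=
  Subtype.ext (Identities.twist_ratio ζu hζ v w v' w')

/-! ### The analytic side -/

theorem T_inv_mem_Gamma0 (N : ℕ) : (ModularGroup.T⁻¹ : SL(2, ℤ)) ∈ CongruenceSubgroup.Gamma0 N := by
  apply (CongruenceSubgroup.Gamma0 N).inv_mem
  rw [CongruenceSubgroup.Gamma0_mem]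
  simp [ModularGroup.T]

/-- **(M-b)**: the twist `z ↦ ζ z` is the translation `τ ↦ τ + 1` on the analytic side. -/
theorem emb_twistFull (ζu : Lˣ) (hζ : ζu ^ M = 1)
    {emb : ↥(fullField M (ζu : L)) →+* MerFun} (h : StabFull.IsFullEmb emb)
    (f : ↥(fullField M (ζu : L))) :
    emb (twistFull ζu hζ f) = (ModularGroup.T⁻¹ : SL(2, ℤ)) • emb f := by
  have key : emb.comp (twistFull ζu hζ : ↥(fullField M (ζu : L)) →+* ↥(fullField M (ζu : L))) =
      (MulSemiringAction.toRingHom SL(2, ℤ) MerFun ModularGroup.T⁻¹).comp emb := by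
    apply StabFull.ringHom_ext_adjoin
    · intro c
      have e1 : (twistFull ζu hζ : ↥(fullField M (ζu : L)) →+* ↥(fullField M (ζu : L)))
          (algebraMap L ↥(fullField M (ζu : L)) c) = algebraMap L ↥(fullField M (ζu : L)) c :=
        (twistFull ζu hζ).commutes c
      show emb ((twistFull ζu hζ : ↥(fullField M (ζu : L)) →+* ↥(fullField M (ζu : L)))
          (algebraMap L ↥(fullField M (ζu : L)) c)) =
        (ModularGroup.T⁻¹ : SL(2, ℤ)) • emb (algebraMap L ↥(fullField M (ζu : L)) c)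
      rw [e1, h.const_fixed]
    · rintro x (⟨d, hd0, hd, rfl⟩ | ⟨v, w, v', w', hv, hw, hv', hw', rfl⟩)
      · show emb (twistFull ζu hζ ⟨_, _⟩) = (ModularGroup.T⁻¹ : SL(2, ℤ)) • emb ⟨_, _⟩
        have e := h.jd d hd
        have e1 := twistFull_jqd ζu hζ hd
        exact (congrArg emb e1).trans (e.trans
          ((StabFull.smul_algebraMap_jd hd (T_inv_mem_Gamma0 M)).symm.trans
            (congrArg ((ModularGroup.T⁻¹ : SL(2, ℤ)) • ·) e.symm)))
      · show emb (twistFull ζu hζ ⟨_, _⟩) = (ModularGroup.T⁻¹ : SL(2, ℤ)) • emb ⟨_, _⟩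
        have e := h.ratio v w v' w' hv hw hv' hw'
        have e1 := twistFull_ratio ζu hζ hv hw hv' hw'
        have e2 := h.ratio _ _ _ _ (shear_ne_zero hv) (shear_ne_zero hw) (shear_ne_zero hv')
          (shear_ne_zero hw')
        have e3 : (ModularGroup.T⁻¹ : SL(2, ℤ)) • Rfun M v w v' w' =
            Rfun M (v.1, v.1 + v.2) (w.1, w.1 + w.2) (v'.1, v'.1 + v'.2) (w'.1, w'.1 + w'.2) := by
          rw [inv_smul_Rfun, vecSL_T, vecSL_T, vecSL_T, vecSL_T]
        exact (congrArg emb e1).trans (e2.trans (e3.symm.trans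
          (congrArg ((ModularGroup.T⁻¹ : SL(2, ℤ)) • ·) e.symm)))
  exact RingHom.congr_fun key f

/-- **The hypothesis `hu` of `Red1/IgusaFull`**: an action realising the `SL(2, ℤ)`-action through
`emb` sends `T⁻¹` to the twist. -/
theorem coe_act_eq_twist (ζu : Lˣ) (hζ : ζu ^ M = 1)
    {emb : ↥(fullField M (ζu : L)) →+* MerFun} (h : StabFull.IsFullEmb emb)
    (a : ↥(fullField M (ζu : L)) → ↥(fullField M (ζu : L)))
    (ha : ∀ f, emb (a f) = (ModularGroup.T⁻¹ : SL(2, ℤ)) • emb f)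
    (f : ↥(fullField M (ζu : L))) :
    ((a f : ↥(fullField M (ζu : L))) : LaurentSeries L) =
      Fermat.Agent.S28.twist ζu (f : LaurentSeries L) := by
  have : a f = twistFull ζu hζ f := emb.injective (by rw [ha, emb_twistFull ζu hζ h])
  rw [this, coe_twistFull]

/-! ### The inverse twist -/

theorem twistFull_injective (ζu : Lˣ) (hζ : ζu ^ M = 1) :
    Function.Injective (twistFull (M := M) ζu hζ) :=
  (twistFull ζu hζ : ↥(fullField M (ζu : L)) →+* ↥(fullField M (ζu : L))).injective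

theorem coe_twistFull_iterate (ζu : Lˣ) (hζ : ζu ^ M = 1) (n : ℕ)
    (g : ↥(fullField M (ζu : L))) :
    (((twistFull ζu hζ)^[n] g : ↥(fullField M (ζu : L))) : LaurentSeries L) =
      Fermat.Agent.S28.twist (ζu ^ n) (g : LaurentSeries L) := by
  induction n with
  | zero => rw [Function.iterate_zero, id, pow_zero, Fermat.Agent.S28.twist_one]
  | succ n ih =>
    rw [Function.iterate_succ_apply', coe_twistFull, ih, Fermat.Agent.S28.twist_twist,
      ← pow_succ']

/-- The twist has finite order dividing `M` on the full level field. -/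
theorem twistFull_iterate (ζu : Lˣ) (hζ : ζu ^ M = 1) (f : ↥(fullField M (ζu : L))) :
    (twistFull ζu hζ)^[M] f = f := by
  apply Subtype.ext
  rw [coe_twistFull_iterate, hζ, Fermat.Agent.S28.twist_one]

theorem inv_eq_pow_pred (ζu : Lˣ) (hζ : ζu ^ M = 1) : ζu⁻¹ = ζu ^ (M - 1) := by
  have hM : 0 < M := NeZero.pos M
  symm
  apply eq_inv_of_mul_eq_one_left
  rw [← pow_succ, Nat.sub_add_cancel hM, hζ]

theorem inv_twist_mem_fullField (ζu : Lˣ) (hζ : ζu ^ M = 1) {f : LaurentSeries L}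
    (hf : f ∈ fullField M (ζu : L)) : Fermat.Agent.S28.twist ζu⁻¹ f ∈ fullField M (ζu : L) := by
  rw [inv_eq_pow_pred ζu hζ]
  have := coe_twistFull_iterate ζu hζ (M - 1) ⟨f, hf⟩
  rw [← this]
  exact Subtype.property _

/-- The inverse twist `z ↦ ζ⁻¹ z` restricted to the full level field. -/
noncomputable def twistFullInv (ζu : Lˣ) (hζ : ζu ^ M = 1) :
    ↥(fullField M (ζu : L)) →ₐ[L] ↥(fullField M (ζu : L)) :=
  ((twistAlg ζu⁻¹).comp (fullField M (ζu : L)).val).codRestrict
    (fullField M (ζu : L)).toSubalgebra (fun f => inv_twist_mem_fullField ζu hζ f.2)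

@[simp] theorem coe_twistFullInv (ζu : Lˣ) (hζ : ζu ^ M = 1) (f : ↥(fullField M (ζu : L))) :
    ((twistFullInv ζu hζ f : ↥(fullField M (ζu : L))) : LaurentSeries L) =
      Fermat.Agent.S28.twist ζu⁻¹ (f : LaurentSeries L) := rfl

theorem twistFull_twistFullInv (ζu : Lˣ) (hζ : ζu ^ M = 1) (f : ↥(fullField M (ζu : L))) :
    twistFull ζu hζ (twistFullInv ζu hζ f) = f := by
  apply Subtype.ext
  rw [coe_twistFull, coe_twistFullInv, Fermat.Agent.S28.twist_twist, mul_inv_cancel,
    Fermat.Agent.S28.twist_one]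

theorem twistFullInv_twistFull (ζu : Lˣ) (hζ : ζu ^ M = 1) (f : ↥(fullField M (ζu : L))) :
    twistFullInv ζu hζ (twistFull ζu hζ f) = f := by
  apply Subtype.ext
  rw [coe_twistFullInv, coe_twistFull, Fermat.Agent.S28.twist_twist, inv_mul_cancel,
    Fermat.Agent.S28.twist_one]

/-- The twist as an `L`-algebra automorphism of the full level field. -/
noncomputable def twistFullEquiv (ζu : Lˣ) (hζ : ζu ^ M = 1) :
    ↥(fullField M (ζu : L)) ≃ₐ[L] ↥(fullField M (ζu : L)) :=
  AlgEquiv.ofAlgHom (twistFull ζu hζ) (twistFullInv ζu hζ)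
    (AlgHom.ext fun f => twistFull_twistFullInv ζu hζ f)
    (AlgHom.ext fun f => twistFullInv_twistFull ζu hζ f)

@[simp] theorem twistFullEquiv_apply (ζu : Lˣ) (hζ : ζu ^ M = 1) (f : ↥(fullField M (ζu : L))) :
    twistFullEquiv ζu hζ f = twistFull ζu hζ f := rfl

/-- The inverse twist `z ↦ ζ⁻¹ z` is the translation `τ ↦ τ - 1`. -/
theorem emb_twistFullInv (ζu : Lˣ) (hζ : ζu ^ M = 1)
    {emb : ↥(fullField M (ζu : L)) →+* MerFun} (h : StabFull.IsFullEmb emb)
    (f : ↥(fullField M (ζu : L))) :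
    emb (twistFullInv ζu hζ f) = (ModularGroup.T : SL(2, ℤ)) • emb f := by
  have h1 := emb_twistFull ζu hζ h (twistFullInv ζu hζ f)
  rw [twistFull_twistFullInv] at h1
  rw [h1, smul_smul, mul_inv_cancel, one_smul]

theorem coe_act_T_eq_twist_inv (ζu : Lˣ) (hζ : ζu ^ M = 1)
    {emb : ↥(fullField M (ζu : L)) →+* MerFun} (h : StabFull.IsFullEmb emb)
    (a : ↥(fullField M (ζu : L)) → ↥(fullField M (ζu : L)))
    (ha : ∀ f, emb (a f) = (ModularGroup.T : SL(2, ℤ)) • emb f)
    (f : ↥(fullField M (ζu : L))) :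
    ((a f : ↥(fullField M (ζu : L))) : LaurentSeries L) =
      Fermat.Agent.S28.twist ζu⁻¹ (f : LaurentSeries L) := by
  have : a f = twistFullInv ζu hζ f := emb.injective (by rw [ha, emb_twistFullInv ζu hζ h])
  rw [this, coe_twistFullInv]

end Fermat.Agent.S48x.Ana.TwistFull
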