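/-
P-S48, block G1, layer (a), (A4) INSTANCE (helper43): the canonical action of `SL₂(ℤ/M)` on the
function field `fullField M ζ` of `X(M)` over `L`, for `ι : L →+* ℂ` with `ι ζ = e^(2πi/M)`,
`5 ≤ M` — UNCONDITIONAL.

`sActM ι hM hζ := RedSurj.descend (GaloisFull.sActFull ι hM hζ)` (helper53's `SL(2,ℤ)`-action, which
is trivial on `±Γ(M) ⊇ Γ(M)`), with
* `sActM_red`, `emb_sActM_red` (analytic characterisation for every normalised embedding),
* (h1) `actsOnRatios` (`g⁻¹`-convention), (h2) `sActM_jFull`, (h3) `fixedFieldOf_top`,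
  (h5) `sActM_neg_one`, kernel `{±1}`, degree `#SL₂(ℤ/M)/2`, Galois, degrees of fixed fields,
* (M-b) `coe_sActM_upperU_inv` : `(1 1; 0 1)⁻¹` acts as the twist `z ↦ ζ z`.
-/
import Mathlib
import Fermat.Agent.S48x.Ana.GaloisFull
import Fermat.Agent.S48x.Ana.RedSurj
import Fermat.Agent.S48x.Ana.GaloisActModel
import Fermat.Agent.S48x.Ana.TwistFull

set_option autoImplicit false
set_option linter.unusedSectionVars false

open UpperHalfPlane IntermediateField Module
open scoped MatrixGroups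

noncomputable section

namespace Fermat.Agent.S48x.Ana.GaloisFullInst

open Fermat.Agent.S48x.Model Fermat.Agent.S48x.Model.Rigidity Fermat.Agent.S48x.Ana
open Fermat.Agent.S48x.PPack (zetaM)
open Fermat.Agent.S24 ModularCurve
open Fermat.Agent.S48x.Ana.GaloisAct Fermat.Agent.S48x.Ana.GaloisFull
open Fermat.Agent.S48x.Ana.EmbFull (EmbFullData isPrimitiveRoot_of_map_eq_zetaM)
open Fermat.Agent.S48x.Red1 (upperU)

variable {L : Type*} [Field L] (ι : L →+* ℂ) {M : ℕ} [NeZero M] {ζ : L}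
  (hM : 5 ≤ M) (hζ : ι ζ = zetaM M)

theorem gamma_le_ker : CongruenceSubgroup.Gamma M ≤ (sActFull ι hM hζ).ker := by
  rw [sActFull_ker]
  exact StabFull.Gamma_le_GammaPM M

/-- **The canonical action of `SL₂(ℤ/M)` on the function field of `X(M)` over `L`.** -/
def sActM : SL(2, ZMod M) →* (fullField M ζ ≃ₐ[L] fullField M ζ) :=
  RedSurj.descend (sActFull ι hM hζ) (gamma_le_ker ι hM hζ)

@[simp] theorem sActM_red (γ : SL(2, ℤ)) :
    sActM ι hM hζ (RedSurj.red M γ) = sActFull ι hM hζ γ :=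
  RedSurj.descend_red _ _ γ

/-- analytic characterisation, for every normalised embedding. -/
theorem emb_sActM_red {emb : ↥(fullField M ζ) →+* MerFun} (h : StabFull.IsFullEmb emb)
    (hconst : ∀ a : L, emb (algebraMap L ↥(fullField M ζ) a) = Conj.const (ι a))
    (γ : SL(2, ℤ)) (f : ↥(fullField M ζ)) :
    emb (sActM ι hM hζ (RedSurj.red M γ) f) = γ • emb f := by
  rw [sActM_red, emb_sActFull ι hM hζ h hconst]

/-- (h2): `j = j(z^M)` is fixed. -/
theorem sActM_jFull (g : SL(2, ZMod M)) :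
    sActM ι hM hζ g (EmbFullData.jFull ζ) = EmbFullData.jFull ζ := by
  obtain ⟨γ, rfl⟩ := RedSurj.red_surjective M g
  rw [sActM_red, sActFull_jFull]

/-- (h1): the action on the ratio generators, `g⁻¹`-convention. -/
theorem actsOnRatios : ActsOnRatios (sActM ι hM hζ) := by
  intro g v w v' w' hv hw hv' hw'
  obtain ⟨γ, rfl⟩ := RedSurj.red_surjective M g
  rw [sActM_red, coe_sActFull_ratio ι hM hζ γ hv hw hv' hw']
  have key : ∀ u : Vec M, vecSL M u γ⁻¹ =
      vecAct ((RedSurj.red M γ)⁻¹ : SL(2, ZMod M)).1 u := by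
    intro u
    rw [← map_inv]
    rfl
  simp only [key]

/-- (h5): `-1` acts trivially. -/
theorem sActM_neg_one : sActM ι hM hζ (-1) = 1 := by
  have h1 : RedSurj.red M (-1 : SL(2, ℤ)) = -1 := by
    apply Subtype.ext
    ext i j
    rw [RedSurj.red_apply]
    fin_cases i <;> fin_cases j <;> simp
  rw [← h1, sActM_red, sActFull_eq_one_iff]
  exact StabFull.neg_one_mem_GammaPM M

/-- (h3): the fixed field of the action is `L(j)`. -/
theorem fixedFieldOf_top :
    fixedFieldOf (sActM ι hM hζ) ⊤ = L⟮EmbFullData.jFull (M := M) ζ⟯ := by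
  apply le_antisymm
  · intro f hf
    rw [mem_fixedFieldOf] at hf
    apply mem_adjoin_of_sActFull_fixed ι hM hζ
    intro γ
    have := hf (RedSurj.red M γ) (Subgroup.mem_top _)
    rwa [sActM_red] at this
  · rw [IntermediateField.adjoin_simple_le_iff, mem_fixedFieldOf]
    intro g _
    exact sActM_jFull ι hM hζ g

/-- fixed fields: `H ≤ SL(2,ℤ)` versus its image in `SL₂(ℤ/M)`. -/
theorem mem_fixedFieldOf_map_red (H : Subgroup SL(2, ℤ)) (f : ↥(fullField M ζ)) :
    f ∈ fixedFieldOf (sActM ι hM hζ) (H.map (RedSurj.red M)) ↔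
      ∀ γ ∈ H, sActFull ι hM hζ γ f = f := by
  rw [mem_fixedFieldOf]
  constructor
  · intro h γ hγ
    have := h (RedSurj.red M γ) (Subgroup.mem_map_of_mem _ hγ)
    rwa [sActM_red] at this
  · rintro h _ ⟨γ, hγ, rfl⟩
    rw [sActM_red]
    exact h γ hγ

/-! ### Consolidated output -/

section Output

include hζ in
theorem isPrimitiveRoot : IsPrimitiveRoot ζ M := isPrimitiveRoot_of_map_eq_zetaM ι hζ

/-- the kernel of the action is `{±1}`. -/
theorem sActM_eq_one_iff (g : SL(2, ZMod M)) : sActM ι hM hζ g = 1 ↔ g = 1 ∨ g = -1 :=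
  act_eq_one_iff (isPrimitiveRoot ι hζ) hM (actsOnRatios ι hM hζ) (sActM_neg_one ι hM hζ) g

theorem card_ker_sActM : Nat.card (sActM ι hM hζ).ker = 2 :=
  card_ker (isPrimitiveRoot ι hζ) hM (actsOnRatios ι hM hζ) (sActM_neg_one ι hM hζ)

theorem ker_sActM_le {H : Subgroup SL(2, ZMod M)} (hH : -1 ∈ H) : (sActM ι hM hζ).ker ≤ H :=
  ker_le_of_neg_one_mem (isPrimitiveRoot ι hζ) hM (actsOnRatios ι hM hζ) hH

include ι hM hζ in
/-- `[L(X(M)) : L(j)] · 2 = #SL₂(ℤ/M)`. -/
theorem finrank_mul_two :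
    finrank L⟮EmbFullData.jFull (M := M) ζ⟯ (fullField M ζ) * 2 = Nat.card SL(2, ZMod M) :=
  finrank_adjoin_mul_two (isPrimitiveRoot ι hζ) hM (actsOnRatios ι hM hζ)
    (sActM_neg_one ι hM hζ) (fixedFieldOf_top ι hM hζ)

include ι hM hζ in
theorem isGalois : IsGalois L⟮EmbFullData.jFull (M := M) ζ⟯ (fullField M ζ) :=
  isGalois_adjoin (act := sActM ι hM hζ) (fixedFieldOf_top ι hM hζ)

/-- `[F^H : L(j)] = (SL₂(ℤ/M) : H)` for `H ∋ -1`. -/
theorem finrank_fixedFieldOf {H : Subgroup SL(2, ZMod M)} (hH : -1 ∈ H)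
    (hle : L⟮EmbFullData.jFull (M := M) ζ⟯ ≤ fixedFieldOf (sActM ι hM hζ) H) :
    finrank L⟮EmbFullData.jFull (M := M) ζ⟯ (IntermediateField.extendScalars hle) = H.index :=
  finrank_adjoin_fixedFieldOf (isPrimitiveRoot ι hζ) hM (actsOnRatios ι hM hζ)
    (fixedFieldOf_top ι hM hζ) hH hle

/-- `[F : F^H] · 2 = #H` for `H ∋ -1`. -/
theorem finrank_fixedFieldOf_mul_two' {H : Subgroup SL(2, ZMod M)} (hH : -1 ∈ H) :
    finrank (fixedFieldOf (sActM ι hM hζ) H) (fullField M ζ) * 2 = Nat.card H :=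
  finrank_fixedFieldOf_mul_two (isPrimitiveRoot ι hζ) hM (actsOnRatios ι hM hζ)
    (sActM_neg_one ι hM hζ) hH


/-! ### (M-b): the transvection acts as the twist -/

theorem red_T : RedSurj.red M ModularGroup.T = upperU M 1 := by
  apply Fermat.Agent.S48x.Red1.sl2_ext <;> rw [RedSurj.red_apply] <;> simp [ModularGroup.T]

/-- **(M-b)**: `(1 1; 0 1)⁻¹` acts as the twist `z ↦ ζ z` (`= hu` of `Red1/IgusaFull`). -/
theorem coe_sActM_upperU_inv (ζu : Lˣ) (hζu : ι (ζu : L) = zetaM M)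
    (f : fullField M (ζu : L)) :
    ((sActM ι hM hζu (upperU M 1)⁻¹ f : fullField M (ζu : L)) : LaurentSeries L) =
      Fermat.Agent.S28.twist ζu (f : LaurentSeries L) := by
  obtain ⟨D⟩ := EmbFull.exists_embFullData (M := M) ι hζu
  have hζM : ζu ^ M = 1 := by
    apply Units.ext
    rw [Units.val_pow_eq_pow_val, Units.val_one]
    exact (isPrimitiveRoot ι hζu).pow_eq_one
  refine TwistFull.coe_act_eq_twist ζu hζM D.isFullEmb
    (fun f => sActM ι hM hζu (upperU M 1)⁻¹ f) (fun f => ?_) f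
  rw [← red_T, ← map_inv, emb_sActM_red ι hM hζu D.isFullEmb D.emb_const]

/-- `(1 1; 0 1)` acts as the inverse twist `z ↦ ζ⁻¹ z`. -/
theorem coe_sActM_upperU (ζu : Lˣ) (hζu : ι (ζu : L) = zetaM M) (f : fullField M (ζu : L)) :
    ((sActM ι hM hζu (upperU M 1) f : fullField M (ζu : L)) : LaurentSeries L) =
      Fermat.Agent.S28.twist ζu⁻¹ (f : LaurentSeries L) := by
  have h := coe_sActM_upperU_inv ι hM ζu hζu (sActM ι hM hζu (upperU M 1) f)
  rw [← AlgEquiv.mul_apply, ← map_mul, inv_mul_cancel, map_one, AlgEquiv.one_apply] at h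
  rw [h, Fermat.Agent.S28.twist_twist, inv_mul_cancel, Fermat.Agent.S28.twist_one]

end Output

end Fermat.Agent.S48x.Ana.GaloisFullInst
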