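/-
P-S48, block G1, layer (a), (A4) INSTANCE, part 2 (helper43): the fixed fields of the Borel
subgroup and of `H₁ = ±(1 *; 0 1)` in the canonical `SL₂(ℤ/M)`-action `sActM` on `fullField M ζ`
(`Ana/GaloisFullInst.lean`), from helper19's analytic `Ana/FixedFields.lean`:

* (M-c) `mem_fixedFieldOf_borel` : `f ∈ F^B ↔ ↑f ∈ borelSeries L M` (`B = borel M`, the image of
  `Γ₀(M)`; `borelSeries L M = L(j(z^(dM)) : d ∣ M)` is the image of the `Γ₀(M)`-field);
* (M-e) `mem_fixedFieldOf_h1` : `f ∈ F^(H₁) ↔ ↑f ∈ h1Series M ζ` (`H₁ = h1Sub M`, the image of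
  `±Γ₁(M)`; `h1Series M ζ` is the `q ↦ z^M` image of `gamma1FieldC M ζ`), `8 ≤ M`.
-/
import Mathlib
import Fermat.Agent.S48x.Ana.GaloisFullInst
import Fermat.Agent.S48x.Ana.FixedFields

set_option autoImplicit false
set_option linter.unusedSectionVars false

open UpperHalfPlane IntermediateField Module
open scoped MatrixGroups

noncomputable section

namespace Fermat.Agent.S48x.Ana.GaloisFullInst

open Fermat.Agent.S48x.Model Fermat.Agent.S48x.Ana
open Fermat.Agent.S48x.PPack (zetaM)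
open Fermat.Agent.S24 ModularCurve
open Fermat.Agent.S48x.Ana.GaloisAct Fermat.Agent.S48x.Ana.GaloisFull
open Fermat.Agent.S48x.Ana.EmbFull (EmbFullData)
open Fermat.Agent.S48x.Ana.FixedFields (borelSeries h1Series)
open Fermat.Agent.S48x.Red1 (borel)

variable {M : ℕ} [NeZero M]

/-! ### The subgroups of `SL₂(ℤ/M)` -/

/-- the image of `Γ₀(M)` is the Borel subgroup. -/
theorem map_red_Gamma0 : (CongruenceSubgroup.Gamma0 M).map (RedSurj.red M) = borel M := by
  ext b
  constructor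
  · rintro ⟨γ, hγ, rfl⟩
    rw [Fermat.Agent.S48x.Red1.mem_borel_iff, RedSurj.red_apply]
    exact (CongruenceSubgroup.Gamma0_mem).mp hγ
  · intro hb
    obtain ⟨γ, rfl⟩ := RedSurj.red_surjective M b
    refine ⟨γ, ?_, rfl⟩
    rw [SetLike.mem_coe, CongruenceSubgroup.Gamma0_mem, ← RedSurj.red_apply]
    exact hb

/-- `H₁ = ±(1 *; 0 1)`: the image of `±Γ₁(M)` in `SL₂(ℤ/M)`. -/
def h1Sub (M : ℕ) [NeZero M] : Subgroup SL(2, ZMod M) :=
  (G1.Gamma1pm M).map (RedSurj.red M)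

theorem mem_h1Sub_iff {g : SL(2, ZMod M)} :
    g ∈ h1Sub M ↔ g 1 0 = 0 ∧ (g 1 1 = 1 ∨ g 1 1 = -1) := by
  constructor
  · rintro ⟨γ, hγ, rfl⟩
    rw [SetLike.mem_coe, G1.mem_Gamma1pm_iff] at hγ
    refine ⟨?_, ?_⟩
    · rw [RedSurj.red_apply]
      exact (CongruenceSubgroup.Gamma0_mem).mp hγ.1
    · rw [RedSurj.red_apply]
      exact hγ.2
  · rintro ⟨h10, h11⟩
    obtain ⟨γ, rfl⟩ := RedSurj.red_surjective M g
    refine ⟨γ, ?_, rfl⟩
    rw [SetLike.mem_coe, G1.mem_Gamma1pm_iff]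
    refine ⟨?_, ?_⟩
    · rw [CongruenceSubgroup.Gamma0_mem, ← RedSurj.red_apply]
      exact h10
    · rw [RedSurj.red_apply] at h11
      exact h11

theorem neg_one_mem_h1Sub : (-1 : SL(2, ZMod M)) ∈ h1Sub M := by
  rw [mem_h1Sub_iff]
  simp

theorem h1Sub_le_borel : h1Sub M ≤ borel M := fun _ hg =>
  (Fermat.Agent.S48x.Red1.mem_borel_iff).mpr (mem_h1Sub_iff.mp hg).1

theorem neg_one_mem_borel : (-1 : SL(2, ZMod M)) ∈ borel M := h1Sub_le_borel neg_one_mem_h1Sub

/-! ### The fixed fields -/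

variable {L : Type*} [Field L] (ι : L →+* ℂ) {ζ : L} (hM : 5 ≤ M) (hζ : ι ζ = zetaM M)

include ι hM hζ in
/-- The analytic data behind the two theorems. -/
theorem exists_data : ∃ (D : Fermat.Agent.Gateway.Dict.ConjAbs.EmbData L ↥(fullField M ζ) ι
      (EmbFullData.jFull ζ) (StabFull.GammaPM M)),
    StabFull.IsFullEmb D.emb ∧ GaloisAbs.Stable D ∧
      (∀ f : ↥(fullField M ζ), (∀ g : SL(2, ℤ), g • D.emb f = D.emb f) →
        f ∈ L⟮EmbFullData.jFull (M := M) ζ⟯) ∧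
      (∀ (g : SL(2, ℤ)) (f : ↥(fullField M ζ)),
        sActFull ι hM hζ g f = f ↔ g • D.emb f = D.emb f) := by
  obtain ⟨D⟩ := EmbFull.exists_embFullData (M := M) ι hζ
  have hprim := isPrimitiveRoot ι hζ
  refine ⟨D.toEmbData hM hprim, D.isFullEmb, stable_toEmbData ι hM hζ D hprim, ?_, ?_⟩
  · intro f hf
    apply mem_adjoin_of_sActFull_fixed ι hM hζ
    intro g
    exact (sActFull_apply_eq_iff ι hM hζ D.isFullEmb D.emb_const g f).mpr (hf g)
  · intro g f
    exact sActFull_apply_eq_iff ι hM hζ D.isFullEmb D.emb_const g f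

theorem jFull_mem_borelSeries :
    ((EmbFullData.jFull (M := M) ζ : ↥(fullField M ζ)) : LaurentSeries L) ∈ borelSeries L M :=
  FixedFields.jqd_mem_borelSeries (one_dvd M)

/-- **(M-c)**: the fixed field of the Borel subgroup is the image of the `Γ₀(M)`-field. -/
theorem mem_fixedFieldOf_borel (f : ↥(fullField M ζ)) :
    f ∈ fixedFieldOf (sActM ι hM hζ) (borel M) ↔ (f : LaurentSeries L) ∈ borelSeries L M := by
  obtain ⟨D, hFull, hS, hinv, hiff⟩ := exists_data ι hM hζ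
  rw [← map_red_Gamma0, mem_fixedFieldOf_map_red,
    FixedFields.mem_borelSeries_iff D hFull hS hinv jFull_mem_borelSeries f]
  exact forall₂_congr fun g _ => hiff g f

/-- **(M-e)**: the fixed field of `H₁` is the image of the `Γ₁(M)`-field (`8 ≤ M`). -/
theorem mem_fixedFieldOf_h1 (hM8 : 8 ≤ M) (f : ↥(fullField M ζ)) :
    f ∈ fixedFieldOf (sActM ι hM hζ) (h1Sub M) ↔ (f : LaurentSeries L) ∈ h1Series M ζ := by
  obtain ⟨D, hFull, hS, hinv, hiff⟩ := exists_data ι hM hζ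
  rw [h1Sub, mem_fixedFieldOf_map_red,
    FixedFields.mem_h1Series_iff D hFull hS hinv hM8 (isPrimitiveRoot ι hζ)
      jFull_mem_borelSeries f]
  exact forall₂_congr fun g _ => hiff g f

/-- (M-c) as an equality of intermediate fields of `fullField M ζ`. -/
theorem fixedFieldOf_borel :
    fixedFieldOf (sActM ι hM hζ) (borel M) = FixedFields.restr (borelSeries L M) := by
  ext f
  rw [mem_fixedFieldOf_borel ι hM hζ f, FixedFields.mem_restr]

/-- (M-e) as an equality of intermediate fields of `fullField M ζ`. -/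
theorem fixedFieldOf_h1 (hM8 : 8 ≤ M) :
    fixedFieldOf (sActM ι hM hζ) (h1Sub M) = FixedFields.restr (h1Series M ζ) := by
  ext f
  rw [mem_fixedFieldOf_h1 ι hM hζ hM8 f, FixedFields.mem_restr]

end Fermat.Agent.S48x.Ana.GaloisFullInst
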