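/-
P-S48, layer (a) of G1 (helper85, for helper19).  Cusp-meromorphy of all translates of an analytic
realisation whose stabiliser contains a principal congruence subgroup.

* `conj_T_pow_mem_of_Gamma_le` : `Γ(n) ≤ Γ` implies `g⁻¹ T ^ n g ∈ Γ` for all `g`.
* `hcusp_of_le` : for `D : EmbData K F ι x Γ` with `Γ(n) ≤ Γ`, `0 < n` and `F` algebraic over
  `K(x)`, every translate `g • D.emb f` is a quotient of `n`-periodic holomorphic functions of
  moderate growth (`IsCuspMer n`).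
-/
import Mathlib
import Fermat.Agent.Gateway.Dict.ConjAbs
import Fermat.Agent.S27x.G2b.CuspAlg

set_option autoImplicit false

open UpperHalfPlane IntermediateField
open scoped MatrixGroups

namespace Fermat.Agent.S48x.Ana.HcuspOfLe

open Fermat.Agent.S24 Fermat.Agent.S24.CuspOrd
open Fermat.Agent.Gateway.Dict.ConjAbs

/-- `T ^ n ∈ Γ(n)`. -/
theorem T_pow_mem_Gamma (n : ℕ) : ModularGroup.T ^ n ∈ CongruenceSubgroup.Gamma n := by
  have h := CongruenceSubgroup.ModularGroup_T_pow_mem_Gamma (n : ℤ) (n : ℤ) dvd_rfl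
  simpa using h

/-- If `Γ(n) ≤ Γ` then all conjugates of `T ^ n` lie in `Γ`. -/
theorem conj_T_pow_mem_of_Gamma_le {Γ : Subgroup SL(2, ℤ)} {n : ℕ}
    (hΓ : CongruenceSubgroup.Gamma n ≤ Γ) (g : SL(2, ℤ)) :
    g⁻¹ * ModularGroup.T ^ n * g ∈ Γ := by
  apply hΓ
  have h := (CongruenceSubgroup.Gamma_normal n).conj_mem _ (T_pow_mem_Gamma n) g⁻¹
  rwa [inv_inv] at h

variable {K F : Type*} [Field K] [Field F] [Algebra K F] {ι : K →+* ℂ} {x : F}
  {Γ : Subgroup SL(2, ℤ)}

/-- Variant with the conjugation hypothesis instead of `Γ(n) ≤ Γ`. -/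
theorem hcusp_of_conj (D : EmbData K F ι x Γ) {n : ℕ}
    (hT : ∀ g : SL(2, ℤ), g⁻¹ * ModularGroup.T ^ n * g ∈ Γ)
    [Algebra.IsAlgebraic K⟮x⟯ F] (f : F) (g : SL(2, ℤ)) :
    IsCuspMer n (g • D.emb f) := by
  have key := Fermat.Agent.S27x.G2b.isCuspMer_of_ringHom (K := K) (n := n) (tw D g) x
    (fun c => ?_) ?_ f ?_
  · exact key
  · rw [tw_apply, D.emb_const, Conj.sl_smul_const]
    exact isCuspMer_const n (ι c)
  · rw [tw_apply, D.emb_x, MerFun.sl_smul_algebraMap, sl_smul_jHol]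
    exact isCuspMer_algebraMap (jHol_mem_cuspFnAlg n)
  · rw [tw_apply]
    calc ModularGroup.T ^ n • g • D.emb f
        = g • ((g⁻¹ * ModularGroup.T ^ n * g) • D.emb f) := by
          rw [← mul_smul, ← mul_smul]
          congr 1
          group
      _ = g • D.emb f := by rw [D.fixed _ (hT g)]

/-- **Cusp-meromorphy of all translates** when the stabiliser contains `Γ(n)`. -/
theorem hcusp_of_le (D : EmbData K F ι x Γ) {n : ℕ} (_hn : 0 < n)
    (hΓ : CongruenceSubgroup.Gamma n ≤ Γ) [Algebra.IsAlgebraic K⟮x⟯ F] :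
    ∀ (f : F) (g : SL(2, ℤ)), IsCuspMer n (g • D.emb f) :=
  fun f g => hcusp_of_conj D (conj_T_pow_mem_of_Gamma_le hΓ) f g

end Fermat.Agent.S48x.Ana.HcuspOfLe
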