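/-
P-S48, layer (a) of G1 (helper85, for helper19).  The two instances of `HcuspOfLe.hcusp_of_le`:
stabiliser `±Γ₁(M)` and stabiliser `±Γ(M)`, both with `n = M`.
-/
import Mathlib
import Fermat.Agent.S48x.Ana.HcuspOfLe
import Fermat.Agent.S48x.Ana.StabFull
import Fermat.Agent.S48x.G1.Defs

set_option autoImplicit false

open UpperHalfPlane IntermediateField
open scoped MatrixGroups

namespace Fermat.Agent.S48x.Ana.HcuspOfLe

open Fermat.Agent.S24 Fermat.Agent.S24.CuspOrd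
open Fermat.Agent.Gateway.Dict.ConjAbs

/-- `Γ(M) ≤ Γ₁(M)`. -/
theorem Gamma_le_Gamma1 (M : ℕ) : CongruenceSubgroup.Gamma M ≤ CongruenceSubgroup.Gamma1 M := by
  intro A hA
  rw [CongruenceSubgroup.Gamma_mem] at hA
  rw [CongruenceSubgroup.Gamma1_mem]
  exact ⟨hA.1, hA.2.2.2, hA.2.2.1⟩

/-- `Γ(M) ≤ ±Γ₁(M)`. -/
theorem Gamma_le_Gamma1pm (M : ℕ) : CongruenceSubgroup.Gamma M ≤ G1.Gamma1pm M :=
  (Gamma_le_Gamma1 M).trans (G1.Gamma1_le_Gamma1pm M)

variable {K F : Type*} [Field K] [Field F] [Algebra K F] {ι : K →+* ℂ} {x : F}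

/-- Cusp-meromorphy of all translates for an analytic realisation with stabiliser `±Γ₁(M)`. -/
theorem hcusp_Gamma1pm {M : ℕ} [NeZero M] (D : EmbData K F ι x (G1.Gamma1pm M))
    [Algebra.IsAlgebraic K⟮x⟯ F] :
    ∀ (f : F) (g : SL(2, ℤ)), IsCuspMer M (g • D.emb f) :=
  hcusp_of_le D (Nat.pos_of_ne_zero (NeZero.ne M)) (Gamma_le_Gamma1pm M)

/-- Cusp-meromorphy of all translates for an analytic realisation with stabiliser `±Γ(M)`. -/
theorem hcusp_GammaPM {M : ℕ} [NeZero M] (D : EmbData K F ι x (StabFull.GammaPM M))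
    [Algebra.IsAlgebraic K⟮x⟯ F] :
    ∀ (f : F) (g : SL(2, ℤ)), IsCuspMer M (g • D.emb f) :=
  hcusp_of_le D (Nat.pos_of_ne_zero (NeZero.ne M)) (StabFull.Gamma_le_GammaPM M)

end Fermat.Agent.S48x.Ana.HcuspOfLe
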