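import Fermat.Agent.S48x.HeckeFF.Level
import Fermat.Agent.Gateway.Dict.QExpMer
import Fermat.Agent.Gateway.Dict.ConjAbs

/-!
# P-S48 G1 (A7), cusp-expansion half: the second embedding `ι₀` (helper80)

Generic in `F₀ : IntermediateField ℚ ℚ((q))`, `p`, `(L, ι : L →+* ℂ)`; hypothesis-style in the
analytic embedding `embP` of the level field `F₀(p)_L` (helper48's `Ana/LevelP.lean`, PART 1).

* `hasQ_add`, `hasQ_neg` : additions to the `HasQ` toolkit of `Gateway/Dict/QExpMer.lean`;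
* `smul_merFun_eq_of_smul_eq` : elements of `GL(2,ℝ)⁺` with the same action on `ℍ` act in the
  same way on `MerFun` (scalars act trivially);
* `smul_conj_eq` : `diag(1,p) γ₀ = γ₁ diag(p,1)` gives `(1/p) γ₀(z/p) = γ₁ z`;
* `exists_iota0`, `exists_iota0_of_embData` : the ring homomorphism
  `ι₀ : F₀(p)_L → L((s))`, `s = q^(1/p)`, expansion of `γ₀ • embP f` in `s`, with
  `ι₀ (α x) = x(s^p)` and `ι₀ (β v) = (δ₀ v)(s)` where `emb (δ₀ v) = γ₁ • emb v`
  (exactly the inputs `ι₀, hι₀, hδ` of `HeckeFF/NormQ1.normQExp_hecke`);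
* `exists_gamma_rel` : the matrices `γ₀ = !![p u, w; M, 1]`, `γ₁ = !![u, w; M, p]` for
  `u p - w M = 1`.
-/

set_option autoImplicit false

noncomputable section

open ModularCurve
open UpperHalfPlane hiding I
open scoped MatrixGroups

namespace Fermat.Agent.S48x.Ana.Iota0

open Fermat.Agent.S24 Fermat.Agent.S24.QExp Fermat.Agent.S24.JLevel
open Fermat.Agent.Gateway.Kummer Fermat.Agent.Gateway.Dict.QExpMer
open Fermat.Agent.S48x.HeckeFF

/-! ### `HasQ` toolkit -/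

theorem hasQ_add {h h' : MerFun} {s s' : LaurentSeries ℂ} (hs : HasQ h s) (hs' : HasQ h' s') :
    HasQ (h + h') (s + s') := by
  obtain ⟨a, b, hb, hab, hq⟩ := hs
  obtain ⟨a', b', hb', hab', hq'⟩ := hs'
  have hB := algebraMap_perFun_ne_zero hb
  have hB' := algebraMap_perFun_ne_zero hb'
  refine ⟨a * b' + a' * b, b * b', mul_ne_zero hb hb', ?_, ?_⟩
  · rw [hab, hab', div_add_div _ _ hB hB']
    simp only [AddMemClass.coe_add, MulMemClass.coe_mul, map_add, map_mul]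
    ring
  · rw [map_mul, map_add, map_mul, map_mul, ← hq, ← hq']
    ring

theorem hasQ_neg {h : MerFun} {s : LaurentSeries ℂ} (hs : HasQ h s) : HasQ (-h) (-s) := by
  obtain ⟨a, b, hb, hab, hq⟩ := hs
  refine ⟨-a, b, hb, ?_, ?_⟩
  · rw [hab, NegMemClass.coe_neg, map_neg, neg_div]
  · rw [map_neg qLaurent a, ← hq]
    ring

/-- two elements of `GL(2,ℝ)⁺` with the same action on `ℍ` act in the same way on `MerFun` -/
theorem smul_merFun_eq_of_smul_eq {g g' : GL(2, ℝ)⁺} (hgg : ∀ z : ℍ, g • z = g' • z)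
    (h : MerFun) : g • h = g' • h := by
  have hinv : ∀ z : ℍ, g⁻¹ • z = g'⁻¹ • z := by
    intro z
    have h1 : g • (g'⁻¹ • z) = z := by rw [hgg, ← mul_smul, mul_inv_cancel, one_smul]
    calc g⁻¹ • z = g⁻¹ • (g • (g'⁻¹ • z)) := by rw [h1]
      _ = g'⁻¹ • z := by rw [← mul_smul, inv_mul_cancel, one_smul]
  have hhol : ∀ f : HolFun, g • f = g' • f := by
    intro f
    ext τ
    rw [HolFun.smul_apply, HolFun.smul_apply, hinv]
  obtain ⟨a, b, -, rfl⟩ := IsFractionRing.div_surjective (A := HolFun) h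
  rw [smul_div₀', smul_div₀', MerFun.smul_algebraMap, MerFun.smul_algebraMap,
    MerFun.smul_algebraMap, MerFun.smul_algebraMap, hhol, hhol]

theorem coe_diagGL_inv_smul (p : ℕ) [NeZero p] (z : ℍ) :
    (p : ℂ) * (((diagGL p)⁻¹ • z : ℍ) : ℂ) = z := by
  have h := coe_diagGL_smul p ((diagGL p)⁻¹ • z)
  rw [← mul_smul, mul_inv_cancel, one_smul] at h
  exact h.symm

/-- the matrix identity `diag(1,p) γ₀ = γ₁ diag(p,1)` on the upper half plane:
`(1/p) γ₀(z/p) = γ₁ z` -/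
theorem smul_conj_eq (p : ℕ) [NeZero p] (γ0 γ1 : SL(2, ℤ))
    (hrel : (!![1, 0; 0, (p : ℤ)] : Matrix (Fin 2) (Fin 2) ℤ) * (γ0 : Matrix (Fin 2) (Fin 2) ℤ) =
      (γ1 : Matrix (Fin 2) (Fin 2) ℤ) * !![(p : ℤ), 0; 0, 1]) (z : ℍ) :
    (diagGL p)⁻¹ • (HolFun.slToGLPos γ0 • ((diagGL p)⁻¹ • z)) = HolFun.slToGLPos γ1 • z := by
  have hp : (p : ℂ) ≠ 0 := by exact_mod_cast NeZero.ne p
  have e00 : γ0 0 0 = (p : ℤ) * γ1 0 0 := by
    have := congrFun (congrFun hrel 0) 0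
    simp [Matrix.mul_apply, Fin.sum_univ_two] at this
    linarith
  have e01 : γ0 0 1 = γ1 0 1 := by
    have := congrFun (congrFun hrel 0) 1
    simp [Matrix.mul_apply, Fin.sum_univ_two] at this
    linarith
  have e10 : γ0 1 0 = γ1 1 0 := by
    have := congrFun (congrFun hrel 1) 0
    simp [Matrix.mul_apply, Fin.sum_univ_two] at this
    have hpz : (p : ℤ) ≠ 0 := by exact_mod_cast NeZero.ne p
    have h2 : (p : ℤ) * γ0 1 0 = (p : ℤ) * γ1 1 0 := by linarith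
    exact mul_left_cancel₀ hpz h2
  have e11 : (p : ℤ) * γ0 1 1 = γ1 1 1 := by
    have := congrFun (congrFun hrel 1) 1
    simp [Matrix.mul_apply, Fin.sum_univ_two] at this
    linarith
  set w : ℍ := (diagGL p)⁻¹ • z with hw
  have hwz : (p : ℂ) * (w : ℂ) = z := coe_diagGL_inv_smul p z
  rw [HolFun.slToGLPos_smul, HolFun.slToGLPos_smul]
  set u : ℍ := γ0 • w with hu
  have huv : (p : ℂ) * (((diagGL p)⁻¹ • u : ℍ) : ℂ) = u := coe_diagGL_inv_smul p u
  apply UpperHalfPlane.ext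
  have hcu : (u : ℂ) = ((γ0 0 0 : ℂ) * w + (γ0 0 1 : ℂ)) / ((γ0 1 0 : ℂ) * w + (γ0 1 1 : ℂ)) := by
    rw [hu, UpperHalfPlane.coe_specialLinearGroup_apply]
    simp
  have hc1 : ((γ1 • z : ℍ) : ℂ) =
      ((γ1 0 0 : ℂ) * z + (γ1 0 1 : ℂ)) / ((γ1 1 0 : ℂ) * z + (γ1 1 1 : ℂ)) := by
    rw [UpperHalfPlane.coe_specialLinearGroup_apply]
    simp
  have hden0 : ((γ0 1 0 : ℂ) * w + (γ0 1 1 : ℂ)) ≠ 0 := by
    have := UpperHalfPlane.denom_ne_zero γ0 w
    simpa [UpperHalfPlane.denom] using this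
  have hden1 : ((γ1 1 0 : ℂ) * z + (γ1 1 1 : ℂ)) ≠ 0 := by
    have := UpperHalfPlane.denom_ne_zero γ1 z
    simpa [UpperHalfPlane.denom] using this
  have key : (p : ℂ) * (((diagGL p)⁻¹ • u : ℍ) : ℂ) = (p : ℂ) * ((γ1 • z : ℍ) : ℂ) := by
    rw [huv, hcu, hc1, ← hwz]
    have c00 : (γ0 0 0 : ℂ) = (p : ℂ) * (γ1 0 0 : ℂ) := by exact_mod_cast congrArg (Int.cast : ℤ → ℂ) e00
    have c01 : (γ0 0 1 : ℂ) = (γ1 0 1 : ℂ) := by exact_mod_cast congrArg (Int.cast : ℤ → ℂ) e01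
    have c10 : (γ0 1 0 : ℂ) = (γ1 1 0 : ℂ) := by exact_mod_cast congrArg (Int.cast : ℤ → ℂ) e10
    have c11 : (γ1 1 1 : ℂ) = (p : ℂ) * (γ0 1 1 : ℂ) := by exact_mod_cast congrArg (Int.cast : ℤ → ℂ) e11.symm
    rw [← hwz, c11, ← c10] at hden1
    rw [c00, c01, c11, ← c10]
    field_simp
  exact mul_left_cancel₀ hp key

/-! ### The second embedding -/

section Main

variable {L : Type*} [Field L] [Algebra ℚ L] (ι : L →+* ℂ)
variable (F₀ : IntermediateField ℚ (LaurentSeries ℚ)) (p : ℕ) [NeZero p]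

/-- the transform `h ↦ diag(p,1)⁻¹ • (γ₀ • h)`, i.e. `z ↦ (γ₀ • h)(p z)`, as a ring
endomorphism of `MerFun` -/
def trans (γ0 : SL(2, ℤ)) : MerFun →+* MerFun :=
  (MulSemiringAction.toRingHom GL(2, ℝ)⁺ MerFun (diagGL p)⁻¹).comp
    (MulSemiringAction.toRingHom SL(2, ℤ) MerFun γ0)

theorem trans_apply (γ0 : SL(2, ℤ)) (h : MerFun) :
    trans p γ0 h = (diagGL p)⁻¹ • (γ0 • h) := rfl

/-- **The second embedding** `ι₀ : F₀(p)_L → L((s))`, `s = q^(1/p)`: the expansion of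
`γ₀ • embP f` in `s`.  Hypothesis-style in the analytic embedding `embP` of the level field. -/
theorem exists_iota0
    (emb0 : laurentBaseChange L F₀ →+* MerFun)
    (hQ : ∀ f : laurentBaseChange L F₀, HasQ (emb0 f) (coeffMap ι (f : LaurentSeries L)))
    (embP : laurentBaseChange L (levelField F₀ p) →+* MerFun)
    (h_alpha : ∀ x, embP (alphaL F₀ p L x) = emb0 x)
    (h_beta : ∀ x, embP (betaL F₀ p L x) = (diagGL p)⁻¹ • emb0 x)
    (γ0 γ1 : SL(2, ℤ)) (hγ0 : ∀ x, γ0 • emb0 x = emb0 x)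
    (hrel : (!![1, 0; 0, (p : ℤ)] : Matrix (Fin 2) (Fin 2) ℤ) * (γ0 : Matrix (Fin 2) (Fin 2) ℤ) =
      (γ1 : Matrix (Fin 2) (Fin 2) ℤ) * !![(p : ℤ), 0; 0, 1])
    (δ0 : laurentBaseChange L F₀ → laurentBaseChange L F₀)
    (hδ0 : ∀ v, emb0 (δ0 v) = γ1 • emb0 v) :
    ∃ ι₀ : laurentBaseChange L (levelField F₀ p) →+* LaurentSeries L,
      (∀ x, ι₀ (alphaL F₀ p L x) = qExpand L p (x : LaurentSeries L)) ∧
      (∀ v, ι₀ (betaL F₀ p L v) = (δ0 v : LaurentSeries L)) := by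
  classical
  have hinj : Function.Injective (coeffMap ι : LaurentSeries L → LaurentSeries ℂ) :=
    Fermat.Agent.S28.ModEq.coeffMap_injective ι.injective
  -- expansions of the generators
  have hA : ∀ x, HasQ (trans p γ0 (embP (alphaL F₀ p L x)))
      (coeffMap ι (qExpand L p (x : LaurentSeries L))) := by
    intro x
    rw [trans_apply, h_alpha, hγ0, coeffMap_qExpand]
    exact (hQ x).smul_diagGL p
  have hB : ∀ v, HasQ (trans p γ0 (embP (betaL F₀ p L v)))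
      (coeffMap ι ((δ0 v : laurentBaseChange L F₀) : LaurentSeries L)) := by
    intro v
    have e : trans p γ0 (embP (betaL F₀ p L v)) = emb0 (δ0 v) := by
      rw [trans_apply, h_beta, hδ0, sl_smul_eq_glPos, sl_smul_eq_glPos, ← mul_smul, ← mul_smul]
      refine smul_merFun_eq_of_smul_eq (fun z => ?_) _
      rw [mul_smul, mul_smul]
      exact smul_conj_eq p γ0 γ1 hrel z
    rw [e]
    exact hQ _
  -- the subfield of elements whose transform has an `L`-rational expansion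
  let P : laurentBaseChange L (levelField F₀ p) → Prop := fun f =>
    ∃ H : LaurentSeries L, HasQ (trans p γ0 (embP f)) (coeffMap ι H)
  let E : IntermediateField L (laurentBaseChange L (levelField F₀ p)) :=
    { carrier := {f | P f}
      mul_mem' := by
        rintro f g ⟨H, hH⟩ ⟨H', hH'⟩
        refine ⟨H * H', ?_⟩
        rw [map_mul, map_mul, map_mul]
        exact hH.mul hH'
      one_mem' := ⟨1, by rw [map_one, map_one, map_one]; exact hasQ_one⟩
      add_mem' := by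
        rintro f g ⟨H, hH⟩ ⟨H', hH'⟩
        refine ⟨H + H', ?_⟩
        rw [map_add, map_add, map_add]
        exact hasQ_add hH hH'
      zero_mem' := ⟨0, by rw [map_zero, map_zero, map_zero]; exact hasQ_zero⟩
      algebraMap_mem' := by
        intro c
        have : algebraMap L (laurentBaseChange L (levelField F₀ p)) c =
            alphaL F₀ p L (algebraMap L (laurentBaseChange L F₀) c) := by
          rw [AlgHom.commutes]
        rw [this]
        exact ⟨_, hA _⟩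
      inv_mem' := by
        rintro f ⟨H, hH⟩
        refine ⟨H⁻¹, ?_⟩
        rw [map_inv₀, map_inv₀, map_inv₀]
        exact hH.inv }
  have hE : E = ⊤ :=
    eq_top_of_alphaL_betaL_mem F₀ p L E (fun x => ⟨_, hA x⟩) (fun v => ⟨_, hB v⟩)
  have hP : ∀ f, P f := fun f => by
    have : f ∈ E := hE ▸ IntermediateField.mem_top
    exact this
  choose Φ hΦ using hP
  have huniq : ∀ f (H : LaurentSeries L), HasQ (trans p γ0 (embP f)) (coeffMap ι H) → Φ f = H :=
    fun f H hH => hinj ((hΦ f).unique hH)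
  refine ⟨{ toFun := Φ
            map_one' := huniq 1 1 (by rw [map_one, map_one, map_one]; exact hasQ_one)
            map_mul' := fun f g => huniq _ _ (by
              rw [map_mul, map_mul, map_mul]; exact (hΦ f).mul (hΦ g))
            map_zero' := huniq 0 0 (by rw [map_zero, map_zero, map_zero]; exact hasQ_zero)
            map_add' := fun f g => huniq _ _ (by
              rw [map_add, map_add, map_add]; exact hasQ_add (hΦ f) (hΦ g)) }, ?_, ?_⟩
  · intro x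
    exact huniq _ _ (hA x)
  · intro v
    exact huniq _ _ (hB v)

/-- `exists_iota0` for an analytic realisation `D0 : ConjAbs.EmbData` of `F₀_L` (the fixed
group `G` of `D0` contains `γ₀`). -/
theorem exists_iota0_of_embData {x0 : laurentBaseChange L F₀} {G : Subgroup SL(2, ℤ)}
    (D0 : Fermat.Agent.Gateway.Dict.ConjAbs.EmbData L (laurentBaseChange L F₀) ι x0 G)
    (hQ : ∀ f : laurentBaseChange L F₀, HasQ (D0.emb f) (coeffMap ι (f : LaurentSeries L)))
    (embP : laurentBaseChange L (levelField F₀ p) →+* MerFun)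
    (h_alpha : ∀ x, embP (alphaL F₀ p L x) = D0.emb x)
    (h_beta : ∀ x, embP (betaL F₀ p L x) = (diagGL p)⁻¹ • D0.emb x)
    (γ0 γ1 : SL(2, ℤ)) (hγ0 : γ0 ∈ G)
    (hrel : (!![1, 0; 0, (p : ℤ)] : Matrix (Fin 2) (Fin 2) ℤ) * (γ0 : Matrix (Fin 2) (Fin 2) ℤ) =
      (γ1 : Matrix (Fin 2) (Fin 2) ℤ) * !![(p : ℤ), 0; 0, 1])
    (δ0 : laurentBaseChange L F₀ → laurentBaseChange L F₀)
    (hδ0 : ∀ v, D0.emb (δ0 v) = γ1 • D0.emb v) :
    ∃ ι₀ : laurentBaseChange L (levelField F₀ p) →+* LaurentSeries L,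
      (∀ x, ι₀ (alphaL F₀ p L x) = qExpand L p (x : LaurentSeries L)) ∧
      (∀ v, ι₀ (betaL F₀ p L v) = (δ0 v : LaurentSeries L)) :=
  exists_iota0 ι F₀ p D0.emb hQ embP h_alpha h_beta γ0 γ1 (fun x => D0.fixed γ0 hγ0 x) hrel δ0 hδ0

end Main

/-- The matrices for `Γ₁(M)`: if `u p - w M = 1` then `γ₀ = !![p u, w; M, 1]` and
`γ₁ = !![u, w; M, p]` satisfy `diag(1,p) γ₀ = γ₁ diag(p,1)`. -/
theorem exists_gamma_rel (p M : ℕ) {u w : ℤ} (huw : u * p - w * M = 1) :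
    ∃ γ0 γ1 : SL(2, ℤ),
      (γ0 : Matrix (Fin 2) (Fin 2) ℤ) = !![(p : ℤ) * u, w; (M : ℤ), 1] ∧
      (γ1 : Matrix (Fin 2) (Fin 2) ℤ) = !![u, w; (M : ℤ), (p : ℤ)] ∧
      (!![1, 0; 0, (p : ℤ)] : Matrix (Fin 2) (Fin 2) ℤ) * (γ0 : Matrix (Fin 2) (Fin 2) ℤ) =
        (γ1 : Matrix (Fin 2) (Fin 2) ℤ) * !![(p : ℤ), 0; 0, 1] := by
  have h0 : (!![(p : ℤ) * u, w; (M : ℤ), 1] : Matrix (Fin 2) (Fin 2) ℤ).det = 1 := by
    rw [Matrix.det_fin_two_of]; linear_combination huw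
  have h1 : (!![u, w; (M : ℤ), (p : ℤ)] : Matrix (Fin 2) (Fin 2) ℤ).det = 1 := by
    rw [Matrix.det_fin_two_of]; linear_combination huw
  refine ⟨⟨_, h0⟩, ⟨_, h1⟩, rfl, rfl, ?_⟩
  ext i j
  fin_cases i <;> fin_cases j <;> simp [Matrix.mul_apply, Fin.sum_univ_two, mul_comm]


end Fermat.Agent.S48x.Ana.Iota0
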