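import Fermat.Agent.S48x.Ana.Iota0
import Fermat.Agent.S48x.HeckeFF.NormQ1

/-!
# P-S48 G1: the norm formula (C1') for the level field from analytic data (helper80)

Glue of `Ana/Iota0.exists_iota0` (second embedding) with `HeckeFF/NormQ1.normQExp_hecke`
(formal route), for `F₁ = levelField F₀ p`, over ANY algebraically closed `(L, ι : L →+* ℂ)`
(so directly over `ℚ̄`, no base change of the formula; `hdeg` over `ℚ̄` is
`HeckeFF/C1Qbar.finrankAlong_alphaG_baseChange`).
-/

set_option autoImplicit false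

noncomputable section

open ModularCurve AlgebraicCurve
open UpperHalfPlane hiding I
open scoped MatrixGroups

namespace Fermat.Agent.S48x.Ana.Iota0

open Fermat.Agent.S24 Fermat.Agent.S24.QExp Fermat.Agent.S24.JLevel
open Fermat.Agent.Gateway Fermat.Agent.Gateway.Kummer Fermat.Agent.Gateway.Dict.QExpMer
open Fermat.Agent.Gateway.Hecke
open Fermat.Agent.S48x.HeckeFF
open Fermat.Agent.S28 Fermat.Agent.S28.Tower

variable {L : Type*} [Field L] [Algebra ℚ L] [IsAlgClosed L] (ι : L →+* ℂ)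
variable (F₀ : IntermediateField ℚ (LaurentSeries ℚ)) (p : ℕ) [NeZero p]

/-- **(C1') for the level field from the analytic data** (formal route `NormQ1` + second
embedding `exists_iota0`). -/
theorem normQExp_hecke_levelField (hp : 2 ≤ p)
    (hfin : FiniteAlong L (alphaL F₀ p L))
    (hdeg : finrankAlong L (alphaL F₀ p L) = p + 1)
    (emb0 : laurentBaseChange L F₀ →+* MerFun)
    (hQ : ∀ f : laurentBaseChange L F₀, HasQ (emb0 f) (coeffMap ι (f : LaurentSeries L)))
    (embP : laurentBaseChange L (levelField F₀ p) →+* MerFun)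
    (h_alpha : ∀ x, embP (alphaL F₀ p L x) = emb0 x)
    (h_beta : ∀ x, embP (betaL F₀ p L x) = (diagGL p)⁻¹ • emb0 x)
    (γ0 γ1 : SL(2, ℤ)) (hγ0 : ∀ x, γ0 • emb0 x = emb0 x)
    (hrel : (!![1, 0; 0, (p : ℤ)] : Matrix (Fin 2) (Fin 2) ℤ) * (γ0 : Matrix (Fin 2) (Fin 2) ℤ) =
      (γ1 : Matrix (Fin 2) (Fin 2) ℤ) * !![(p : ℤ), 0; 0, 1])
    (δ0 : laurentBaseChange L F₀ → laurentBaseChange L F₀)
    (hδ0 : ∀ v, emb0 (δ0 v) = γ1 • emb0 v)
    {ζ : Lˣ} (hζ : IsPrimitiveRoot ζ p)
    (jv : laurentBaseChange L F₀) (hjv : (jv : LaurentSeries L) = jS L 1 1)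
    (hδj : ((δ0 jv : laurentBaseChange L F₀) : LaurentSeries L) = jS L 1 1)
    (u : laurentBaseChange L F₀) :
    qExpand L p ((Kummer.normAlong (alphaL F₀ p L) (betaL F₀ p L u) : laurentBaseChange L F₀) :
        LaurentSeries L)
      = qExpand L (p * p) (u : LaurentSeries L) *
          ∏ b ∈ Finset.range p,
            Kummer.twist (ζ ^ b) ((δ0 u : laurentBaseChange L F₀) : LaurentSeries L) := by
  obtain ⟨ι₀, hι₀, hδ⟩ := exists_iota0 ι F₀ p emb0 hQ embP h_alpha h_beta γ0 γ1 hγ0 hrel δ0 hδ0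
  exact normQExp_hecke (hle := le_levelField F₀ p) (hq := qExpand_mem_levelField F₀ p) hp hfin hdeg
    ι₀ hι₀ (fun v => ((δ0 v : laurentBaseChange L F₀) : LaurentSeries L)) hδ hζ jv hjv hδj u

end Fermat.Agent.S48x.Ana.Iota0
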