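/-
P-S48, block G1, layer (a), slice (A4) (helper53): linear disjointness of Laurent series fields
under extension of the field of constants, relative to a subfield `K(x)`.

`linearIndependent_coeffMap_adjoin`: if `FK ⊆ K((z))`, `FC ⊆ C((z))` are intermediate fields,
`c : FK →+* FC` is the coefficientwise base change along `ι : K →+* C` and `x : FK`, then families
of `FK` linearly independent over `K(x)` are mapped to families linearly independent over `C(c x)`.
This is the hypothesis `hLD` of `Ana/GaloisDescent.lean`.
-/
import Fermat.Agent.S24.LaurentDescent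
import Mathlib

set_option autoImplicit false
set_option linter.style.haveILetI false

noncomputable section

open ModularCurve Polynomial IntermediateField
open scoped IntermediateField.algebraAdjoinAdjoin

namespace Fermat.Agent.S48x.Ana.LaurentLD

open Fermat.Agent.S24.LaurentDescent

variable {K C : Type*} [Field K] [Field C]

/-- apply an additive map to the coefficients of a polynomial. -/
def lamPoly (lam : C →+ K) (P : C[X]) : K[X] := P.sum fun k a => monomial k (lam a)

theorem lamPoly_add (lam : C →+ K) (P Q : C[X]) :
    lamPoly lam (P + Q) = lamPoly lam P + lamPoly lam Q :=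
  Polynomial.sum_add_index P Q _ (fun i => by simp) (fun a b₁ b₂ => by simp)

theorem lamPoly_monomial (lam : C →+ K) (k : ℕ) (a : C) :
    lamPoly lam (monomial k a) = monomial k (lam a) :=
  Polynomial.sum_monomial_index a _ (by simp)

variable (ι : K →+* C)

/-- the key semilinearity: a `K`-linear functional applied coefficientwise. -/
theorem coeffAddMap_aeval_mul (lam : C →+ K) (hlam : ∀ (a : K) (y : C), lam (ι a * y) = a * lam y)
    (x g : LaurentSeries K) (P : C[X]) :
    coeffAddMap lam (aeval (coeffMap ι x) P * coeffMap ι g) = aeval x (lamPoly lam P) * g := by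
  induction P using Polynomial.induction_on' with
  | add P Q hP hQ =>
    rw [map_add, add_mul, map_add, hP, hQ, lamPoly_add, map_add, add_mul]
  | monomial k a =>
    rw [lamPoly_monomial, aeval_monomial, aeval_monomial, ← map_pow, mul_assoc, ← map_mul,
      mul_assoc, algebraMap_laurentSeries_eq_single, algebraMap_laurentSeries_eq_single]
    ext n
    rw [coeffAddMap_coeff, HahnSeries.coeff_single_zero_mul, HahnSeries.coeff_single_zero_mul,
      coeffMap_coeff, mul_comm, hlam, mul_comm]

/-- an element of `C((z))` killed coefficientwise by all `K`-linear functionals is zero. -/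
theorem eq_zero_of_forall_coeffAddMap (y : LaurentSeries C)
    (h : letI : Algebra K C := ι.toAlgebra
      ∀ lam : Module.Dual K C, coeffAddMap lam.toAddMonoidHom y = 0) : y = 0 := by
  letI : Algebra K C := ι.toAlgebra
  ext k
  rw [HahnSeries.coeff_zero, ← Module.forall_dual_apply_eq_zero_iff K (y.coeff k)]
  intro lam
  have := congrArg (fun z : LaurentSeries K => z.coeff k) (h lam)
  simpa using this

/-- **The core statement**, in polynomial form. -/
theorem aeval_eq_zero_of_sum_eq_zero {J : Type*} (x : LaurentSeries K) (f : J → LaurentSeries K)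
    (hf : ∀ (s : Finset J) (p : J → K[X]), ∑ i ∈ s, aeval x (p i) * f i = 0 →
      ∀ i ∈ s, aeval x (p i) = 0)
    (s : Finset J) (P : J → C[X])
    (h : ∑ i ∈ s, aeval (coeffMap ι x) (P i) * coeffMap ι (f i) = 0) :
    ∀ i ∈ s, aeval (coeffMap ι x) (P i) = 0 := by
  letI : Algebra K C := ι.toAlgebra
  intro i hi
  apply eq_zero_of_forall_coeffAddMap ι
  intro lam
  have hlam : ∀ (a : K) (y : C), lam.toAddMonoidHom (ι a * y) = a * lam.toAddMonoidHom y := by
    intro a y
    have := lam.map_smul a y
    rw [Algebra.smul_def] at this
    exact this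
  have h1 := congrArg (coeffAddMap lam.toAddMonoidHom) h
  rw [map_sum, map_zero] at h1
  simp only [coeffAddMap_aeval_mul ι lam.toAddMonoidHom hlam] at h1
  have h2 := hf s (fun i => lamPoly lam.toAddMonoidHom (P i)) h1 i hi
  have h3 := coeffAddMap_aeval_mul ι lam.toAddMonoidHom hlam x 1 (P i)
  rw [map_one, mul_one, mul_one] at h3
  rw [h3, h2]

/-! ### The statement for intermediate fields -/

variable {ι}
variable {FK : IntermediateField K (LaurentSeries K)} {FC : IntermediateField C (LaurentSeries C)}
  (c : FK →+* FC) (hc : ∀ f : FK, ((c f : FC) : LaurentSeries C) = coeffMap ι (f : LaurentSeries K))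

include hc in
/-- independence over the polynomial algebras. -/
theorem linearIndependent_algebra_adjoin (x : FK) {J : Type*} (f : J → FK)
    (hf : LinearIndependent (Algebra.adjoin K {x}) f) :
    LinearIndependent (Algebra.adjoin C {c x}) (fun i => c (f i)) := by
  classical
  rw [linearIndependent_iff'] at hf ⊢
  intro s g hg i hi
  -- write the coefficients as polynomials in `c x`
  have hP : ∀ j, ∃ P : C[X], aeval (c x) P = (g j : FC) := by
    intro j
    have h0 : (g j : FC) ∈ (aeval (R := C) (c x)).range := by
      rw [← Algebra.adjoin_singleton_eq_range_aeval]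
      exact (g j).2
    exact h0
  choose P hP using hP
  have hcoe : ∀ (y : FC) (Q : C[X]),
      ((aeval y Q : FC) : LaurentSeries C) = aeval (y : LaurentSeries C) Q := by
    intro y Q
    exact (Polynomial.aeval_algebraMap_apply (LaurentSeries C) y Q).symm
  have hcoeK : ∀ (y : FK) (Q : K[X]),
      ((aeval y Q : FK) : LaurentSeries K) = aeval (y : LaurentSeries K) Q := by
    intro y Q
    exact (Polynomial.aeval_algebraMap_apply (LaurentSeries K) y Q).symm
  have h1 : ∑ j ∈ s, aeval (coeffMap ι (x : LaurentSeries K)) (P j) *
      coeffMap ι ((f j : FK) : LaurentSeries K) = 0 := by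
    have h2 := congrArg (fun y : FC => (y : LaurentSeries C)) hg
    simp only [AddSubmonoidClass.coe_finsetSum, ZeroMemClass.coe_zero] at h2
    rw [← h2]
    refine Finset.sum_congr rfl fun j _ => ?_
    rw [← hc, ← hc, ← hcoe, hP]
    rfl
  have key := aeval_eq_zero_of_sum_eq_zero ι (x : LaurentSeries K)
    (fun j => ((f j : FK) : LaurentSeries K)) ?_ s P h1 i hi
  · apply Subtype.ext
    apply Subtype.ext
    rw [← hP, hcoe, hc]
    exact key
  · intro t p hp j hj
    have h3 := hf t (fun j => ⟨aeval x (p j), by
      rw [Algebra.adjoin_singleton_eq_range_aeval]; exact ⟨p j, rfl⟩⟩) ?_ j hj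
    · have h4 := congrArg (fun y : Algebra.adjoin K {x} => ((y : FK) : LaurentSeries K)) h3
      simp only at h4
      rw [hcoeK] at h4
      exact h4
    · apply Subtype.ext
      simp only [AddSubmonoidClass.coe_finsetSum, ZeroMemClass.coe_zero]
      rw [← hp]
      refine Finset.sum_congr rfl fun j _ => ?_
      rw [← hcoeK]
      rfl

include hc in
/-- **Linear disjointness**: `K(x)`-independent families of `FK` are `C(c x)`-independent in
`FC`. -/
theorem linearIndependent_coeffMap_adjoin (x : FK) {J : Type*} (f : J → FK)
    (hf : LinearIndependent K⟮x⟯ f) : LinearIndependent C⟮c x⟯ (fun i => c (f i)) := by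
  have h1 : LinearIndependent (Algebra.adjoin K {x}) f :=
    (LinearIndependent.iff_fractionRing (R := Algebra.adjoin K {x}) (K := K⟮x⟯)).mpr hf
  have h2 := linearIndependent_algebra_adjoin c hc x f h1
  exact (LinearIndependent.iff_fractionRing (R := Algebra.adjoin C {c x}) (K := C⟮c x⟯)).mp h2

end Fermat.Agent.S48x.Ana.LaurentLD
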