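import Mathlib
import Fermat.Agent.S48x.Ana.StabFull
import Fermat.Agent.S48x.Model.Identities

/-!
helper74 (P-S48, layer (a), slice (A4), item (M-e) support).  The BRIDGE between the period-one
analytic model of `gamma1FieldC M ζ ⊆ L((q))` and the period-`M` analytic model of
`fullField M ζ ⊆ L((z))`, `q = z^M`:

* `qExpandFull ζ : ↥(gamma1FieldC M ζ) →ₐ[L] ↥(fullField M ζ)` (`f(q) ↦ f(z^M)`),
  `coe_qExpandFull`, `qExpandFull_jqd`, `qExpandFull_ratio1`;
* `emb_qExpandFull` : for `emb` with `StabFull.IsFullEmb emb` and `emb1` with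
  `StabFull.IsGamma1Emb emb1` agreeing on constants: `emb (qExpandFull ζ f) = emb1 f`;
* `smul_emb_qExpandFull` : `γ ∈ ±Γ₁(M)` fixes `emb (qExpandFull ζ f)`;
* `mem_Gamma1pm_of_forall_smul_eq` : conversely (for `8 ≤ M`, `ζ` primitive) an element fixing
  all the `emb (qExpandFull ζ f)` lies in `±Γ₁(M)`;
* `isCuspMer_smul_emb1` : transfer of cusp-meromorphy from the full level to level `Γ₁`.
-/

set_option autoImplicit false
set_option linter.unusedSectionVars false

open UpperHalfPlane hiding I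
open ModularCurve
open scoped MatrixGroups

namespace Fermat.Agent.S48x.Ana.LevelBridge

open Fermat.Agent.S48x.Model Fermat.Agent.S48x.Ana Fermat.Agent.S24
open Fermat.Agent.S24.JLevel (jd)

variable {L : Type*} [Field L] {M : ℕ} [NeZero M]

/-- `f(q) ↦ f(z^M)` from the function field of `X₁(M)` to the function field of `X(M)`. -/
noncomputable def qExpandFull (ζ : L) : ↥(gamma1FieldC M ζ) →ₐ[L] ↥(fullField M ζ) :=
  ((qExpandAlgHomC L M).comp (gamma1FieldC M ζ).val).codRestrict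
    (fullField M ζ).toSubalgebra (fun f => Identities.qExpand_mem_fullField ζ f.2)

@[simp] theorem coe_qExpandFull (ζ : L) (f : ↥(gamma1FieldC M ζ)) :
    ((qExpandFull ζ f : ↥(fullField M ζ)) : LaurentSeries L) =
      qExpand L M (f : LaurentSeries L) := rfl

theorem qExpandFull_jqd (ζ : L) {d : ℕ} [NeZero d] (hd : d ∣ M) :
    qExpandFull ζ ⟨qExpand L d (jqModC L), jqd_mem_gamma1FieldC ζ hd⟩ =
      ⟨qExpand L (d * M) (jqModC L), jqd_mem_fullField ζ hd⟩ := by
  apply Subtype.ext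
  rw [coe_qExpandFull]
  show qExpand L M (qExpand L d (jqModC L)) = qExpand L (d * M) (jqModC L)
  rw [qExpand_qExpand, qExpand_congr (mul_comm M d)]

theorem qExpandFull_ratio1 (ζ : L) {b c b' c' : ZMod M} (hb : b ≠ 0) (hc : c ≠ 0)
    (hb' : b' ≠ 0) (hc' : c' ≠ 0) :
    qExpandFull ζ ⟨ratio1 M ζ b c b' c', ratio1_mem_gamma1FieldC ζ hb hc hb' hc'⟩ =
      ⟨ratio M ζ (0, b) (0, c) (0, b') (0, c'),
        ratio_mem_fullField ζ (Identities.zero_pair_ne_zero hb) (Identities.zero_pair_ne_zero hc)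
          (Identities.zero_pair_ne_zero hb') (Identities.zero_pair_ne_zero hc')⟩ := by
  apply Subtype.ext
  rw [coe_qExpandFull]
  exact Identities.qExpand_ratio1 ζ b c b' c'

theorem qExpandFull_injective (ζ : L) : Function.Injective (qExpandFull (M := M) ζ) :=
  (qExpandFull (M := M) ζ).toRingHom.injective

/-- **The bridge**: the full level model restricted along `q = z^M` is the `Γ₁` model. -/
theorem emb_qExpandFull {ζ : L} {emb : ↥(fullField M ζ) →+* MerFun}
    (h : StabFull.IsFullEmb emb) {emb1 : ↥(gamma1FieldC M ζ) →+* MerFun}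
    (h1 : StabFull.IsGamma1Emb emb1)
    (hc : ∀ c : L, emb (algebraMap L ↥(fullField M ζ) c) =
      emb1 (algebraMap L ↥(gamma1FieldC M ζ) c))
    (f : ↥(gamma1FieldC M ζ)) : emb (qExpandFull ζ f) = emb1 f := by
  have key : emb.comp (qExpandFull (M := M) ζ).toRingHom = emb1 := by
    apply StabFull.ringHom_ext_adjoin
    · intro c
      have e1 : (qExpandFull (M := M) ζ).toRingHom
          (algebraMap L ↥(gamma1FieldC M ζ) c) = algebraMap L ↥(fullField M ζ) c :=
        (qExpandFull ζ).commutes c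
      show emb ((qExpandFull (M := M) ζ).toRingHom
          (algebraMap L ↥(gamma1FieldC M ζ) c)) = emb1 (algebraMap L ↥(gamma1FieldC M ζ) c)
      rw [e1, hc]
    · rintro x (⟨d, hd0, hd, rfl⟩ | ⟨b, c, b', c', hb, hc', hb', hc'', rfl⟩)
      · show emb (qExpandFull ζ ⟨_, _⟩) = emb1 ⟨_, _⟩
        exact (congrArg emb (qExpandFull_jqd ζ hd)).trans ((h.jd d hd).trans (h1.jd d hd).symm)
      · show emb (qExpandFull ζ ⟨_, _⟩) = emb1 ⟨_, _⟩
        exact (congrArg emb (qExpandFull_ratio1 ζ hb hc' hb' hc'')).trans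
          ((h.ratio _ _ _ _ (Identities.zero_pair_ne_zero hb) (Identities.zero_pair_ne_zero hc')
            (Identities.zero_pair_ne_zero hb') (Identities.zero_pair_ne_zero hc'')).trans
            (h1.ratio1 b c b' c' hb hc' hb' hc'').symm)
  exact RingHom.congr_fun key f

section Consequences

variable {ζ : L} {emb : ↥(fullField M ζ) →+* MerFun} (h : StabFull.IsFullEmb emb)
  {emb1 : ↥(gamma1FieldC M ζ) →+* MerFun} (h1 : StabFull.IsGamma1Emb emb1)
  (hc : ∀ c : L, emb (algebraMap L ↥(fullField M ζ) c) =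
    emb1 (algebraMap L ↥(gamma1FieldC M ζ) c))

include h h1 hc

/-- `±Γ₁(M)` fixes the image of the `Γ₁` field inside the full level model. -/
theorem smul_emb_qExpandFull {γ : SL(2, ℤ)} (hγ : γ ∈ G1.Gamma1pm M)
    (f : ↥(gamma1FieldC M ζ)) : γ • emb (qExpandFull ζ f) = emb (qExpandFull ζ f) := by
  rw [emb_qExpandFull h h1 hc, StabFull.fixes_of_mem_Gamma1pm h1 hγ]

/-- Conversely, the pointwise stabiliser of the image of the `Γ₁` field is `±Γ₁(M)`. -/
theorem mem_Gamma1pm_of_forall_smul_eq (hM : 8 ≤ M) (hζ : IsPrimitiveRoot ζ M) {γ : SL(2, ℤ)}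
    (hγ : ∀ f : ↥(gamma1FieldC M ζ), γ • emb (qExpandFull ζ f) = emb (qExpandFull ζ f)) :
    γ ∈ G1.Gamma1pm M := by
  rw [← StabFull.fixes1_iff hM hζ h1 γ]
  intro f
  have := hγ f
  rwa [emb_qExpandFull h h1 hc] at this

theorem forall_smul_eq_iff (hM : 8 ≤ M) (hζ : IsPrimitiveRoot ζ M) (γ : SL(2, ℤ)) :
    (∀ f : ↥(gamma1FieldC M ζ), γ • emb (qExpandFull ζ f) = emb (qExpandFull ζ f)) ↔
      γ ∈ G1.Gamma1pm M :=
  ⟨mem_Gamma1pm_of_forall_smul_eq h h1 hc hM hζ, fun hγ f => smul_emb_qExpandFull h h1 hc hγ f⟩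

/-- Transfer of cusp-meromorphy from the full level model to the `Γ₁` model. -/
theorem isCuspMer_smul_emb1 {n : ℕ}
    (hcusp : ∀ (x : ↥(fullField M ζ)) (g : SL(2, ℤ)), CuspOrd.IsCuspMer n (g • emb x))
    (f : ↥(gamma1FieldC M ζ)) (g : SL(2, ℤ)) : CuspOrd.IsCuspMer n (g • emb1 f) := by
  rw [← emb_qExpandFull h h1 hc]
  exact hcusp _ g

end Consequences

end Fermat.Agent.S48x.Ana.LevelBridge
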