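import Mathlib
import Fermat.Agent.S48x.Ana.WpPer
import Fermat.Agent.S48x.Ana.StabFull
import Fermat.Agent.S48x.Ana.EmbedGenSet
import Fermat.Agent.S24.Embed

/-!
helper74 (P-S48, layer (a), slice (A5) support).  The PERIOD-ONE instance of the generic
embedding core `Ana/EmbedGenSet`: `P := S24.QExp.PerFun`, `ψ₀ := psi1 = qLaurent`.

* `psi1`, `psi1_injective`, `psi1_const`.
* `dPer1 M b c : PerFun` with underlying `HolFun` equal to `dHol M (0, b) (0, c)` and
  `psi1 (dPer1 M b c) = (2πi)² • (e1Series b - e1Series c)` (`ζ₀ = zetaM M`).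
* `hasFrac_ratio1`, `hasFrac_jqd` : the generators of `gamma1FieldC M ζ` have analytic
  counterparts (for `ι ζ = zetaM M`), hence `nonempty_genEmb1`.
* For every `D : GenEmb ι psi1 psi1_injective (gamma1FieldC M ζ)`: `emb_ratio1`, `emb_jqd`,
  `emb_const_smul`, `isGamma1Emb : StabFull.IsGamma1Emb D.emb`, and therefore `fixes1_iff`.
-/

set_option autoImplicit false
set_option linter.unusedSectionVars false

open UpperHalfPlane hiding I
open Complex ModularCurve
open scoped Real MatrixGroups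

namespace Fermat.Agent.S48x.Ana.Per1

open Fermat.Agent.S48x.PPack Fermat.Agent.S48x.Model Fermat.Agent.S24 Fermat.Agent.S24.QExp
open Fermat.Agent.S48x.Ana Fermat.Agent.S48x.Ana.EmbedGenSet

/-! ### The period-one expansion map -/

/-- The period-one expansion `qLaurent` as a ring homomorphism on `PerFun`. -/
noncomputable def psi1 : (PerFun : Subalgebra ℂ HolFun) →+* LaurentSeries ℂ :=
  (qLaurent : PerFun →+* LaurentSeries ℂ)

theorem psi1_apply (f : PerFun) : psi1 f = qLaurent f := rfl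

theorem psi1_injective : Function.Injective psi1 := qLaurent_injective

theorem psi1_const (c : ℂ) : psi1 (algebraMap ℂ PerFun c) = HahnSeries.C c := by
  rw [psi1_apply, AlgHom.commutes, algebraMap_laurentSeries_eq_single]
  rfl

variable (M : ℕ) [NeZero M]

/-! ### The differences `f_(0,b) - f_(0,c)` as elements of `PerFun` -/

theorem dHol_zero_fst_mem_PerFun (b c : ZMod M) : dHol M (0, b) (0, c) ∈ PerFun := by
  have h := dHol_zero_fst_mem_cuspFnAlg_one M b c
  rw [CuspOrd.mem_cuspFnAlg] at h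
  refine ⟨fun z => ?_, h.growth⟩
  have := h.isPer z
  simpa using this

/-- `f_(0,b) - f_(0,c)` as an element of `PerFun`. -/
noncomputable def dPer1 (b c : ZMod M) : PerFun := ⟨dHol M (0, b) (0, c), dHol_zero_fst_mem_PerFun M b c⟩

@[simp] theorem coe_dPer1 (b c : ZMod M) : ((dPer1 M b c : PerFun) : HolFun) = dHol M (0, b) (0, c) :=
  rfl

theorem not_dvd_val_of_ne_zero {b : ZMod M} (hb : b ≠ 0) : ¬ (M : ℤ) ∣ (b.val : ℤ) := by
  intro h
  apply hb
  have := (ZMod.intCast_zmod_eq_zero_iff_dvd (b.val : ℤ) M).2 h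
  simpa using this

theorem zero_fst_ne_zero {b : ZMod M} (hb : b ≠ 0) : ((0, b) : Vec M) ≠ 0 := fun h =>
  hb (by simpa using congrArg Prod.snd h)

theorem dPer1_eq_wp0_sub {b c : ZMod M} (hb : b ≠ 0) (hc : c ≠ 0) :
    dPer1 M b c = wp0 M (b.val : ℤ) (not_dvd_val_of_ne_zero M hb) -
      wp0 M (c.val : ℤ) (not_dvd_val_of_ne_zero M hc) := by
  apply Subtype.ext
  apply HolFun.ext
  intro τ
  have h1 : ((dPer1 M b c : PerFun) : HolFun) = dHol M (0, b) (0, c) := rfl
  rw [h1, dHol_apply M (zero_fst_ne_zero M hb) (zero_fst_ne_zero M hc)]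
  have h2 : (((wp0 M (b.val : ℤ) (not_dvd_val_of_ne_zero M hb) -
      wp0 M (c.val : ℤ) (not_dvd_val_of_ne_zero M hc) : PerFun) : HolFun) : ℍ → ℂ) τ =
      wpDiv M 0 (b.val : ℤ) τ - wpDiv M 0 (c.val : ℤ) τ := rfl
  rw [h2]
  unfold wpVec
  simp

/-- **Expansion of the period-one differences.** -/
theorem psi1_dPer1 {b c : ZMod M} (hb : b ≠ 0) (hc : c ≠ 0) :
    psi1 (dPer1 M b c) =
      ((2 * π * I) ^ 2 : ℂ) • (e1Series M (zetaM M) b - e1Series M (zetaM M) c) := by
  rw [psi1_apply, dPer1_eq_wp0_sub M hb hc, qLaurent_wp0_sub]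
  simp

theorem dPer1_ne_zero {b c : ZMod M} (hb : b ≠ 0) (hc : c ≠ 0) (h1 : b ≠ c) (h2 : b ≠ -c) :
    dPer1 M b c ≠ 0 := by
  intro h
  have h0 : dHol M (0, b) (0, c) = 0 := congrArg (fun f : PerFun => (f : HolFun)) h
  refine dHol_ne_zero M (zero_fst_ne_zero M hb) (zero_fst_ne_zero M hc) ?_ ?_ h0
  · intro h; exact h1 (by simpa using congrArg Prod.snd h)
  · intro h; exact h2 (by simpa using congrArg Prod.snd h)

theorem dPer1_eq_zero_of_eq {b c : ZMod M} (h : b = c ∨ b = -c) : dPer1 M b c = 0 := by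
  apply Subtype.ext
  show dHol M (0, b) (0, c) = 0
  rcases h with rfl | rfl
  · unfold dHol; rw [sub_self]
  · have : ((0, -c) : Vec M) = -((0, c) : Vec M) := by ext <;> simp
    rw [this, dHol_neg_left]; unfold dHol; rw [sub_self]

/-! ### The generators have analytic counterparts -/

section Gens

variable {L : Type*} [Field L] (ι : L →+* ℂ) {ζ : L}

theorem two_pi_I_sq_ne_zero : ((2 * π * I) ^ 2 : ℂ) ≠ 0 := pow_ne_zero _ Complex.two_pi_I_ne_zero

/-- The key relation between the expansions of the ratios. -/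
theorem coeffMap_ratio1_mul (hζ : ι ζ = zetaM M) {b c b' c' : ZMod M} (hb : b ≠ 0) (hc : c ≠ 0)
    (hb' : b' ≠ 0) (hc' : c' ≠ 0) (hne : dPer1 M b' c' ≠ 0) :
    coeffMap ι (ratio1 M ζ b c b' c') * psi1 (dPer1 M b' c') = psi1 (dPer1 M b c) := by
  rw [coeffMap_ratio1, hζ, psi1_dPer1 M hb hc, psi1_dPer1 M hb' hc']
  have hne' : e1Series M (zetaM M) b' - e1Series M (zetaM M) c' ≠ 0 := by
    intro h0
    apply hne
    apply psi1_injective
    rw [psi1_dPer1 M hb' hc', h0, smul_zero, map_zero]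
  unfold ratio1
  rw [← HahnSeries.C_mul_eq_smul, ← HahnSeries.C_mul_eq_smul, mul_left_comm,
    div_mul_cancel₀ _ hne']

theorem hasFrac_ratio1 (hζ : ι ζ = zetaM M) {b c b' c' : ZMod M} (hb : b ≠ 0) (hc : c ≠ 0)
    (hb' : b' ≠ 0) (hc' : c' ≠ 0) : HasFrac psi1 (coeffMap ι (ratio1 M ζ b c b' c')) := by
  by_cases hne : dPer1 M b' c' = 0
  · -- the formal ratio is `x / 0 = 0`
    have h0 : e1Series M (zetaM M) b' - e1Series M (zetaM M) c' = 0 := by
      have h := psi1_dPer1 M hb' hc'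
      rw [hne, map_zero] at h
      exact (smul_eq_zero.1 h.symm).resolve_left two_pi_I_sq_ne_zero
    refine ⟨0, 1, one_ne_zero, ?_⟩
    rw [coeffMap_ratio1, hζ]
    unfold ratio1
    rw [h0, div_zero, zero_mul, map_zero]
  · exact ⟨dPer1 M b c, dPer1 M b' c', hne, coeffMap_ratio1_mul M ι hζ hb hc hb' hc' hne⟩

theorem coeffMap_jqd (d : ℕ) [NeZero d] :
    coeffMap ι (qExpand L d (jqModC L)) = psi1 (Embed.jdPer d) := by
  rw [psi1_apply, Embed.qLaurent_jdPer, coeffMap_qExpand, coeffMap_qExpand, coeffMap_jqModC,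
    ← jqModC_rat, coeffMap_jqModC]

theorem hasFrac_jqd (d : ℕ) [NeZero d] : HasFrac psi1 (coeffMap ι (qExpand L d (jqModC L))) :=
  hasFrac_of_eq (Embed.jdPer d) (coeffMap_jqd ι d).symm

theorem hasFrac_gamma1Gens (hζ : ι ζ = zetaM M) :
    ∀ g ∈ gamma1Gens M ζ, HasFrac psi1 (coeffMap ι g) := by
  rintro g (⟨d, hd0, -, rfl⟩ | ⟨b, c, b', c', hb, hc, hb', hc', rfl⟩)
  · exact hasFrac_jqd ι d
  · exact hasFrac_ratio1 M ι hζ hb hc hb' hc'

/-- **Existence of the period-one embedding data** for every intermediate field of the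
`μ_M`-model `gamma1FieldC M ζ`. -/
theorem nonempty_genEmb1 (hζ : ι ζ = zetaM M) (F : IntermediateField L (LaurentSeries L))
    (hF : F ≤ gamma1FieldC M ζ) : Nonempty (GenEmb ι psi1 psi1_injective F) :=
  nonempty_genEmb ι psi1_injective psi1_const (gamma1Gens M ζ) (hasFrac_gamma1Gens M ι hζ) F hF

end Gens

/-! ### Values of the embedding on the generators -/

section Values

variable {L : Type*} [Field L] {ι : L →+* ℂ} {ζ : L} {F : IntermediateField L (LaurentSeries L)}
  (D : GenEmb ι psi1 psi1_injective F)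

theorem emb_jqd (d : ℕ) [NeZero d] (h : qExpand L d (jqModC L) ∈ F) :
    D.emb ⟨qExpand L d (jqModC L), h⟩ = algebraMap HolFun MerFun (JLevel.jd d) := by
  rw [D.emb_eq ⟨qExpand L d (jqModC L), h⟩ (Embed.jdPer d) (coeffMap_jqd ι d).symm,
    Embed.coe_jdPer]

theorem Rfun_eq_zero_of_dHol_eq_zero {v w v' w' : Vec M} (h : dHol M v' w' = 0) :
    Rfun M v w v' w' = 0 := by
  unfold Rfun
  rw [h, map_zero, div_zero]

theorem emb_ratio1 (hζ : ι ζ = zetaM M) {b c b' c' : ZMod M} (hb : b ≠ 0) (hc : c ≠ 0)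
    (hb' : b' ≠ 0) (hc' : c' ≠ 0) (h : ratio1 M ζ b c b' c' ∈ F) :
    D.emb ⟨ratio1 M ζ b c b' c', h⟩ = Rfun M (0, b) (0, c) (0, b') (0, c') := by
  by_cases hne : dPer1 M b' c' = 0
  · have h0 : e1Series M (zetaM M) b' - e1Series M (zetaM M) c' = 0 := by
      have h := psi1_dPer1 M hb' hc'
      rw [hne, map_zero] at h
      exact (smul_eq_zero.1 h.symm).resolve_left two_pi_I_sq_ne_zero
    have hd0 : dHol M (0, b') (0, c') = 0 := congrArg (fun f : PerFun => (f : HolFun)) hne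
    rw [Rfun_eq_zero_of_dHol_eq_zero M hd0]
    have hx : (⟨ratio1 M ζ b c b' c', h⟩ : F) = 0 := by
      apply Subtype.ext
      show ratio1 M ζ b c b' c' = 0
      have hinj : Function.Injective (coeffMap ι) := by
        intro x y hxy
        ext k
        apply ι.injective
        rw [← coeffMap_coeff, ← coeffMap_coeff, hxy]
      apply hinj
      rw [coeffMap_ratio1, hζ, map_zero]
      unfold ratio1
      rw [h0, div_zero]
    rw [hx, map_zero]
  · rw [D.emb_eq_div ⟨ratio1 M ζ b c b' c', h⟩ (dPer1 M b c) (dPer1 M b' c') hne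
      (coeffMap_ratio1_mul M ι hζ hb hc hb' hc' hne)]
    rfl

theorem smul_const (c : ℂ) (γ : SL(2, ℤ)) : γ • Conj.const c = Conj.const c := by
  unfold Conj.const
  rw [MerFun.sl_smul_algebraMap]
  congr 1

end Values

/-! ### The `Γ₁`-model -/

section Gamma1

variable {L : Type*} [Field L] {ι : L →+* ℂ} {ζ : L}
  (D : GenEmb ι psi1 psi1_injective (gamma1FieldC M ζ))

/-- The period-one embedding of `gamma1FieldC M ζ` satisfies helper67's `IsGamma1Emb`. -/
theorem isGamma1Emb (hζ : ι ζ = zetaM M) : StabFull.IsGamma1Emb (M := M) (ζ := ζ) D.emb where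
  const_fixed c γ := by rw [D.emb_const psi1_const, smul_const]
  jd d _ hd := emb_jqd D d _
  ratio1 b c b' c' hb hc hb' hc' := emb_ratio1 M D hζ hb hc hb' hc' _

/-- The exact stabiliser of the period-one model is `±Γ₁(M)`. -/
theorem fixes1_iff (hM : 8 ≤ M) (hζ : ι ζ = zetaM M) (hprim : IsPrimitiveRoot ζ M)
    (γ : SL(2, ℤ)) :
    (∀ f : ↥(gamma1FieldC M ζ), γ • D.emb f = D.emb f) ↔ γ ∈ G1.Gamma1pm M :=
  StabFull.fixes1_iff hM hprim (isGamma1Emb M D hζ) γ

end Gamma1

end Fermat.Agent.S48x.Ana.Per1
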