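import Mathlib
import Fermat.Agent.S48x.Ana.Per1
import Fermat.Agent.Gateway.Dict.QExpMer

/-!
helper74 (P-S48, layer (a), slice (A5) support).  Complements to `Ana/Per1`:

* `hasQ_emb` : the `HasQ` bridge: for every period-one `GenEmb` the value `D.emb x` has
  `q`-expansion `coeffMap ι x` in the sense of `Gateway.Dict.QExpMer.HasQ`.
* `emb_jq` : `D.emb ⟨jqModC L, _⟩ = jHol`.
* `smul_emb_ratio1` : the diamond law `γ • emb (ratio1 b c b' c') = emb (ratio1 (d b) ..)`,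
  `d = lr M γ⁻¹`, `γ ∈ Γ₀(M)`; `smul_emb_jqd`.
-/

set_option autoImplicit false
set_option linter.unusedSectionVars false

open UpperHalfPlane hiding I
open Complex ModularCurve
open scoped Real MatrixGroups

namespace Fermat.Agent.S48x.Ana.Per1

open Fermat.Agent.S48x.PPack Fermat.Agent.S48x.Model Fermat.Agent.S24 Fermat.Agent.S24.QExp
open Fermat.Agent.S48x.Ana Fermat.Agent.S48x.Ana.EmbedGenSet

section

variable {L : Type*} [Field L] {ι : L →+* ℂ} {F : IntermediateField L (LaurentSeries L)}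
  (D : GenEmb ι psi1 psi1_injective F)

/-- **The `HasQ` bridge.** -/
theorem hasQ_emb (x : F) :
    Gateway.Dict.QExpMer.HasQ (D.emb x) (coeffMap ι (x : LaurentSeries L)) := by
  obtain ⟨a, b, hb, hx, hq⟩ := D.emb_frac x
  exact ⟨a, b, hb, hx, hq⟩

/-- Conversely the `q`-expansion determines the value. -/
theorem emb_eq_of_hasQ (x : F) {h : MerFun}
    (hq : Gateway.Dict.QExpMer.HasQ h (coeffMap ι (x : LaurentSeries L))) : D.emb x = h := by
  obtain ⟨a, b, hb, hx, hab⟩ := hq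
  rw [hx]
  exact D.emb_eq_div x a b hb hab

theorem emb_jq (h : jqModC L ∈ F) :
    D.emb ⟨jqModC L, h⟩ = algebraMap HolFun MerFun jHol := by
  have h1 : qExpand L 1 (jqModC L) = jqModC L := qExpand_one_apply _
  have h' : qExpand L 1 (jqModC L) ∈ F := by rw [h1]; exact h
  have h2 := emb_jqd D 1 h'
  rw [JD.jd_one_eq_jHol] at h2
  rw [← h2]
  congr 1
  exact Subtype.ext h1.symm

end

section Gamma1

variable (M : ℕ) [NeZero M] {L : Type*} [Field L] {ι : L →+* ℂ} {ζ : L}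
  (D : GenEmb ι psi1 psi1_injective (gamma1FieldC M ζ))

/-- **Diamond law** on the generators: for `γ ∈ Γ₀(M)` and `d = lr M γ⁻¹`. -/
theorem smul_emb_ratio1 (hζ : ι ζ = zetaM M) {γ : SL(2, ℤ)}
    (hγ : γ ∈ CongruenceSubgroup.Gamma0 M) {b c b' c' : ZMod M} (hb : b ≠ 0) (hc : c ≠ 0)
    (hb' : b' ≠ 0) (hc' : c' ≠ 0) (hdb : G1.lr M γ⁻¹ * b ≠ 0) (hdc : G1.lr M γ⁻¹ * c ≠ 0)
    (hdb' : G1.lr M γ⁻¹ * b' ≠ 0) (hdc' : G1.lr M γ⁻¹ * c' ≠ 0) :
    γ • D.emb ⟨ratio1 M ζ b c b' c', ratio1_mem_gamma1FieldC ζ hb hc hb' hc'⟩ =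
      D.emb ⟨ratio1 M ζ (G1.lr M γ⁻¹ * b) (G1.lr M γ⁻¹ * c) (G1.lr M γ⁻¹ * b')
        (G1.lr M γ⁻¹ * c'), ratio1_mem_gamma1FieldC ζ hdb hdc hdb' hdc'⟩ := by
  rw [emb_ratio1 M D hζ hb hc hb' hc', emb_ratio1 M D hζ hdb hdc hdb' hdc',
    StabFull.smul_Rfun_zero_fst M hγ]

theorem smul_emb_jqd {γ : SL(2, ℤ)} (hγ : γ ∈ CongruenceSubgroup.Gamma0 M) {d : ℕ} [NeZero d]
    (hd : d ∣ M) :
    γ • D.emb ⟨qExpand L d (jqModC L), jqd_mem_gamma1FieldC ζ hd⟩ =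
      D.emb ⟨qExpand L d (jqModC L), jqd_mem_gamma1FieldC ζ hd⟩ := by
  rw [emb_jqd D d, StabFull.smul_algebraMap_jd hd hγ]

end Gamma1

end Fermat.Agent.S48x.Ana.Per1
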