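/-
P-S48, block G1, layer (a), slice (A4) (helper53): reduction modulo `M` on `SL(2,ℤ)`.

* `redM M : SL(2,ℤ) →* SL(2, ZMod M)`, `redM_surjective`;
* `liftZMod φ hφ : SL(2, ZMod M) →* H` for `φ : SL(2,ℤ) →* H` with `Γ(M) ≤ ker φ`,
  `liftZMod_redM`, `liftZMod_eq_one_iff`.
-/
import Mathlib
import Fermat.Agent.S48x.Red1.SL2Gen

set_option autoImplicit false

open Matrix MatrixGroups

namespace Fermat.Agent.S48x.Ana.SL2Red

open Fermat.Agent.S48x.Red1

variable (M : ℕ)

/-- reduction modulo `M`. -/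
def redM : SL(2, ℤ) →* SL(2, ZMod M) :=
  Matrix.SpecialLinearGroup.map (Int.castRingHom (ZMod M))

@[simp] theorem redM_apply (g : SL(2, ℤ)) (i j : Fin 2) : redM M g i j = ((g i j : ℤ) : ZMod M) :=
  rfl

theorem ker_redM : (redM M).ker = CongruenceSubgroup.Gamma M := rfl

/-- the integral upper unipotent matrix. -/
def upperZ (n : ℤ) : SL(2, ℤ) := ⟨!![1, n; 0, 1], by simp [Matrix.det_fin_two_of]⟩

/-- the integral lower unipotent matrix. -/
def lowerZ (n : ℤ) : SL(2, ℤ) := ⟨!![1, 0; n, 1], by simp [Matrix.det_fin_two_of]⟩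

theorem redM_upperZ (n : ℤ) : redM M (upperZ n) = upperU M (n : ZMod M) := by
  apply sl2_ext <;> simp [upperZ]

theorem redM_lowerZ (n : ℤ) : redM M (lowerZ n) = lowerL M (n : ZMod M) := by
  apply sl2_ext <;> simp [lowerZ]

variable [NeZero M]

theorem upperU_mem_range (x : ZMod M) : upperU M x ∈ (redM M).range :=
  ⟨upperZ (x.val : ℤ), by rw [redM_upperZ]; simp⟩

theorem lowerL_mem_range (x : ZMod M) : lowerL M x ∈ (redM M).range :=
  ⟨lowerZ (x.val : ℤ), by rw [redM_lowerZ]; simp⟩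

/-- **`SL(2,ℤ) → SL(2, ℤ/M)` is surjective.** -/
theorem redM_surjective : Function.Surjective (redM M) := by
  intro g
  rw [← MonoidHom.mem_range]
  obtain ⟨t, c', htc⟩ := exists_unit_add_mul (g 0 0) (g 0 1) (g 1 0) (g 1 1) (sl2_det g)
  have h10 : (lowerL M t * g) 1 0 = g 1 0 + t * g 0 0 := by
    simp [sl2_mul_apply]; ring
  have h1 : lowerL M t * g ∈ (redM M).range := by
    rw [eq_upper_lower_upper (lowerL M t * g) c' (by rw [h10]; exact htc)]
    exact (redM M).range.mul_mem ((redM M).range.mul_mem (upperU_mem_range M _)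
      (lowerL_mem_range M _)) (upperU_mem_range M _)
  have h2 : g = (lowerL M t)⁻¹ * (lowerL M t * g) := by group
  rw [h2]
  exact (redM M).range.mul_mem ((redM M).range.inv_mem (lowerL_mem_range M t)) h1

variable {M} {H : Type*} [Group H]

/-- a homomorphism from `SL(2,ℤ)` which is trivial on `Γ(M)` factors through `SL(2, ℤ/M)`. -/
noncomputable def liftZMod (φ : SL(2, ℤ) →* H) (hφ : CongruenceSubgroup.Gamma M ≤ φ.ker) :
    SL(2, ZMod M) →* H :=
  (redM M).liftOfSurjective (redM_surjective M) ⟨φ, hφ⟩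

@[simp] theorem liftZMod_redM (φ : SL(2, ℤ) →* H) (hφ : CongruenceSubgroup.Gamma M ≤ φ.ker)
    (g : SL(2, ℤ)) : liftZMod φ hφ (redM M g) = φ g :=
  (redM M).liftOfRightInverse_comp_apply _ _ ⟨φ, hφ⟩ g

theorem liftZMod_eq_one_iff (φ : SL(2, ℤ) →* H) (hφ : CongruenceSubgroup.Gamma M ≤ φ.ker)
    (γ : SL(2, ZMod M)) :
    liftZMod φ hφ γ = 1 ↔ ∃ g : SL(2, ℤ), redM M g = γ ∧ φ g = 1 := by
  constructor
  · intro h
    obtain ⟨g, rfl⟩ := redM_surjective M γ
    exact ⟨g, rfl, by rwa [liftZMod_redM] at h⟩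
  · rintro ⟨g, rfl, hg⟩
    rwa [liftZMod_redM]

/-- induction principle: a property of `SL(2, ℤ/M)` can be checked on reductions. -/
theorem forall_redM {P : SL(2, ZMod M) → Prop} (h : ∀ g : SL(2, ℤ), P (redM M g))
    (γ : SL(2, ZMod M)) : P γ := by
  obtain ⟨g, rfl⟩ := redM_surjective M γ
  exact h g

end Fermat.Agent.S48x.Ana.SL2Red
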