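import Mathlib
import Fermat.Agent.S48x.Ana.WpHolo
import Fermat.Agent.S48x.Ana.WpPer
import Fermat.Agent.S24.JLevel
import Fermat.Agent.S24.QExp

/-!
helper74 (P-S48, layer (a), second hand for slice (A2)).  From period `M` to period `1`:

* `divH M : ℍ → ℍ`, `τ ↦ τ/M`, inverse to `S24.JLevel.scaleH M`;
* `scaleHol M`, `unscaleHol M : HolFun →ₐ[ℂ] HolFun`: precomposition with `scaleH M`, `divH M`;
  mutually inverse;
* `wpS M v : PerFun`, `τ ↦ f_v(Mτ)`, with
  `qLaurent (wpS M v) = (2πi)² • (eSeries M ζ₀ v + cSeries M)` (the formal variable `z` of the MODEL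
  is read as `q`), `cSeries M` independent of `v`;
* `dPer M v w : PerFun`, `τ ↦ (f_v - f_w)(Mτ)`, with
  `qLaurent (dPer M v w) = (2πi)² • (eSeries M ζ₀ v - eSeries M ζ₀ w)` and
  `unscaleHol M (dPer M v w) = dHol M v w`.
-/

set_option autoImplicit false

open UpperHalfPlane hiding I
open Complex Filter
open scoped Real MatrixGroups Manifold

namespace Fermat.Agent.S48x.Ana

open Fermat.Agent.S48x.PPack Fermat.Agent.S48x.Model
open Fermat.Agent.S24 Fermat.Agent.S24.QExp Fermat.Agent.S24.JLevel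

section

variable (M : ℕ) [NeZero M]

/-- The map `τ ↦ τ/M` of the upper half-plane. -/
noncomputable def divH (τ : ℍ) : ℍ :=
  ⟨(τ : ℂ) / M, by
    have hM : (0 : ℝ) < M := Nat.cast_pos.mpr (NeZero.pos M)
    have : ((τ : ℂ) / M).im = τ.im / M := by
      rw [show ((M : ℂ)) = ((M : ℝ) : ℂ) by push_cast; rfl, Complex.div_ofReal_im]
      rfl
    rw [this]
    exact div_pos τ.im_pos hM⟩

@[simp] theorem coe_divH (τ : ℍ) : ((divH M τ : ℍ) : ℂ) = (τ : ℂ) / M := rfl

@[simp] theorem scaleH_divH (τ : ℍ) : scaleH M (divH M τ) = τ := by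
  have hM : (M : ℂ) ≠ 0 := Nat.cast_ne_zero.mpr (NeZero.ne M)
  apply UpperHalfPlane.ext
  rw [coe_scaleH, coe_divH]
  field_simp

@[simp] theorem divH_scaleH (τ : ℍ) : divH M (scaleH M τ) = τ := by
  have hM : (M : ℂ) ≠ 0 := Nat.cast_ne_zero.mpr (NeZero.ne M)
  apply UpperHalfPlane.ext
  rw [coe_divH, coe_scaleH]
  field_simp

theorem mdiff_comp_divH {f : ℍ → ℂ} (hf : MDiff f) : MDiff (f ∘ divH M) := by
  rw [UpperHalfPlane.mdifferentiable_iff] at hf ⊢
  have hM : (0 : ℝ) < M := Nat.cast_pos.mpr (NeZero.pos M)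
  have him : ∀ w : ℂ, (w / (M : ℂ)).im = w.im / M := by
    intro w
    rw [show ((M : ℂ)) = ((M : ℝ) : ℂ) by push_cast; rfl, Complex.div_ofReal_im]
  have hmaps : Set.MapsTo (fun w : ℂ => w / (M : ℂ)) {z | 0 < z.im} {z | 0 < z.im} := by
    intro w hw
    show 0 < (w / (M : ℂ)).im
    rw [him]
    exact div_pos hw hM
  have h1 : DifferentiableOn ℂ ((f ∘ ofComplex) ∘ fun w : ℂ => w / (M : ℂ)) {z | 0 < z.im} :=
    hf.comp (by fun_prop) hmaps
  refine h1.congr fun w hw => ?_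
  have hw' : 0 < (w / (M : ℂ)).im := hmaps hw
  simp only [Function.comp_apply]
  rw [ofComplex_apply_of_im_pos hw, ofComplex_apply_of_im_pos hw']
  congr 1

/-- Precomposition with `τ ↦ Mτ`. -/
noncomputable def scaleHol : HolFun →ₐ[ℂ] HolFun where
  toFun f := ⟨(f : ℍ → ℂ) ∘ scaleH M, mdiff_scale (coe_scaleH M) f.2⟩
  map_one' := rfl
  map_mul' _ _ := rfl
  map_zero' := rfl
  map_add' _ _ := rfl
  commutes' _ := rfl

/-- Precomposition with `τ ↦ τ/M`. -/
noncomputable def unscaleHol : HolFun →ₐ[ℂ] HolFun where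
  toFun f := ⟨(f : ℍ → ℂ) ∘ divH M, mdiff_comp_divH M f.2⟩
  map_one' := rfl
  map_mul' _ _ := rfl
  map_zero' := rfl
  map_add' _ _ := rfl
  commutes' _ := rfl

@[simp] theorem scaleHol_apply (f : HolFun) (τ : ℍ) :
    (scaleHol M f : ℍ → ℂ) τ = (f : ℍ → ℂ) (scaleH M τ) := rfl

@[simp] theorem unscaleHol_apply (f : HolFun) (τ : ℍ) :
    (unscaleHol M f : ℍ → ℂ) τ = (f : ℍ → ℂ) (divH M τ) := rfl

@[simp] theorem unscaleHol_scaleHol (f : HolFun) : unscaleHol M (scaleHol M f) = f := by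
  apply HolFun.ext
  intro τ
  rw [unscaleHol_apply, scaleHol_apply, scaleH_divH]

@[simp] theorem scaleHol_unscaleHol (f : HolFun) : scaleHol M (unscaleHol M f) = f := by
  apply HolFun.ext
  intro τ
  rw [scaleHol_apply, unscaleHol_apply, divH_scaleH]

theorem scaleHol_injective : Function.Injective (scaleHol M) :=
  Function.LeftInverse.injective (unscaleHol_scaleHol M)

theorem unscaleHol_injective : Function.Injective (unscaleHol M) :=
  Function.LeftInverse.injective (scaleHol_unscaleHol M)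

/-! ### The scaled division values -/

theorem qM_scaleH (τ : ℍ) : qM M (scaleH M τ) = qH τ := by
  have hM : (M : ℂ) ≠ 0 := Nat.cast_ne_zero.mpr (NeZero.ne M)
  rw [← nome_eq_qH, qM, nome, coe_scaleH]
  congr 1
  field_simp

/-- The `q`-expansion of `τ ↦ f_(a,b)(Mτ)`. -/
theorem hasSum_wpDiv_scaleH {a b : ℤ} (h : ¬ ((M : ℤ) ∣ a ∧ (M : ℤ) ∣ b)) (τ : ℍ) :
    HasSum (fun N : ℕ => ((2 * π * I) ^ 2 * wpCoeff M a b N) • qH τ ^ N)
      ((wpDiv M a b ∘ scaleH M) τ) := by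
  have h2pi : ((2 * π * I : ℂ)) ^ 2 ≠ 0 := pow_ne_zero _ Complex.two_pi_I_ne_zero
  have := (hasSum_wpDiv M h (scaleH M τ)).mul_left ((2 * π * I) ^ 2)
  rw [mul_inv_cancel_left₀ h2pi, qM_scaleH] at this
  refine this.congr_fun fun N => ?_
  rw [smul_eq_mul, mul_assoc]

theorem isPer_wpDiv_scaleH {a b : ℤ} (h : ¬ ((M : ℤ) ∣ a ∧ (M : ℤ) ∣ b)) :
    IsPer 1 (wpDiv M a b ∘ scaleH M) := by
  intro τ
  have h1 := hasSum_wpDiv_scaleH M h ((1 : ℝ) +ᵥ τ)
  have h2 := hasSum_wpDiv_scaleH M h τ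
  rw [qH_isPer τ] at h1
  exact h1.unique h2

theorem nice_wpDiv_scaleH {a b : ℤ} (h : ¬ ((M : ℤ) ∣ a ∧ (M : ℤ) ∣ b)) :
    Nice (wpDiv M a b ∘ scaleH M) where
  mdiff := mdiff_scale (coe_scaleH M) (mdifferentiable_wpDiv M h)
  per := isPer_wpDiv_scaleH M h
  bdd := bdd_scale (coe_scaleH M) (isBoundedAtImInfty_wpDiv M h)

theorem qExpansion_wpDiv_scaleH {a b : ℤ} (h : ¬ ((M : ℤ) ∣ a ∧ (M : ℤ) ∣ b)) :
    qExpansion 1 (wpDiv M a b ∘ scaleH M) =
      PowerSeries.mk (fun N => (2 * π * I) ^ 2 * wpCoeff M a b N) :=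
  (nice_wpDiv_scaleH M h).qExpansion_unique (hasSum_wpDiv_scaleH M h)

/-- `τ ↦ f_v(Mτ)` as an element of `PerFun` (junk value `0` at `v = 0`). -/
noncomputable def wpS (v : Vec M) : PerFun :=
  if hv : v = 0 then 0 else
    PerFun.mk (wpVec M v ∘ scaleH M) (nice_wpDiv_scaleH M (not_dvd_val M hv)).mdiff
      (nice_wpDiv_scaleH M (not_dvd_val M hv)).per
      (modGrowth_iff.mpr ⟨0, qBdd_zero_iff.mpr (nice_wpDiv_scaleH M (not_dvd_val M hv)).bdd⟩)

theorem fn_wpS {v : Vec M} (hv : v ≠ 0) : fn (wpS M v) = wpVec M v ∘ scaleH M := by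
  unfold wpS
  rw [dif_neg hv]
  rfl

theorem wpS_zero : wpS M 0 = 0 := by
  unfold wpS
  rw [dif_pos rfl]

/-- `wpS v`, as a holomorphic function, is the scaled `wpHol v`. -/
theorem coe_wpS (v : Vec M) : ((wpS M v : PerFun) : HolFun) = scaleHol M (wpHol M v) := by
  by_cases hv : v = 0
  · subst hv
    rw [wpS_zero, wpHol_zero, map_zero]
    rfl
  · apply HolFun.ext
    intro τ
    rw [scaleHol_apply, wpHol_apply M hv]
    have := congrFun (fn_wpS M hv) τ
    exact this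

theorem unscaleHol_wpS (v : Vec M) : unscaleHol M ((wpS M v : PerFun) : HolFun) = wpHol M v := by
  rw [coe_wpS, unscaleHol_scaleHol]

/-- The label-independent series in the variable `z`. -/
noncomputable def cSeries : LaurentSeries ℂ :=
  HahnSeries.ofPowerSeries ℤ ℂ (PowerSeries.mk (constCoeff M))

/-- The `q`-expansion of `τ ↦ f_v(Mτ)` is the `z`-series `e_v` of the MODEL, up to the
label-independent `cSeries`. -/
theorem qLaurent_wpS {v : Vec M} (hv : v ≠ 0) :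
    qLaurent (wpS M v) = ((2 * π * I) ^ 2 : ℂ) • (eSeries M (zetaM M) v + cSeries M) := by
  have hn := nice_wpDiv_scaleH M (not_dvd_val M hv)
  have hfn : fn (wpS M v) = wpDiv M (v.1.val : ℤ) (v.2.val : ℤ) ∘ scaleH M := fn_wpS M hv
  rw [qLaurent_of_bdd _ (by rw [hfn]; exact hn.bdd), hfn,
    qExpansion_wpDiv_scaleH M (not_dvd_val M hv), eSeries, cSeries, ← map_add]
  have : PowerSeries.mk (fun N => (2 * π * I) ^ 2 * wpCoeff M (v.1.val : ℤ) (v.2.val : ℤ) N) =
      PowerSeries.C ((2 * π * I) ^ 2 : ℂ) *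
        (ePow M (zetaM M) v + PowerSeries.mk (constCoeff M)) := by
    ext N
    rw [PowerSeries.coeff_mk, PowerSeries.coeff_C_mul, map_add, ePow, PowerSeries.coeff_mk,
      PowerSeries.coeff_mk, wpCoeff_eq_eCoeff_add, vecZ_val]
  rw [this, map_mul, HahnSeries.ofPowerSeries_C, HahnSeries.C_mul_eq_smul]

/-- `τ ↦ (f_v - f_w)(Mτ)` as an element of `PerFun`. -/
noncomputable def dPer (v w : Vec M) : PerFun := wpS M v - wpS M w

theorem coe_dPer (v w : Vec M) : ((dPer M v w : PerFun) : HolFun) = scaleHol M (dHol M v w) := by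
  unfold dPer dHol
  rw [map_sub, ← coe_wpS, ← coe_wpS]
  rfl

theorem unscaleHol_dPer (v w : Vec M) :
    unscaleHol M ((dPer M v w : PerFun) : HolFun) = dHol M v w := by
  rw [coe_dPer, unscaleHol_scaleHol]

/-- **(A2) input.** The `q`-expansion of `τ ↦ (f_v - f_w)(Mτ)` is `(2πi)² (e_v - e_w)`. -/
theorem qLaurent_dPer {v w : Vec M} (hv : v ≠ 0) (hw : w ≠ 0) :
    qLaurent (dPer M v w) =
      ((2 * π * I) ^ 2 : ℂ) • (eSeries M (zetaM M) v - eSeries M (zetaM M) w) := by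
  unfold dPer
  rw [map_sub qLaurent, qLaurent_wpS M hv, qLaurent_wpS M hw]
  have : eSeries M (zetaM M) v - eSeries M (zetaM M) w =
      (eSeries M (zetaM M) v + cSeries M) - (eSeries M (zetaM M) w + cSeries M) := by ring
  rw [this, smul_sub]

theorem dPer_eq_zero_iff {v w : Vec M} (hv : v ≠ 0) (hw : w ≠ 0) :
    dPer M v w = 0 ↔ (v = w ∨ v = -w) := by
  rw [← dHol_eq_zero_iff M hv hw, ← unscaleHol_dPer]
  constructor
  · intro h
    rw [h]
    exact map_zero _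
  · intro h
    have h0 : ((dPer M v w : PerFun) : HolFun) = 0 :=
      unscaleHol_injective M (by rw [h, map_zero])
    exact Subtype.ext h0

end

end Fermat.Agent.S48x.Ana
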