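import Mathlib
import Fermat.Agent.S48x.Ana.WpScale
import Fermat.Agent.S24.Embed

/-!
helper74 (P-S48, layer (a), second hand for slice (A2)).  The `z`-expansion (`z = q^(1/M)`) on the
algebra `PM M` of holomorphic functions `f` on `ℍ` such that `τ ↦ f(Mτ)` is `1`-periodic of
moderate growth: `zLaurent M : PM M →ₐ[ℂ] LaurentSeries ℂ`, injective, constants go to constants,
and on the generators of the MODEL:

* `zLaurent (dHol M v w) = (2πi)² • (eSeries M ζ₀ v - eSeries M ζ₀ w)`;
* `zLaurent (jd d) = coeffMap (ℚ → ℂ) (qExpand ℚ (d * M) jq)`.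

This is the package `(P, ψ₀, hinj, hconst)` + generator hypotheses consumed by the
`S24.EmbedGen` / `Dict.EmbedL`-style construction of `embFull`.
-/

set_option autoImplicit false

open ModularCurve
open UpperHalfPlane hiding I
open Complex
open scoped Real MatrixGroups

namespace Fermat.Agent.S48x.Ana

open Fermat.Agent.S48x.PPack Fermat.Agent.S48x.Model
open Fermat.Agent.S24 Fermat.Agent.S24.QExp Fermat.Agent.S24.JLevel Fermat.Agent.S24.Embed

section

variable (M : ℕ) [NeZero M]

/-- Holomorphic functions `f` with `τ ↦ f(Mτ)` in `PerFun`. -/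
noncomputable def PM : Subalgebra ℂ HolFun := PerFun.comap (scaleHol M)

theorem mem_PM {f : HolFun} : f ∈ PM M ↔ scaleHol M f ∈ PerFun := Iff.rfl

/-- The scaling map `PM M → PerFun`. -/
noncomputable def toPer : PM M →ₐ[ℂ] PerFun :=
  ((scaleHol M).comp (PM M).val).codRestrict PerFun (fun f => f.2)

@[simp] theorem coe_toPer (f : PM M) : ((toPer M f : PerFun) : HolFun) = scaleHol M (f : HolFun) :=
  rfl

theorem toPer_injective : Function.Injective (toPer M) := by
  intro f g h
  have h1 : scaleHol M (f : HolFun) = scaleHol M (g : HolFun) := by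
    rw [← coe_toPer, ← coe_toPer, h]
  exact Subtype.ext (scaleHol_injective M h1)

/-- The `z`-expansion, `z = q^(1/M)`: the `q`-expansion of `τ ↦ f(Mτ)`. -/
noncomputable def zLaurent : PM M →ₐ[ℂ] LaurentSeries ℂ := qLaurent.comp (toPer M)

theorem zLaurent_apply (f : PM M) : zLaurent M f = qLaurent (toPer M f) := rfl

theorem zLaurent_injective : Function.Injective (zLaurent M) :=
  qLaurent_injective.comp (toPer_injective M)

theorem zLaurent_algebraMap (c : ℂ) : zLaurent M (algebraMap ℂ (PM M) c) = HahnSeries.C c := by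
  rw [AlgHom.commutes, algebraMap_laurentSeries_eq_single]
  rfl

/-! ### The generators -/

theorem dHol_mem_PM (v w : Vec M) : dHol M v w ∈ PM M := by
  rw [mem_PM, ← coe_dPer]
  exact (dPer M v w).2

theorem toPer_dHol (v w : Vec M) : toPer M ⟨dHol M v w, dHol_mem_PM M v w⟩ = dPer M v w :=
  Subtype.ext (by rw [coe_toPer, coe_dPer])

/-- **The `z`-expansion of `f_v - f_w`.** -/
theorem zLaurent_dHol {v w : Vec M} (hv : v ≠ 0) (hw : w ≠ 0) :
    zLaurent M ⟨dHol M v w, dHol_mem_PM M v w⟩ =
      ((2 * π * I) ^ 2 : ℂ) • (eSeries M (zetaM M) v - eSeries M (zetaM M) w) := by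
  rw [zLaurent_apply, toPer_dHol, qLaurent_dPer M hv hw]

theorem scaleHol_jd (d : ℕ) [NeZero d] :
    scaleHol M (jd d) = ((jdPer (d * M) : PerFun) : HolFun) := by
  rw [coe_jdPer]
  apply HolFun.ext
  intro τ
  rw [scaleHol_apply, jd_apply', jd_apply']
  congr 1
  apply UpperHalfPlane.ext
  rw [coe_scaleH, coe_scaleH, coe_scaleH]
  push_cast
  ring

theorem jd_mem_PM (d : ℕ) [NeZero d] : jd d ∈ PM M := by
  rw [mem_PM, scaleHol_jd]
  exact (jdPer (d * M)).2

theorem toPer_jd (d : ℕ) [NeZero d] : toPer M ⟨jd d, jd_mem_PM M d⟩ = jdPer (d * M) :=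
  Subtype.ext (by rw [coe_toPer, scaleHol_jd])

/-- **The `z`-expansion of `j(dτ)`** is `j(z^(dM))`. -/
theorem zLaurent_jd (d : ℕ) [NeZero d] :
    zLaurent M ⟨jd d, jd_mem_PM M d⟩ = coeffMap (algebraMap ℚ ℂ) (qExpand ℚ (d * M) jq) := by
  rw [zLaurent_apply, toPer_jd, qLaurent_jdPer]

/-- Period-one functions of moderate growth belong to `PM M`, and their `z`-expansion is the
`q`-expansion with `q` replaced by `z^M`. -/
theorem perFun_le_PM : PerFun ≤ PM M := by
  intro f hf
  rw [mem_PM]
  exact (QExp.scale M (scaleH M) (coe_scaleH M) ⟨f, hf⟩).2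

theorem zLaurent_of_perFun (f : PerFun) :
    zLaurent M ⟨(f : HolFun), perFun_le_PM M f.2⟩ = qExpand ℂ M (qLaurent f) := by
  rw [zLaurent_apply, ← qLaurent_scale (coe_scaleH M) f]
  congr 1

end

end Fermat.Agent.S48x.Ana
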